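/-
Area AV (towards S26): the group of points of a relative group law, multiplication by `n`
and translations by rational points.
-/
import Fermat.Prelude.Def_GoodReductionJacobian_RelativeGroupLawKernel

set_option autoImplicit false

noncomputable section

universe u

open CategoryTheory CategoryTheory.Limits AlgebraicGeometry NeronModelInfra GoodReductionJacobian

namespace FLTAgent.AV

variable {R : Type u} [CommRing R] {A : Scheme.{u}} {f : A ⟶ Spec (CommRingCat.of R)}

/-- The rational points of `A`. -/
abbrev Pts (f : A ⟶ Spec (CommRingCat.of R)) : Type u :=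
  SchemeHomOver (𝟙 (Spec (CommRingCat.of R))) f

/-- The constant `T`-point attached to a rational point. -/
def const {T : Scheme.{u}} (t : T ⟶ Spec (CommRingCat.of R)) (x : Pts f) : SchemeHomOver t f :=
  schemeHomOverComp t (Category.comp_id t) x

@[simp]
lemma const_coe {T : Scheme.{u}} (t : T ⟶ Spec (CommRingCat.of R)) (x : Pts f) :
    (const t x).1 = t ≫ x.1 := rfl

lemma const_id (x : Pts f) : const (𝟙 _) x = x := Subtype.ext (by simp)

lemma comp_const {T T' : Scheme.{u}} (t : T ⟶ Spec (CommRingCat.of R))
    (t' : T' ⟶ Spec (CommRingCat.of R)) (ψ : T' ⟶ T) (h : ψ ≫ t = t') (x : Pts f) :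
    schemeHomOverComp ψ h (const t x) = const t' x :=
  Subtype.ext (by simp [← Category.assoc, h])

variable (L : RelativeGroupLaw R f)

lemma const_mul {T : Scheme.{u}} (t : T ⟶ Spec (CommRingCat.of R)) (x y : Pts f) :
    const t (L.mul (𝟙 _) x y) = L.mul t (const t x) (const t y) :=
  L.mul_natural _ _ _ _ x y

lemma const_one {T : Scheme.{u}} (t : T ⟶ Spec (CommRingCat.of R)) :
    const t (L.one (𝟙 _)) = L.one t :=
  L.one_natural _ _ _ _

lemma nsmul_eq_pow {T : Scheme.{u}} (t : T ⟶ Spec (CommRingCat.of R)) (n : ℕ)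
    (x : SchemeHomOver t f) :
    L.nsmul t n x =
      @HPow.hPow _ ℕ _ (@instHPow _ ℕ (L.pointGroup t).toDivInvMonoid.toMonoid.toPow) x n := by
  let := L.pointGroup t
  induction n with
  | zero => exact (pow_zero x).symm
  | succ k ih => rw [RelativeGroupLaw.nsmul_succ, ih]; exact (pow_succ x k).symm

lemma nsmul_nsmul {T : Scheme.{u}} (t : T ⟶ Spec (CommRingCat.of R)) (n m : ℕ)
    (x : SchemeHomOver t f) : L.nsmul t m (L.nsmul t n x) = L.nsmul t (n * m) x := by
  let := L.pointGroup t
  rw [nsmul_eq_pow L, nsmul_eq_pow L, nsmul_eq_pow L, pow_mul]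

/-- The commutative group of `T`-points of a commutative group law. -/
@[reducible]
def commGrp (hc : L.IsCommutative) {T : Scheme.{u}} (t : T ⟶ Spec (CommRingCat.of R)) :
    CommGroup (SchemeHomOver t f) :=
  { L.pointGroup t with mul_comm := fun x y => hc t x y }

lemma nsmul_mul (hc : L.IsCommutative) {T : Scheme.{u}} (t : T ⟶ Spec (CommRingCat.of R))
    (n : ℕ) (x y : SchemeHomOver t f) :
    L.nsmul t n (L.mul t x y) = L.mul t (L.nsmul t n x) (L.nsmul t n y) := by
  rw [nsmul_eq_pow L, nsmul_eq_pow L, nsmul_eq_pow L]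
  let := commGrp L hc t
  exact mul_pow x y n

lemma mul_left_cancel {T : Scheme.{u}} (t : T ⟶ Spec (CommRingCat.of R))
    {a x y : SchemeHomOver t f} (h : L.mul t a x = L.mul t a y) : x = y := by
  let := L.pointGroup t
  exact _root_.mul_left_cancel (a := a) h

/-- Composition with multiplication by `n` is `n`-fold multiplication of points. -/
lemma comp_schemeNsmul {T : Scheme.{u}} (t : T ⟶ Spec (CommRingCat.of R))
    (x : SchemeHomOver t f) (n : ℕ) : x.1 ≫ L.schemeNsmul n = (L.nsmul t n x).1 := by
  have h := congrArg Subtype.val (L.nsmul_natural f t x.1 x.2 n RelativeGroupLaw.idPoint)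
  have e : schemeHomOverComp x.1 x.2 (RelativeGroupLaw.idPoint (f := f)) = x :=
    Subtype.ext (by simp)
  rw [e] at h
  exact h

lemma schemeNsmul_comp (n m : ℕ) :
    L.schemeNsmul n ≫ L.schemeNsmul m = L.schemeNsmul (n * m) := by
  have h := comp_schemeNsmul L f (L.nsmul f n RelativeGroupLaw.idPoint) m
  rw [nsmul_nsmul] at h
  exact h

lemma schemeNsmul_one : L.schemeNsmul 1 = 𝟙 A :=
  congrArg Subtype.val (L.nsmul_one_apply f RelativeGroupLaw.idPoint)

/-- The multiplication by `n` on rational points. -/
lemma point_comp_schemeNsmul (x : Pts f) (n : ℕ) :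
    x.1 ≫ L.schemeNsmul n = (L.nsmul (𝟙 _) n x).1 :=
  comp_schemeNsmul L _ x n

lemma one_comp_schemeNsmul (n : ℕ) :
    (L.one (𝟙 _)).1 ≫ L.schemeNsmul n = (L.one (𝟙 (Spec (CommRingCat.of R)))).1 := by
  rw [point_comp_schemeNsmul, L.nsmul_unit]

/-- Translation by a rational point. -/
def translate (x : Pts f) : A ⟶ A :=
  (L.mul f RelativeGroupLaw.idPoint (const f x)).1

lemma translate_over (x : Pts f) : translate L x ≫ f = f :=
  (L.mul f RelativeGroupLaw.idPoint (const f x)).2

lemma comp_translate {T : Scheme.{u}} (t : T ⟶ Spec (CommRingCat.of R))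
    (p : SchemeHomOver t f) (x : Pts f) :
    p.1 ≫ translate L x = (L.mul t p (const t x)).1 := by
  have h := congrArg Subtype.val
    (L.mul_natural f t p.1 p.2 RelativeGroupLaw.idPoint (const f x))
  rw [comp_const] at h
  have e : schemeHomOverComp p.1 p.2 (RelativeGroupLaw.idPoint (f := f)) = p :=
    Subtype.ext (by simp)
  rw [e] at h
  exact h

lemma point_comp_translate (p x : Pts f) :
    p.1 ≫ translate L x = (L.mul (𝟙 _) p x).1 := by
  rw [comp_translate L (𝟙 _), const_id]

lemma translate_one : translate L (L.one (𝟙 _)) = 𝟙 A := by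
  rw [translate, const_one, L.mul_one]

lemma translate_comp (x y : Pts f) :
    translate L x ≫ translate L y = translate L (L.mul (𝟙 _) x y) := by
  rw [translate, comp_translate L f, translate, L.mul_assoc, const_mul]

lemma translate_comp_inv (x : Pts f) :
    translate L x ≫ translate L (L.inv (𝟙 _) x) = 𝟙 A := by
  rw [translate_comp, L.mul_inv_cancel, translate_one]

lemma translate_inv_comp (x : Pts f) :
    translate L (L.inv (𝟙 _) x) ≫ translate L x = 𝟙 A := by
  rw [translate_comp, L.inv_mul_cancel, translate_one]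

/-- Translation by a rational point, as an automorphism. -/
@[simps]
def translateIso (x : Pts f) : A ≅ A where
  hom := translate L x
  inv := translate L (L.inv (𝟙 _) x)
  hom_inv_id := translate_comp_inv L x
  inv_hom_id := translate_inv_comp L x

instance isIso_translate (x : Pts f) : IsIso (translate L x) :=
  (translateIso L x).isIso_hom

lemma translate_schemeNsmul (hc : L.IsCommutative) (x : Pts f) (n : ℕ) :
    translate L x ≫ L.schemeNsmul n =
      L.schemeNsmul n ≫ translate L (L.nsmul (𝟙 _) n x) := by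
  have h1 := comp_schemeNsmul L f (L.mul f RelativeGroupLaw.idPoint (const f x)) n
  rw [nsmul_mul L hc] at h1
  have h2 := comp_translate L f (L.nsmul f n RelativeGroupLaw.idPoint) (L.nsmul (𝟙 _) n x)
  have h3 : const f (L.nsmul (𝟙 _) n x) = L.nsmul f n (const f x) :=
    L.nsmul_natural _ _ _ _ n x
  rw [h3] at h2
  exact h1.trans h2.symm

lemma translate_schemeNsmul_of_torsion (hc : L.IsCommutative) (x : Pts f) (n : ℕ)
    (hx : L.IsTorsionPoint (𝟙 _) n x) :
    translate L x ≫ L.schemeNsmul n = L.schemeNsmul n := by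
  rw [translate_schemeNsmul L hc, hx, translate_one, Category.comp_id]

end FLTAgent.AV
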