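/-
Area AV (towards S26): rational points are the closed points, and an abelian variety over an
algebraically closed field is an integral scheme.
-/
import Fermat.Agent.AV.Points
import Fermat.Prelude.Def_JacJ1Iface

set_option autoImplicit false

noncomputable section

universe u

open CategoryTheory CategoryTheory.Limits AlgebraicGeometry NeronModelInfra GoodReductionJacobian
open scoped TensorProduct

namespace FLTAgent.AV

/-- A standard smooth algebra over a field is reduced. -/
lemma isReduced_of_isStandardSmooth {k B : Type u} [CommRing k] [CommRing B] (hk : IsField k)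
    {φ : k →+* B} (hφ : φ.IsStandardSmooth) : _root_.IsReduced B := by
  let : Field k := hk.toField
  obtain ⟨n, g, -, hg⟩ := hφ.exists_etale_mvPolynomial
  algebraize [g]
  let F := FractionRing (MvPolynomial (Fin n) k)
  have : Algebra.Etale F (F ⊗[MvPolynomial (Fin n) k] B) := inferInstance
  have hr : _root_.IsReduced (F ⊗[MvPolynomial (Fin n) k] B) :=
    Algebra.FormallyUnramified.isReduced_of_field F _
  exact isReduced_of_injective
    (Algebra.TensorProduct.includeRight (R := MvPolynomial (Fin n) k) (A := F) (B := B))
    (Algebra.TensorProduct.includeRight_injective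
      (IsFractionRing.injective (MvPolynomial (Fin n) k) F))

variable {K : Type u} [Field K] {A : Scheme.{u}} {f : A ⟶ Spec (CommRingCat.of K)}

lemma isField_sections_spec (U : (Spec (CommRingCat.of K)).Opens) (x : Spec (CommRingCat.of K))
    (hx : x ∈ U) : IsField Γ(Spec (CommRingCat.of K), U) := by
  have hU : U = ⊤ := by
    ext y
    have : y = x := Subsingleton.elim (α := PrimeSpectrum K) y x
    simp [this, hx]
  subst hU
  exact (Scheme.ΓSpecIso (CommRingCat.of K)).commRingCatIsoToRingEquiv.toMulEquiv.isField
    (Field.toIsField K)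

lemma isReduced_of_smooth [Smooth f] : IsReduced A := by
  have : ∀ x : A, _root_.IsReduced (A.presheaf.stalk x) := fun x => by
    obtain ⟨U, -, V, hV, hx, e, hs⟩ := Smooth.exists_isStandardSmooth f x
    have : _root_.IsReduced Γ(A, V) :=
      isReduced_of_isStandardSmooth (isField_sections_spec U (f x) (e hx)) hs
    let := TopCat.Presheaf.algebra_section_stalk A.presheaf (⟨x, hx⟩ : V)
    have := hV.isLocalization_stalk ⟨x, hx⟩
    exact isReduced_localizationPreserves (hV.primeIdealOf ⟨x, hx⟩).asIdeal.primeCompl
      (A.presheaf.stalk x) (inferInstance : _root_.IsReduced Γ(A, V))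
  exact isReduced_of_isReduced_stalk _

section Points

variable [IsAlgClosed K] [LocallyOfFiniteType f]

/-- The closed point of a rational point. -/
def pt (p : Pts f) : A := p.1 (IsLocalRing.closedPoint K)

lemma isClosed_pt (p : Pts f) : IsClosed ({pt p} : Set A) :=
  (pointEquivClosedPoint f p).2

lemma pt_injective : Function.Injective (pt : Pts f → A) := fun _ _ h =>
  (pointEquivClosedPoint f).injective (Subtype.ext h)

lemma exists_pt_eq {x : A} (hx : IsClosed ({x} : Set A)) : ∃ p : Pts f, pt p = x :=
  ⟨(pointEquivClosedPoint f).symm ⟨x, hx⟩, pointOfClosedPoint_apply f x hx _⟩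

omit [IsAlgClosed K] [LocallyOfFiniteType f] in
lemma translate_pt (L : RelativeGroupLaw K f) (p x : Pts f) :
    translate L x (pt p) = pt (L.mul (𝟙 _) p x) := by
  have h := point_comp_translate L p x
  unfold pt
  rw [← h]
  exact (Scheme.Hom.comp_apply _ _ _).symm

omit [IsAlgClosed K] [LocallyOfFiniteType f] in
lemma schemeNsmul_pt (L : RelativeGroupLaw K f) (p : Pts f) (n : ℕ) :
    L.schemeNsmul n (pt p) = pt (L.nsmul (𝟙 _) n p) := by
  have h := point_comp_schemeNsmul L p n
  unfold pt
  rw [← h]
  exact (Scheme.Hom.comp_apply _ _ _).symm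

/-- Translations act transitively on closed points. -/
lemma exists_translate_eq (L : RelativeGroupLaw K f) {x y : A} (hx : IsClosed ({x} : Set A))
    (hy : IsClosed ({y} : Set A)) : ∃ p : Pts f, translate L p x = y := by
  obtain ⟨a, rfl⟩ := exists_pt_eq (f := f) hx
  obtain ⟨b, rfl⟩ := exists_pt_eq (f := f) hy
  refine ⟨L.mul (𝟙 _) (L.inv (𝟙 _) a) b, ?_⟩
  rw [translate_pt, ← L.mul_assoc, L.mul_inv_cancel, L.one_mul]

/-- A connected group scheme locally of finite type and quasi-compact over an algebraically
closed field is irreducible. -/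
lemma irreducibleSpace (L : RelativeGroupLaw K f) [QuasiCompact f] [ConnectedSpace A] :
    IrreducibleSpace A := by
  have : CompactSpace A := QuasiCompact.compactSpace_of_compactSpace f
  have : IsLocallyNoetherian A := LocallyOfFiniteType.isLocallyNoetherian f
  have : IsNoetherian A := {}
  have : JacobsonSpace A := LocallyOfFiniteType.jacobsonSpace f
  obtain ⟨Z, hZ⟩ : (irreducibleComponents A).Nonempty :=
    ⟨_, irreducibleComponent_mem_irreducibleComponents (Classical.arbitrary A)⟩
  -- an irreducible open subset containing a closed point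
  obtain ⟨U, hUo, hUi⟩ : ∃ U : Set A, IsOpen U ∧ IsIrreducible U := by
    have hcl := closure_sUnion_irreducibleComponents_sdiff_singleton
      TopologicalSpace.NoetherianSpace.finite_irreducibleComponents Z hZ
    refine ⟨_, ?_, isIrreducible_iff_closure.mp (hcl.symm ▸ hZ.1)⟩
    rw [Set.sUnion_eq_biUnion, isOpen_compl_iff]
    exact TopologicalSpace.NoetherianSpace.finite_irreducibleComponents.sdiff.isClosed_biUnion
      fun W hW => isClosed_of_mem_irreducibleComponents W hW.1
  obtain ⟨x₀, hx₀U, hx₀⟩ := nonempty_inter_closedPoints hUi.1 hUo.isLocallyClosed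
  -- translate it to every closed point
  have hloc : ∀ y : A, ∃ V : Set A, IsOpen V ∧ IsIrreducible V ∧ y ∈ V := by
    intro y
    obtain ⟨z, hyz, hz⟩ := nonempty_inter_closedPoints
      (Z := closure ({y} : Set A)) ⟨y, subset_closure rfl⟩ isClosed_closure.isLocallyClosed
    obtain ⟨p, hp⟩ := exists_translate_eq L hx₀ hz
    have hVo : IsOpen (translate L p '' U) :=
      (translate L p).isOpenEmbedding.isOpenMap _ hUo
    refine ⟨_, hVo, hUi.image _ (translate L p).continuous.continuousOn, ?_⟩
    exact (specializes_iff_mem_closure.mpr hyz).mem_open hVo ⟨x₀, hx₀U, hp⟩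
  have hsub : closure U = Set.univ := by
    refine IsClopen.eq_univ ⟨isClosed_closure, ?_⟩ (hUi.1.mono subset_closure)
    rw [isOpen_iff_forall_mem_open]
    intro y hy
    obtain ⟨V, hVo, hVi, hyV⟩ := hloc y
    refine ⟨V, ?_, hVo, hyV⟩
    exact (subset_closure_inter_of_isPreirreducible_of_isOpen hVi.2 hUo
      (mem_closure_iff.mp hy V hVo hyV)).trans (closure_mono Set.inter_subset_right)
  exact (irreducibleSpace_def A).mpr ((Set.top_eq_univ (α := A)).symm ▸ hsub ▸ hUi.closure)

lemma isIntegral (L : RelativeGroupLaw K f) [QuasiCompact f] [Smooth f] [ConnectedSpace A] :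
    IsIntegral A := by
  have := isReduced_of_smooth (f := f)
  have := irreducibleSpace L
  exact isIntegral_of_irreducibleSpace_of_isReduced A

end Points

lemma connectedSpace_of_bundle (hA : AbelianSchemePropertyBundle K f) : ConnectedSpace A := by
  have h := hA.connectedFibres (IsLocalRing.closedPoint K)
  have h' : f.base ⁻¹' {IsLocalRing.closedPoint K} = Set.univ :=
    Set.eq_univ_of_forall fun x => Subsingleton.elim (α := PrimeSpectrum K) _ _
  exact connectedSpace_iff_univ.mpr (h' ▸ h)

end FLTAgent.AV
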