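/-
Area AV (towards S26): multiplication by `n` is multiplication by `n` on tangent vectors, hence
it is unramified at closed points when `n` is invertible.
-/
import Fermat.Agent.AV.Geometry

set_option autoImplicit false

noncomputable section

universe u

open CategoryTheory CategoryTheory.Limits AlgebraicGeometry NeronModelInfra GoodReductionJacobian

namespace FLTAgent.AV

variable {K : Type u} [Field K]

section Algebra

variable {S R : Type u} [CommRing S] [CommRing R] [IsLocalRing S] [IsLocalRing R]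

/-- If a local homomorphism of `K`-algebras separates the tangent vectors, it is unramified. -/
lemma map_maximalIdeal_eq_of_separates [IsNoetherianRing R] (cS : K →+* S) (cR : K →+* R)
    (ρ : R →+* K) [IsLocalHom ρ] (hρ : ρ.comp cR = RingHom.id K) (φ : S →+* R) [IsLocalHom φ]
    (hφ : φ.comp cS = cR)
    (hsep : ∀ ψ₁ ψ₂ : R →+* TrivSqZeroExt K K,
      ψ₁.comp cR = algebraMap K _ → ψ₂.comp cR = algebraMap K _ →
      (∀ r, (ψ₁ r).fst = ρ r) → (∀ r, (ψ₂ r).fst = ρ r) →
      ψ₁.comp φ = ψ₂.comp φ → ψ₁ = ψ₂) :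
    (IsLocalRing.maximalIdeal S).map φ = IsLocalRing.maximalIdeal R := by
  let m := IsLocalRing.maximalIdeal R
  let J := (IsLocalRing.maximalIdeal S).map φ
  have hJm : J ≤ m := ((IsLocalRing.local_hom_TFAE φ).out 0 2).mp ‹_›
  refine le_antisymm hJm ?_
  have hker : ∀ r, ρ r = 0 ↔ r ∈ m := fun r => by
    constructor
    · intro h
      refine (IsLocalRing.mem_maximalIdeal _).mpr fun hu => ?_
      exact (hu.map ρ).ne_zero h
    · intro h
      by_contra h0
      exact (IsLocalRing.mem_maximalIdeal _).mp h ((Ne.isUnit h0).of_map ρ)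
  have hρc : ∀ a, ρ (cR a) = a := fun a => RingHom.congr_fun hρ a
  let t : R → R := fun r => r - cR (ρ r)
  have ht : ∀ r, t r ∈ m := fun r => (hker _).mp (by simp [t, map_sub, hρc])
  let I := J ⊔ m * m
  suffices hmI : m ≤ I by
    have : m ≤ J ⊔ m • m := hmI
    exact Submodule.le_of_le_smul_of_le_jacobson_bot (IsNoetherian.noetherian m)
      (IsLocalRing.jacobson_eq_maximalIdeal ⊥ bot_ne_top).ge this
  intro r hr
  by_contra hrI
  algebraize [cR]
  have hne : (Ideal.Quotient.mk I r) ≠ 0 := fun h => hrI (Ideal.Quotient.eq_zero_iff_mem.mp h)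
  obtain ⟨δ, hδ⟩ : ∃ δ : Module.Dual K (R ⧸ I), δ (Ideal.Quotient.mk I r) ≠ 0 := by
    by_contra h
    simp only [not_exists, not_not] at h
    exact hne ((Module.forall_dual_apply_eq_zero_iff K _).mp h)
  let d : R → K := fun s => δ (Ideal.Quotient.mk I (t s))
  have hd_add : ∀ a b, d (a + b) = d a + d b := fun a b => by
    have e : t (a + b) = t a + t b := by simp only [t, map_add]; ring
    simp only [d, e, map_add, δ.map_add]
  have hd_const : ∀ a, d (cR a) = 0 := fun a => by simp [d, t, hρc]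
  have hd_mul : ∀ a b, d (a * b) = ρ a * d b + ρ b * d a := fun a b => by
    have e : t (a * b) = (ρ a • t b + ρ b • t a) + t a * t b := by
      simp only [t, Algebra.smul_def, RingHom.algebraMap_toAlgebra, map_mul]
      ring
    have h0 : Ideal.Quotient.mk I (t a * t b) = 0 := Ideal.Quotient.eq_zero_iff_mem.mpr
      (Ideal.mem_sup_right (Ideal.mul_mem_mul (ht a) (ht b)))
    have hlin : ∀ (c : K) (x : R),
        Ideal.Quotient.mk I (c • x) = c • Ideal.Quotient.mk I x := fun c x => rfl
    simp only [d, e, map_add, h0, hlin, δ.map_smul, smul_eq_mul, add_zero, δ.map_add]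
  let ψ : R →+* TrivSqZeroExt K K :=
    { toFun := fun s => TrivSqZeroExt.inl (ρ s) + TrivSqZeroExt.inr (d s)
      map_one' := by
        have h := hd_const 1
        rw [map_one] at h
        ext <;> simp [h]
      map_mul' := fun a b => by
        ext
        · simp
        · simp [hd_mul, mul_comm]
      map_zero' := by
        have h := hd_const 0
        rw [map_zero] at h
        ext <;> simp [h]
      map_add' := fun a b => by
        ext
        · simp
        · simp [hd_add] }
  let ψ₀ : R →+* TrivSqZeroExt K K := (algebraMap K (TrivSqZeroExt K K)).comp ρ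
  have h1 : ψ.comp cR = algebraMap K _ := RingHom.ext fun a => by
    ext <;> simp [ψ, hρc, hd_const, TrivSqZeroExt.algebraMap_eq_inl]
  have h0 : ψ₀.comp cR = algebraMap K _ := RingHom.ext fun a => by simp [ψ₀, hρc]
  have h2 : ψ.comp φ = ψ₀.comp φ := RingHom.ext fun s => by
    have hs : s - cS (ρ (φ s)) ∈ IsLocalRing.maximalIdeal S := by
      refine (IsLocalRing.mem_maximalIdeal _).mpr fun hu => ?_
      have h := (hu.map φ).map ρ
      simp [map_sub, show φ (cS (ρ (φ s))) = cR (ρ (φ s)) from RingHom.congr_fun hφ _,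
        hρc] at h
    have hI : t (φ s) ∈ I := Ideal.mem_sup_left (by
      have h := Ideal.mem_map_of_mem φ hs
      rwa [map_sub, show φ (cS (ρ (φ s))) = cR (ρ (φ s)) from RingHom.congr_fun hφ _] at h)
    have hd0 : d (φ s) = 0 := by simp [d, Ideal.Quotient.eq_zero_iff_mem.mpr hI]
    ext <;> simp [ψ, ψ₀, hd0, TrivSqZeroExt.algebraMap_eq_inl]
  have h := hsep ψ ψ₀ h1 h0 (fun s => by simp [ψ]) (fun s => by
    simp [ψ₀, TrivSqZeroExt.algebraMap_eq_inl]) h2
  have h' := congrArg TrivSqZeroExt.snd (RingHom.congr_fun h r)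
  have htr : t r = r := by simp [t, (hker r).mpr hr]
  simp [ψ, ψ₀, d, htr, TrivSqZeroExt.algebraMap_eq_inl] at h'
  exact hδ h'

end Algebra

section Vectors

variable (V : Type u) [AddCommGroup V] [Module K V] [Module Kᵐᵒᵖ V] [IsCentralScalar K V]

instance isLocalRing_tsze : IsLocalRing (TrivSqZeroExt K V) :=
  .of_isUnit_or_isUnit_one_sub_self fun x => by
    simp only [TrivSqZeroExt.isUnit_iff_isUnit_fst, TrivSqZeroExt.fst_sub,
      TrivSqZeroExt.fst_one]
    exact IsLocalRing.isUnit_or_isUnit_one_sub_self x.fst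

variable (K) in
/-- The structure morphism of the spectrum of a square-zero extension of `K`. -/
def tStr : Spec (CommRingCat.of (TrivSqZeroExt K V)) ⟶ Spec (CommRingCat.of K) :=
  Spec.map (CommRingCat.ofHom (algebraMap K (TrivSqZeroExt K V)))

lemma eq_closedPoint_tsze (P : Spec (CommRingCat.of (TrivSqZeroExt K V))) :
    P = IsLocalRing.closedPoint (TrivSqZeroExt K V) := by
  refine PrimeSpectrum.ext (le_antisymm (IsLocalRing.le_maximalIdeal P.isPrime.ne_top) fun x hx => ?_)
  have hx0 : x.fst = 0 := by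
    simpa [TrivSqZeroExt.isUnit_iff_isUnit_fst] using (IsLocalRing.mem_maximalIdeal x).mp hx
  refine P.isPrime.mem_of_pow_mem 2 ?_
  have : x ^ 2 = 0 := by ext <;> simp [pow_two, hx0]
  rw [this]
  exact zero_mem _

variable {V} {W : Type u} [AddCommGroup W] [Module K W] [Module Kᵐᵒᵖ W] [IsCentralScalar K W]

/-- The morphism of spectra attached to a linear map. -/
def tMap (l : V →ₗ[K] W) :
    Spec (CommRingCat.of (TrivSqZeroExt K W)) ⟶ Spec (CommRingCat.of (TrivSqZeroExt K V)) :=
  Spec.map (CommRingCat.ofHom (TrivSqZeroExt.map l).toRingHom)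

lemma tMap_over (l : V →ₗ[K] W) : tMap l ≫ tStr K V = tStr K W := by
  rw [tMap, tStr, tStr, ← Spec.map_comp, ← CommRingCat.ofHom_comp]
  congr 2
  exact (TrivSqZeroExt.map l).comp_algebraMap

variable {A : Scheme.{u}} {f : A ⟶ Spec (CommRingCat.of K)}

/-- Push a tangent vector along a linear map. -/
def push (l : V →ₗ[K] W) (v : SchemeHomOver (tStr K V) f) : SchemeHomOver (tStr K W) f :=
  schemeHomOverComp (tMap l) (tMap_over l) v

lemma push_push {U : Type u} [AddCommGroup U] [Module K U] [Module Kᵐᵒᵖ U]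
    [IsCentralScalar K U] (l : V →ₗ[K] W) (l' : W →ₗ[K] U) (v : SchemeHomOver (tStr K V) f) :
    push l' (push l v) = push (l'.comp l) v := by
  refine Subtype.ext ?_
  simp only [push, schemeHomOverComp_coe, ← Category.assoc]
  congr 1
  rw [tMap, tMap, tMap, ← Spec.map_comp, ← CommRingCat.ofHom_comp]
  congr 2
  exact congrArg AlgHom.toRingHom (TrivSqZeroExt.map_comp_map l l').symm

lemma push_id (v : SchemeHomOver (tStr K V) f) : push LinearMap.id v = v := by
  refine Subtype.ext ?_
  simp [push, tMap, TrivSqZeroExt.map_id]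

variable (V) in
/-- The inclusion of the closed point. -/
def tPt : Spec (CommRingCat.of K) ⟶ Spec (CommRingCat.of (TrivSqZeroExt K V)) :=
  Spec.map (CommRingCat.ofHom (TrivSqZeroExt.fstHom K K V).toRingHom)

lemma tPt_over : tPt V ≫ tStr K V = 𝟙 (Spec (CommRingCat.of K)) := by
  rw [tPt, tStr, ← Spec.map_comp, ← CommRingCat.ofHom_comp]
  refine Eq.trans ?_ (Spec.map_id (CommRingCat.of K))
  congr 2

/-- The rational point underlying a tangent vector. -/
def red (v : SchemeHomOver (tStr K V) f) : Pts f :=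
  schemeHomOverComp (tPt V) tPt_over v

lemma push_zero (v : SchemeHomOver (tStr K V) f) :
    push (0 : V →ₗ[K] W) v = const (tStr K W) (red v) := by
  refine Subtype.ext ?_
  simp only [push, red, const, schemeHomOverComp_coe, ← Category.assoc]
  congr 1
  rw [tMap, tPt, tStr, ← Spec.map_comp, ← CommRingCat.ofHom_comp]
  congr 2
  refine RingHom.ext fun x => ?_
  obtain ⟨a, b, rfl⟩ : ∃ a b, x = TrivSqZeroExt.inl a + TrivSqZeroExt.inr b :=
    ⟨x.fst, x.snd, (TrivSqZeroExt.inl_fst_add_inr_snd_eq x).symm⟩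
  simp [TrivSqZeroExt.map_inl, TrivSqZeroExt.map_inr, TrivSqZeroExt.algebraMap_eq_inl]

lemma exists_stalk_hom {R : CommRingCat.{u}} [IsLocalRing R] (v : Spec R ⟶ A) {x : A}
    (hx : v (IsLocalRing.closedPoint R) = x) :
    ∃ ψ : A.presheaf.stalk x ⟶ R, v = Spec.map ψ ≫ A.fromSpecStalk x := by
  subst hx
  exact ⟨Scheme.stalkClosedPointTo v, (Scheme.Spec_stalkClosedPointTo_fromSpecStalk v).symm⟩

lemma tsze_prod_ext (p q : TrivSqZeroExt K (V × W))
    (h₁ : TrivSqZeroExt.map (LinearMap.fst K V W) p = TrivSqZeroExt.map (LinearMap.fst K V W) q)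
    (h₂ : TrivSqZeroExt.map (LinearMap.snd K V W) p = TrivSqZeroExt.map (LinearMap.snd K V W) q) :
    p = q := by
  obtain ⟨a, b, rfl⟩ : ∃ a b, p = TrivSqZeroExt.inl a + TrivSqZeroExt.inr b :=
    ⟨p.fst, p.snd, (TrivSqZeroExt.inl_fst_add_inr_snd_eq p).symm⟩
  obtain ⟨a', b', rfl⟩ : ∃ a' b', q = TrivSqZeroExt.inl a' + TrivSqZeroExt.inr b' :=
    ⟨q.fst, q.snd, (TrivSqZeroExt.inl_fst_add_inr_snd_eq q).symm⟩
  have q₁ := congrArg TrivSqZeroExt.fst h₁
  have q₂ := congrArg TrivSqZeroExt.snd h₁
  have q₃ := congrArg TrivSqZeroExt.snd h₂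
  simp [TrivSqZeroExt.map_inl, TrivSqZeroExt.map_inr] at q₁ q₂ q₃
  rw [q₁, Prod.ext q₂ q₃]

/-- A vector with values in `V × W` is determined by its two projections. -/
lemma push_prod_ext (u u' : SchemeHomOver (tStr K (V × W)) f)
    (h₁ : push (LinearMap.fst K V W) u = push (LinearMap.fst K V W) u')
    (h₂ : push (LinearMap.snd K V W) u = push (LinearMap.snd K V W) u') : u = u' := by
  let c := IsLocalRing.closedPoint (TrivSqZeroExt K (V × W))
  have hx : u.1 c = u'.1 c := by
    have h := congrArg (fun v => v.1 (IsLocalRing.closedPoint (TrivSqZeroExt K V))) h₁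
    have e := eq_closedPoint_tsze (V × W)
      ((tMap (LinearMap.fst K V W)) (IsLocalRing.closedPoint (TrivSqZeroExt K V)))
    exact (congrArg u.1 e).symm.trans
      (((Scheme.Hom.comp_apply _ _ _).symm.trans (h.trans (Scheme.Hom.comp_apply _ _ _))).trans
        (congrArg u'.1 e))
  obtain ⟨ψ, hψ⟩ := exists_stalk_hom u.1 (x := u.1 c) rfl
  obtain ⟨ψ', hψ'⟩ := exists_stalk_hom u'.1 (x := u.1 c) hx.symm
  refine Subtype.ext ?_
  rw [hψ, hψ']
  congr 2
  have e₁ := congrArg Subtype.val h₁
  have e₂ := congrArg Subtype.val h₂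
  simp only [push, schemeHomOverComp_coe, hψ, hψ', tMap, ← Category.assoc, ← Spec.map_comp]
    at e₁ e₂
  replace e₁ := Spec.map_injective ((cancel_mono _).mp e₁)
  replace e₂ := Spec.map_injective ((cancel_mono _).mp e₂)
  ext r : 2
  have a₁ := congr($e₁ r)
  have a₂ := congr($e₂ r)
  exact tsze_prod_ext _ _ a₁ a₂

variable (L : RelativeGroupLaw K f)

/-- The group law at a tangent vector at the origin is addition. -/
lemma mul_push (v : SchemeHomOver (tStr K V) f) (hv : red v = L.one (𝟙 _))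
    (a b : V →ₗ[K] W) : L.mul _ (push a v) (push b v) = push (a + b) v := by
  have hp : ∀ {U U' : Type u} [AddCommGroup U] [Module K U] [Module Kᵐᵒᵖ U]
      [IsCentralScalar K U] [AddCommGroup U'] [Module K U'] [Module Kᵐᵒᵖ U']
      [IsCentralScalar K U'] (l : U →ₗ[K] U') (x y : SchemeHomOver (tStr K U) f),
      push l (L.mul _ x y) = L.mul _ (push l x) (push l y) :=
    fun l x y => L.mul_natural _ _ _ _ x y
  have hz : push (0 : V →ₗ[K] V) v = L.one _ := by rw [push_zero, hv, const_one]
  have key : L.mul _ (push (LinearMap.inl K V V) v) (push (LinearMap.inr K V V) v) =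
      push (LinearMap.inl K V V + LinearMap.inr K V V) v := by
    have e₁ : (LinearMap.fst K V V).comp (LinearMap.inl K V V + LinearMap.inr K V V) =
        LinearMap.id := LinearMap.ext fun z => by simp
    have e₂ : (LinearMap.snd K V V).comp (LinearMap.inl K V V + LinearMap.inr K V V) =
        LinearMap.id := LinearMap.ext fun z => by simp
    refine push_prod_ext _ _ ?_ ?_
    · rw [hp, push_push, push_push, push_push, LinearMap.fst_comp_inl, LinearMap.fst_comp_inr,
        e₁, push_id, hz, L.mul_one]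
    · rw [hp, push_push, push_push, push_push, LinearMap.snd_comp_inl, LinearMap.snd_comp_inr,
        e₂, push_id, hz, L.one_mul]
  have h := congrArg (push (a.coprod b)) key
  rw [hp, push_push, push_push, push_push, LinearMap.comp_add, LinearMap.coprod_inl,
    LinearMap.coprod_inr] at h
  exact h

/-- Multiplication by `n` at a tangent vector at the origin is scaling by `n`. -/
lemma nsmul_vec (v : SchemeHomOver (tStr K V) f) (hv : red v = L.one (𝟙 _)) (n : ℕ) :
    L.nsmul _ n v = push ((n : K) • LinearMap.id) v := by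
  induction n with
  | zero => rw [RelativeGroupLaw.nsmul_zero, Nat.cast_zero, zero_smul, push_zero, hv, const_one]
  | succ k ih =>
    rw [RelativeGroupLaw.nsmul_succ, ih]
    conv_lhs => arg 4; rw [← push_id v]
    rw [mul_push L v hv]
    congr 1
    simp [add_smul]

lemma red_mul (x y : SchemeHomOver (tStr K V) f) :
    red (L.mul _ x y) = L.mul (𝟙 _) (red x) (red y) :=
  L.mul_natural _ _ _ _ x y

lemma red_const (p : Pts f) : red (const (tStr K V) p) = p :=
  (comp_const _ _ _ _ p).trans (const_id p)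

/-- Tangent vectors with the same base point and the same image under `[n]` are equal. -/
lemma vec_eq_of_comp_schemeNsmul_eq (hc : L.IsCommutative) (n : ℕ) (hn : (n : K) ≠ 0)
    (v₁ v₂ : SchemeHomOver (tStr K V) f) (hr : red v₁ = red v₂)
    (h : v₁.1 ≫ L.schemeNsmul n = v₂.1 ≫ L.schemeNsmul n) : v₁ = v₂ := by
  rw [comp_schemeNsmul L (tStr K V), comp_schemeNsmul L (tStr K V)] at h
  replace h : L.nsmul _ n v₁ = L.nsmul _ n v₂ := Subtype.ext h
  let q : SchemeHomOver (tStr K V) f := const (tStr K V) (L.inv (𝟙 _) (red v₁))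
  have hw : ∀ v, red v = red v₁ → red (L.mul _ q v) = L.one (𝟙 _) := fun v hv => by
    rw [red_mul, red_const, hv, L.inv_mul_cancel]
  have h' : L.nsmul _ n (L.mul _ q v₁) = L.nsmul _ n (L.mul _ q v₂) := by
    rw [nsmul_mul L hc, nsmul_mul L hc, h]
  rw [nsmul_vec L _ (hw v₁ rfl), nsmul_vec L _ (hw v₂ hr.symm)] at h'
  replace h' := congrArg (push ((n : K)⁻¹ • (LinearMap.id : V →ₗ[K] V))) h'
  have e : ((n : K)⁻¹ • (LinearMap.id : V →ₗ[K] V)).comp ((n : K) • LinearMap.id) =
      LinearMap.id := LinearMap.ext fun z => by simp [smul_smul, hn]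
  rw [push_push, push_push, e, push_id, push_id] at h'
  exact mul_left_cancel L _ h'

end Vectors

section Stalks

variable {A : Scheme.{u}} {f : A ⟶ Spec (CommRingCat.of K)}

/-- The `K`-algebra structure of a stalk. -/
def stalkStr (f : A ⟶ Spec (CommRingCat.of K)) (x : A) :
    CommRingCat.of K ⟶ A.presheaf.stalk x :=
  Spec.preimage (A.fromSpecStalk x ≫ f)

@[simp, reassoc]
lemma specMap_stalkStr (x : A) :
    Spec.map (stalkStr f x) = A.fromSpecStalk x ≫ f := Spec.map_preimage _

lemma stalkStr_comp_stalkMap (h : A ⟶ A) (hh : h ≫ f = f) (x : A) :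
    stalkStr f (h x) ≫ h.stalkMap x = stalkStr f x := by
  refine Spec.map_injective ?_
  rw [Spec.map_comp, specMap_stalkStr, specMap_stalkStr,
    Scheme.SpecMap_stalkMap_fromSpecStalk_assoc, hh]

lemma residue_aux (v : Spec (CommRingCat.of K) ⟶ A) (hv : v ≫ f = 𝟙 _) :
    ∃ ρ : A.presheaf.stalk (v (IsLocalRing.closedPoint K)) ⟶ CommRingCat.of K,
      IsLocalHom ρ.hom ∧ stalkStr f (v (IsLocalRing.closedPoint K)) ≫ ρ = 𝟙 _ := by
  refine ⟨Scheme.stalkClosedPointTo v, Scheme.isLocalHom_stalkClosedPointTo' v,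
    Spec.map_injective ?_⟩
  refine (Spec.map_comp _ _).trans (Eq.trans ?_ (Spec.map_id (CommRingCat.of K)).symm)
  rw [specMap_stalkStr, ← Category.assoc]
  exact (congrArg (· ≫ f) (Scheme.Spec_stalkClosedPointTo_fromSpecStalk v)).trans hv

variable [IsAlgClosed K] [LocallyOfFiniteType f]

/-- The residue map at a closed point, as a map to `K`. -/
lemma exists_residue {x : A} (hx : IsClosed ({x} : Set A)) :
    ∃ ρ : A.presheaf.stalk x ⟶ CommRingCat.of K,
      IsLocalHom ρ.hom ∧ stalkStr f x ≫ ρ = 𝟙 _ := by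
  obtain ⟨p, rfl⟩ := exists_pt_eq (f := f) hx
  exact residue_aux p.1 p.2

/-- `[n]` generates the maximal ideal at every closed point. -/
theorem map_maximalIdeal_schemeNsmul (L : RelativeGroupLaw K f) (hc : L.IsCommutative) (n : ℕ)
    (hn : (n : K) ≠ 0) {x : A} (hx : IsClosed ({x} : Set A)) :
    (IsLocalRing.maximalIdeal (A.presheaf.stalk (L.schemeNsmul n x))).map
      ((L.schemeNsmul n).stalkMap x).hom = IsLocalRing.maximalIdeal (A.presheaf.stalk x) := by
  have : IsLocallyNoetherian A := LocallyOfFiniteType.isLocallyNoetherian f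
  obtain ⟨ρ, hρl, hρ⟩ := exists_residue (f := f) hx
  refine map_maximalIdeal_eq_of_separates (stalkStr f (L.schemeNsmul n x)).hom
    (stalkStr f x).hom ρ.hom (by rw [← CommRingCat.hom_comp, hρ]; rfl)
    ((L.schemeNsmul n).stalkMap x).hom
    (by rw [← CommRingCat.hom_comp, stalkStr_comp_stalkMap _ (L.schemeNsmul_over n)]) ?_
  intro ψ₁ ψ₂ h₁ h₂ r₁ r₂ h
  have hov : ∀ ψ : A.presheaf.stalk x →+* TrivSqZeroExt K K,
      ψ.comp (stalkStr f x).hom = algebraMap K _ →
      (Spec.map (CommRingCat.ofHom ψ) ≫ A.fromSpecStalk x) ≫ f = tStr K K := fun ψ hψ => by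
    rw [Category.assoc, ← specMap_stalkStr, ← Spec.map_comp, tStr, ← hψ]
    rfl
  let v₁ : SchemeHomOver (tStr K K) f := ⟨_, hov ψ₁ h₁⟩
  let v₂ : SchemeHomOver (tStr K K) f := ⟨_, hov ψ₂ h₂⟩
  have hr : red v₁ = red v₂ := by
    refine Subtype.ext ?_
    simp only [red, schemeHomOverComp_coe, v₁, v₂, tPt, ← Category.assoc, ← Spec.map_comp]
    congr 2
    ext r : 2
    exact (r₁ r).trans (r₂ r).symm
  have hn' : v₁.1 ≫ L.schemeNsmul n = v₂.1 ≫ L.schemeNsmul n := by
    simp only [v₁, v₂, Category.assoc, ← Scheme.SpecMap_stalkMap_fromSpecStalk]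
    rw [← Category.assoc, ← Category.assoc, ← Spec.map_comp, ← Spec.map_comp]
    congr 2
    ext r : 2
    exact RingHom.congr_fun h r
  have e := congrArg Subtype.val (vec_eq_of_comp_schemeNsmul_eq L hc n hn v₁ v₂ hr hn')
  simp only [v₁, v₂] at e
  exact congrArg CommRingCat.Hom.hom (Spec.map_injective ((cancel_mono _).mp e))

end Stalks

end FLTAgent.AV
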