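/-
Area AV (towards S26): multiplication by `n` is unramified, finite, fixes the generic point and
is surjective, for `n` invertible in `K`.
-/
import Fermat.Agent.AV.Tangent

set_option autoImplicit false

noncomputable section

universe u

open CategoryTheory CategoryTheory.Limits AlgebraicGeometry NeronModelInfra GoodReductionJacobian

namespace FLTAgent.AV

/-- An endomorphism of a Noetherian local ring generating the maximal ideal and surjective on
residue fields is injective. -/
lemma injective_of_map_maximalIdeal {S R : Type u} [CommRing S] [CommRing R] [IsLocalRing S]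
    [IsLocalRing R] [IsNoetherianRing R] (e : R ≃+* S) (φ : S →+* R)
    (hm : (IsLocalRing.maximalIdeal S).map φ = IsLocalRing.maximalIdeal R)
    (hres : ∀ r, ∃ s, r - φ s ∈ IsLocalRing.maximalIdeal R) :
    Function.Injective φ := by
  let M := IsLocalRing.maximalIdeal R
  let θ : R →+* R := φ.comp e.toRingHom
  have heM : M.map e.toRingHom = IsLocalRing.maximalIdeal S :=
    IsLocalRing.eq_maximalIdeal (Ideal.map_isMaximal_of_equiv e)
  have hθ : M.map θ = M := by rw [← Ideal.map_map, heM, hm]
  have hθpow : ∀ k : ℕ, (M ^ k).map θ = M ^ k := fun k => by rw [Ideal.map_pow, hθ]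
  have hθres : ∀ r, ∃ s, r - θ s ∈ M := fun r => by
    obtain ⟨s, hs⟩ := hres r
    exact ⟨e.symm s, by
      show r - φ (e (e.symm s)) ∈ M
      rwa [e.apply_symm_apply]⟩
  suffices hθi : Function.Injective θ by
    intro a b h
    exact e.symm.injective (hθi (by simpa [θ] using h))
  -- `θ` is surjective modulo every power of the maximal ideal
  have hsurj : ∀ k : ℕ, ∀ r, ∃ s, r - θ s ∈ M ^ k := by
    intro k
    induction k with
    | zero => exact fun r => ⟨0, by simp⟩
    | succ k ih =>
      have hk : ∀ x ∈ M ^ k, ∃ s, x - θ s ∈ M ^ (k + 1) := by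
        intro x hx
        rw [← hθpow k] at hx
        induction hx using Submodule.span_induction with
        | mem y hy => obtain ⟨z, -, rfl⟩ := hy; exact ⟨z, by simp⟩
        | zero => exact ⟨0, by simp⟩
        | add y z _ _ hy hz =>
          obtain ⟨s, hs⟩ := hy
          obtain ⟨t, ht⟩ := hz
          exact ⟨s + t, by convert Ideal.add_mem _ hs ht using 1; rw [map_add]; ring⟩
        | smul a y hy' hy =>
          obtain ⟨s, hs⟩ := hy
          obtain ⟨c, hc⟩ := hθres a
          refine ⟨c * s, ?_⟩
          have hy'' : y ∈ M ^ k := (hθpow k).le hy'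
          have e1 : a • y - θ (c * s) = θ c * (y - θ s) + (a - θ c) * y := by
            rw [smul_eq_mul, map_mul]; ring
          rw [e1, pow_succ']
          exact Ideal.add_mem _ (Ideal.mul_mem_left _ _ (pow_succ' M k ▸ hs))
            (Ideal.mul_mem_mul hc hy'')
      intro r
      obtain ⟨s, hs⟩ := ih r
      obtain ⟨t, ht⟩ := hk _ hs
      exact ⟨s + t, by convert ht using 1; rw [map_add]; ring⟩
  rw [injective_iff_map_eq_zero]
  intro x hx
  have hmem : ∀ k, x ∈ M ^ k := fun k => by
    let θk : R ⧸ M ^ k →+* R ⧸ M ^ k :=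
      Ideal.quotientMap (M ^ k) θ (Ideal.map_le_iff_le_comap.mp (hθpow k).le)
    have hθk : Function.Surjective θk := by
      intro y
      obtain ⟨r, rfl⟩ := Ideal.Quotient.mk_surjective y
      obtain ⟨s, hs⟩ := hsurj k r
      exact ⟨Ideal.Quotient.mk _ s, (Ideal.Quotient.eq.mpr hs).symm⟩
    have hker : Monotone fun j => RingHom.ker (θk ^ j) := monotone_nat_of_le_succ fun j y hy => by
      simp only [RingHom.mem_ker, RingHom.coe_pow, Function.iterate_succ', Function.comp_apply]
        at hy ⊢
      rw [hy, map_zero]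
    obtain ⟨N, hN⟩ := monotone_stabilizes_iff_noetherian.mpr inferInstance
      ⟨fun j => RingHom.ker (θk ^ j), hker⟩
    obtain ⟨y, hy⟩ := hθk.iterate N (Ideal.Quotient.mk _ x)
    have h1 : θk (Ideal.Quotient.mk _ x) = 0 := by simp [θk, hx]
    have h2 : y ∈ RingHom.ker (θk ^ (N + 1)) := by
      simp only [RingHom.mem_ker, RingHom.coe_pow, Function.iterate_succ', Function.comp_apply]
      rw [hy, h1]
    have hN' : RingHom.ker (θk ^ N) = RingHom.ker (θk ^ (N + 1)) := hN (N + 1) N.le_succ
    rw [← hN', RingHom.mem_ker, RingHom.coe_pow, hy] at h2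
    exact Ideal.Quotient.eq_zero_iff_mem.mp h2
  have h := Ideal.iInf_pow_eq_bot_of_isLocalRing M (Ideal.IsPrime.ne_top inferInstance)
  exact (Submodule.mem_bot R).mp (h.le (Submodule.mem_iInf _ |>.mpr hmem))

lemma fromSpecStalk_bot {X : Scheme.{u}} [IsIntegral X] (x : X) :
    X.fromSpecStalk x (⟨⊥, Ideal.isPrime_bot⟩ : PrimeSpectrum (X.presheaf.stalk x)) =
      genericPoint X := by
  have hη : genericPoint X ∈ Set.range (X.fromSpecStalk x) := by
    rw [Scheme.range_fromSpecStalk]
    exact (genericPoint_spec X).specializes trivial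
  obtain ⟨z, hz⟩ := hη
  have h : (⟨⊥, Ideal.isPrime_bot⟩ : PrimeSpectrum (X.presheaf.stalk x)) ⤳ z :=
    (PrimeSpectrum.le_iff_specializes _ _).mp bot_le
  exact ((h.map (X.fromSpecStalk x).continuous).trans (Inseparable.of_eq hz).specializes).antisymm
    ((genericPoint_spec X).specializes trivial) |>.eq

variable {K : Type u} [Field K] [IsAlgClosed K] {A : Scheme.{u}}
  {f : A ⟶ Spec (CommRingCat.of K)} [LocallyOfFiniteType f] (L : RelativeGroupLaw K f)
  (hc : L.IsCommutative) (n : ℕ) (hn : (n : K) ≠ 0)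

lemma residue_surjective {x : A} (hx : IsClosed ({x} : Set A)) (r : A.presheaf.stalk x) :
    ∃ s, r - (L.schemeNsmul n).stalkMap x s ∈ IsLocalRing.maximalIdeal (A.presheaf.stalk x) := by
  obtain ⟨ρ, hρl, hρ⟩ := exists_residue (f := f) hx
  refine ⟨stalkStr f _ (ρ r), (IsLocalRing.mem_maximalIdeal _).mpr fun hu => ?_⟩
  have h := congr($(stalkStr_comp_stalkMap (f := f) _ (L.schemeNsmul_over n) x) (ρ r))
  have h' : (L.schemeNsmul n).stalkMap x (stalkStr f _ (ρ r)) = stalkStr f x (ρ r) := h
  rw [h'] at hu
  have h' := congr($hρ (ρ r))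
  simp only [CommRingCat.comp_apply, CommRingCat.id_apply] at h'
  have := (hu.map ρ.hom).ne_zero
  rw [map_sub] at this
  exact this (sub_eq_zero.mpr h'.symm)

include hc hn

lemma formallyUnramified_stalkMap {x : A} (hx : IsClosed ({x} : Set A)) :
    ((L.schemeNsmul n).stalkMap x).hom.FormallyUnramified := by
  have : LocallyOfFiniteType (L.schemeNsmul n) := by
    have : LocallyOfFiniteType (L.schemeNsmul n ≫ f) := by rw [L.schemeNsmul_over]; infer_instance
    exact locallyOfFiniteType_of_comp _ f
  algebraize [((L.schemeNsmul n).stalkMap x).hom]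
  have : IsLocalHom (algebraMap (A.presheaf.stalk (L.schemeNsmul n x)) (A.presheaf.stalk x)) :=
    inferInstanceAs <| IsLocalHom ((L.schemeNsmul n).stalkMap x).hom
  have : Algebra.EssFiniteType (A.presheaf.stalk (L.schemeNsmul n x)) (A.presheaf.stalk x) := by
    rw [← RingHom.essFiniteType_algebraMap, RingHom.algebraMap_toAlgebra]
    exact LocallyOfFiniteType.stalkMap _ x
  have : Algebra.IsSeparable (IsLocalRing.ResidueField (A.presheaf.stalk (L.schemeNsmul n x)))
      (IsLocalRing.ResidueField (A.presheaf.stalk x)) := by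
    refine ⟨fun z => ?_⟩
    obtain ⟨r, rfl⟩ := IsLocalRing.residue_surjective z
    obtain ⟨s, hs⟩ := residue_surjective L n hx r
    have e : algebraMap _ (IsLocalRing.ResidueField (A.presheaf.stalk x))
        (IsLocalRing.residue _ s) = IsLocalRing.residue _ r :=
      (Ideal.Quotient.eq.mpr hs).symm
    rw [← e]
    exact isSeparable_algebraMap _
  exact Algebra.FormallyUnramified.of_map_maximalIdeal
    (map_maximalIdeal_schemeNsmul L hc n hn hx)

theorem formallyUnramified_schemeNsmul : FormallyUnramified (L.schemeNsmul n) := by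
  have : JacobsonSpace A := LocallyOfFiniteType.jacobsonSpace f
  rw [HasRingHomProperty.iff_appLE (P := @FormallyUnramified)]
  rintro ⟨U, hU⟩ ⟨V, hV⟩ e
  algebraize [((L.schemeNsmul n).appLE U V e).hom]
  have hmax : ∀ M : PrimeSpectrum Γ(A, V), M.asIdeal.IsMaximal →
      Algebra.IsUnramifiedAt Γ(A, U) M.asIdeal := by
    intro M hM
    have : IsOpenImmersion hV.fromSpec := IsAffineOpen.isOpenImmersion_fromSpec hV
    have hxV : hV.fromSpec M ∈ V := hV.range_fromSpec.le ⟨M, rfl⟩
    have hx : IsClosed ({hV.fromSpec M} : Set A) := by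
      have h : M ∈ closedPoints (PrimeSpectrum Γ(A, V)) :=
        (PrimeSpectrum.isClosed_singleton_iff_isMaximal M).mpr hM
      exact hV.fromSpec.isOpenEmbedding.preimage_closedPoints.symm.le h
    have hyU : L.schemeNsmul n (hV.fromSpec M) ∈ U := e hxV
    let := TopCat.Presheaf.algebra_section_stalk A.presheaf (⟨hV.fromSpec M, hxV⟩ : V)
    have hloc : IsLocalization.AtPrime (A.presheaf.stalk (hV.fromSpec M)) M.asIdeal :=
      hV.isLocalization_stalk' M hxV
    let : Algebra Γ(A, U) (A.presheaf.stalk (hV.fromSpec M)) :=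
      ((algebraMap Γ(A, V) (A.presheaf.stalk (hV.fromSpec M))).comp
        (algebraMap Γ(A, U) Γ(A, V))).toAlgebra
    have : IsScalarTower Γ(A, U) Γ(A, V) (A.presheaf.stalk (hV.fromSpec M)) :=
      .of_algebraMap_eq' rfl
    have hgerm : (A.presheaf.germ U _ hyU).hom.FormallyUnramified := by
      let := TopCat.Presheaf.algebra_section_stalk A.presheaf
        (⟨L.schemeNsmul n (hV.fromSpec M), hyU⟩ : U)
      have := hU.isLocalization_stalk ⟨L.schemeNsmul n (hV.fromSpec M), hyU⟩
      exact RingHom.formallyUnramified_algebraMap.mpr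
        (Algebra.FormallyUnramified.of_isLocalization
          (hU.primeIdealOf ⟨L.schemeNsmul n (hV.fromSpec M), hyU⟩).asIdeal.primeCompl)
    have hcomp : ((L.schemeNsmul n).appLE U V e ≫ A.presheaf.germ V _ hxV).hom =
        (A.presheaf.germ U _ hyU ≫ (L.schemeNsmul n).stalkMap (hV.fromSpec M)).hom := by
      simp [Scheme.Hom.germ_stalkMap, Scheme.Hom.appLE]
    have hfu : Algebra.FormallyUnramified Γ(A, U) (A.presheaf.stalk (hV.fromSpec M)) := by
      rw [← RingHom.formallyUnramified_algebraMap]
      change RingHom.FormallyUnramified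
        ((L.schemeNsmul n).appLE U V e ≫ A.presheaf.germ V _ hxV).hom
      rw [hcomp]
      exact RingHom.FormallyUnramified.stableUnderComposition _ _ hgerm
        (formallyUnramified_stalkMap L hc n hn hx)
    let eqv := (IsLocalization.algEquiv M.asIdeal.primeCompl (A.presheaf.stalk (hV.fromSpec M))
      (Localization.AtPrime M.asIdeal)).restrictScalars Γ(A, U)
    exact Algebra.FormallyUnramified.of_equiv eqv
  refine Algebra.unramifiedLocus_eq_univ_iff.mp (Set.eq_univ_of_forall fun p => ?_)
  obtain ⟨M, hM, hpM⟩ := Ideal.exists_le_maximal p.asIdeal p.isPrime.ne_top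
  rw [Algebra.unramifiedLocus_eq_compl_support]
  intro hp
  have hMs := Module.mem_support_mono (q := ⟨M, hM.isPrime⟩) hpM hp
  have hMu : (⟨M, hM.isPrime⟩ : PrimeSpectrum Γ(A, V)) ∈ Algebra.unramifiedLocus Γ(A, U) Γ(A, V) :=
    hmax ⟨M, hM.isPrime⟩ hM
  rw [Algebra.unramifiedLocus_eq_compl_support] at hMu
  exact hMu hMs

omit [IsAlgClosed K] hc hn in
lemma locallyOfFiniteType_schemeNsmul : LocallyOfFiniteType (L.schemeNsmul n) := by
  have : LocallyOfFiniteType (L.schemeNsmul n ≫ f) := by rw [L.schemeNsmul_over]; infer_instance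
  exact locallyOfFiniteType_of_comp _ f

theorem locallyQuasiFinite_schemeNsmul : LocallyQuasiFinite (L.schemeNsmul n) := by
  have := formallyUnramified_schemeNsmul L hc n hn
  have := locallyOfFiniteType_schemeNsmul L n
  rw [HasRingHomProperty.iff_appLE (P := @LocallyQuasiFinite)]
  rintro ⟨U, hU⟩ ⟨V, hV⟩ e
  have hfu := HasRingHomProperty.appLE (P := @FormallyUnramified) (L.schemeNsmul n) ‹_› ⟨U, hU⟩ ⟨V, hV⟩ e
  have hft := HasRingHomProperty.appLE (P := @LocallyOfFiniteType) (L.schemeNsmul n) ‹_› ⟨U, hU⟩ ⟨V, hV⟩ e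
  algebraize [((L.schemeNsmul n).appLE U V e).hom]
  rw [← RingHom.algebraMap_toAlgebra ((L.schemeNsmul n).appLE U V e).hom,
    RingHom.quasiFinite_algebraMap]
  infer_instance

omit [LocallyOfFiniteType f]
variable [IsProper f]

/-- Multiplication by `n` is finite. -/
theorem isFinite_schemeNsmul : IsFinite (L.schemeNsmul n) := by
  have := locallyQuasiFinite_schemeNsmul L hc n hn
  have : IsProper (L.schemeNsmul n ≫ f) := by rw [L.schemeNsmul_over]; infer_instance
  have : IsProper (L.schemeNsmul n) := .of_comp _ f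
  exact IsFinite.of_isProper_of_locallyQuasiFinite _

/-- The `n`-torsion points are finite in number. -/
theorem finite_torsion :
    Finite {x : Pts f // L.IsTorsionPoint (𝟙 _) n x} := by
  have := isFinite_schemeNsmul L hc n hn
  have hfin := (L.schemeNsmul n).finite_preimage_singleton (pt (L.one (𝟙 _)))
  have := hfin.to_subtype
  refine Finite.of_injective (β := L.schemeNsmul n ⁻¹' {pt (L.one (𝟙 _))})
    (fun x => ⟨pt x.1, ?_⟩) fun x y h => Subtype.ext (pt_injective (congrArg Subtype.val h))
  rw [Set.mem_preimage, Set.mem_singleton_iff, schemeNsmul_pt]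
  exact congrArg pt x.2

variable [IsIntegral A]

/-- Multiplication by `n` fixes the generic point. -/
theorem schemeNsmul_genericPoint : L.schemeNsmul n (genericPoint A) = genericPoint A := by
  have : IsLocallyNoetherian A := LocallyOfFiniteType.isLocallyNoetherian f
  let x : A := pt (L.one (𝟙 _))
  have hx : IsClosed ({x} : Set A) := isClosed_pt _
  have hfix : L.schemeNsmul n x = x := by
    show L.schemeNsmul n (pt _) = pt _
    rw [schemeNsmul_pt, L.nsmul_unit]
  let e : A.presheaf.stalk x ≅ A.presheaf.stalk (L.schemeNsmul n x) :=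
    A.presheaf.stalkCongr (Inseparable.of_eq hfix.symm)
  have hinj : Function.Injective ((L.schemeNsmul n).stalkMap x).hom :=
    injective_of_map_maximalIdeal e.commRingCatIsoToRingEquiv _
      (map_maximalIdeal_schemeNsmul L hc n hn hx) (residue_surjective L n hx)
  have hbot : Spec.map ((L.schemeNsmul n).stalkMap x)
      (⟨⊥, Ideal.isPrime_bot⟩ : PrimeSpectrum (A.presheaf.stalk x)) =
      (⟨⊥, Ideal.isPrime_bot⟩ : PrimeSpectrum (A.presheaf.stalk (L.schemeNsmul n x))) :=
    PrimeSpectrum.ext ((RingHom.injective_iff_ker_eq_bot _).mp hinj)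
  calc L.schemeNsmul n (genericPoint A)
      = L.schemeNsmul n (A.fromSpecStalk x
          (⟨⊥, Ideal.isPrime_bot⟩ : PrimeSpectrum (A.presheaf.stalk x))) :=
        congrArg _ (fromSpecStalk_bot x).symm
    _ = A.fromSpecStalk (L.schemeNsmul n x) (Spec.map ((L.schemeNsmul n).stalkMap x)
          (⟨⊥, Ideal.isPrime_bot⟩ : PrimeSpectrum (A.presheaf.stalk x))) :=
        congr($(Scheme.SpecMap_stalkMap_fromSpecStalk (f := L.schemeNsmul n) (x := x)).base
          (⟨⊥, Ideal.isPrime_bot⟩ : PrimeSpectrum (A.presheaf.stalk x))).symm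
    _ = genericPoint A := (congrArg _ hbot).trans (fromSpecStalk_bot _)

/-- Multiplication by `n` is surjective. -/
theorem surjective_schemeNsmul : Function.Surjective (L.schemeNsmul n) := by
  have := isFinite_schemeNsmul L hc n hn
  rw [← Set.range_eq_univ, ← Set.univ_subset_iff, ← (genericPoint_spec A)]
  refine closure_minimal (Set.singleton_subset_iff.mpr ⟨_, schemeNsmul_genericPoint L hc n hn⟩) ?_
  exact (L.schemeNsmul n).isClosedMap.isClosed_range

/-- Multiplication by `n` is surjective on rational points. -/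
theorem nsmul_pts_surjective : Function.Surjective (L.nsmul (𝟙 _) n : Pts f → Pts f) := by
  intro p
  have : JacobsonSpace A := LocallyOfFiniteType.jacobsonSpace f
  obtain ⟨z, hz, hzc⟩ := nonempty_inter_closedPoints
    (Z := L.schemeNsmul n ⁻¹' {pt p})
    (by obtain ⟨z, hz⟩ := surjective_schemeNsmul L hc n hn (pt p); exact ⟨z, hz⟩)
    ((isClosed_pt p).preimage (L.schemeNsmul n).continuous).isLocallyClosed
  obtain ⟨q, rfl⟩ := exists_pt_eq (f := f) hzc
  exact ⟨q, pt_injective ((schemeNsmul_pt L q n).symm.trans hz)⟩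

end FLTAgent.AV
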