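/-
Area AV (towards S26): the function field is Galois over its image under multiplication by `n`,
of degree the number of `n`-torsion points.
-/
import Fermat.Agent.AV.Finite

set_option autoImplicit false

noncomputable section

universe u

open CategoryTheory CategoryTheory.Limits AlgebraicGeometry NeronModelInfra GoodReductionJacobian

namespace FLTAgent.AV

section FunctionField

variable {X Y Z : Scheme.{u}} [IrreducibleSpace X] [IrreducibleSpace Y] [IrreducibleSpace Z]

/-- The map of function fields induced by a morphism preserving the generic point. -/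
def ffMap (h : X ⟶ Y) (hh : h (genericPoint X) = genericPoint Y) :
    Y.functionField ⟶ X.functionField :=
  Y.presheaf.stalkSpecializes (Inseparable.of_eq hh).specializes ≫ h.stalkMap (genericPoint X)

@[reassoc]
lemma specMap_ffMap (h : X ⟶ Y) (hh : h (genericPoint X) = genericPoint Y) :
    Spec.map (ffMap h hh) ≫ Y.fromSpecStalk (genericPoint Y) =
      X.fromSpecStalk (genericPoint X) ≫ h := by
  rw [ffMap, Spec.map_comp, Category.assoc, Scheme.SpecMap_stalkSpecializes_fromSpecStalk,
    Scheme.SpecMap_stalkMap_fromSpecStalk]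

lemma ffMap_comp (h : X ⟶ Y) (hh : h (genericPoint X) = genericPoint Y) (k : Y ⟶ Z)
    (hk : k (genericPoint Y) = genericPoint Z) (hhk : (h ≫ k) (genericPoint X) = genericPoint Z) :
    ffMap (h ≫ k) hhk = ffMap k hk ≫ ffMap h hh := by
  refine Spec.map_injective ((cancel_mono (Z.fromSpecStalk (genericPoint Z))).mp ?_)
  rw [specMap_ffMap, Spec.map_comp, Category.assoc, specMap_ffMap, specMap_ffMap_assoc]

lemma ffMap_eq_id (h : X ⟶ X) (h1 : h = 𝟙 X) (hh : h (genericPoint X) = genericPoint X) :
    ffMap h hh = 𝟙 X.functionField := by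
  refine Spec.map_injective ((cancel_mono (X.fromSpecStalk (genericPoint X))).mp ?_)
  rw [specMap_ffMap, Spec.map_id, Category.id_comp, h1, Category.comp_id]

lemma ffMap_congr (h k : X ⟶ Y) (e : h = k) (hh : h (genericPoint X) = genericPoint Y)
    (hk : k (genericPoint X) = genericPoint Y) : ffMap h hh = ffMap k hk := by
  subst e
  rfl

lemma germToFunctionField_ffMap (h : X ⟶ Y) (hh : h (genericPoint X) = genericPoint Y)
    (U : Y.Opens) [Nonempty U] [Nonempty (h ⁻¹ᵁ U : X.Opens)] (b : Γ(Y, U)) :
    X.germToFunctionField (h ⁻¹ᵁ U) (h.app U b) = ffMap h hh (Y.germToFunctionField U b) := by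
  have hη : genericPoint X ∈ h ⁻¹ᵁ U :=
    ((genericPoint_spec X).mem_open_set_iff (h ⁻¹ᵁ U).isOpen).mpr
      (by simpa using (inferInstance : Nonempty (h ⁻¹ᵁ U : X.Opens)))
  have e : Y.germToFunctionField U ≫ ffMap h hh = h.app U ≫ X.germToFunctionField (h ⁻¹ᵁ U) := by
    rw [ffMap, Scheme.germToFunctionField, TopCat.Presheaf.germ_stalkSpecializes_assoc,
      Scheme.Hom.germ_stalkMap]
  exact (congr($e b)).symm

end FunctionField

/-- A morphism to a separated scheme is determined by its map of function fields. -/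
lemma eq_of_ffMap_eq {X Y S : Scheme.{u}} [IsIntegral X] [IrreducibleSpace Y] (s : Y ⟶ S)
    [IsSeparated s] (h k : X ⟶ Y) (e : h ≫ s = k ≫ s)
    (hh : h (genericPoint X) = genericPoint Y) (hk : k (genericPoint X) = genericPoint Y)
    (he : ffMap h hh = ffMap k hk) : h = k := by
  have : IsDominant (X.fromSpecStalk (genericPoint X)) := by
    refine ⟨dense_iff_closure_eq.mpr (Set.eq_univ_of_univ_subset ?_)⟩
    rw [← genericPoint_spec X]
    refine closure_mono (Set.singleton_subset_iff.mpr ?_)
    rw [Scheme.range_fromSpecStalk]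
    exact specializes_rfl
  exact ext_of_isDominant_of_isSeparated s e (X.fromSpecStalk (genericPoint X))
    (by rw [← specMap_ffMap h hh, ← specMap_ffMap k hk, he])

/-- The degree is at most the number of points in a reduced fibre with trivial residue
extensions. -/
lemma finrank_le_card_fibre {B C L : Type u} [CommRing B] [CommRing C] [IsDomain C] [Field L]
    [Algebra B C] [Module.Finite B C] [Algebra C L] [IsFractionRing C L] (F : Subfield L)
    (hF : ∀ b : B, algebraMap C L (algebraMap B C b) ∈ F) (m : Ideal B) {ι : Type u} [Fintype ι]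
    [Nonempty ι] (M : ι → Ideal C) (hcop : Pairwise fun i j => IsCoprime (M i) (M j))
    (hle : ∀ i, m.map (algebraMap B C) ≤ M i) (hne : ∀ i, M i ≠ ⊤)
    (hrad : ⨅ i, M i ≤ m.map (algebraMap B C))
    (hres : ∀ i (c : C), ∃ b : B, c - algebraMap B C b ∈ M i) :
    FiniteDimensional F L ∧ Module.finrank F L ≤ Fintype.card ι := by
  classical
  choose e he using fun i : ι =>
    Ideal.exists_forall_sub_mem_ideal hcop fun j => if j = i then (1 : C) else 0
  choose β hβ using hres
  have hgen : (⊤ : Submodule B C) ≤ Submodule.span B (Set.range e) ⊔ m • (⊤ : Submodule B C) := by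
    intro c _
    rw [Ideal.smul_top_eq_map]
    refine Submodule.mem_sup.mpr ⟨∑ i, β i c • e i,
      Submodule.sum_mem _ fun i _ => Submodule.smul_mem _ _ (Submodule.subset_span ⟨i, rfl⟩),
      c - ∑ i, β i c • e i, ?_, by abel⟩
    refine (Submodule.restrictScalars_mem B _ _).mpr (hrad (Ideal.mem_iInf.mpr fun j => ?_))
    have h1 : ∀ i, β i c • e i - (if j = i then algebraMap B C (β i c) else 0) ∈ M j := fun i => by
      have := Ideal.mul_mem_left (M j) (algebraMap B C (β i c)) (he i j)
      rw [mul_sub, mul_ite, mul_one, mul_zero, ← Algebra.smul_def] at this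
      exact this
    have h2 := Ideal.sub_mem _ (hβ j c) (Submodule.sum_mem (M j) (t := Finset.univ) fun i _ => h1 i)
    rw [Finset.sum_sub_distrib, Finset.sum_ite_eq, if_pos (Finset.mem_univ j)] at h2
    convert h2 using 1
    ring
  obtain ⟨r, hr1, hr2⟩ := Submodule.exists_sub_one_mem_and_smul_le_of_fg_of_le_sup
    Module.Finite.fg_top le_rfl hgen
  have hr0 : algebraMap C L (algebraMap B C r) ≠ 0 := by
    intro h
    have h0 : algebraMap B C r = 0 := (IsFractionRing.injective C L) (h.trans (map_zero _).symm)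
    have h1 := Ideal.mem_map_of_mem (algebraMap B C) hr1
    rw [map_sub, map_one, h0, zero_sub, neg_mem_iff] at h1
    obtain ⟨i⟩ := ‹Nonempty ι›
    exact hne i ((Ideal.eq_top_iff_one _).mpr (hle i h1))
  let W : Submodule F L := Submodule.span F (Set.range (algebraMap C L ∘ e))
  have hC : ∀ c : C, algebraMap C L c ∈ W := by
    intro c
    have hc : r • c ∈ Submodule.span B (Set.range e) :=
      hr2 (Submodule.smul_mem_pointwise_smul c r ⊤ trivial)
    have hspan : ∀ x ∈ Submodule.span B (Set.range e), algebraMap C L x ∈ W := by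
      intro x hx
      induction hx using Submodule.span_induction with
      | mem x hx => obtain ⟨i, rfl⟩ := hx; exact Submodule.subset_span ⟨i, rfl⟩
      | zero => rw [map_zero]; exact W.zero_mem
      | add x y _ _ hx hy => rw [map_add]; exact W.add_mem hx hy
      | smul b x _ hx =>
        rw [Algebra.smul_def, map_mul]
        exact W.smul_mem (⟨_, hF b⟩ : F) hx
    have h := W.smul_mem ((⟨_, hF r⟩ : F)⁻¹) (hspan _ hc)
    rw [Subfield.smul_def, smul_eq_mul, Algebra.smul_def, map_mul, ← mul_assoc] at h
    simpa [inv_mul_cancel₀ hr0] using h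
  have hWfin : FiniteDimensional F W := FiniteDimensional.span_of_finite F (Set.finite_range _)
  let S := Algebra.adjoin F (Set.range (algebraMap C L))
  have hSW : Subalgebra.toSubmodule S ≤ W := by
    rw [Algebra.adjoin_eq_span,
      show Submonoid.closure (Set.range (algebraMap C L)) = MonoidHom.mrange (algebraMap C L) from
        Submonoid.closure_eq (MonoidHom.mrange (algebraMap C L : C →* L))]
    exact Submodule.span_le.mpr (by rintro _ ⟨c, rfl⟩; exact hC c)
  have hStop : W = ⊤ := by
    refine eq_top_iff.mpr fun x _ => hSW ?_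
    have hSfin : FiniteDimensional F S := Submodule.finiteDimensional_of_le (K := F) hSW
    obtain ⟨a, b, -, rfl⟩ := IsFractionRing.div_surjective (A := C) x
    rw [Subalgebra.mem_toSubmodule, div_eq_mul_inv]
    refine S.mul_mem (Algebra.subset_adjoin ⟨a, rfl⟩) ?_
    let x : S := ⟨algebraMap C L b, Algebra.subset_adjoin ⟨b, rfl⟩⟩
    exact Subalgebra.inv_mem_of_algebraic S (x := x)
      ((Algebra.IsAlgebraic.isAlgebraic (R := F) x).algHom S.val)
  have hfin : FiniteDimensional F L := .of_fg_top (hStop ▸ Submodule.fg_span (Set.finite_range _))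
  refine ⟨hfin, ?_⟩
  rw [← finrank_top F L, ← hStop]
  exact finrank_range_le_card _

variable {K : Type u} [Field K] [IsAlgClosed K] {A : Scheme.{u}}
  {f : A ⟶ Spec (CommRingCat.of K)} [IsProper f] [IsIntegral A] (L : RelativeGroupLaw K f)
  (hc : L.IsCommutative) (n : ℕ) (hn : (n : K) ≠ 0)

omit [IsAlgClosed K] [IsProper f] in
lemma translate_genericPoint (x : Pts f) : translate L x (genericPoint A) = genericPoint A :=
  genericPoint_eq_of_isOpenImmersion _

/-- Translation on the function field. -/
def ffTranslate (x : Pts f) : A.functionField ⟶ A.functionField :=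
  ffMap (translate L x) (translate_genericPoint L x)

omit [IsAlgClosed K] [IsProper f] in
lemma ffTranslate_mul (x y : Pts f) :
    ffTranslate L (L.mul (𝟙 _) x y) = ffTranslate L y ≫ ffTranslate L x := by
  have hh : (translate L x ≫ translate L y) (genericPoint A) = genericPoint A := by
    rw [translate_comp]; exact translate_genericPoint L _
  exact (ffMap_congr _ _ (translate_comp L x y).symm _ hh).trans (ffMap_comp _ _ _ _ _)

omit [IsAlgClosed K] [IsProper f] in
lemma ffTranslate_one : ffTranslate L (L.one (𝟙 _)) = 𝟙 A.functionField :=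
  ffMap_eq_id _ (translate_one L) _

omit [IsAlgClosed K] in
lemma ffTranslate_injective : Function.Injective (ffTranslate L) := by
  intro x y h
  have e : translate L x = translate L y :=
    eq_of_ffMap_eq f _ _ ((translate_over L x).trans (translate_over L y).symm) _ _ h
  have h1 := point_comp_translate L (L.one (𝟙 _)) x
  rw [e, point_comp_translate L (L.one (𝟙 _)) y, L.one_mul, L.one_mul] at h1
  exact Subtype.ext h1.symm

/-- Pullback of rational functions along multiplication by `n`. -/
def ffNsmul : A.functionField ⟶ A.functionField :=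
  ffMap (L.schemeNsmul n) (schemeNsmul_genericPoint L hc n hn)

/-- The image of `K(A)` under pullback along multiplication by `n`. -/
def ffNsmulRange : Subfield A.functionField := (ffNsmul L hc n hn).hom.fieldRange

lemma ffTranslate_ffNsmul (x : Pts f) (hx : L.IsTorsionPoint (𝟙 _) n x) :
    ffNsmul L hc n hn ≫ ffTranslate L x = ffNsmul L hc n hn := by
  have hh : (translate L x ≫ L.schemeNsmul n) (genericPoint A) = genericPoint A := by
    rw [translate_schemeNsmul_of_torsion L hc x n hx]; exact schemeNsmul_genericPoint L hc n hn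
  exact (ffMap_comp _ _ _ _ hh).symm.trans
    (ffMap_congr _ _ (translate_schemeNsmul_of_torsion L hc x n hx) hh _)

/-- Translation by a torsion point, as an automorphism over the image of `[n]`. -/
def translateAut (x : {x : Pts f // L.IsTorsionPoint (𝟙 _) n x}) :
    A.functionField ≃ₐ[ffNsmulRange L hc n hn] A.functionField :=
  { RingEquiv.ofRingHom (ffTranslate L x.1).hom (ffTranslate L (L.inv (𝟙 _) x.1)).hom
      (by rw [← CommRingCat.hom_comp, ← ffTranslate_mul, L.mul_inv_cancel, ffTranslate_one]; rfl)
      (by rw [← CommRingCat.hom_comp, ← ffTranslate_mul, L.inv_mul_cancel, ffTranslate_one]; rfl)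
    with
    commutes' := by
      rintro ⟨_, z, rfl⟩
      exact congr($(ffTranslate_ffNsmul L hc n hn x.1 x.2) z) }

lemma translateAut_injective : Function.Injective (translateAut L hc n hn) := by
  intro x y h
  refine Subtype.ext (ffTranslate_injective L ?_)
  ext z : 2
  exact DFunLike.congr_fun h z

include hc hn

lemma finrank_functionField_le :
    FiniteDimensional (ffNsmulRange L hc n hn) A.functionField ∧
      Module.finrank (ffNsmulRange L hc n hn) A.functionField ≤
        Nat.card {x : Pts f // L.IsTorsionPoint (𝟙 _) n x} := by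
  classical
  have := formallyUnramified_schemeNsmul L hc n hn
  have := isFinite_schemeNsmul L hc n hn
  let h := L.schemeNsmul n
  let e0 : A := pt (L.one (𝟙 _))
  obtain ⟨_, ⟨U, hU, rfl⟩, heU, -⟩ :=
    A.isBasis_affineOpens.exists_subset_of_mem_open (Set.mem_univ e0) isOpen_univ
  have hV : IsAffineOpen (h ⁻¹ᵁ U) := hU.preimage h
  have hfix : h e0 = e0 := by
    show L.schemeNsmul n (pt _) = pt _
    rw [schemeNsmul_pt, L.nsmul_unit]
  have heV : e0 ∈ h ⁻¹ᵁ U := by
    show h e0 ∈ U
    rw [hfix]; exact heU
  have : Nonempty U := ⟨⟨e0, heU⟩⟩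
  have : Nonempty (h ⁻¹ᵁ U : A.Opens) := ⟨⟨e0, heV⟩⟩
  have : IsOpenImmersion hU.fromSpec := IsAffineOpen.isOpenImmersion_fromSpec hU
  have : IsOpenImmersion hV.fromSpec := IsAffineOpen.isOpenImmersion_fromSpec hV
  have := functionField_isFractionRing_of_isAffineOpen A (h ⁻¹ᵁ U) hV
  have hfu := HasRingHomProperty.appLE (P := @FormallyUnramified) h ‹_› ⟨U, hU⟩ ⟨_, hV⟩ le_rfl
  rw [← Scheme.Hom.app_eq_appLE] at hfu
  have hfin : (h.app U).hom.Finite := IsFinite.finite_app (f := h) U hU
  algebraize [(h.app U).hom]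
  let m := (hU.primeIdealOf ⟨e0, heU⟩)
  have hme : hU.fromSpec m = e0 := hU.fromSpec_primeIdealOf _
  have hm : m.asIdeal.IsMaximal := by
    rw [← PrimeSpectrum.isClosed_singleton_iff_isMaximal]
    have h1 := (isClosed_pt (f := f) (L.one (𝟙 _))).preimage hU.fromSpec.continuous
    rwa [show hU.fromSpec ⁻¹' {pt (L.one (𝟙 _))} = {m} from Set.ext fun z =>
      ⟨fun hz => hU.fromSpec.isOpenEmbedding.injective ((Set.mem_singleton_iff.mp hz).trans hme.symm),
        fun hz => (congrArg _ (Set.mem_singleton_iff.mp hz)).trans hme⟩] at h1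
  -- the fibre over the origin
  let S := {P : PrimeSpectrum Γ(A, h ⁻¹ᵁ U) //
    m.asIdeal.map (algebraMap Γ(A, U) Γ(A, h ⁻¹ᵁ U)) ≤ P.asIdeal}
  have hSover : ∀ P : S, P.1.asIdeal.comap (algebraMap Γ(A, U) Γ(A, h ⁻¹ᵁ U)) = m.asIdeal :=
    fun P => (hm.eq_of_le (Ideal.comap_ne_top _ P.1.isPrime.ne_top)
      (Ideal.map_le_iff_le_comap.mp P.2)).symm
  have hSmax : ∀ P : S, P.1.asIdeal.IsMaximal := fun P =>
    Ideal.isMaximal_of_isIntegral_of_isMaximal_comap (R := Γ(A, U)) P.1.asIdeal
      ((congrArg Ideal.IsMaximal (hSover P)).mpr hm)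
  have hSpt : ∀ P : S, h (hV.fromSpec P.1) = e0 := fun P => by
    have hs := hU.SpecMap_appLE_fromSpec h hV le_rfl
    rw [← Scheme.Hom.app_eq_appLE] at hs
    refine (congr($(hs).base P.1)).symm.trans ?_
    have : Spec.map (h.app U) P.1 = m := PrimeSpectrum.ext (hSover P)
    exact (congrArg _ this).trans hme
  have hSclosed : ∀ P : S, IsClosed ({hV.fromSpec P.1} : Set A) := fun P => by
    have : JacobsonSpace A := LocallyOfFiniteType.jacobsonSpace f
    have h1 : P.1 ∈ closedPoints (PrimeSpectrum Γ(A, h ⁻¹ᵁ U)) :=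
      (PrimeSpectrum.isClosed_singleton_iff_isMaximal P.1).mpr (hSmax P)
    exact hV.fromSpec.isOpenEmbedding.preimage_closedPoints.symm.le h1
  choose q hq using fun P : S => exists_pt_eq (f := f) (hSclosed P)
  have hqt : ∀ P, L.IsTorsionPoint (𝟙 _) n (q P) := fun P =>
    pt_injective ((schemeNsmul_pt L (q P) n).symm.trans ((congrArg h (hq P)).trans (hSpt P)))
  have hqi : Function.Injective (fun P => (⟨q P, hqt P⟩ : {x // L.IsTorsionPoint (𝟙 _) n x})) :=
    fun P P' hPP' => Subtype.ext (hV.fromSpec.isOpenEmbedding.injective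
      ((hq P).symm.trans ((congrArg (fun x => pt x.1) hPP').trans (hq P'))))
  have := finite_torsion L hc n hn
  have : Finite S := Finite.of_injective _ hqi
  let := Fintype.ofFinite S
  have : Nonempty S := by
    have h1 : (hV.primeIdealOf ⟨e0, heV⟩).asIdeal.comap (algebraMap Γ(A, U) Γ(A, h ⁻¹ᵁ U)) =
        m.asIdeal := by
      have hs := hU.SpecMap_appLE_fromSpec h hV le_rfl
      rw [← Scheme.Hom.app_eq_appLE] at hs
      have h2 := congr($(hs).base (hV.primeIdealOf ⟨e0, heV⟩))
      have h3 : hU.fromSpec (Spec.map (h.app U) (hV.primeIdealOf ⟨e0, heV⟩)) = hU.fromSpec m :=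
        h2.trans ((congrArg h (hV.fromSpec_primeIdealOf ⟨e0, heV⟩)).trans (hfix.trans hme.symm))
      exact congrArg PrimeSpectrum.asIdeal (hU.fromSpec.isOpenEmbedding.injective h3)
    exact ⟨⟨hV.primeIdealOf ⟨e0, heV⟩, Ideal.map_le_iff_le_comap.mpr h1.ge⟩⟩
  have hrad := Algebra.FormallyUnramified.isRadical_map_isMaximal (A := Γ(A, U)) Γ(A, h ⁻¹ᵁ U) m.asIdeal
  have hbound := finrank_le_card_fibre (ffNsmulRange L hc n hn)
    (fun b => ⟨A.germToFunctionField U b, (germToFunctionField_ffMap h
      (schemeNsmul_genericPoint L hc n hn) U b).symm⟩)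
    m.asIdeal (fun P : S => P.1.asIdeal)
    (fun P P' hne => (Ideal.isCoprime_iff_sup_eq).mpr ((hSmax P).coprime_of_ne (hSmax P')
      fun h' => hne (Subtype.ext (PrimeSpectrum.ext h'))))
    (fun P => P.2) (fun P => P.1.isPrime.ne_top)
    (by
      refine le_trans ?_ hrad.radical.le
      rw [Ideal.radical_eq_sInf]
      exact le_sInf fun J ⟨hJ, hJp⟩ => iInf_le (fun P : S => P.1.asIdeal) ⟨⟨J, hJp⟩, hJ⟩)
    (fun P c => by
      let x := hV.fromSpec P.1
      have hxV : x ∈ h ⁻¹ᵁ U := hV.range_fromSpec.le ⟨P.1, rfl⟩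
      have hy : h x ∈ U := hxV
      obtain ⟨s, hs⟩ := residue_surjective L n (hSclosed P) (A.presheaf.germ _ x hxV c)
      let := TopCat.Presheaf.algebra_section_stalk A.presheaf (⟨h x, hy⟩ : U)
      have := hU.isLocalization_stalk ⟨h x, hy⟩
      have hprime : hU.primeIdealOf ⟨h x, hy⟩ = m := hU.fromSpec.isOpenEmbedding.injective
        ((hU.fromSpec_primeIdealOf _).trans ((hSpt P).trans hme.symm))
      obtain ⟨⟨b, t⟩, hbt⟩ := IsLocalization.surj
        (hU.primeIdealOf ⟨h x, hy⟩).asIdeal.primeCompl s
      have hmax : (hU.primeIdealOf ⟨h x, hy⟩).asIdeal.IsMaximal := hprime ▸ hm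
      obtain ⟨u, i, hi, hui⟩ := hmax.exists_inv (x := (t : Γ(A, U))) t.2
      refine ⟨b * u, ?_⟩
      let := TopCat.Presheaf.algebra_section_stalk A.presheaf (⟨x, hxV⟩ : (h ⁻¹ᵁ U : A.Opens))
      have : IsLocalization.AtPrime (A.presheaf.stalk x) P.1.asIdeal :=
        hV.isLocalization_stalk' P.1 hxV
      refine (IsLocalization.AtPrime.to_map_mem_maximal_iff (A.presheaf.stalk x) P.1.asIdeal _).mp ?_
      have e1 : algebraMap Γ(A, U) (A.presheaf.stalk (h x)) (b * u) =
          s * algebraMap Γ(A, U) _ (t * u) := by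
        rw [map_mul, map_mul, ← mul_assoc, hbt]
      have e2 : s - algebraMap Γ(A, U) (A.presheaf.stalk (h x)) (b * u) ∈
          IsLocalRing.maximalIdeal (A.presheaf.stalk (h x)) := by
        rw [e1, show (t : Γ(A, U)) * u = 1 - i from by rw [← hui]; ring, map_sub, map_one]
        have := Ideal.mul_mem_left (IsLocalRing.maximalIdeal (A.presheaf.stalk (h x))) s
          ((IsLocalization.AtPrime.to_map_mem_maximal_iff (A.presheaf.stalk (h x))
            (hU.primeIdealOf ⟨h x, hy⟩).asIdeal i).mpr hi)
        convert this using 1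
        ring
      have e3 : h.stalkMap x (s - algebraMap Γ(A, U) (A.presheaf.stalk (h x)) (b * u)) ∈
          IsLocalRing.maximalIdeal (A.presheaf.stalk x) :=
        map_nonunit (h.stalkMap x).hom _ e2
      have e4 : h.stalkMap x (algebraMap Γ(A, U) (A.presheaf.stalk (h x)) (b * u)) =
          A.presheaf.germ _ x hxV (h.app U (b * u)) :=
        Scheme.Hom.germ_stalkMap_apply h U x hy (b * u)
      have := Ideal.add_mem _ hs e3
      rw [map_sub, e4] at this
      change A.presheaf.germ _ x hxV (c - h.app U (b * u)) ∈ _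
      rw [map_sub]
      convert this using 1
      ring)
  refine ⟨hbound.1, hbound.2.trans ?_⟩
  rw [← Nat.card_eq_fintype_card]
  exact Nat.card_le_card_of_injective _ hqi

/-- The function field has degree `#A[n]` over its image under `[n]`. -/
theorem finrank_functionField :
    Module.finrank (ffNsmulRange L hc n hn) A.functionField =
      Nat.card {x : Pts f // L.IsTorsionPoint (𝟙 _) n x} := by
  obtain ⟨hfd, hle⟩ := finrank_functionField_le L hc n hn
  refine le_antisymm hle ?_
  refine (Nat.card_le_card_of_injective _ (translateAut_injective L hc n hn)).trans ?_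
  rw [Nat.card_eq_fintype_card]
  exact AlgEquiv.card_le

/-- The function field is Galois over its image under `[n]`. -/
theorem isGalois_functionField :
    IsGalois (ffNsmulRange L hc n hn) A.functionField := by
  obtain ⟨hfd, hle⟩ := finrank_functionField_le L hc n hn
  refine IsGalois.of_card_aut_eq_finrank _ _ (le_antisymm ?_ ?_)
  · rw [Nat.card_eq_fintype_card]; exact AlgEquiv.card_le
  · rw [finrank_functionField]
    exact Nat.card_le_card_of_injective _ (translateAut_injective L hc n hn)

/-- The Galois group consists of the translations by torsion points. -/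
theorem translateAut_bijective : Function.Bijective (translateAut L hc n hn) := by
  obtain ⟨hfd, hle⟩ := finrank_functionField_le L hc n hn
  refine (Nat.bijective_iff_injective_and_card _).mpr ⟨translateAut_injective L hc n hn, ?_⟩
  have := isGalois_functionField L hc n hn
  rw [IsGalois.card_aut_eq_finrank, finrank_functionField]

end FLTAgent.AV
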