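/-
Area AV (towards S26): the local rings of an integral scheme as subrings of its function field,
evaluation of rational functions along morphisms from spectra of local rings, and the centre of a
valuation on a proper variety.
-/
import Fermat.Agent.AV.Degree

set_option autoImplicit false

noncomputable section

universe u

open CategoryTheory CategoryTheory.Limits AlgebraicGeometry TopologicalSpace

namespace FLTAgent.AV

variable {W : Scheme.{u}} [IsIntegral W]

/-- The embedding of a local ring in the function field. -/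
abbrev sAlg (x : W) : W.presheaf.stalk x →+* W.functionField :=
  algebraMap (W.presheaf.stalk x) W.functionField

/-- The local ring at a point as a subring of the function field. -/
def stalkSub (x : W) : Subring W.functionField := (sAlg x).range

lemma sAlg_injective (x : W) : Function.Injective (sAlg x) :=
  IsFractionRing.injective (W.presheaf.stalk x) W.functionField

lemma sAlg_specializes {x y : W} (h : y ⤳ x) (a : W.presheaf.stalk x) :
    sAlg y (W.presheaf.stalkSpecializes h a) = sAlg x a :=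
  congr($(W.presheaf.stalkSpecializes_comp
    ((genericPoint_spec W).specializes trivial) h) a)

lemma stalkSub_mono {x y : W} (h : y ⤳ x) : stalkSub x ≤ stalkSub y := by
  rintro _ ⟨a, rfl⟩
  exact ⟨_, sAlg_specializes h a⟩

lemma germToFunctionField_eq {U : W.Opens} [Nonempty U] {x : W} (hx : x ∈ U) (a : Γ(W, U)) :
    sAlg x (W.presheaf.germ U x hx a) = W.germToFunctionField U a :=
  Scheme.algebraMap_germ_eq_germToFunctionField W hx a

lemma section_mem_stalkSub {U : W.Opens} [Nonempty U] {x : W} (hx : x ∈ U) (a : Γ(W, U)) :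
    W.germToFunctionField U a ∈ stalkSub x :=
  ⟨_, germToFunctionField_eq hx a⟩

lemma sAlg_genericPoint : sAlg (genericPoint W) = RingHom.id W.functionField := by
  ext a
  exact congr($(W.presheaf.stalkSpecializes_refl (genericPoint W)) a)

lemma mem_stalkSub_genericPoint (a : W.functionField) : a ∈ stalkSub (genericPoint W) :=
  ⟨a, RingHom.congr_fun sAlg_genericPoint a⟩

/-- A function regular at a point is regular in a neighbourhood. -/
lemma exists_open_regular {x : W} {a : W.functionField} (ha : a ∈ stalkSub x) :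
    ∃ U : W.Opens, x ∈ U ∧ ∀ y ∈ U, a ∈ stalkSub y := by
  obtain ⟨b, rfl⟩ := ha
  obtain ⟨U, hxU, c, rfl⟩ := W.presheaf.exists_germ_eq b
  have : Nonempty U := ⟨⟨x, hxU⟩⟩
  exact ⟨U, hxU, fun y hy => ⟨W.presheaf.germ U y hy c,
    (germToFunctionField_eq hy c).trans (germToFunctionField_eq hxU c).symm⟩⟩

/-- A function regular on an affine open is a section on it. -/
lemma exists_section {U : W.Opens} (hU : IsAffineOpen U) [Nonempty U] {a : W.functionField}
    (ha : ∀ x ∈ U, a ∈ stalkSub x) : ∃ s : Γ(W, U), W.germToFunctionField U s = a := by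
  let I : Ideal Γ(W, U) :=
    { carrier := {s | ∃ t, W.germToFunctionField U t = W.germToFunctionField U s * a}
      add_mem' := by
        rintro s s' ⟨t, ht⟩ ⟨t', ht'⟩
        exact ⟨t + t', by rw [map_add, map_add, add_mul, ht, ht']⟩
      zero_mem' := ⟨0, by simp⟩
      smul_mem' := by
        rintro c s ⟨t, ht⟩
        exact ⟨c * t, by rw [smul_eq_mul, map_mul, map_mul, mul_assoc, ht]⟩ }
  suffices hI : (1 : Γ(W, U)) ∈ I by
    obtain ⟨t, ht⟩ := hI
    exact ⟨t, by rwa [map_one, one_mul] at ht⟩
  by_contra hI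
  obtain ⟨M, hM, hIM⟩ := Ideal.exists_le_maximal I ((Ideal.ne_top_iff_one I).mpr hI)
  let P : PrimeSpectrum Γ(W, U) := ⟨M, hM.isPrime⟩
  have hxU : hU.fromSpec P ∈ U := hU.range_fromSpec.le ⟨P, rfl⟩
  let := TopCat.Presheaf.algebra_section_stalk W.presheaf (⟨hU.fromSpec P, hxU⟩ : U)
  have : IsLocalization.AtPrime (W.presheaf.stalk (hU.fromSpec P)) P.asIdeal :=
    hU.isLocalization_stalk' P hxU
  obtain ⟨b, hb⟩ := ha _ hxU
  obtain ⟨⟨t, d⟩, htd⟩ := IsLocalization.surj P.asIdeal.primeCompl b
  refine d.2 (hIM ⟨t, ?_⟩)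
  have h := congrArg (sAlg (hU.fromSpec P)) htd
  rw [map_mul, hb] at h
  rw [← germToFunctionField_eq hxU, ← germToFunctionField_eq hxU, mul_comm]
  exact h.symm

/-- The units of a local ring as a subgroup of the units of the function field. -/
def unitsAt (x : W) : Subgroup W.functionFieldˣ := (Units.map (sAlg x).toMonoidHom).range

lemma mem_unitsAt_iff {x : W} {u : W.functionFieldˣ} :
    u ∈ unitsAt x ↔ (u : W.functionField) ∈ stalkSub x ∧
      ((u⁻¹ : W.functionFieldˣ) : W.functionField) ∈ stalkSub x := by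
  constructor
  · rintro ⟨a, rfl⟩
    exact ⟨⟨a, rfl⟩, ⟨(a⁻¹ : (W.presheaf.stalk x)ˣ), rfl⟩⟩
  · rintro ⟨⟨a, ha⟩, ⟨b, hb⟩⟩
    have hab : a * b = 1 := sAlg_injective x (by rw [map_mul, ha, hb, map_one, Units.mul_inv])
    exact ⟨⟨a, b, hab, by rw [mul_comm, hab]⟩, Units.ext ha⟩

lemma unitsAt_mono {x y : W} (h : y ⤳ x) : unitsAt x ≤ unitsAt y := fun u hu => by
  rw [mem_unitsAt_iff] at hu ⊢
  exact ⟨stalkSub_mono h hu.1, stalkSub_mono h hu.2⟩

lemma mem_unitsAt_genericPoint (u : W.functionFieldˣ) : u ∈ unitsAt (genericPoint W) :=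
  mem_unitsAt_iff.mpr ⟨mem_stalkSub_genericPoint _, mem_stalkSub_genericPoint _⟩

section Ev

variable {R : CommRingCat.{u}} [IsLocalRing R]

open scoped Classical in
/-- Evaluation of a rational function at a point with values in a local ring (zero if the
function is not regular there). -/
def ev (m : Spec R ⟶ W) (a : W.functionField) : R :=
  if ha : a ∈ stalkSub (m (IsLocalRing.closedPoint R)) then
    Scheme.stalkClosedPointTo m ha.choose
  else 0

lemma ev_alg (m : Spec R ⟶ W) (a : W.presheaf.stalk (m (IsLocalRing.closedPoint R))) :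
    ev m (sAlg _ a) = Scheme.stalkClosedPointTo m a := by
  have ha : sAlg _ a ∈ stalkSub (m (IsLocalRing.closedPoint R)) := ⟨a, rfl⟩
  rw [ev, dif_pos ha, sAlg_injective _ ha.choose_spec]

/-- The basic computation: evaluation through any presentation of the morphism at a point. -/
lemma ev_eq (m : Spec R ⟶ W) {x : W} (ψ : W.presheaf.stalk x ⟶ R)
    (h : m = Spec.map ψ ≫ W.fromSpecStalk x) :
    m (IsLocalRing.closedPoint R) ⤳ x ∧ ∀ a, ev m (sAlg x a) = ψ a := by
  have hs : m (IsLocalRing.closedPoint R) ⤳ x := by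
    have h1 : m (IsLocalRing.closedPoint R) =
        W.fromSpecStalk x (Spec.map ψ (IsLocalRing.closedPoint R)) := by
      rw [h]; exact Scheme.Hom.comp_apply _ _ _
    rw [h1]
    exact (Scheme.range_fromSpecStalk (X := W) (x := x)).le ⟨_, rfl⟩
  refine ⟨hs, fun a => ?_⟩
  have hψ : W.presheaf.stalkSpecializes hs ≫ Scheme.stalkClosedPointTo m = ψ := by
    refine Spec.map_injective ((cancel_mono (W.fromSpecStalk x)).mp ?_)
    rw [Spec.map_comp, Category.assoc, Scheme.SpecMap_stalkSpecializes_fromSpecStalk,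
      Scheme.Spec_stalkClosedPointTo_fromSpecStalk, h]
  rw [← sAlg_specializes hs a, ev_alg]
  exact congr($hψ a)

lemma ev_add (m : Spec R ⟶ W) {a b : W.functionField}
    (ha : a ∈ stalkSub (m (IsLocalRing.closedPoint R)))
    (hb : b ∈ stalkSub (m (IsLocalRing.closedPoint R))) : ev m (a + b) = ev m a + ev m b := by
  obtain ⟨a, rfl⟩ := ha
  obtain ⟨b, rfl⟩ := hb
  rw [← map_add, ev_alg, ev_alg, ev_alg, map_add]

lemma ev_mul (m : Spec R ⟶ W) {a b : W.functionField}
    (ha : a ∈ stalkSub (m (IsLocalRing.closedPoint R)))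
    (hb : b ∈ stalkSub (m (IsLocalRing.closedPoint R))) : ev m (a * b) = ev m a * ev m b := by
  obtain ⟨a, rfl⟩ := ha
  obtain ⟨b, rfl⟩ := hb
  rw [← map_mul, ev_alg, ev_alg, ev_alg, map_mul]

lemma ev_neg (m : Spec R ⟶ W) {a : W.functionField}
    (ha : a ∈ stalkSub (m (IsLocalRing.closedPoint R))) : ev m (-a) = -ev m a := by
  obtain ⟨a, rfl⟩ := ha
  rw [← map_neg, ev_alg, ev_alg, map_neg]

lemma ev_sub (m : Spec R ⟶ W) {a b : W.functionField}
    (ha : a ∈ stalkSub (m (IsLocalRing.closedPoint R)))
    (hb : b ∈ stalkSub (m (IsLocalRing.closedPoint R))) : ev m (a - b) = ev m a - ev m b := by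
  obtain ⟨a, rfl⟩ := ha
  obtain ⟨b, rfl⟩ := hb
  rw [← map_sub, ev_alg, ev_alg, ev_alg, map_sub]

lemma ev_one (m : Spec R ⟶ W) : ev m 1 = 1 := by
  rw [← map_one (sAlg (m (IsLocalRing.closedPoint R))), ev_alg, map_one]

lemma ev_zero (m : Spec R ⟶ W) : ev m 0 = 0 := by
  rw [← map_zero (sAlg (m (IsLocalRing.closedPoint R))), ev_alg, map_zero]

lemma ev_sum (m : Spec R ⟶ W) {ι : Type*} (s : Finset ι) (a : ι → W.functionField)
    (ha : ∀ i ∈ s, a i ∈ stalkSub (m (IsLocalRing.closedPoint R))) :
    ev m (∑ i ∈ s, a i) = ∑ i ∈ s, ev m (a i) := by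
  classical
  induction s using Finset.induction_on with
  | empty => simp [ev_zero]
  | insert i t hit ih =>
    rw [Finset.sum_insert hit, Finset.sum_insert hit, ev_add m (ha i (Finset.mem_insert_self i t))
      (Subring.sum_mem _ fun j hj => ha j (Finset.mem_insert_of_mem hj)),
      ih fun j hj => ha j (Finset.mem_insert_of_mem hj)]

/-- Change of coefficients. -/
lemma ev_specMap {R' : CommRingCat.{u}} [IsLocalRing R'] (φ : R ⟶ R') (m : Spec R ⟶ W)
    {a : W.functionField} (ha : a ∈ stalkSub (m (IsLocalRing.closedPoint R))) :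
    a ∈ stalkSub ((Spec.map φ ≫ m) (IsLocalRing.closedPoint R')) ∧
      ev (Spec.map φ ≫ m) a = φ (ev m a) := by
  obtain ⟨a, rfl⟩ := ha
  obtain ⟨hs, he⟩ := ev_eq (Spec.map φ ≫ m) (Scheme.stalkClosedPointTo m ≫ φ)
    (by rw [Spec.map_comp, Category.assoc, Scheme.Spec_stalkClosedPointTo_fromSpecStalk])
  refine ⟨stalkSub_mono hs ⟨a, rfl⟩, ?_⟩
  rw [he a, ev_alg]
  rfl

lemma ev_congr (m m' : Spec R ⟶ W) (h : m = m') (a : W.functionField) : ev m a = ev m' a := by
  rw [h]

end Ev

instance isLocalRing_functionField : IsLocalRing W.functionField := inferInstance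

variable {T : Scheme.{u}} [IsIntegral T]

/-- Pullback of rational functions that are regular at the image of the generic point. -/
def res (h : T ⟶ W) (a : W.functionField) : T.functionField :=
  ev (T.fromSpecStalk (genericPoint T) ≫ h) a

lemma res_closedPoint (h : T ⟶ W) :
    (T.fromSpecStalk (genericPoint T) ≫ h) (IsLocalRing.closedPoint T.functionField) =
      h (genericPoint T) := by
  exact (Scheme.Hom.comp_apply _ _ _).trans (congrArg h Scheme.fromSpecStalk_closedPoint)

lemma res_sAlg (h : T ⟶ W) (y : T) (a : W.presheaf.stalk (h y)) :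
    res h (sAlg (h y) a) = sAlg y (h.stalkMap y a) := by
  have hy : genericPoint T ⤳ y := (genericPoint_spec T).specializes trivial
  refine (ev_eq (T.fromSpecStalk (genericPoint T) ≫ h)
    (h.stalkMap y ≫ T.presheaf.stalkSpecializes hy) ?_).2 a
  rw [Spec.map_comp, Category.assoc, Scheme.SpecMap_stalkMap_fromSpecStalk,
    Scheme.SpecMap_stalkSpecializes_fromSpecStalk_assoc]

lemma res_mem (h : T ⟶ W) {y : T} {a : W.functionField} (ha : a ∈ stalkSub (h y)) :
    res h a ∈ stalkSub y := by
  obtain ⟨a, rfl⟩ := ha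
  exact ⟨_, (res_sAlg h y a).symm⟩

lemma res_add (h : T ⟶ W) {a b : W.functionField} (ha : a ∈ stalkSub (h (genericPoint T)))
    (hb : b ∈ stalkSub (h (genericPoint T))) : res h (a + b) = res h a + res h b :=
  ev_add _ (by rwa [res_closedPoint]) (by rwa [res_closedPoint])

lemma res_sub (h : T ⟶ W) {a b : W.functionField} (ha : a ∈ stalkSub (h (genericPoint T)))
    (hb : b ∈ stalkSub (h (genericPoint T))) : res h (a - b) = res h a - res h b :=
  ev_sub _ (by rwa [res_closedPoint]) (by rwa [res_closedPoint])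

lemma res_mul (h : T ⟶ W) {a b : W.functionField} (ha : a ∈ stalkSub (h (genericPoint T)))
    (hb : b ∈ stalkSub (h (genericPoint T))) : res h (a * b) = res h a * res h b :=
  ev_mul _ (by rwa [res_closedPoint]) (by rwa [res_closedPoint])

@[simp]
lemma res_one (h : T ⟶ W) : res h 1 = 1 := ev_one _

@[simp]
lemma res_zero (h : T ⟶ W) : res h 0 = 0 := ev_zero _

lemma res_id (a : W.functionField) : res (𝟙 W) a = a := by
  have h := res_sAlg (𝟙 W) (genericPoint W) a
  rw [Scheme.Hom.stalkMap_id] at h
  change res (𝟙 W) (sAlg (genericPoint W) a) = sAlg (genericPoint W) a at h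
  rwa [sAlg_genericPoint, RingHom.id_apply] at h

/-- Evaluation commutes with pullback. -/
lemma ev_res {R : CommRingCat.{u}} [IsLocalRing R] (m : Spec R ⟶ T) (h : T ⟶ W)
    {a : W.functionField} (ha : a ∈ stalkSub (h (m (IsLocalRing.closedPoint R)))) :
    ev (m ≫ h) a = ev m (res h a) := by
  obtain ⟨a, rfl⟩ := ha
  rw [res_sAlg, ev_alg]
  refine (ev_eq (m ≫ h) (h.stalkMap _ ≫ Scheme.stalkClosedPointTo m) ?_).2 a
  rw [Spec.map_comp, Category.assoc, Scheme.SpecMap_stalkMap_fromSpecStalk,
    Scheme.Spec_stalkClosedPointTo_fromSpecStalk_assoc]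

lemma res_res {T' : Scheme.{u}} [IsIntegral T'] (k : T' ⟶ T) (h : T ⟶ W) {a : W.functionField}
    (ha : a ∈ stalkSub (h (k (genericPoint T')))) : res (k ≫ h) a = res k (res h a) := by
  unfold res
  rw [← Category.assoc]
  exact ev_res _ h (by rwa [res_closedPoint])

section OverField

variable {K : Type u} [Field K] (s : W ⟶ Spec (CommRingCat.of K))

/-- The constants in the function field. -/
def kHom : K →+* W.functionField := (stalkStr s (genericPoint W)).hom

lemma sAlg_stalkStr (x : W) (c : K) : sAlg x (stalkStr s x c) = kHom s c := by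
  have hx : genericPoint W ⤳ x := (genericPoint_spec W).specializes trivial
  have h : stalkStr s x ≫ W.presheaf.stalkSpecializes hx = stalkStr s (genericPoint W) := by
    refine Spec.map_injective ?_
    rw [Spec.map_comp, specMap_stalkStr, specMap_stalkStr,
      Scheme.SpecMap_stalkSpecializes_fromSpecStalk_assoc]
  exact congr($h c)

lemma kHom_mem (x : W) (c : K) : kHom s c ∈ stalkSub x := ⟨_, sAlg_stalkStr s x c⟩

lemma ev_kHom {R : CommRingCat.{u}} [IsLocalRing R] (m : Spec R ⟶ W)
    (χ : CommRingCat.of K ⟶ R) (h : m ≫ s = Spec.map χ) (c : K) : ev m (kHom s c) = χ c := by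
  rw [← sAlg_stalkStr s (m (IsLocalRing.closedPoint R)) c, ev_alg]
  have h' : stalkStr s _ ≫ Scheme.stalkClosedPointTo m = χ := by
    refine Spec.map_injective ?_
    rw [Spec.map_comp, specMap_stalkStr, Scheme.Spec_stalkClosedPointTo_fromSpecStalk_assoc, h]
  exact congr($h' c)

lemma res_kHom (t : T ⟶ Spec (CommRingCat.of K)) (h : T ⟶ W) (hh : h ≫ s = t) (c : K) :
    res h (kHom s c) = kHom t c :=
  ev_kHom s _ (stalkStr t (genericPoint T)) (by rw [Category.assoc, hh, specMap_stalkStr]) c

/-- A valuation of the function field of a proper variety has a centre. -/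
lemma exists_centre [UniversallyClosed s] (V : ValuationSubring W.functionField)
    (hV : ∀ c, kHom s c ∈ V) :
    ∃ x : W, stalkSub x ≤ V.toSubring ∧
      ∀ a ∈ stalkSub x, a ≠ 0 → a⁻¹ ∈ V → a⁻¹ ∈ stalkSub x := by
  have hex : ValuativeCriterion.Existence s := by
    have h : (ValuativeCriterion.Existence ⊓ @QuasiCompact : MorphismProperty Scheme) s := by
      rw [← UniversallyClosed.eq_valuativeCriterion]; infer_instance
    exact h.1
  have w : W.fromSpecStalk (genericPoint W) ≫ s =
      Spec.map (CommRingCat.ofHom (algebraMap V W.functionField)) ≫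
        Spec.map (CommRingCat.ofHom ((kHom s).codRestrict V.toSubring hV)) := by
    rw [← specMap_stalkStr, ← Spec.map_comp]
    rfl
  obtain ⟨l, hl₁, -⟩ := (hex { R := V, K := W.functionField, commSq := ⟨w⟩, .. }).exists_lift
  dsimp only at hl₁
  let x := l (IsLocalRing.closedPoint (CommRingCat.of V))
  let ψ : W.presheaf.stalk x ⟶ CommRingCat.of V := Scheme.stalkClosedPointTo l
  have hψ : ∀ a : W.presheaf.stalk x, ((ψ a : V) : W.functionField) = sAlg x a := fun a => by
    have h1 := (ev_eq (W.fromSpecStalk (genericPoint W))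
      (ψ ≫ CommRingCat.ofHom (algebraMap V W.functionField)) (by
        refine hl₁.symm.trans ?_
        refine (congrArg (Spec.map (CommRingCat.ofHom (algebraMap V W.functionField)) ≫ ·)
          (Scheme.Spec_stalkClosedPointTo_fromSpecStalk l).symm).trans ?_
        exact (Category.assoc _ _ _).symm.trans
          (congrArg (· ≫ W.fromSpecStalk x) (Spec.map_comp _ _).symm))).2 a
    have h2 := res_id (W := W) (sAlg x a)
    unfold res at h2
    rw [Category.comp_id, h1] at h2
    exact h2
  refine ⟨x, ?_, ?_⟩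
  · rintro _ ⟨a, rfl⟩
    exact hψ a ▸ (ψ a).2
  · rintro _ ⟨a, rfl⟩ ha0 hinv
    have hu : IsUnit (ψ a) := by
      refine IsUnit.of_mul_eq_one (⟨_, hinv⟩ : V) (Subtype.ext ?_)
      show ((ψ a : V) : W.functionField) * (sAlg x a)⁻¹ = 1
      rw [hψ a, mul_inv_cancel₀ ha0]
    have : IsLocalHom ψ.hom := Scheme.isLocalHom_stalkClosedPointTo l
    obtain ⟨u, rfl⟩ := (IsUnit.of_map ψ.hom a hu)
    exact ⟨(u⁻¹ : (W.presheaf.stalk x)ˣ), by rw [← map_units_inv]⟩

/-- A criterion of integrality over a subring containing the constants. -/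
lemma isIntegral_of_centres [UniversallyClosed s] (B : Subring W.functionField)
    (hB : ∀ c, kHom s c ∈ B) (a : W.functionField)
    (h : ∀ (V : ValuationSubring W.functionField) (x : W), B ≤ V.toSubring →
      stalkSub x ≤ V.toSubring → (∀ b ∈ stalkSub x, b ≠ 0 → b⁻¹ ∈ V → b⁻¹ ∈ stalkSub x) →
      a ∈ V) :
    _root_.IsIntegral B a := by
  have h' : a ∈ (⨅ V : {V : ValuationSubring W.functionField //
      (B : Set W.functionField) ⊆ V.toSubring}, V.1.toSubring) := by
    rw [Subring.mem_iInf]
    rintro ⟨V, hV⟩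
    obtain ⟨x, h1, h2⟩ := exists_centre s V fun c => hV (hB c)
    exact h V x hV h1 h2
  rw [iInf_valuationSubring_superset] at h'
  have e : Subring.closure (B : Set W.functionField) = B := Subring.closure_eq B
  exact e ▸ h'

end OverField

end FLTAgent.AV
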