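/-
Area AV (towards S26): local rings of smooth varieties at closed points are unique factorisation
domains and embed into rings of power series.
-/
import Fermat.Agent.AV.Geometry
import Fermat.Agent.AV.Tangent

set_option autoImplicit false

noncomputable section

universe u

open CategoryTheory CategoryTheory.Limits AlgebraicGeometry

namespace FLTAgent.AV

variable {K : Type u} [Field K]

/-- Power series in `n` variables. -/
abbrev PS (K : Type u) [Field K] (n : ℕ) : Type u := MvPowerSeries (Fin n) K

lemma mem_span_X_of_constantCoeff : ∀ (n : ℕ) (p : PS K n),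
    MvPowerSeries.constantCoeff p = 0 →
      p ∈ Ideal.span (Set.range (MvPowerSeries.X : Fin n → PS K n)) := by
  intro n
  induction n with
  | zero =>
    intro p hp
    have : p = 0 := by
      ext d
      rw [Subsingleton.elim d 0, MvPowerSeries.coeff_zero_eq_constantCoeff_apply, hp, map_zero]
    rw [this]
    exact zero_mem _
  | succ n ih =>
    intro p hp
    let e := MvPowerSeries.finSuccEquiv K n
    let r : PS K n := PowerSeries.constantCoeff (e p)
    have hr : MvPowerSeries.constantCoeff r = 0 := by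
      show MvPowerSeries.constantCoeff (PowerSeries.constantCoeff (e p)) = 0
      rw [← PowerSeries.coeff_zero_eq_constantCoeff_apply,
        ← MvPowerSeries.coeff_zero_eq_constantCoeff_apply,
        MvPowerSeries.coeff_coeff_finSuccEquiv, Finsupp.cons_zero_zero,
        MvPowerSeries.coeff_zero_eq_constantCoeff_apply, hp]
    let J := Ideal.span (Set.range (MvPowerSeries.X : Fin (n + 1) → PS K (n + 1)))
    have hC : ∀ q ∈ Ideal.span (Set.range (MvPowerSeries.X : Fin n → PS K n)),
        e.symm (PowerSeries.C q) ∈ J := by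
      intro q hq
      induction hq using Submodule.span_induction with
      | mem x hx =>
        obtain ⟨j, rfl⟩ := hx
        rw [← MvPowerSeries.finSuccEquiv_X_succ (R := K) j, e.symm_apply_apply]
        exact Ideal.subset_span ⟨_, rfl⟩
      | zero => simp [J]
      | add x y _ _ hx hy => rw [map_add, map_add]; exact add_mem hx hy
      | smul c x _ hx => rw [smul_eq_mul, map_mul, map_mul]; exact J.mul_mem_left _ hx
    obtain ⟨q, hq⟩ : (PowerSeries.X : PowerSeries (PS K n)) ∣ e p - PowerSeries.C r :=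
      PowerSeries.X_dvd_iff.mpr (by simp [r])
    have hp' : p = e.symm (PowerSeries.C r) + MvPowerSeries.X 0 * e.symm q := by
      refine e.injective ?_
      rw [map_add, map_mul, e.apply_symm_apply, e.apply_symm_apply,
        MvPowerSeries.finSuccEquiv_X_zero, ← hq, add_sub_cancel]
    rw [hp']
    exact J.add_mem (hC r (ih r hr)) (J.mul_mem_right _ (Ideal.subset_span ⟨0, rfl⟩))

lemma maximalIdeal_ps (n : ℕ) :
    IsLocalRing.maximalIdeal (PS K n) =
      Ideal.span (Set.range (MvPowerSeries.X : Fin n → PS K n)) := by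
  refine le_antisymm (fun p hp => mem_span_X_of_constantCoeff n p ?_) (Ideal.span_le.mpr ?_)
  · by_contra h
    exact (IsLocalRing.mem_maximalIdeal p).mp hp
      (MvPowerSeries.isUnit_iff_constantCoeff.mpr (Ne.isUnit h))
  · rintro _ ⟨i, rfl⟩
    refine (IsLocalRing.mem_maximalIdeal _).mpr fun h => ?_
    exact (MvPowerSeries.isUnit_iff_constantCoeff.mp h).ne_zero (MvPowerSeries.constantCoeff_X i)

instance isAdicComplete_ps (n : ℕ) :
    IsAdicComplete (IsLocalRing.maximalIdeal (PS K n)) (PS K n) :=
  maximalIdeal_ps (K := K) n ▸ inferInstance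

instance isDomain_ps (n : ℕ) : IsDomain (PS K n) := NoZeroDivisors.to_isDomain _

/-- The substitution restricting a series to the line through `c`. -/
def lineSubst {n : ℕ} (c : Fin n → K) (i : Fin n) : MvPowerSeries Unit K :=
  MvPowerSeries.monomial (Finsupp.single () 1) (c i)

lemma hasSubst_lineSubst {n : ℕ} (c : Fin n → K) : MvPowerSeries.HasSubst (lineSubst c) :=
  MvPowerSeries.hasSubst_of_constantCoeff_zero fun i => by
    classical
    rw [lineSubst, ← MvPowerSeries.coeff_zero_eq_constantCoeff_apply,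
      MvPowerSeries.coeff_monomial, if_neg]
    exact fun h => one_ne_zero (Finsupp.single_eq_zero.mp h.symm)

lemma coeff_lineSubst {n : ℕ} (c : Fin n → K) (f : PS K n) (d : ℕ) :
    MvPowerSeries.coeff (Finsupp.single () d) (MvPowerSeries.subst (lineSubst c) f) =
      ∑ β ∈ (Finsupp.finite_of_degree_le (σ := Fin n) d).toFinset,
        if β.degree = d then MvPowerSeries.coeff β f * ∏ i, c i ^ β i else 0 := by
  classical
  rw [MvPowerSeries.coeff_subst (hasSubst_lineSubst c)]
  have hprod : ∀ β : Fin n →₀ ℕ, (β.prod fun i e => lineSubst c i ^ e) =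
      MvPowerSeries.monomial (Finsupp.single () β.degree) (∏ i, c i ^ β i) := by
    intro β
    rw [Finsupp.prod_fintype _ _ (fun i => pow_zero _), Finsupp.degree_eq_sum]
    refine Finset.induction_on (Finset.univ : Finset (Fin n)) ?_ ?_
    · simp [MvPowerSeries.monomial_zero_one]
    · intro i s hi ih
      rw [Finset.prod_insert hi, Finset.prod_insert hi, Finset.sum_insert hi, ih, lineSubst,
        MvPowerSeries.monomial_pow, MvPowerSeries.monomial_mul_monomial, Finsupp.single_add,
        Finsupp.smul_single, smul_eq_mul, mul_one]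
  rw [finsum_eq_sum_of_support_subset _ (s := (Finsupp.finite_of_degree_le (σ := Fin n) d).toFinset)]
  · refine Finset.sum_congr rfl fun β _ => ?_
    rw [hprod, MvPowerSeries.coeff_monomial, smul_eq_mul]
    by_cases h : β.degree = d
    · rw [if_pos h, if_pos (by rw [h])]
    · rw [if_neg h, if_neg, mul_zero]
      exact fun h' => h (Finsupp.single_injective () h').symm
  · intro β hβ
    simp only [Function.mem_support, hprod, MvPowerSeries.coeff_monomial] at hβ
    simp only [Set.Finite.coe_toFinset, Set.mem_ofPred_eq]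
    by_contra h
    refine hβ ?_
    rw [if_neg, smul_zero]
    exact fun h' => h (Finsupp.single_injective () h').ge

variable [IsAlgClosed K]

/-- Some linear change of variables makes a series regular in the first variable. -/
lemma exists_regular_change {n : ℕ} {f : PS K (n + 1)} (hf : f ≠ 0) :
    ∃ σ : PS K (n + 1) ≃+* PS K (n + 1),
      (MvPowerSeries.finSuccEquiv K n (σ f)).map (IsLocalRing.residue (PS K n)) ≠ 0 := by
  classical
  obtain ⟨γ, hγ⟩ : ∃ γ, MvPowerSeries.coeff γ f ≠ 0 := by
    by_contra h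
    simp only [not_exists, not_not] at h
    exact hf (MvPowerSeries.ext fun β => by simpa using h β)
  let d := γ.degree
  let F : MvPolynomial (Fin (n + 1)) K :=
    ∑ β ∈ (Finsupp.finite_of_degree_le (σ := Fin (n + 1)) d).toFinset,
      if β.degree = d then MvPolynomial.monomial β (MvPowerSeries.coeff β f) else 0
  have hF : F ≠ 0 := by
    intro h
    refine hγ ?_
    have h' := congrArg (MvPolynomial.coeff γ) h
    simp only [F, MvPolynomial.coeff_sum, MvPolynomial.coeff_zero] at h'
    rw [Finset.sum_eq_single γ] at h'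
    · simpa [d] using h'
    · intro β _ hne
      split_ifs <;> simp [MvPolynomial.coeff_monomial, hne]
    · intro h2
      exact absurd (by simp [d]) h2
  obtain ⟨c, hc⟩ : ∃ c : Fin (n + 1) → K, MvPolynomial.eval c (MvPolynomial.X 0 * F) ≠ 0 := by
    by_contra h
    simp only [not_exists, not_not] at h
    exact mul_ne_zero (MvPolynomial.X_ne_zero 0) hF
      (MvPolynomial.funext fun c => by rw [h c, map_zero])
  rw [map_mul, MvPolynomial.eval_X, mul_ne_zero_iff] at hc
  let a : Fin (n + 1) → PS K (n + 1) := fun i =>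
    if i = 0 then MvPowerSeries.C (c 0) * MvPowerSeries.X 0
    else MvPowerSeries.X i + MvPowerSeries.C (c i) * MvPowerSeries.X 0
  let b : Fin (n + 1) → PS K (n + 1) := fun i =>
    if i = 0 then MvPowerSeries.C ((c 0)⁻¹) * MvPowerSeries.X 0
    else MvPowerSeries.X i - MvPowerSeries.C (c i / c 0) * MvPowerSeries.X 0
  have ha : MvPowerSeries.HasSubst a := MvPowerSeries.hasSubst_of_constantCoeff_zero fun i => by
    by_cases hi : i = 0 <;> simp [a, hi]
  have hb : MvPowerSeries.HasSubst b := MvPowerSeries.hasSubst_of_constantCoeff_zero fun i => by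
    by_cases hi : i = 0 <;> simp [b, hi]
  have hinv : ∀ (a b : Fin (n + 1) → PS K (n + 1)), MvPowerSeries.HasSubst a →
      MvPowerSeries.HasSubst b → (∀ i, MvPowerSeries.subst b (a i) = MvPowerSeries.X i) →
      ∀ p : PS K (n + 1), MvPowerSeries.subst b (MvPowerSeries.subst a p) = p := by
    intro a b ha hb h p
    rw [MvPowerSeries.subst_comp_subst_apply ha hb, funext h]
    exact congr_fun MvPowerSeries.subst_self p
  have hab : ∀ i, MvPowerSeries.subst b (a i) = MvPowerSeries.X i := by
    intro i
    rw [← MvPowerSeries.coe_substAlgHom hb]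
    by_cases hi : i = 0
    · subst hi
      simp only [a, ↓reduceIte, map_mul, MvPowerSeries.substAlgHom_X, b]
      rw [MvPowerSeries.coe_substAlgHom, MvPowerSeries.subst_C, ← mul_assoc, ← map_mul,
        mul_inv_cancel₀ hc.1, map_one, one_mul]
    · simp only [a, if_neg hi, map_add, map_mul, MvPowerSeries.substAlgHom_X]
      rw [MvPowerSeries.coe_substAlgHom, MvPowerSeries.subst_C]
      simp only [b, ↓reduceIte, if_neg hi, ← mul_assoc, ← map_mul, div_eq_mul_inv]
      ring
  have hba : ∀ i, MvPowerSeries.subst a (b i) = MvPowerSeries.X i := by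
    intro i
    rw [← MvPowerSeries.coe_substAlgHom ha]
    by_cases hi : i = 0
    · subst hi
      simp only [b, ↓reduceIte, map_mul, MvPowerSeries.substAlgHom_X, a]
      rw [MvPowerSeries.coe_substAlgHom, MvPowerSeries.subst_C, ← mul_assoc, ← map_mul,
        inv_mul_cancel₀ hc.1, map_one, one_mul]
    · simp only [b, if_neg hi, map_sub, map_mul, MvPowerSeries.substAlgHom_X]
      rw [MvPowerSeries.coe_substAlgHom, MvPowerSeries.subst_C]
      simp only [a, ↓reduceIte, if_neg hi, ← mul_assoc, ← map_mul, div_mul_cancel₀ _ hc.1]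
      ring
  let σ : PS K (n + 1) ≃+* PS K (n + 1) :=
    RingEquiv.ofRingHom (MvPowerSeries.substAlgHom (R := K) ha).toRingHom
      (MvPowerSeries.substAlgHom (R := K) hb).toRingHom
      (RingHom.ext fun p => by
        simp only [RingHom.coe_comp, AlgHom.toRingHom_eq_coe, RingHom.coe_coe,
          Function.comp_apply, RingHom.id_apply, MvPowerSeries.coe_substAlgHom]
        exact hinv b a hb ha hba p)
      (RingHom.ext fun p => by
        simp only [RingHom.coe_comp, AlgHom.toRingHom_eq_coe, RingHom.coe_coe,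
          Function.comp_apply, RingHom.id_apply, MvPowerSeries.coe_substAlgHom]
        exact hinv a b ha hb hab p)
  refine ⟨σ, fun h0 => ?_⟩
  -- the coefficient of `X₀ ^ d` is the value of `F` at `c`
  let e₀ : Fin (n + 1) → K := fun i => if i = 0 then 1 else 0
  have hline : ∀ i, MvPowerSeries.subst (lineSubst e₀) (a i) = lineSubst c i := by
    intro i
    have hX : ∀ j, lineSubst e₀ j =
        MvPowerSeries.C (e₀ j) * MvPowerSeries.monomial (Finsupp.single () 1) 1 := by
      intro j
      rw [lineSubst, ← MvPowerSeries.monomial_zero_eq_C_apply,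
        MvPowerSeries.monomial_mul_monomial, zero_add, mul_one]
    rw [← MvPowerSeries.coe_substAlgHom (hasSubst_lineSubst e₀)]
    by_cases hi : i = 0
    · subst hi
      simp only [a, ↓reduceIte, map_mul, MvPowerSeries.substAlgHom_X]
      rw [MvPowerSeries.coe_substAlgHom, MvPowerSeries.subst_C, hX 0, lineSubst]
      simp only [e₀, ↓reduceIte, map_one, one_mul]
      rw [← MvPowerSeries.monomial_zero_eq_C_apply, MvPowerSeries.monomial_mul_monomial,
        zero_add, mul_one]
    · simp only [a, if_neg hi, map_add, map_mul, MvPowerSeries.substAlgHom_X]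
      rw [MvPowerSeries.coe_substAlgHom, MvPowerSeries.subst_C, hX 0, hX i, lineSubst]
      simp only [e₀, ↓reduceIte, if_neg hi, map_one, one_mul, map_zero, zero_mul, zero_add]
      rw [← MvPowerSeries.monomial_zero_eq_C_apply, MvPowerSeries.monomial_mul_monomial,
        zero_add, mul_one]
  have hval : MvPolynomial.eval c F =
      MvPowerSeries.coeff (Finsupp.single () d)
        (MvPowerSeries.subst (lineSubst e₀) (σ f)) := by
    change _ = MvPowerSeries.coeff (Finsupp.single () d)
      (MvPowerSeries.subst (lineSubst e₀) (MvPowerSeries.substAlgHom (R := K) ha f))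
    rw [MvPowerSeries.coe_substAlgHom, MvPowerSeries.subst_comp_subst_apply ha
      (hasSubst_lineSubst e₀), funext hline, coeff_lineSubst, map_sum]
    refine Finset.sum_congr rfl fun β _ => ?_
    split_ifs
    · rw [MvPolynomial.eval_monomial, Finsupp.prod_fintype _ _ (fun i => pow_zero _)]
    · rw [map_zero]
  refine hc.2 (hval.trans ?_)
  rw [coeff_lineSubst]
  refine Finset.sum_eq_zero fun β _ => ?_
  split_ifs with hβ
  · by_cases hs : ∃ i, i ≠ 0 ∧ β i ≠ 0
    · obtain ⟨i, hi, hβi⟩ := hs
      rw [Finset.prod_eq_zero (Finset.mem_univ i) (by simp [e₀, hi, zero_pow hβi]), mul_zero]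
    · simp only [not_exists, not_and, not_not] at hs
      have hβ' : β = (0 : Fin n →₀ ℕ).cons d := by
        have hd : β 0 = d := by
          rw [← hβ, Finsupp.degree_eq_sum, Fin.sum_univ_succ]
          simp [hs _ (Fin.succ_ne_zero _)]
        ext i
        refine Fin.cases ?_ (fun j => ?_) i
        · simp [hd]
        · simp [hs _ (Fin.succ_ne_zero j)]
      have h1 := congrArg (PowerSeries.coeff d) h0
      rw [PowerSeries.coeff_map, map_zero, IsLocalRing.residue_eq_zero_iff] at h1
      have h2 : MvPowerSeries.constantCoeff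
          (PowerSeries.coeff d (MvPowerSeries.finSuccEquiv K n (σ f))) = 0 := by
        by_contra h2
        exact (IsLocalRing.mem_maximalIdeal _).mp h1
          (MvPowerSeries.isUnit_iff_constantCoeff.mpr (Ne.isUnit h2))
      rw [← MvPowerSeries.coeff_zero_eq_constantCoeff_apply,
        MvPowerSeries.coeff_coeff_finSuccEquiv, ← hβ'] at h2
      rw [h2, zero_mul]
  · rfl

/-- Formal power series over an algebraically closed field form a factorial ring. -/
theorem uniqueFactorizationMonoid_ps : ∀ n : ℕ, UniqueFactorizationMonoid (PS K n) := by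
  intro n
  induction n with
  | zero => exact (MvPowerSeries.isEmptyEquiv (σ := Fin 0) (R := K)).toMulEquiv.symm.uniqueFactorizationMonoid inferInstance
  | succ n ih =>
    have := ih
    refine UniqueFactorizationMonoid.iff_exists_prime_mem_of_isPrime.mpr fun P hP0 hP => ?_
    obtain ⟨f, hfP, hf⟩ := Submodule.exists_mem_ne_zero_of_ne_bot hP0
    obtain ⟨σ, hσ⟩ := exists_regular_change hf
    let e : PS K (n + 1) ≃+* PowerSeries (PS K n) :=
      σ.trans (MvPowerSeries.finSuccEquiv K n).toRingEquiv
    let P' : Ideal (PowerSeries (PS K n)) := P.map e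
    have : P'.IsPrime := Ideal.map_isPrime_of_equiv e
    obtain ⟨h, u, hu⟩ := PowerSeries.exists_isWeierstrassFactorization (g := e f) hσ
    have hh : (h : PowerSeries (PS K n)) ∈ P' := by
      have h1 : (h : PowerSeries (PS K n)) * u ∈ P' := hu.eq_mul ▸ Ideal.mem_map_of_mem e hfP
      exact (Ideal.IsPrime.mem_or_mem inferInstance h1).resolve_right
        fun h2 => Ideal.IsPrime.ne_top inferInstance (Ideal.eq_top_of_isUnit_mem _ h2 hu.isUnit)
    let Q : Ideal (Polynomial (PS K n)) := P'.comap (Polynomial.coeToPowerSeries.ringHom)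
    have : Q.IsPrime := Ideal.IsPrime.comap _
    obtain ⟨s, hs, hsh⟩ := UniqueFactorizationMonoid.exists_prime_factors h
      hu.isDistinguishedAt.monic.ne_zero
    obtain ⟨v, hv⟩ := hsh
    have hQ : s.prod ∈ Q := by
      have h1 : s.prod * v ∈ Q := hv.symm ▸ hh
      exact (Ideal.IsPrime.mem_or_mem inferInstance h1).resolve_right
        fun h2 => Ideal.IsPrime.ne_top inferInstance (Ideal.eq_top_of_isUnit_mem _ h2 v.isUnit)
    obtain ⟨q, hqs, hqQ⟩ := (Ideal.IsPrime.multiset_prod_mem_iff_exists_mem inferInstance s).mp hQ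
    obtain ⟨r, hr⟩ : q ∣ h := (Multiset.dvd_prod hqs).trans ⟨v, hv.symm⟩
    have hlc : q.leadingCoeff * r.leadingCoeff = 1 := by
      rw [← Polynomial.leadingCoeff_mul, ← hr, hu.isDistinguishedAt.monic.leadingCoeff]
    let q' := q * Polynomial.C r.leadingCoeff
    have hq'm : q'.Monic := by
      unfold Polynomial.Monic
      rw [Polynomial.leadingCoeff_mul, Polynomial.leadingCoeff_C, hlc]
    have hCu : IsUnit (Polynomial.C r.leadingCoeff) :=
      (IsUnit.of_mul_eq_one _ ((mul_comm _ _).trans hlc)).map Polynomial.C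
    have hq'p : Prime q' := (associated_mul_unit_right q _ hCu).prime (hs q hqs)
    have hq'Q : q' ∈ Q := Q.mul_mem_right _ hqQ
    have hq'd : q' ∣ h := hr ▸ (associated_mul_unit_right q _ hCu).symm.dvd.trans (dvd_mul_right q r)
    have hdist : q'.IsDistinguishedAt (IsLocalRing.maximalIdeal (PS K n)) := by
      have hX := hu.isDistinguishedAt.map_eq_X_pow
      have h1 : q'.map (Ideal.Quotient.mk (IsLocalRing.maximalIdeal (PS K n))) ∣
          h.map (Ideal.Quotient.mk (IsLocalRing.maximalIdeal (PS K n))) :=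
        Polynomial.map_dvd _ hq'd
      rw [hX] at h1
      let : Field (PS K n ⧸ IsLocalRing.maximalIdeal (PS K n)) := Ideal.Quotient.field _
      obtain ⟨i, -, hi⟩ := (dvd_prime_pow Polynomial.prime_X _).mp h1
      have h2 := Polynomial.eq_of_monic_of_associated (hq'm.map _) (Polynomial.monic_X_pow i) hi
      refine ⟨⟨fun {j} hj => ?_⟩, hq'm⟩
      have hdeg : q'.natDegree = i := by
        rw [← hq'm.natDegree_map (Ideal.Quotient.mk (IsLocalRing.maximalIdeal (PS K n))), h2,
          Polynomial.natDegree_X_pow]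
      have h3 := congrArg (fun p => Polynomial.coeff p j) h2
      simp only [Polynomial.coeff_map, Polynomial.coeff_X_pow] at h3
      rw [if_neg (by omega), Ideal.Quotient.eq_zero_iff_mem] at h3
      exact h3
    have hne : (q' : PowerSeries (PS K n)) ≠ 0 := fun hz => hq'p.ne_zero (Polynomial.coe_eq_zero_iff.mp hz)
    have hprime : Prime (q' : PowerSeries (PS K n)) := by
      have : (Ideal.span {q'}).IsPrime := (Ideal.span_singleton_prime hq'p.ne_zero).mpr hq'p
      have : IsDomain (PowerSeries (PS K n) ⧸ Ideal.span {(q' : PowerSeries (PS K n))}) :=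
        (Polynomial.IsDistinguishedAt.algEquivQuotient hdist).symm.toMulEquiv.isDomain
      exact (Ideal.span_singleton_prime hne).mp ((Ideal.Quotient.isDomain_iff_prime _).mp this)
    refine ⟨e.symm (q' : PowerSeries (PS K n)), ?_, (MulEquiv.prime_iff e.symm.toMulEquiv).mpr hprime⟩
    have h4 : (q' : PowerSeries (PS K n)) ∈ P.map e := hq'Q
    rwa [← Ideal.comap_symm, Ideal.mem_comap] at h4

section Descent

variable {R : Type u} [CommRing R] [IsDomain R] [IsLocalRing R] [IsNoetherianRing R]
  {n : ℕ} (ψ : R →+* PS K n)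
  (hdense : ∀ (k : ℕ) (p : PS K n), ∃ r, p - ψ r ∈ IsLocalRing.maximalIdeal (PS K n) ^ k)
  (hsep : ∀ (k : ℕ) (r : R), ψ r ∈ IsLocalRing.maximalIdeal (PS K n) ^ k →
    r ∈ IsLocalRing.maximalIdeal R ^ k)

omit [IsAlgClosed K] [IsDomain R] in
include hsep in
lemma injective_of_separated : Function.Injective ψ := by
  rw [injective_iff_map_eq_zero]
  intro r hr
  have h : r ∈ ⨅ k : ℕ, IsLocalRing.maximalIdeal R ^ k :=
    Submodule.mem_iInf _ |>.mpr fun k => hsep k r (by rw [hr]; exact zero_mem _)
  rwa [Ideal.iInf_pow_eq_bot_of_isLocalRing _ (Ideal.IsPrime.ne_top inferInstance)] at h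

omit [IsDomain R] in
include hdense hsep in
/-- The colon ideal of two elements is principal. -/
lemma exists_colon_generator (a b : R) (hb : b ≠ 0) :
    ∃ c, b ∣ c * a ∧ ∀ r, b ∣ r * a → c ∣ r := by
  have := uniqueFactorizationMonoid_ps (K := K) n
  have hψ := injective_of_separated ψ hsep
  have hψb : ψ b ≠ 0 := fun h => hb (hψ (h.trans (map_zero ψ).symm))
  obtain ⟨a', b', g, hrel, hga, hgb⟩ :=
    UniqueFactorizationMonoid.exists_reduced_factors' (ψ a) (ψ b) hψb
  have hg : g ≠ 0 := left_ne_zero_of_mul (hgb.symm ▸ hψb)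
  have hb' : b' ≠ 0 := right_ne_zero_of_mul (hgb.symm ▸ hψb)
  let J : Ideal R := Submodule.comap (LinearMap.mulRight R a) (Ideal.span {b} : Submodule R R)
  have hJ : ∀ r, r ∈ J ↔ b ∣ r * a := fun r => Ideal.mem_span_singleton
  have hsub : ∀ r ∈ J, b' ∣ ψ r := by
    intro r hr
    obtain ⟨t, ht⟩ := (hJ r).mp hr
    refine (hrel.symm).dvd_of_dvd_mul_right ⟨ψ t, mul_left_cancel₀ hg ?_⟩
    have h := congrArg ψ ht
    rw [map_mul, map_mul, ← hga, ← hgb] at h
    linear_combination h
  have happrox : ∀ k, ∃ r ∈ J, ψ r - b' ∈ IsLocalRing.maximalIdeal (PS K n) ^ k := by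
    intro k
    obtain ⟨k₀, hk₀⟩ := Ideal.exists_pow_inf_eq_pow_smul (IsLocalRing.maximalIdeal R)
      (Ideal.span {a, b} : Submodule R R)
    obtain ⟨r₀, hr₀⟩ := hdense (k + k₀) b'
    obtain ⟨t₀, ht₀⟩ := hdense (k + k₀) a'
    let x := r₀ * a - t₀ * b
    have hx : x ∈ IsLocalRing.maximalIdeal R ^ (k + k₀) := by
      refine hsep _ _ ?_
      have e : ψ x = (b' - ψ r₀) * (-ψ a) + (a' - ψ t₀) * ψ b := by
        simp only [x, map_sub, map_mul]
        rw [← hga, ← hgb]
        ring
      rw [e]
      exact add_mem (Ideal.mul_mem_right _ _ hr₀) (Ideal.mul_mem_right _ _ ht₀)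
    have hxI : x ∈ Ideal.span {a, b} := sub_mem
      (Ideal.mul_mem_left _ _ (Ideal.subset_span (Set.mem_insert _ _)))
      (Ideal.mul_mem_left _ _ (Ideal.subset_span (Set.mem_insert_of_mem _ rfl)))
    have h1 : x ∈ IsLocalRing.maximalIdeal R ^ (k + k₀) • (⊤ : Submodule R R) ⊓ Ideal.span {a, b} :=
      ⟨by rwa [smul_eq_mul, Ideal.mul_top], hxI⟩
    rw [hk₀ (k + k₀) (Nat.le_add_left _ _), Nat.add_sub_cancel] at h1
    have h2 : x ∈ IsLocalRing.maximalIdeal R ^ k * Ideal.span {a, b} :=
      Submodule.smul_mono le_rfl inf_le_right h1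
    rw [show ({a, b} : Set R) = insert a {b} from rfl, Ideal.span_insert, Ideal.mul_sup] at h2
    obtain ⟨y, hy, z, hz, hyz⟩ := Submodule.mem_sup.mp h2
    obtain ⟨α, hα, rfl⟩ := Ideal.mem_mul_span_singleton.mp hy
    obtain ⟨β, -, rfl⟩ := Ideal.mem_mul_span_singleton.mp hz
    refine ⟨r₀ - α, (hJ _).mpr ⟨t₀ + β, ?_⟩, ?_⟩
    · simp only [x] at hyz
      linear_combination (-1 : R) * hyz
    · rw [map_sub]
      have hαM : ψ α ∈ IsLocalRing.maximalIdeal (PS K n) ^ k := by
        have hle : (IsLocalRing.maximalIdeal R).map ψ ≤ IsLocalRing.maximalIdeal (PS K n) := by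
          refine Ideal.map_le_iff_le_comap.mpr fun r hr => ?_
          by_contra hne
          obtain ⟨s, hs⟩ := hdense 1 ((IsUnit.unit (not_not.mp fun hu =>
            hne ((IsLocalRing.mem_maximalIdeal _).mpr hu)))⁻¹ : (PS K n)ˣ)
          have h3 : 1 - r * s ∈ IsLocalRing.maximalIdeal R := by
            refine pow_one (IsLocalRing.maximalIdeal R) ▸ hsep 1 _ ?_
            have := Ideal.mul_mem_left _ (ψ r) hs
            rw [mul_sub, IsUnit.mul_val_inv] at this
            rwa [map_sub, map_one, map_mul]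
          exact (IsLocalRing.maximalIdeal.isMaximal R).ne_top ((Ideal.eq_top_iff_one _).mpr
            (by simpa using add_mem h3 (Ideal.mul_mem_right s _ hr)))
        exact Ideal.pow_right_mono hle k (Ideal.map_pow ψ _ k ▸ Ideal.mem_map_of_mem ψ hα)
      have := neg_mem (add_mem (Ideal.pow_le_pow_right (Nat.le_add_right k k₀) hr₀) hαM)
      convert this using 1
      ring
  let J' := J.map ψ
  have hb'J : b' ∈ J' := by
    have h : Ideal.Quotient.mk J' b' ∈
        ⨅ k : ℕ, IsLocalRing.maximalIdeal (PS K n) ^ k • (⊤ : Submodule (PS K n) (PS K n ⧸ J')) := by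
      rw [Submodule.mem_iInf]
      intro k
      obtain ⟨r, hr, hrk⟩ := happrox k
      have hone : ∀ x : PS K n, Ideal.Quotient.mk J' x = x • (1 : PS K n ⧸ J') := fun x =>
        congrArg (Ideal.Quotient.mk J') (mul_one x).symm
      have e : Ideal.Quotient.mk J' b' = -((ψ r - b') • (1 : PS K n ⧸ J')) := by
        rw [← hone, map_sub,
          Ideal.Quotient.eq_zero_iff_mem.mpr (Ideal.mem_map_of_mem ψ hr), zero_sub, neg_neg]
      rw [e]
      exact neg_mem (Submodule.smul_mem_smul hrk trivial)
    rw [Ideal.iInf_pow_smul_eq_bot_of_isLocalRing _ (Ideal.IsPrime.ne_top inferInstance),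
      Submodule.mem_bot] at h
    exact Ideal.Quotient.eq_zero_iff_mem.mp h
  obtain ⟨c, hcJ, e, he, heu⟩ : ∃ c ∈ J, ∃ e, ψ c = b' * e ∧ IsUnit e := by
    by_contra hcon
    have hle : J' ≤ Ideal.span {b'} * IsLocalRing.maximalIdeal (PS K n) := by
      refine Ideal.map_le_iff_le_comap.mpr fun r hr => ?_
      obtain ⟨e, he⟩ := hsub r hr
      rw [Ideal.mem_comap, he]
      refine Ideal.mul_mem_mul (Ideal.mem_span_singleton_self b') ((IsLocalRing.mem_maximalIdeal _).mpr ?_)
      exact fun hu => hcon ⟨r, hr, e, he, hu⟩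
    obtain ⟨z, hz, hz'⟩ := Ideal.mem_span_singleton_mul.mp (hle hb'J)
    have : z = 1 := mul_left_cancel₀ hb' (hz'.trans (mul_one b').symm)
    exact (IsLocalRing.mem_maximalIdeal z).mp hz (this ▸ isUnit_one)
  refine ⟨c, (hJ c).mp hcJ, fun r hr => ?_⟩
  obtain ⟨e', he'⟩ := hsub r ((hJ r).mpr hr)
  have hdvd : ψ c ∣ ψ r := by
    rw [he, he']
    exact mul_dvd_mul_left b' heu.dvd
  have h : Ideal.Quotient.mk (Ideal.span {c}) r ∈
      ⨅ k : ℕ, IsLocalRing.maximalIdeal R ^ k • (⊤ : Submodule R (R ⧸ Ideal.span {c})) := by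
    rw [Submodule.mem_iInf]
    intro k
    obtain ⟨p, hp⟩ := hdvd
    obtain ⟨s, hs⟩ := hdense k p
    have hk : r - c * s ∈ IsLocalRing.maximalIdeal R ^ k := hsep k _ (by
      rw [map_sub, map_mul, hp, ← mul_sub]
      exact Ideal.mul_mem_left _ _ hs)
    have hone : ∀ x : R, Ideal.Quotient.mk (Ideal.span {c}) x = x • (1 : R ⧸ Ideal.span {c}) :=
      fun x => congrArg (Ideal.Quotient.mk _) (mul_one x).symm
    have e : Ideal.Quotient.mk (Ideal.span {c}) r = (r - c * s) • (1 : R ⧸ Ideal.span {c}) := by
      rw [← hone, map_sub,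
        Ideal.Quotient.eq_zero_iff_mem.mpr (Ideal.mem_span_singleton.mpr (dvd_mul_right c s)),
        sub_zero]
    rw [e]
    exact Submodule.smul_mem_smul hk trivial
  rw [Ideal.iInf_pow_smul_eq_bot_of_isLocalRing _ (Ideal.IsPrime.ne_top inferInstance),
    Submodule.mem_bot] at h
  exact Ideal.mem_span_singleton.mp (Ideal.Quotient.eq_zero_iff_mem.mp h)

include hdense hsep in
/-- Factoriality descends from power series. -/
theorem uniqueFactorizationMonoid_of_dense : UniqueFactorizationMonoid R where
  irreducible_iff_prime {p} := by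
    refine ⟨fun hp => ⟨hp.ne_zero, hp.not_isUnit, fun a b hab => ?_⟩, Prime.irreducible⟩
    obtain ⟨c, hca, hcmin⟩ := exists_colon_generator ψ hdense hsep a p hp.ne_zero
    rcases hp.dvd_iff.mp (hcmin p (dvd_mul_right p a)) with hc | hc
    · exact Or.inl ((IsUnit.dvd_mul_left hc).mp hca)
    · exact Or.inr (hc.dvd.trans (hcmin b (mul_comm a b ▸ hab)))

end Descent

section Smooth

variable {W : Scheme.{u}} (s : W ⟶ Spec (CommRingCat.of K)) [Smooth s]

omit [IsAlgClosed K] in
/-- Local rings of smooth varieties are formally étale over polynomial rings. -/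
lemma exists_formallyEtale_stalk (x : W) (ρ : W.presheaf.stalk x →+* K)
    (hρc : ∀ c, ρ (stalkStr s x c) = c) :
    ∃ (n : ℕ) (φ : MvPolynomial (Fin n) K →+* W.presheaf.stalk x),
      (∀ c, φ (MvPolynomial.C c) = stalkStr s x c) ∧ (∀ i, ρ (φ (MvPolynomial.X i)) = 0) ∧
      (letI := φ.toAlgebra
       Algebra.FormallyEtale (MvPolynomial (Fin n) K) (W.presheaf.stalk x) ∧
         Algebra.EssFiniteType (MvPolynomial (Fin n) K) (W.presheaf.stalk x)) := by
  obtain ⟨U, hUa, V, hV, hx, e, hs⟩ := Smooth.exists_isStandardSmooth s x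
  obtain ⟨n, g, hgC, hg⟩ := hs.exists_etale_mvPolynomial
  have hU : U = ⊤ := by
    ext y
    have : y = s x := Subsingleton.elim (α := PrimeSpectrum K) y (s x)
    simp only [TopologicalSpace.Opens.coe_top, Set.mem_univ, iff_true]
    exact this ▸ e hx
  subst hU
  let ε : CommRingCat.of K ≅ Γ(Spec (CommRingCat.of K), ⊤) := (Scheme.ΓSpecIso _).symm
  let φ₁ : MvPolynomial (Fin n) K →+* Γ(W, V) := g.comp (MvPolynomial.map ε.hom.hom)
  let w : Fin n → K := fun i => ρ (W.presheaf.germ V x hx (φ₁ (MvPolynomial.X i)))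
  -- centre the coordinates at `x`
  let τ : MvPolynomial (Fin n) K ≃ₐ[K] MvPolynomial (Fin n) K :=
    AlgEquiv.ofAlgHom
      (MvPolynomial.aeval fun i => MvPolynomial.X i - MvPolynomial.C (w i))
      (MvPolynomial.aeval fun i => MvPolynomial.X i + MvPolynomial.C (w i))
      (MvPolynomial.algHom_ext fun i => by simp) (MvPolynomial.algHom_ext fun i => by simp)
  let φ₀ : MvPolynomial (Fin n) K →+* Γ(W, V) := φ₁.comp τ.toAlgHom.toRingHom
  let φ : MvPolynomial (Fin n) K →+* W.presheaf.stalk x := (W.presheaf.germ V x hx).hom.comp φ₀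
  refine ⟨n, φ, ?_⟩
  have hC : ∀ c, φ (MvPolynomial.C c) = stalkStr s x c := by
    have h1 : ε.hom ≫ s.appLE ⊤ V e ≫ W.presheaf.germ V x hx = stalkStr s x := by
      refine Spec.map_injective ?_
      rw [specMap_stalkStr, Spec.map_comp, Spec.map_comp, Category.assoc]
      have h2 := (isAffineOpen_top (Spec (CommRingCat.of K))).SpecMap_appLE_fromSpec s hV e
      have h3 : W.fromSpecStalk x = Spec.map (W.presheaf.germ V x hx) ≫ hV.fromSpec :=
        (hV.fromSpecStalk_eq_fromSpecStalk hx).symm
      rw [h3, Category.assoc, ← h2]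
      simp [ε, IsAffineOpen.fromSpec_top]
    intro c
    show W.presheaf.germ V x hx (φ₁ (τ (MvPolynomial.C c))) = _
    rw [show τ (MvPolynomial.C c) = MvPolynomial.C c from τ.commutes c]
    simp only [φ₁, RingHom.coe_comp, Function.comp_apply, MvPolynomial.map_C]
    rw [show g (MvPolynomial.C (ε.hom.hom c)) = (s.appLE ⊤ V e).hom (ε.hom.hom c) from
      RingHom.congr_fun hgC _]
    exact congr($h1 c)
  refine ⟨hC, fun i => ?_, ?_⟩
  · have h1 : W.presheaf.germ V x hx (φ₁ (MvPolynomial.C (w i))) = stalkStr s x (w i) := by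
      have := hC (w i)
      rwa [show φ (MvPolynomial.C (w i)) = W.presheaf.germ V x hx (φ₁ (MvPolynomial.C (w i))) from
        congrArg (fun t => W.presheaf.germ V x hx (φ₁ t)) (τ.commutes (w i))] at this
    show ρ (W.presheaf.germ V x hx (φ₁ (τ (MvPolynomial.X i)))) = 0
    simp only [τ, AlgEquiv.ofAlgHom_apply, MvPolynomial.aeval_X]
    rw [map_sub, map_sub, h1, map_sub, hρc, sub_self]
  · let := φ.toAlgebra
    let := φ₀.toAlgebra
    have hφ₀ : φ₀.Etale := by
      have h4 : (MvPolynomial.map (σ := Fin n) ε.hom.hom).Etale :=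
        RingHom.Etale.of_bijective ⟨MvPolynomial.map_injective _ ε.commRingCatIsoToRingEquiv.injective,
          MvPolynomial.map_surjective _ ε.commRingCatIsoToRingEquiv.surjective⟩
      exact RingHom.Etale.stableUnderComposition τ.toAlgHom.toRingHom φ₁
        (RingHom.Etale.of_bijective τ.bijective)
        (RingHom.Etale.stableUnderComposition _ g h4 hg)
    have : Algebra.Etale (MvPolynomial (Fin n) K) Γ(W, V) := hφ₀
    let := TopCat.Presheaf.algebra_section_stalk W.presheaf (⟨x, hx⟩ : V)
    have : IsLocalization.AtPrime (W.presheaf.stalk x) (hV.primeIdealOf ⟨x, hx⟩).asIdeal :=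
      hV.isLocalization_stalk ⟨x, hx⟩
    have : IsScalarTower (MvPolynomial (Fin n) K) Γ(W, V) (W.presheaf.stalk x) :=
      .of_algebraMap_eq' rfl
    refine ⟨?_, ?_⟩
    · have : Algebra.FormallyEtale Γ(W, V) (W.presheaf.stalk x) :=
        .of_isLocalization (hV.primeIdealOf ⟨x, hx⟩).asIdeal.primeCompl
      exact .comp (MvPolynomial (Fin n) K) Γ(W, V) _
    · have : Algebra.EssFiniteType Γ(W, V) (W.presheaf.stalk x) :=
        .of_isLocalization _ (hV.primeIdealOf ⟨x, hx⟩).asIdeal.primeCompl
      exact .comp (MvPolynomial (Fin n) K) Γ(W, V) _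

/-- The local ring at a closed point of a smooth variety embeds densely in power series. -/
theorem exists_ps_embedding [IsIntegral W] [LocallyOfFiniteType s] {x : W}
    (hx : IsClosed ({x} : Set W)) :
    ∃ (n : ℕ) (ψ : W.presheaf.stalk x →+* PS K n), IsLocalHom ψ ∧
      (∀ c, ψ (stalkStr s x c) = MvPowerSeries.C c) ∧
      (∀ (k : ℕ) (p : PS K n), ∃ r, p - ψ r ∈ IsLocalRing.maximalIdeal (PS K n) ^ k) ∧
      (∀ (k : ℕ) (r : W.presheaf.stalk x), ψ r ∈ IsLocalRing.maximalIdeal (PS K n) ^ k →
        r ∈ IsLocalRing.maximalIdeal (W.presheaf.stalk x) ^ k) := by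
  obtain ⟨ρ, hρl, hρ⟩ := exists_residue (f := s) hx
  have hρc : ∀ c, ρ (stalkStr s x c) = c := fun c => congr($hρ c)
  obtain ⟨n, φ, hC, hX0, hE, hF⟩ := exists_formallyEtale_stalk s x ρ.hom hρc
  have hX : ∀ i, φ (MvPolynomial.X i) ∈ IsLocalRing.maximalIdeal (W.presheaf.stalk x) := fun i =>
    (IsLocalRing.mem_maximalIdeal _).mpr fun hu => (hu.map ρ.hom).ne_zero (hX0 i)
  let alg : Algebra (MvPolynomial (Fin n) K) (W.presheaf.stalk x) := φ.toAlgebra
  let R := W.presheaf.stalk x
  -- the maximal ideal is generated by the coordinates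
  let I : Ideal R := Ideal.span (Set.range fun i => φ (MvPolynomial.X i))
  have hI : I = IsLocalRing.maximalIdeal R := by
    have hle : I ≤ IsLocalRing.maximalIdeal R :=
      Ideal.span_le.mpr (Set.range_subset_iff.mpr hX)
    let algK : Algebra K (R ⧸ I) := ((Ideal.Quotient.mk I).comp (stalkStr s x).hom).toAlgebra
    let algKP : Algebra (MvPolynomial (Fin n) K) K := (MvPolynomial.constantCoeff).toAlgebra
    have : IsScalarTower (MvPolynomial (Fin n) K) K (R ⧸ I) := by
      refine .of_algebraMap_eq' (MvPolynomial.ringHom_ext (fun c => ?_) fun i => ?_)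
      · show Ideal.Quotient.mk I (φ (MvPolynomial.C c)) =
          Ideal.Quotient.mk I (stalkStr s x (MvPolynomial.constantCoeff (MvPolynomial.C c)))
        rw [MvPolynomial.constantCoeff_C, hC]
      · show Ideal.Quotient.mk I (φ (MvPolynomial.X i)) =
          Ideal.Quotient.mk I (stalkStr s x (MvPolynomial.constantCoeff (MvPolynomial.X i)))
        rw [MvPolynomial.constantCoeff_X, map_zero, map_zero]
        exact Ideal.Quotient.eq_zero_iff_mem.mpr (Ideal.subset_span ⟨i, rfl⟩)
    have : Algebra.FormallyUnramified R (R ⧸ I) := .quotient I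
    have : Algebra.FormallyUnramified (MvPolynomial (Fin n) K) (R ⧸ I) :=
      .comp (MvPolynomial (Fin n) K) R (R ⧸ I)
    have : Algebra.FormallyUnramified K (R ⧸ I) :=
      .of_restrictScalars (MvPolynomial (Fin n) K) K (R ⧸ I)
    have : Algebra.EssFiniteType (MvPolynomial (Fin n) K) (R ⧸ I) :=
      .comp (MvPolynomial (Fin n) K) R (R ⧸ I)
    have : Algebra.EssFiniteType K (R ⧸ I) :=
      .of_comp (MvPolynomial (Fin n) K) K (R ⧸ I)
    have : Nontrivial (R ⧸ I) := Ideal.Quotient.nontrivial_iff.mpr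
      (ne_top_of_le_ne_top (IsLocalRing.maximalIdeal.isMaximal R).ne_top hle)
    have : IsLocalRing (R ⧸ I) := .of_surjective' _ Ideal.Quotient.mk_surjective
    have hf : IsField (R ⧸ I) :=
      Algebra.FormallyUnramified.isField_of_isAlgClosed_of_isLocalRing K (R ⧸ I)
    exact IsLocalRing.eq_maximalIdeal (Ideal.Quotient.maximal_of_isField I hf)
  -- lift the residue map
  let M := IsLocalRing.maximalIdeal (PS K n)
  let algPS : Algebra (MvPolynomial (Fin n) K) (PS K n) :=
    (MvPolynomial.coeToMvPowerSeries.ringHom).toAlgebra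
  have hMX : ∀ i, (MvPowerSeries.X i : PS K n) ∈ M := fun i => by
    show _ ∈ IsLocalRing.maximalIdeal (PS K n)
    rw [maximalIdeal_ps]; exact Ideal.subset_span ⟨i, rfl⟩
  let f₀ : R →ₐ[MvPolynomial (Fin n) K] PS K n ⧸ M :=
    { ((Ideal.Quotient.mk M).comp (MvPowerSeries.C.comp ρ.hom)) with
      commutes' := fun p => by
        revert p
        refine RingHom.congr_fun (f := (((Ideal.Quotient.mk M).comp
          (MvPowerSeries.C.comp ρ.hom)).comp φ))
          (g := (Ideal.Quotient.mk M).comp MvPolynomial.coeToMvPowerSeries.ringHom) ?_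
        refine MvPolynomial.ringHom_ext (fun c => ?_) fun i => ?_
        · simp only [RingHom.coe_comp, Function.comp_apply, hC,
            MvPolynomial.coeToMvPowerSeries.ringHom_apply, MvPolynomial.coe_C]
          exact congrArg (fun t => Ideal.Quotient.mk M (MvPowerSeries.C t)) (hρc c)
        · simp only [RingHom.coe_comp, Function.comp_apply,
            MvPolynomial.coeToMvPowerSeries.ringHom_apply, MvPolynomial.coe_X]
          have h0 : ρ.hom (φ (MvPolynomial.X i)) = 0 := by
            by_contra h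
            exact (IsLocalRing.mem_maximalIdeal _).mp (hX i) ((Ne.isUnit h).of_map ρ.hom)
          rw [h0, map_zero, map_zero, eq_comm, Ideal.Quotient.eq_zero_iff_mem]
          exact hMX i }
  obtain ⟨ψ, hψ⟩ := Algebra.FormallySmooth.exists_mkₐ_comp_eq_of_isAdicComplete f₀
  have hψφ : ∀ p, ψ (φ p) = (p : PS K n) := fun p => ψ.commutes p
  have hψM : ∀ r, r ∈ IsLocalRing.maximalIdeal R ↔ ψ r ∈ M := fun r => by
    have h1 : Ideal.Quotient.mk M (ψ r) = Ideal.Quotient.mk M (MvPowerSeries.C (ρ r)) :=
      congr($hψ r)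
    rw [← Ideal.Quotient.eq_zero_iff_mem (I := M), h1, Ideal.Quotient.eq_zero_iff_mem]
    show _ ↔ _ ∈ IsLocalRing.maximalIdeal (PS K n)
    rw [IsLocalRing.mem_maximalIdeal, IsLocalRing.mem_maximalIdeal]
    refine not_congr ⟨fun hu => (hu.map ρ.hom).map MvPowerSeries.C, fun hu => ?_⟩
    rw [MvPowerSeries.isUnit_iff_constantCoeff, MvPowerSeries.constantCoeff_C] at hu
    exact hu.of_map ρ.hom
  have hmap : (IsLocalRing.maximalIdeal R).map ψ = M := by
    show _ = IsLocalRing.maximalIdeal (PS K n)
    rw [← hI, maximalIdeal_ps, Ideal.map_span, ← Set.range_comp]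
    congr 2
    ext i : 1
    show ψ (φ (MvPolynomial.X i)) = _
    rw [hψφ, MvPolynomial.coe_X]
  -- constants are dense modulo powers of the maximal ideal
  have hden : ∀ (k : ℕ) (r : R), ∃ q, r - φ q ∈ IsLocalRing.maximalIdeal R ^ k := by
    intro k
    induction k with
    | zero => exact fun r => ⟨0, by simp⟩
    | succ k ih =>
      intro r
      have hq₀ : r - φ (MvPolynomial.C (ρ r)) ∈ IsLocalRing.maximalIdeal R := by
        rw [hC]
        refine (IsLocalRing.mem_maximalIdeal _).mpr fun hu => (hu.map ρ.hom).ne_zero ?_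
        rw [map_sub]
        exact sub_eq_zero.mpr (hρc _).symm
      generalize MvPolynomial.C (ρ r) = q₀ at hq₀
      rw [← hI] at hq₀
      obtain ⟨c, hc⟩ := Ideal.mem_span_range_iff_exists_fun.mp hq₀
      choose q hq using fun i => ih (c i)
      refine ⟨q₀ + ∑ i, q i * MvPolynomial.X i, ?_⟩
      have e : r - φ (q₀ + ∑ i, q i * MvPolynomial.X i) =
          ∑ i, (c i - φ (q i)) * φ (MvPolynomial.X i) := by
        simp only [map_add, map_sum, map_mul, sub_mul, Finset.sum_sub_distrib, hc]
        ring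
      rw [e, pow_succ]
      exact Submodule.sum_mem _ fun i _ => Ideal.mul_mem_mul (hq i) (hX i)
  refine ⟨n, ψ.toRingHom, ⟨fun r hu => ?_⟩, fun c => ?_, fun k p => ?_, fun k r hr => ?_⟩
  · by_contra h
    exact (IsLocalRing.mem_maximalIdeal _).mp
      ((hψM r).mp ((IsLocalRing.mem_maximalIdeal _).mpr h)) hu
  · show ψ (stalkStr s x c) = _
    rw [← hC, hψφ, MvPolynomial.coe_C]
  · induction k generalizing p with
    | zero => exact ⟨0, by simp⟩
    | succ k ih =>
      have hp : p - MvPowerSeries.C (MvPowerSeries.constantCoeff p) ∈ M := by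
        show _ ∈ IsLocalRing.maximalIdeal (PS K n)
        rw [maximalIdeal_ps]
        exact mem_span_X_of_constantCoeff n _ (by simp)
      have hp' : p - MvPowerSeries.C (MvPowerSeries.constantCoeff p) ∈
          Ideal.span (Set.range (MvPowerSeries.X : Fin n → PS K n)) :=
        maximalIdeal_ps (K := K) n ▸ hp
      obtain ⟨c, hc⟩ := Ideal.mem_span_range_iff_exists_fun.mp hp'
      choose q hq using fun i => ih (c i)
      refine ⟨stalkStr s x (MvPowerSeries.constantCoeff p) + ∑ i, q i * φ (MvPolynomial.X i), ?_⟩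
      have e : p - ψ.toRingHom (stalkStr s x (MvPowerSeries.constantCoeff p) +
          ∑ i, q i * φ (MvPolynomial.X i)) = ∑ i, (c i - ψ (q i)) * MvPowerSeries.X i := by
        simp only [AlgHom.toRingHom_eq_coe, RingHom.coe_coe, map_add, map_sum, map_mul, sub_mul,
          Finset.sum_sub_distrib, hc, hψφ, MvPolynomial.coe_X]
        rw [← hC, hψφ, MvPolynomial.coe_C]
        ring
      rw [e, pow_succ]
      exact Submodule.sum_mem _ fun i _ => Ideal.mul_mem_mul (hq i) (hMX i)
  · obtain ⟨q, hq⟩ := hden k r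
    have h1 : ψ (r - φ q) ∈ M ^ k := by
      rw [← hmap, ← Ideal.map_pow]
      exact Ideal.mem_map_of_mem ψ hq
    rw [map_sub, hψφ] at h1
    have h2 : (q : PS K n) ∈ M ^ k := by
      have h := sub_mem (show ψ r ∈ M ^ k from hr) h1
      simpa using h
    have hord : ∀ (k : ℕ) (p : PS K n), p ∈ M ^ k → ∀ d : Fin n →₀ ℕ, d.degree < k →
        MvPowerSeries.coeff d p = 0 := by
      intro k p hp d hd
      refine MvPowerSeries.coeff_of_lt_order (lt_of_lt_of_le (Nat.cast_lt.mpr hd) ?_)
      clear hd d
      induction k generalizing p with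
      | zero => simp
      | succ k ih =>
        rw [pow_succ] at hp
        refine Submodule.mul_induction_on hp (fun a ha b hb => ?_) (fun a b ha hb => ?_)
        · refine le_trans ?_ MvPowerSeries.le_order_mul
          rw [Nat.cast_add, Nat.cast_one]
          refine add_le_add (ih a ha) (MvPowerSeries.nat_le_order (n := 1) fun d hd => ?_)
          rw [Finsupp.degree_eq_zero_iff d |>.mp (Nat.lt_one_iff.mp hd),
            MvPowerSeries.coeff_zero_eq_constantCoeff_apply]
          by_contra h
          exact (IsLocalRing.mem_maximalIdeal b).mp hb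
            (MvPowerSeries.isUnit_iff_constantCoeff.mpr (Ne.isUnit h))
        · exact le_trans (le_min ha hb) MvPowerSeries.min_order_le_add
    have h3 : q ∈ MvPolynomial.idealOfVars (Fin n) K ^ k :=
      (MvPolynomial.mem_pow_idealOfVars_iff' k q).mpr fun d hd => by
        rw [← MvPolynomial.coeff_coe]
        exact hord k _ h2 d hd
    have h4 : φ q ∈ IsLocalRing.maximalIdeal R ^ k := by
      have hle : (MvPolynomial.idealOfVars (Fin n) K).map φ ≤ IsLocalRing.maximalIdeal R := by
        rw [MvPolynomial.idealOfVars, Ideal.map_span, Ideal.span_le]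
        rintro _ ⟨_, ⟨i, rfl⟩, rfl⟩
        exact hX i
      exact Ideal.pow_right_mono hle k (Ideal.map_pow φ _ k ▸ Ideal.mem_map_of_mem φ h3)
    exact sub_add_cancel r (φ q) ▸ add_mem hq h4

/-- The local ring at a closed point of a smooth variety is factorial. -/
theorem uniqueFactorizationMonoid_stalk [IsIntegral W] [LocallyOfFiniteType s] {x : W}
    (hx : IsClosed ({x} : Set W)) : UniqueFactorizationMonoid (W.presheaf.stalk x) := by
  have : IsLocallyNoetherian W := LocallyOfFiniteType.isLocallyNoetherian s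
  obtain ⟨n, ψ, -, -, hd, hs⟩ := exists_ps_embedding s hx
  exact uniqueFactorizationMonoid_of_dense ψ hd hs

end Smooth

end FLTAgent.AV
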