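/-
Area AV (towards S26): Cartier divisors in terms of local equations in the function field, their
classes, pullback along arbitrary morphisms, spaces of sections and common denominators.
-/
import Fermat.Agent.AV.Local
import Fermat.Agent.AV.Ufd

set_option autoImplicit false

noncomputable section

universe u

open CategoryTheory CategoryTheory.Limits AlgebraicGeometry TopologicalSpace

namespace FLTAgent.AV

section Cart

variable {W : Scheme.{u}} [IsIntegral W]

lemma specializes_genericPoint (x : W) : genericPoint W ⤳ x :=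
  (genericPoint_spec W).specializes trivial

lemma exists_open_unit {x : W} {u : W.functionFieldˣ} (hu : u ∈ unitsAt x) :
    ∃ U : W.Opens, x ∈ U ∧ ∀ y ∈ U, u ∈ unitsAt y := by
  rw [mem_unitsAt_iff] at hu
  obtain ⟨U, hxU, hU⟩ := exists_open_regular hu.1
  obtain ⟨U', hxU', hU'⟩ := exists_open_regular hu.2
  exact ⟨U ⊓ U', ⟨hxU, hxU'⟩, fun y hy => mem_unitsAt_iff.mpr ⟨hU y hy.1, hU' y hy.2⟩⟩

variable (W) in
/-- Local equations of Cartier divisors. -/
def Cart : Subgroup (W → W.functionFieldˣ) where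
  carrier := {f | ∀ x, ∃ V : W.Opens, x ∈ V ∧ ∀ y ∈ V, f y / f x ∈ unitsAt y}
  one_mem' := fun x => ⟨⊤, trivial, fun y _ => by simp⟩
  mul_mem' := by
    intro f g hf hg x
    obtain ⟨V, hxV, hV⟩ := hf x
    obtain ⟨V', hxV', hV'⟩ := hg x
    refine ⟨V ⊓ V', ⟨hxV, hxV'⟩, fun y hy => ?_⟩
    simp only [Pi.mul_apply, mul_div_mul_comm]
    exact mul_mem (hV y hy.1) (hV' y hy.2)
  inv_mem' := by
    intro f hf x
    obtain ⟨V, hxV, hV⟩ := hf x
    refine ⟨V, hxV, fun y hy => ?_⟩
    simp only [Pi.inv_apply, inv_div_inv]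
    exact (unitsAt y).inv_mem (hV y hy) |> fun h => by rwa [inv_div] at h

lemma mem_cart_iff {f : W → W.functionFieldˣ} :
    f ∈ Cart W ↔ ∀ x, ∃ V : W.Opens, x ∈ V ∧ ∀ y ∈ V, f y / f x ∈ unitsAt y := Iff.rfl

lemma cart_ratio (f : Cart W) {x y : W} (h : y ⤳ x) : f.1 x / f.1 y ∈ unitsAt y := by
  obtain ⟨V, hxV, hV⟩ := f.2 x
  have := (unitsAt y).inv_mem (hV y (h.mem_open V.2 hxV))
  rwa [inv_div] at this

variable (W) in
/-- Principal Cartier divisors. -/
def Princ : Subgroup (Cart W) where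
  carrier := {f | ∃ φ : W.functionFieldˣ, ∀ x, f.1 x / φ ∈ unitsAt x}
  one_mem' := ⟨1, fun x => by simp⟩
  mul_mem' := by
    rintro f g ⟨φ, hφ⟩ ⟨ψ, hψ⟩
    refine ⟨φ * ψ, fun x => ?_⟩
    rw [Subgroup.coe_mul, Pi.mul_apply, mul_div_mul_comm]
    exact mul_mem (hφ x) (hψ x)
  inv_mem' := by
    rintro f ⟨φ, hφ⟩
    refine ⟨φ⁻¹, fun x => ?_⟩
    have := (unitsAt x).inv_mem (hφ x)
    rwa [Subgroup.coe_inv, Pi.inv_apply, inv_div_inv, ← inv_div]

lemma mem_princ_iff {f : Cart W} :
    f ∈ Princ W ↔ ∃ φ : W.functionFieldˣ, ∀ x, f.1 x / φ ∈ unitsAt x := Iff.rfl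

variable (W) in
/-- Classes of Cartier divisors. -/
abbrev Pc : Type u := Cart W ⧸ Princ W

/-- The class of a Cartier divisor. -/
abbrev cl (f : Cart W) : Pc W := QuotientGroup.mk f

lemma cl_eq_cl {f g : Cart W} : cl f = cl g ↔
    ∃ φ : W.functionFieldˣ, ∀ x, f.1 x / g.1 x / φ ∈ unitsAt x := by
  rw [QuotientGroup.eq, ← inv_mem_iff, mul_inv_rev, inv_inv, mem_princ_iff]
  refine exists_congr fun φ => forall_congr' fun x => ?_
  rw [Subgroup.coe_mul, Subgroup.coe_inv, Pi.mul_apply, Pi.inv_apply, inv_mul_eq_div]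

lemma cl_eq_one {f : Cart W} : cl f = 1 ↔ ∃ φ : W.functionFieldˣ, ∀ x, f.1 x / φ ∈ unitsAt x :=
  (QuotientGroup.eq_one_iff f).trans mem_princ_iff

end Cart

section Pull

variable {T W : Scheme.{u}} [IsIntegral T] [IsIntegral W]

open scoped Classical in
/-- Pullback of invertible rational functions. -/
def resU (h : T ⟶ W) (a : W.functionFieldˣ) : T.functionFieldˣ :=
  if ha : a ∈ unitsAt (h (genericPoint T)) then
    { val := res h a
      inv := res h (a⁻¹ : W.functionFieldˣ)
      val_inv := by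
        rw [← res_mul h (mem_unitsAt_iff.mp ha).1 (mem_unitsAt_iff.mp ha).2, Units.mul_inv,
          res_one]
      inv_val := by
        rw [← res_mul h (mem_unitsAt_iff.mp ha).2 (mem_unitsAt_iff.mp ha).1, Units.inv_mul,
          res_one] }
  else 1

lemma resU_coe (h : T ⟶ W) {a : W.functionFieldˣ} (ha : a ∈ unitsAt (h (genericPoint T))) :
    (resU h a : T.functionField) = res h a := by
  rw [resU, dif_pos ha]

lemma resU_mul (h : T ⟶ W) {a b : W.functionFieldˣ} (ha : a ∈ unitsAt (h (genericPoint T)))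
    (hb : b ∈ unitsAt (h (genericPoint T))) : resU h (a * b) = resU h a * resU h b := by
  refine Units.ext ?_
  rw [Units.val_mul, resU_coe h (mul_mem ha hb), resU_coe h ha, resU_coe h hb, Units.val_mul,
    res_mul h (mem_unitsAt_iff.mp ha).1 (mem_unitsAt_iff.mp hb).1]

@[simp]
lemma resU_one (h : T ⟶ W) : resU h 1 = 1 := by
  refine Units.ext ?_
  rw [resU_coe h (one_mem _), Units.val_one, res_one, Units.val_one]

lemma resU_inv (h : T ⟶ W) {a : W.functionFieldˣ} (ha : a ∈ unitsAt (h (genericPoint T))) :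
    resU h a⁻¹ = (resU h a)⁻¹ := by
  refine eq_inv_of_mul_eq_one_left ?_
  rw [← resU_mul h (inv_mem ha) ha, inv_mul_cancel, resU_one]

lemma resU_div (h : T ⟶ W) {a b : W.functionFieldˣ} (ha : a ∈ unitsAt (h (genericPoint T)))
    (hb : b ∈ unitsAt (h (genericPoint T))) : resU h (a / b) = resU h a / resU h b := by
  rw [div_eq_mul_inv, div_eq_mul_inv, resU_mul h ha (inv_mem hb), resU_inv h hb]

lemma resU_mem (h : T ⟶ W) {y : T} {a : W.functionFieldˣ} (ha : a ∈ unitsAt (h y)) :
    resU h a ∈ unitsAt y := by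
  have hη : a ∈ unitsAt (h (genericPoint T)) :=
    unitsAt_mono ((specializes_genericPoint y).map h.continuous) ha
  rw [mem_unitsAt_iff] at ha ⊢
  rw [← resU_inv h hη, resU_coe h hη, resU_coe h (inv_mem hη)]
  exact ⟨res_mem h ha.1, res_mem h ha.2⟩

lemma pull_ratio_mem (h : T ⟶ W) (f : Cart W) (x : T) :
    f.1 (h x) / f.1 (h (genericPoint T)) ∈ unitsAt (h (genericPoint T)) :=
  cart_ratio f ((specializes_genericPoint x).map h.continuous)

/-- Local equations of the pullback. -/
def pullFun (h : T ⟶ W) (f : Cart W) (x : T) : T.functionFieldˣ :=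
  resU h (f.1 (h x) / f.1 (h (genericPoint T)))

lemma pullFun_mem (h : T ⟶ W) (f : Cart W) : pullFun h f ∈ Cart T := by
  intro x
  obtain ⟨V, hxV, hV⟩ := f.2 (h x)
  refine ⟨h ⁻¹ᵁ V, hxV, fun y hy => ?_⟩
  rw [pullFun, pullFun, ← resU_div h (pull_ratio_mem h f y) (pull_ratio_mem h f x),
    div_div_div_cancel_right]
  exact resU_mem h (hV _ hy)

/-- Pullback of Cartier divisors. -/
def pullCart (h : T ⟶ W) : Cart W →* Cart T where
  toFun f := ⟨pullFun h f, pullFun_mem h f⟩
  map_one' := Subtype.ext (funext fun x => by simp [pullFun])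
  map_mul' f g := Subtype.ext (funext fun x => by
    simp only [pullFun, Subgroup.coe_mul, Pi.mul_apply, mul_div_mul_comm]
    exact resU_mul h (pull_ratio_mem h f x) (pull_ratio_mem h g x))

lemma pullCart_apply (h : T ⟶ W) (f : Cart W) (x : T) :
    (pullCart h f).1 x = resU h (f.1 (h x) / f.1 (h (genericPoint T))) := rfl

lemma pullCart_princ (h : T ⟶ W) : Princ W ≤ (Princ T).comap (pullCart h) := by
  rintro f ⟨φ, hφ⟩
  let η := h (genericPoint T)
  refine ⟨(resU h (f.1 η / φ))⁻¹, fun x => ?_⟩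
  have hx : f.1 (h x) / φ ∈ unitsAt η :=
    unitsAt_mono ((specializes_genericPoint x).map h.continuous) (hφ (h x))
  have e : f.1 (h x) / f.1 η = (f.1 (h x) / φ) / (f.1 η / φ) :=
    (div_div_div_cancel_right _ _ _).symm
  rw [pullCart_apply, e, resU_div h hx (hφ η), div_inv_eq_mul, div_mul_cancel]
  exact resU_mem h (hφ (h x))

/-- Pullback of classes. -/
def pullPc (h : T ⟶ W) : Pc W →* Pc T :=
  QuotientGroup.map (Princ W) (Princ T) (pullCart h) (pullCart_princ h)

lemma pullPc_cl (h : T ⟶ W) (f : Cart W) : pullPc h (cl f) = cl (pullCart h f) := rfl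

lemma pullCart_comp {T' : Scheme.{u}} [IsIntegral T'] (k : T' ⟶ T) (h : T ⟶ W) (f : Cart W) :
    pullCart k (pullCart h f) = pullCart (k ≫ h) f := by
  refine Subtype.ext (funext fun x => ?_)
  have hs : h (genericPoint T) ⤳ h (k (genericPoint T')) :=
    (specializes_genericPoint _).map h.continuous
  have hx : f.1 (h (k x)) / f.1 (h (k (genericPoint T'))) ∈ unitsAt (h (k (genericPoint T'))) :=
    cart_ratio f (((specializes_genericPoint x).map k.continuous).map h.continuous)
  rw [pullCart_apply, pullCart_apply, pullCart_apply, pullCart_apply,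
    ← resU_div h (pull_ratio_mem h f _) (pull_ratio_mem h f _), div_div_div_cancel_right]
  refine Units.ext ?_
  have hx' : resU h (f.1 (h (k x)) / f.1 (h (k (genericPoint T')))) ∈
      unitsAt (k (genericPoint T')) := resU_mem h hx
  have hc : ∀ y, (k ≫ h) y = h (k y) := fun y => Scheme.Hom.comp_apply k h y
  rw [resU_coe k hx', resU_coe h (unitsAt_mono hs hx), hc, hc, resU_coe (k ≫ h) (by rwa [hc]),
    res_res k h (mem_unitsAt_iff.mp hx).1]

lemma pullPc_comp {T' : Scheme.{u}} [IsIntegral T'] (k : T' ⟶ T) (h : T ⟶ W) (c : Pc W) :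
    pullPc k (pullPc h c) = pullPc (k ≫ h) c := by
  obtain ⟨f, rfl⟩ := QuotientGroup.mk_surjective c
  rw [pullPc_cl, pullPc_cl, pullPc_cl, pullCart_comp]

/-- The pullback along a map collapsing `T` to a point is trivial. -/
lemma pullPc_eq_one_of_const (h : T ⟶ W) (p : W) (hp : ∀ x, h x = p) (c : Pc W) :
    pullPc h c = 1 := by
  obtain ⟨f, rfl⟩ := QuotientGroup.mk_surjective c
  rw [pullPc_cl]
  have : pullCart h f = 1 := Subtype.ext (funext fun x => by
    rw [pullCart_apply, hp, hp, div_self', resU_one, Subgroup.coe_one, Pi.one_apply])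
  rw [this]
  rfl

lemma resU_id (a : W.functionFieldˣ) : resU (𝟙 W) a = a := by
  refine Units.ext ?_
  rw [resU_coe (𝟙 W) ?_, res_id]
  exact mem_unitsAt_genericPoint a

lemma pullPc_id (c : Pc W) : pullPc (𝟙 W) c = c := by
  obtain ⟨f, rfl⟩ := QuotientGroup.mk_surjective c
  rw [pullPc_cl]
  refine cl_eq_cl.mpr ⟨(f.1 (genericPoint W))⁻¹, fun x => ?_⟩
  rw [pullCart_apply, resU_id]
  show f.1 x / f.1 (genericPoint W) / f.1 x / (f.1 (genericPoint W))⁻¹ ∈ _
  simp [div_eq_mul_inv]

end Pull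

section Sections

variable {K : Type u} [Field K] {W : Scheme.{u}} [IsIntegral W]
  (s : W ⟶ Spec (CommRingCat.of K))

/-- The function field as an algebra over the ground field. -/
@[reducible] def fieldAlg : Algebra K W.functionField := (kHom s).toAlgebra

/-- The space of sections of a Cartier divisor. -/
def lSpace (f : Cart W) : letI := fieldAlg s; Submodule K W.functionField :=
  letI := fieldAlg s
  { carrier := {φ | ∀ x, φ * (f.1 x : W.functionField) ∈ stalkSub x}
    add_mem' := fun {a b} ha hb x => by rw [add_mul]; exact add_mem (ha x) (hb x)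
    zero_mem' := fun x => by rw [zero_mul]; exact zero_mem _
    smul_mem' := fun c a ha x => by
      rw [Algebra.smul_def, mul_assoc]
      exact mul_mem (kHom_mem s x c) (ha x) }

lemma mem_lSpace {f : Cart W} {φ : W.functionField} :
    φ ∈ lSpace s f ↔ ∀ x, φ * (f.1 x : W.functionField) ∈ stalkSub x := Iff.rfl

/-- The dimension of the space of sections. -/
def lDim (f : Cart W) : ℕ :=
  letI := fieldAlg s
  Module.finrank K (lSpace s f)

/-- Linearly equivalent divisors have isomorphic spaces of sections. -/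
lemma exists_lSpace_equiv {f g : Cart W} (h : cl f = cl g) :
    letI := fieldAlg s
    Nonempty (lSpace s f ≃ₗ[K] lSpace s g) := by
  let := fieldAlg s
  obtain ⟨φ, hφ⟩ := cl_eq_cl.mp h
  refine ⟨{
    toFun := fun a => ⟨(φ : W.functionField) * a.1, fun x => ?_⟩
    invFun := fun b => ⟨((φ⁻¹ : W.functionFieldˣ) : W.functionField) * b.1, fun x => ?_⟩
    map_add' := fun a b => Subtype.ext (mul_add _ _ _)
    map_smul' := fun c a => Subtype.ext (mul_smul_comm c _ _)
    left_inv := fun a => Subtype.ext (Units.inv_mul_cancel_left φ a.1)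
    right_inv := fun b => Subtype.ext (Units.mul_inv_cancel_left φ b.1) }⟩
  · have e : (φ : W.functionField) * a.1 * (g.1 x : W.functionField) =
        a.1 * (f.1 x : W.functionField) *
          (((f.1 x / g.1 x / φ)⁻¹ : W.functionFieldˣ) : W.functionField) := by
      simp only [div_eq_mul_inv, mul_inv_rev, inv_inv, Units.val_mul, Units.val_inv_eq_inv_val]
      have := Units.ne_zero (f.1 x)
      field_simp
    rw [e]
    exact mul_mem (a.2 x) (mem_unitsAt_iff.mp (hφ x)).2
  · have e : ((φ⁻¹ : W.functionFieldˣ) : W.functionField) * b.1 * (f.1 x : W.functionField) =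
        b.1 * (g.1 x : W.functionField) *
          ((f.1 x / g.1 x / φ : W.functionFieldˣ) : W.functionField) := by
      simp only [div_eq_mul_inv, Units.val_mul, Units.val_inv_eq_inv_val]
      have := Units.ne_zero (g.1 x)
      field_simp
    rw [e]
    exact mul_mem (b.2 x) (mem_unitsAt_iff.mp (hφ x)).1

end Sections

section Denominators

variable {K : Type u} [Field K] [IsAlgClosed K] {W : Scheme.{u}} [IsIntegral W]
  (s : W ⟶ Spec (CommRingCat.of K)) [Smooth s]

/-- `c` generates the common denominators of the functions `q` at `x`. -/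
def IsDenom {ι : Type*} (t : Finset ι) (q : ι → W.functionField) (x : W) (c : W.functionField) :
    Prop :=
  c ≠ 0 ∧ c ∈ stalkSub x ∧ (∀ i ∈ t, c * q i ∈ stalkSub x) ∧
    ∀ r ∈ stalkSub x, (∀ i ∈ t, r * q i ∈ stalkSub x) → r / c ∈ stalkSub x

lemma IsDenom.unit_ratio {ι : Type*} {t : Finset ι} {q : ι → W.functionField} {x : W}
    {c c' : W.functionFieldˣ} (h : IsDenom t q x (c : W.functionField))
    (h' : IsDenom t q x (c' : W.functionField)) : c / c' ∈ unitsAt x := by
  refine mem_unitsAt_iff.mpr ⟨?_, ?_⟩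
  · rw [Units.val_div_eq_div_val]; exact h'.2.2.2 _ h.2.1 h.2.2.1
  · rw [inv_div, Units.val_div_eq_div_val]; exact h.2.2.2 _ h'.2.1 h'.2.2.1

include s in
lemma exists_isDenom_closed [LocallyOfFiniteType s] {ι : Type*} (t : Finset ι)
    (q : ι → W.functionField) {x : W} (hx : IsClosed ({x} : Set W)) :
    ∃ c, IsDenom t q x c := by
  classical
  have := uniqueFactorizationMonoid_stalk s hx
  induction t using Finset.induction_on with
  | empty => exact ⟨1, one_ne_zero, one_mem _, by simp, fun r hr _ => by rwa [div_one]⟩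
  | insert i t hit ih =>
    obtain ⟨c, hc0, hc, hct, hcmin⟩ := ih
    obtain ⟨a, b, hb, hab⟩ := IsFractionRing.div_surjective (A := W.presheaf.stalk x) (c * q i)
    have hb0 : b ≠ 0 := nonZeroDivisors.ne_zero hb
    obtain ⟨a', b', g, hrel, hga, hgb⟩ :=
      UniqueFactorizationMonoid.exists_reduced_factors' a b hb0
    have hb' : b' ≠ 0 := right_ne_zero_of_mul (hgb.symm ▸ hb0)
    have hb'0 : sAlg x b' ≠ 0 := fun h => hb' (sAlg_injective x (h.trans (map_zero _).symm))
    have hq : c * q i * sAlg x b' = sAlg x a' := by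
      have hg : sAlg x g ≠ 0 := fun h => left_ne_zero_of_mul (hgb.symm ▸ hb0)
        (sAlg_injective x (h.trans (map_zero _).symm))
      rw [← hab, ← hga, ← hgb, map_mul, map_mul, mul_div_mul_left _ _ hg, div_mul_cancel₀ _ hb'0]
    refine ⟨c * sAlg x b', mul_ne_zero hc0 hb'0, mul_mem hc ⟨b', rfl⟩, fun j hj => ?_, ?_⟩
    · rcases Finset.mem_insert.mp hj with rfl | hj
      · rw [mul_right_comm, hq]; exact ⟨a', rfl⟩
      · rw [mul_right_comm]; exact mul_mem (hct j hj) ⟨b', rfl⟩
    · intro r hr hrq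
      obtain ⟨w, hw⟩ := hcmin r hr fun j hj => hrq j (Finset.mem_insert_of_mem hj)
      obtain ⟨z, hz⟩ := hrq i (Finset.mem_insert_self i t)
      have hdvd : b' ∣ w * a' := by
        refine ⟨z, sAlg_injective x ?_⟩
        rw [map_mul, map_mul, hw, hz, ← hq]
        field_simp
      obtain ⟨v, hv⟩ := hrel.symm.dvd_of_dvd_mul_right hdvd
      refine ⟨v, ?_⟩
      rw [← div_div, ← hw, hv, map_mul, mul_div_cancel_left₀ _ hb'0]

omit [IsAlgClosed K] [Smooth s] in
include s in
lemma exists_open_isDenom [LocallyOfFiniteType s] {ι : Type*} (t : Finset ι)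
    (q : ι → W.functionField) {x : W} {c : W.functionField} (h : IsDenom t q x c) :
    ∃ U : W.Opens, x ∈ U ∧ ∀ y ∈ U, IsDenom t q y c := by
  classical
  have : IsLocallyNoetherian W := LocallyOfFiniteType.isLocallyNoetherian s
  obtain ⟨_, ⟨V, hV, rfl⟩, hxV, -⟩ :=
    W.isBasis_affineOpens.exists_subset_of_mem_open (Set.mem_univ x) isOpen_univ
  have : Nonempty V := ⟨⟨x, hxV⟩⟩
  have : IsNoetherianRing Γ(W, V) := IsLocallyNoetherian.component_noetherian ⟨V, hV⟩
  let g : Γ(W, V) →+* W.functionField := (W.germToFunctionField V).hom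
  let J : Ideal Γ(W, V) :=
    { carrier := {a | ∀ i ∈ t, g a * q i ∈ g.range}
      add_mem' := fun {a b} ha hb i hi => by
        rw [map_add, add_mul]; exact add_mem (ha i hi) (hb i hi)
      zero_mem' := fun i _ => by rw [map_zero, zero_mul]; exact zero_mem _
      smul_mem' := fun a b hb i hi => by
        rw [smul_eq_mul, map_mul, mul_assoc]; exact mul_mem ⟨a, rfl⟩ (hb i hi) }
  obtain ⟨S, hS⟩ := IsNoetherian.noetherian J
  have hgmem : ∀ {y : W}, y ∈ V → ∀ a, g a ∈ stalkSub y := fun hy a => section_mem_stalkSub hy a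
  -- the open set where `c`, the `c qᵢ` and the `a / c` are regular
  choose U₁ hxU₁ hU₁ using fun i : t => exists_open_regular (h.2.2.1 i.1 i.2)
  choose U₂ hxU₂ hU₂ using fun a : S => exists_open_regular (h.2.2.2 (g a.1) (hgmem hxV _)
    fun i hi => by
      obtain ⟨b, hb⟩ := (hS.le (Submodule.subset_span a.2) : a.1 ∈ J) i hi
      rw [← hb]; exact hgmem hxV b)
  obtain ⟨U₀, hxU₀, hU₀⟩ := exists_open_regular h.2.1
  let U' : W.Opens := ⟨((V : Set W) ∩ U₀) ∩ ((⋂ i, (U₁ i : Set W)) ∩ ⋂ a, (U₂ a : Set W)),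
    (V.2.inter U₀.2).inter ((isOpen_iInter_of_finite fun i => (U₁ i).2).inter
      (isOpen_iInter_of_finite fun a => (U₂ a).2))⟩
  refine ⟨U', ⟨⟨hxV, hxU₀⟩, Set.mem_iInter.mpr hxU₁, Set.mem_iInter.mpr hxU₂⟩, ?_⟩
  rintro y ⟨⟨hyV, hyU₀⟩, hyU₁, hyU₂⟩
  have hyU₁' : ∀ i, y ∈ U₁ i := Set.mem_iInter.mp hyU₁
  have hyU₂' : ∀ a, y ∈ U₂ a := Set.mem_iInter.mp hyU₂
  refine ⟨h.1, hU₀ y hyU₀, fun i hi => hU₁ ⟨i, hi⟩ y (hyU₁' _), fun r hr hrq => ?_⟩
  let := TopCat.Presheaf.algebra_section_stalk W.presheaf (⟨y, hyV⟩ : V)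
  have := hV.isLocalization_stalk ⟨y, hyV⟩
  let M := (hV.primeIdealOf ⟨y, hyV⟩).asIdeal.primeCompl
  have hfrac : ∀ z ∈ stalkSub y, ∃ a : Γ(W, V), ∃ d ∈ M, z * g d = g a := by
    rintro _ ⟨z, rfl⟩
    obtain ⟨⟨a, d⟩, hd⟩ := IsLocalization.surj M z
    refine ⟨a, d.1, d.2, ?_⟩
    have := congrArg (sAlg y) hd
    rw [map_mul] at this
    exact (germToFunctionField_eq hyV d.1) ▸ this.trans (germToFunctionField_eq hyV a)
  obtain ⟨a, d, hd, had⟩ := hfrac r hr
  choose b e he hbe using fun i : t => hfrac (r * q i.1) (hrq i.1 i.2)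
  let T : Γ(W, V) := a * ∏ i, e i
  have hT : T ∈ J := fun i hi => by
    refine ⟨d * b ⟨i, hi⟩ * ∏ j ∈ Finset.univ.erase ⟨i, hi⟩, e j, ?_⟩
    show g _ = _
    simp only [T, map_mul, map_prod]
    rw [← Finset.mul_prod_erase Finset.univ (fun j => g (e j)) (Finset.mem_univ ⟨i, hi⟩), ← had,
      ← hbe]
    ring
  have hTc : g T / c ∈ stalkSub y := by
    have h' : T ∈ Ideal.span (S : Set Γ(W, V)) := hS.ge hT
    refine Submodule.span_induction (p := fun z _ => g z / c ∈ stalkSub y) ?_ ?_ ?_ ?_ h'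
    · intro z hz; exact hU₂ ⟨z, hz⟩ y (hyU₂' _)
    · rw [map_zero, zero_div]; exact zero_mem _
    · intro z z' _ _ hz hz'; rw [map_add, add_div]; exact add_mem hz hz'
    · intro z z' _ hz'; rw [smul_eq_mul, map_mul, mul_div_assoc]; exact mul_mem (hgmem hyV z) hz'
  have hu : IsUnit (algebraMap Γ(W, V) (W.presheaf.stalk y) (d * ∏ i, e i)) :=
    IsLocalization.map_units _ (⟨d * ∏ i, e i, M.mul_mem hd (M.prod_mem fun i _ => he i)⟩ : M)
  obtain ⟨w, hw⟩ := hu
  have hew : sAlg y w = g (d * ∏ i, e i) := by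
    rw [hw]; exact germToFunctionField_eq hyV _
  have e1 : r / c = g T / c * sAlg y (↑w⁻¹ : W.presheaf.stalk y) := by
    have h1 : r * g (d * ∏ i, e i) = g T := by
      simp only [T, map_mul, ← mul_assoc, had]
    rw [← h1, ← hew]
    rw [show r * sAlg y w / c * sAlg y (↑w⁻¹ : W.presheaf.stalk y) =
      r / c * (sAlg y w * sAlg y (↑w⁻¹ : W.presheaf.stalk y)) by ring, ← map_mul, Units.mul_inv,
      map_one, mul_one]
  rw [e1]
  exact mul_mem hTc ⟨_, rfl⟩

include s in
/-- The common denominators of finitely many functions form an effective Cartier divisor. -/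
theorem exists_denominator [CompactSpace W] [LocallyOfFiniteType s] {ι : Type*} (t : Finset ι)
    (q : ι → W.functionField) :
    ∃ f : Cart W, f.1 (genericPoint W) = 1 ∧
      ∀ x, IsDenom t q x (f.1 x : W.functionField) := by
  classical
  have : JacobsonSpace W := LocallyOfFiniteType.jacobsonSpace s
  have hex : ∀ x : W, ∃ c, ∃ U : W.Opens, x ∈ U ∧ ∀ y ∈ U, IsDenom t q y c := by
    intro x
    obtain ⟨z, hxz, hz⟩ := nonempty_inter_closedPoints
      (Z := closure ({x} : Set W)) ⟨x, subset_closure rfl⟩ isClosed_closure.isLocallyClosed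
    obtain ⟨c, hc⟩ := exists_isDenom_closed s t q hz
    obtain ⟨U, hzU, hU⟩ := exists_open_isDenom s t q hc
    exact ⟨c, U, (specializes_iff_mem_closure.mpr hxz).mem_open U.2 hzU, hU⟩
  choose c U hxU hU using hex
  let f : W → W.functionFieldˣ := fun x =>
    if x = genericPoint W then 1 else Units.mk0 (c x) (hU x x (hxU x)).1
  have hden : ∀ x, IsDenom t q x (f x : W.functionField) := by
    intro x
    by_cases hx : x = genericPoint W
    · subst hx
      simp only [f, if_pos rfl, Units.val_one]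
      exact ⟨one_ne_zero, one_mem _, fun i _ => mem_stalkSub_genericPoint _,
        fun r _ _ => mem_stalkSub_genericPoint _⟩
    · simp only [f, if_neg hx, Units.val_mk0]
      exact hU x x (hxU x)
  refine ⟨⟨f, fun x => ?_⟩, if_pos rfl, hden⟩
  by_cases hx : x = genericPoint W
  · -- near the generic point the denominator is a unit
    obtain ⟨U₁, hηU₁, hU₁⟩ := exists_open_unit
      (mem_unitsAt_genericPoint (Units.mk0 (c x) (hU x x (hxU x)).1))
    refine ⟨U x ⊓ U₁, ⟨hxU x, hx ▸ hηU₁⟩, fun y hy => ?_⟩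
    have h1 : f x = 1 := if_pos hx
    have h2 := (hden y).unit_ratio (c := f y) (c' := Units.mk0 (c x) (hU x x (hxU x)).1)
      (by exact hU x y hy.1)
    have h3 := mul_mem h2 (hU₁ y hy.2)
    rw [div_mul_cancel] at h3
    rw [h1, div_one]
    exact h3
  · refine ⟨U x, hxU x, fun y hy => (hden y).unit_ratio ?_⟩
    simp only [f, if_neg hx, Units.val_mk0]
    exact hU x y hy

end Denominators

end FLTAgent.AV
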