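/-
Area AV (towards S26): products of two integral smooth varieties over an algebraically closed
field, slices, and rational functions that are regular on boxes.
-/
import Fermat.Agent.AV.Cartier

set_option autoImplicit false

noncomputable section

universe u

open CategoryTheory CategoryTheory.Limits AlgebraicGeometry TopologicalSpace NeronModelInfra
open scoped TensorProduct

namespace FLTAgent.AV

/-- The tensor product of two domains over an algebraically closed field is a domain. -/
lemma isDomain_tensor (k A B : Type*) [Field k] [IsAlgClosed k] [CommRing A] [IsDomain A]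
    [Algebra k A] [Algebra.FiniteType k A] [CommRing B] [IsDomain B] [Algebra k B] :
    IsDomain (A ⊗[k] B) := by
  classical
  let b := Module.Free.chooseBasis k B
  let r := TensorProduct.equivFinsuppOfBasisRight (M := A) b
  have hJ : IsJacobsonRing A := isJacobsonRing_of_finiteType (A := k)
  have hev : ∀ (M : Ideal A), M.IsMaximal → ∃ F : A ⊗[k] B →ₐ[k] B,
      ∀ t, F t = 0 → ∀ i, r t i ∈ M := by
    intro M hM
    let := Ideal.Quotient.field M
    have : Module.Finite k (A ⧸ M) := finite_of_finite_type_of_isJacobsonRing k (A ⧸ M)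
    let e : k ≃ₐ[k] A ⧸ M := AlgEquiv.ofBijective (Algebra.ofId k (A ⧸ M))
      IsAlgClosed.algebraMap_bijective_of_isIntegral
    let f : A →ₐ[k] k := e.symm.toAlgHom.comp (Ideal.Quotient.mkₐ k M)
    refine ⟨(Algebra.TensorProduct.lid k B).toAlgHom.comp
      (Algebra.TensorProduct.map f (AlgHom.id k B)), fun t ht i => ?_⟩
    have h : ∀ t, b.repr ((Algebra.TensorProduct.lid k B).toAlgHom.comp
        (Algebra.TensorProduct.map f (AlgHom.id k B)) t) i = f (r t i) := by
      intro t
      induction t using TensorProduct.induction_on with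
      | zero => simp
      | tmul a c => simp [r, mul_comm]
      | add x y hx hy => simp only [map_add, Finsupp.add_apply]; rw [hx, hy]
    have h0 := h t
    rw [ht, map_zero, Finsupp.zero_apply] at h0
    exact Ideal.Quotient.eq_zero_iff_mem.mp
      (e.symm.injective (h0.symm.trans (map_zero e.symm).symm))
  have : Nontrivial (A ⊗[k] B) := r.toEquiv.nontrivial
  have : NoZeroDivisors (A ⊗[k] B) := ⟨fun {s t} hst => by
    by_contra hne
    rw [not_or] at hne
    obtain ⟨i, hi⟩ := Finsupp.ne_iff.mp (r.map_ne_zero_iff.mpr hne.1)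
    obtain ⟨j, hj⟩ := Finsupp.ne_iff.mp (r.map_ne_zero_iff.mpr hne.2)
    simp only [Finsupp.zero_apply] at hi hj
    refine mul_ne_zero hi hj ?_
    have hmem : r s i * r t j ∈ Ideal.jacobson (⊥ : Ideal A) := by
      refine Ideal.mem_sInf.mpr fun {M} hM => ?_
      obtain ⟨F, hF⟩ := hev M hM.2
      have h := congrArg F hst
      rw [map_mul, map_zero] at h
      rcases mul_eq_zero.mp h with h | h
      · exact M.mul_mem_right _ (hF s h i)
      · exact M.mul_mem_left _ (hF t h j)
    have hrad : (⊥ : Ideal A).IsRadical := fun a ⟨n, hn⟩ => pow_eq_zero_iff'.mp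
      (Ideal.mem_bot.mp hn) |>.1
    rwa [isJacobsonRing_iff.mp hJ ⊥ hrad, Ideal.mem_bot] at hmem⟩
  exact NoZeroDivisors.to_isDomain _

section ResHom

variable {T W : Scheme.{u}} [IsIntegral T] [IsIntegral W]

/-- Pullback of rational functions along a dominant morphism. -/
def resHom (h : T ⟶ W) (hh : h (genericPoint T) = genericPoint W) :
    W.functionField →+* T.functionField where
  toFun := res h
  map_one' := res_one h
  map_mul' a b := res_mul h (hh ▸ mem_stalkSub_genericPoint a) (hh ▸ mem_stalkSub_genericPoint b)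
  map_zero' := res_zero h
  map_add' a b := res_add h (hh ▸ mem_stalkSub_genericPoint a) (hh ▸ mem_stalkSub_genericPoint b)

lemma resHom_apply (h : T ⟶ W) (hh : h (genericPoint T) = genericPoint W)
    (a : W.functionField) : resHom h hh a = res h a := rfl

lemma res_germ (h : T ⟶ W) {U : W.Opens} [Nonempty U] {V : T.Opens} [Nonempty V]
    (e : V ≤ h ⁻¹ᵁ U) (a : Γ(W, U)) :
    res h (W.germToFunctionField U a) = T.germToFunctionField V (h.appLE U V e a) := by
  obtain ⟨y, hy⟩ := (inferInstance : Nonempty V)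
  rw [← germToFunctionField_eq (U := U) (x := h y) (e hy), res_sAlg]
  erw [Scheme.Hom.germ_stalkMap_apply]
  rw [← germToFunctionField_eq hy]
  congr 1
  exact (T.presheaf.germ_res_apply (homOfLE e) y hy _).symm

lemma eq_genericPoint_of_surjective {h : T ⟶ W} (hs : Function.Surjective h) :
    h (genericPoint T) = genericPoint W := by
  obtain ⟨z, hz⟩ := hs (genericPoint W)
  exact ((hz ▸ (specializes_genericPoint z).map h.continuous).antisymm
    (specializes_genericPoint _)).eq

/-- The pullback along a map through a rational point is constant. -/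
lemma res_point {K : Type u} [Field K] {s : W ⟶ Spec (CommRingCat.of K)}
    (t : T ⟶ Spec (CommRingCat.of K)) (y : Pts s) {a : W.functionField}
    (ha : a ∈ stalkSub (pt y)) : res (t ≫ y.1) a = kHom t (ev y.1 a) := by
  unfold res
  have h := (ev_specMap (stalkStr t (genericPoint T)) y.1 ha).2
  rw [specMap_stalkStr, Category.assoc] at h
  exact h

end ResHom

section Affine

variable (R : CommRingCat.{u}) [IsDomain R]

instance nonempty_top_spec : Nonempty (⊤ : (Spec R).Opens) :=
  ⟨⟨genericPoint (Spec R), trivial⟩⟩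

/-- A domain inside the function field of its spectrum. -/
def specFF : R →+* (Spec R).functionField :=
  ((Spec R).germToFunctionField ⊤).hom.comp (Scheme.ΓSpecIso R).inv.hom

lemma specFF_injective : Function.Injective (specFF R) :=
  (germ_injective_of_isIntegral _ _ _).comp
    (ConcreteCategory.bijective_of_isIso (Scheme.ΓSpecIso R).inv).1

lemma exists_specFF {a : (Spec R).functionField} (ha : ∀ x, a ∈ stalkSub x) :
    ∃ r, specFF R r = a := by
  obtain ⟨c, hc⟩ := exists_section (W := Spec R) (isAffineOpen_top _) (a := a) fun x _ => ha x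
  obtain ⟨r, rfl⟩ := (ConcreteCategory.bijective_of_isIso (Scheme.ΓSpecIso R).inv).2 c
  exact ⟨r, hc⟩

lemma res_specMap {W : Scheme.{u}} [IsIntegral W] {U : W.Opens} (hU : IsAffineOpen U)
    [Nonempty U] (φ : Γ(W, U) ⟶ R) (a : Γ(W, U)) :
    res (Spec.map φ ≫ hU.fromSpec) (W.germToFunctionField U a) = specFF R (φ a) := by
  have e : ⊤ ≤ (Spec.map φ ≫ hU.fromSpec) ⁻¹ᵁ U := by
    intro x _
    show (Spec.map φ ≫ hU.fromSpec) x ∈ U
    rw [Scheme.Hom.comp_apply]
    exact hU.range_fromSpec.le ⟨_, rfl⟩
  rw [res_germ _ e]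
  refine congrArg ((Spec R).germToFunctionField ⊤) ?_
  have h : (Spec.map φ ≫ hU.fromSpec).appLE U ⊤ e = φ ≫ (Scheme.ΓSpecIso R).inv := by
    rw [Scheme.ΓSpecIso_inv_naturality, Scheme.Hom.comp_appLE, hU.fromSpec_app_self,
      Category.assoc]
    erw [Scheme.Hom.map_appLE, Scheme.Hom.appLE_eq_app]
  exact congr($h a)

end Affine

section Prod

variable {K : Type u} [Field K] [IsAlgClosed K] {X Y P : Scheme.{u}}
  {sX : X ⟶ Spec (CommRingCat.of K)} {sY : Y ⟶ Spec (CommRingCat.of K)}
  {p : P ⟶ X} {q : P ⟶ Y} (hP : IsPullback p q sX sY)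

/-- The slice over a rational point of the second factor. -/
def sliceL (y : Pts sY) : X ⟶ P := hP.lift (𝟙 X) (sX ≫ y.1) (by simp [y.2])

omit [IsAlgClosed K] in
@[simp] lemma sliceL_fst (y : Pts sY) : sliceL hP y ≫ p = 𝟙 X := hP.lift_fst _ _ _

omit [IsAlgClosed K] in
@[simp] lemma sliceL_snd (y : Pts sY) : sliceL hP y ≫ q = sX ≫ y.1 := hP.lift_snd _ _ _

omit [IsAlgClosed K] in
lemma isPullback_sliceL (y : Pts sY) : IsPullback (sliceL hP y) sX q y.1 := by
  refine IsPullback.of_right ?_ (sliceL_snd hP y) hP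
  rw [sliceL_fst, y.2]
  exact IsPullback.of_id_fst

omit [IsAlgClosed K] in
lemma range_sliceL (y : Pts sY) : Set.range (sliceL hP y) = q ⁻¹' {pt y} := by
  have h := isPullback_sliceL hP y
  have hr : Set.range y.1 = {pt y} := by
    ext z
    refine ⟨fun ⟨w, hw⟩ => ?_, fun hz => ⟨_, hz.symm⟩⟩
    rw [← hw, Subsingleton.elim (α := PrimeSpectrum K) w (IsLocalRing.closedPoint K)]
    rfl
  rw [← hr, ← h.isoPullback_hom_fst, ← Scheme.Pullback.range_fst]
  ext z
  constructor
  · rintro ⟨w, rfl⟩; exact ⟨_, (Scheme.Hom.comp_apply _ _ _).symm⟩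
  · rintro ⟨w, rfl⟩
    exact ⟨h.isoPullback.inv w, by
      rw [← Scheme.Hom.comp_apply, ← Category.assoc, Iso.inv_hom_id, Category.id_comp]⟩

omit [IsAlgClosed K] in
lemma snd_sliceL_apply (y : Pts sY) (x : X) : q (sliceL hP y x) = pt y :=
  (range_sliceL hP y).le ⟨x, rfl⟩

omit [IsAlgClosed K] in
lemma fst_sliceL_apply (y : Pts sY) (x : X) : p (sliceL hP y x) = x := by
  rw [← Scheme.Hom.comp_apply, sliceL_fst]
  rfl

variable [IsIntegral X] [IsIntegral Y] [Smooth sX] [Smooth sY]

include hP in
/-- A product of integral smooth varieties over an algebraically closed field is integral. -/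
theorem isIntegral_prod : IsIntegral P := by
  have : Smooth q := MorphismProperty.of_isPullback hP ‹Smooth sX›
  have : IsReduced P := isReduced_of_smooth (f := q ≫ sY)
  have : UniversallyOpen sX := inferInstance
  have : UniversallyOpen q := MorphismProperty.of_isPullback hP ‹UniversallyOpen sX›
  have hJ : JacobsonSpace Y := LocallyOfFiniteType.jacobsonSpace sY
  obtain ⟨y₀, -, hy₀⟩ := nonempty_inter_closedPoints (Z := (Set.univ : Set Y))
    Set.univ_nonempty isOpen_univ.isLocallyClosed
  obtain ⟨y₀, rfl⟩ := exists_pt_eq (f := sY) hy₀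
  have : Nonempty P := ⟨sliceL hP y₀ (genericPoint X)⟩
  have : IrreducibleSpace P := by
    refine { toPreirreducibleSpace := ⟨?_⟩, toNonempty := inferInstance }
    rintro U V hU hV ⟨a, -, haU⟩ ⟨b, -, hbV⟩
    have hUo := q.isOpenMap U hU
    have hVo := q.isOpenMap V hV
    have hne : (q '' U ∩ q '' V).Nonempty :=
      ⟨genericPoint Y, ((genericPoint_spec Y).mem_open_set_iff hUo).mpr
        ⟨_, trivial, a, haU, rfl⟩, ((genericPoint_spec Y).mem_open_set_iff hVo).mpr
        ⟨_, trivial, b, hbV, rfl⟩⟩
    obtain ⟨z, ⟨⟨a', ha', rfl⟩, b', hb', hb''⟩, hz⟩ :=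
      nonempty_inter_closedPoints hne (hUo.inter hVo).isLocallyClosed
    obtain ⟨y, hy⟩ := exists_pt_eq (f := sY) hz
    obtain ⟨x, hx⟩ := (range_sliceL hP y).ge (show a' ∈ q ⁻¹' {pt y} from hy.symm)
    obtain ⟨x', hx'⟩ := (range_sliceL hP y).ge (show b' ∈ q ⁻¹' {pt y} from hb''.trans hy.symm)
    obtain ⟨w, hwU, hwV⟩ := nonempty_preirreducible_inter
      (hU.preimage (sliceL hP y).continuous) (hV.preimage (sliceL hP y).continuous)
      ⟨x, show sliceL hP y x ∈ U from hx ▸ ha'⟩ ⟨x', show sliceL hP y x' ∈ V from hx' ▸ hb'⟩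
    exact ⟨_, trivial, hwU, hwV⟩
  exact (isIntegral_iff_irreducibleSpace_and_isReduced P).mpr ⟨inferInstance, inferInstance⟩

omit [IsIntegral X] [Smooth sX] in
include hP in
lemma surjective_fst_prod : Function.Surjective p := by
  have : JacobsonSpace Y := LocallyOfFiniteType.jacobsonSpace sY
  obtain ⟨y₀, -, hy₀⟩ := nonempty_inter_closedPoints (Z := (Set.univ : Set Y))
    Set.univ_nonempty isOpen_univ.isLocallyClosed
  obtain ⟨y₀, rfl⟩ := exists_pt_eq (f := sY) hy₀
  exact fun x => ⟨_, fst_sliceL_apply hP y₀ x⟩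

variable [IsIntegral P]

include hP in
lemma fst_genericPoint : p (genericPoint P) = genericPoint X :=
  eq_genericPoint_of_surjective (surjective_fst_prod hP)

include hP in
lemma snd_genericPoint : q (genericPoint P) = genericPoint Y :=
  eq_genericPoint_of_surjective (surjective_fst_prod hP.flip)

include hP in
/-- Everything we need to know about the box `U × V`. -/
lemma exists_box {U : X.Opens} (hU : IsAffineOpen U) [Nonempty U] {V : Y.Opens}
    (hV : IsAffineOpen V) [Nonempty V] :
    letI := (Spec.preimage (hU.fromSpec ≫ sX)).hom.toAlgebra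
    letI := (Spec.preimage (hV.fromSpec ≫ sY)).hom.toAlgebra
    ∃ (F : Γ(X, U) ⊗[K] Γ(Y, V) →+* P.functionField), Function.Injective F ∧
      (∀ a b, F (a ⊗ₜ b) =
        res p (X.germToFunctionField U a) * res q (Y.germToFunctionField V b)) ∧
      ∀ z, (∀ x, p x ∈ U → q x ∈ V → z ∈ stalkSub x) → z ∈ F.range := by
  let := (Spec.preimage (hU.fromSpec ≫ sX)).hom.toAlgebra
  let := (Spec.preimage (hV.fromSpec ≫ sY)).hom.toAlgebra
  have hUm : Spec.map (CommRingCat.ofHom (algebraMap K Γ(X, U))) = hU.fromSpec ≫ sX :=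
    Spec.map_preimage _
  have hVm : Spec.map (CommRingCat.ofHom (algebraMap K Γ(Y, V))) = hV.fromSpec ≫ sY :=
    Spec.map_preimage _
  have : Algebra.FiniteType K Γ(X, U) :=
    (HasRingHomProperty.Spec_iff (P := @LocallyOfFiniteType)).mp
      (show LocallyOfFiniteType (Spec.map (CommRingCat.ofHom (algebraMap K Γ(X, U)))) by
        rw [hUm]; infer_instance)
  let R : CommRingCat.{u} := CommRingCat.of (Γ(X, U) ⊗[K] Γ(Y, V))
  have : IsDomain R := isDomain_tensor K Γ(X, U) Γ(Y, V)
  let j : Spec R ⟶ P := (pullbackSpecIso K Γ(X, U) Γ(Y, V)).inv ≫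
    pullback.map _ _ sX sY hU.fromSpec hV.fromSpec (𝟙 _) (by rw [hUm, Category.comp_id])
      (by rw [hVm, Category.comp_id]) ≫ hP.isoPullback.inv
  have hjp : j ≫ p = Spec.map (CommRingCat.ofHom Algebra.TensorProduct.includeLeftRingHom) ≫
      hU.fromSpec := by
    simp only [j, Category.assoc, hP.isoPullback_inv_fst, pullback.lift_fst]
    rw [← Category.assoc, pullbackSpecIso_inv_fst]
  have hjq : j ≫ q = Spec.map (CommRingCat.ofHom
      (Algebra.TensorProduct.includeRight : Γ(Y, V) →ₐ[K] R).toRingHom) ≫ hV.fromSpec := by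
    simp only [j, Category.assoc, hP.isoPullback_inv_snd, pullback.lift_snd]
    rw [← Category.assoc, pullbackSpecIso_inv_snd]
    rfl
  have : IsOpenImmersion j := inferInstance
  have hη : j (genericPoint (Spec R)) = genericPoint P :=
    genericPoint_eq_of_isOpenImmersion j
  have hrange : ∀ x, x ∈ Set.range j → p x ∈ U ∧ q x ∈ V := by
    rintro _ ⟨w, rfl⟩
    rw [← Scheme.Hom.comp_apply, ← Scheme.Hom.comp_apply, hjp, hjq, Scheme.Hom.comp_apply,
      Scheme.Hom.comp_apply]
    exact ⟨hU.range_fromSpec.le ⟨_, rfl⟩, hV.range_fromSpec.le ⟨_, rfl⟩⟩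
  -- the box is an open subset of `P`, so its functions form a subring of the function field
  have hsurj : ∀ r : R, ∃ z, res j z = specFF R r := by
    intro r
    induction r using TensorProduct.induction_on with
    | zero => exact ⟨0, by simp⟩
    | tmul a b =>
      refine ⟨res p (X.germToFunctionField U a) * res q (Y.germToFunctionField V b), ?_⟩
      rw [← resHom_apply j hη, map_mul, resHom_apply, resHom_apply,
        ← res_res j p (by rw [hη, fst_genericPoint hP]; exact mem_stalkSub_genericPoint _),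
        ← res_res j q (by rw [hη, snd_genericPoint hP]; exact mem_stalkSub_genericPoint _),
        hjp, hjq, res_specMap, res_specMap, ← map_mul]
      congr 1
      exact (Algebra.TensorProduct.tmul_mul_tmul a 1 1 b).trans (by rw [mul_one, one_mul])
    | add x y hx hy =>
      obtain ⟨z, hz⟩ := hx
      obtain ⟨z', hz'⟩ := hy
      refine ⟨z + z', ?_⟩
      rw [← resHom_apply j hη, map_add, resHom_apply, resHom_apply, hz, hz']
      exact ((specFF R).map_add x y).symm
  choose G hG using hsurj
  have hinj : Function.Injective (res j) := (resHom j hη).injective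
  let F : R →+* P.functionField :=
    { toFun := G
      map_one' := hinj (by rw [hG, map_one, res_one])
      map_mul' := fun x y => hinj (by
        rw [hG, map_mul, ← resHom_apply j hη, map_mul, resHom_apply, resHom_apply, hG, hG])
      map_zero' := hinj (by rw [hG, map_zero, res_zero])
      map_add' := fun x y => hinj (by
        rw [hG, map_add, ← resHom_apply j hη, map_add, resHom_apply, resHom_apply, hG, hG]) }
  refine ⟨F, fun x y h => specFF_injective R (by rw [← hG x, ← hG y]; exact congrArg (res j) h),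
    fun a b => hinj ?_, fun z hz => ?_⟩
  · show res j (G _) = _
    rw [hG, ← resHom_apply j hη, map_mul, resHom_apply, resHom_apply,
      ← res_res j p (by rw [hη, fst_genericPoint hP]; exact mem_stalkSub_genericPoint _),
      ← res_res j q (by rw [hη, snd_genericPoint hP]; exact mem_stalkSub_genericPoint _),
      hjp, hjq, res_specMap, res_specMap, ← map_mul]
    congr 1
    exact ((Algebra.TensorProduct.tmul_mul_tmul a 1 1 b).trans (by rw [mul_one, one_mul])).symm
  · obtain ⟨r, hr⟩ := exists_specFF R (a := res j z) fun w => res_mem j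
      (hz _ (hrange _ ⟨w, rfl⟩).1 (hrange _ ⟨w, rfl⟩).2)
    exact ⟨r, hinj ((hG r).trans hr)⟩

include hP in
/-- A function regular on a box is a sum of products of functions regular on the sides. -/
theorem mem_closure_of_regular_box {U : X.Opens} (hU : IsAffineOpen U) [Nonempty U]
    {V : Y.Opens} (hV : IsAffineOpen V) [Nonempty V] {z : P.functionField}
    (hz : ∀ x, p x ∈ U → q x ∈ V → z ∈ stalkSub x) :
    z ∈ AddSubmonoid.closure {w : P.functionField | ∃ a b,
      (∀ x ∈ U, a ∈ stalkSub x) ∧ (∀ y ∈ V, b ∈ stalkSub y) ∧ w = res p a * res q b} := by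
  let := (Spec.preimage (hU.fromSpec ≫ sX)).hom.toAlgebra
  let := (Spec.preimage (hV.fromSpec ≫ sY)).hom.toAlgebra
  obtain ⟨F, -, hF, hr⟩ := exists_box hP hU hV
  obtain ⟨r, rfl⟩ := hr z hz
  clear hz
  induction r using TensorProduct.induction_on with
  | zero => rw [map_zero]; exact zero_mem _
  | tmul a b => exact AddSubmonoid.subset_closure ⟨_, _, fun x hx => section_mem_stalkSub hx a,
      fun y hy => section_mem_stalkSub hy b, hF a b⟩
  | add x y hx hy => rw [map_add]; exact add_mem hx hy

include hP in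
/-- Functionals on the first factor extend to the function field of the product. -/
theorem exists_functional :
    letI := fieldAlg sX
    ∀ l : X.functionField →ₗ[K] K, ∃ L : P.functionField →+ Y.functionField,
      ∀ a b, L (res p a * res q b) = kHom sY (l a) * b := by
  let := fieldAlg sX
  let := fieldAlg sY
  let := fieldAlg (q ≫ sY)
  intro l
  let f₁ : X.functionField →ₐ[K] P.functionField :=
    { resHom p (fst_genericPoint hP) with
      commutes' := fun c => res_kHom sX (q ≫ sY) p hP.w c }
  let f₂ : Y.functionField →ₐ[K] P.functionField :=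
    { resHom q (snd_genericPoint hP) with
      commutes' := fun c => res_kHom sY (q ≫ sY) q rfl c }
  let μ : X.functionField ⊗[K] Y.functionField →ₗ[K] P.functionField :=
    (Algebra.TensorProduct.productMap f₁ f₂).toLinearMap
  have hμt : ∀ a b, μ (a ⊗ₜ b) = res p a * res q b := fun a b => rfl
  have hμ : LinearMap.ker μ = ⊥ := by
    rw [LinearMap.ker_eq_bot']
    intro t ht
    -- `t` comes from some box
    have key : ∀ t : X.functionField ⊗[K] Y.functionField,
        ∃ (U : X.Opens) (V : Y.Opens), genericPoint X ∈ U ∧ genericPoint Y ∈ V ∧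
          t ∈ Submodule.span K {w | ∃ a b, (∀ x ∈ U, a ∈ stalkSub x) ∧
            (∀ y ∈ V, b ∈ stalkSub y) ∧ a ⊗ₜ[K] b = w} := by
      intro t
      induction t using TensorProduct.induction_on with
      | zero => exact ⟨⊤, ⊤, trivial, trivial, zero_mem _⟩
      | tmul a b =>
        obtain ⟨U, hxU, hU⟩ := exists_open_regular (mem_stalkSub_genericPoint a)
        obtain ⟨V, hyV, hV⟩ := exists_open_regular (mem_stalkSub_genericPoint b)
        exact ⟨U, V, hxU, hyV, Submodule.subset_span ⟨a, b, hU, hV, rfl⟩⟩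
      | add x y hx hy =>
        obtain ⟨U, V, hU, hV, h⟩ := hx
        obtain ⟨U', V', hU', hV', h'⟩ := hy
        refine ⟨U ⊓ U', V ⊓ V', ⟨hU, hU'⟩, ⟨hV, hV'⟩, add_mem
          (Submodule.span_mono ?_ h) (Submodule.span_mono ?_ h')⟩
        · rintro _ ⟨a, b, ha, hb, rfl⟩
          exact ⟨a, b, fun x hx => ha x hx.1, fun y hy => hb y hy.1, rfl⟩
        · rintro _ ⟨a, b, ha, hb, rfl⟩
          exact ⟨a, b, fun x hx => ha x hx.2, fun y hy => hb y hy.2, rfl⟩
    obtain ⟨U₀, V₀, hU₀, hV₀, ht₀⟩ := key t
    obtain ⟨_, ⟨U, hU, rfl⟩, hxU, hUU⟩ :=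
      X.isBasis_affineOpens.exists_subset_of_mem_open hU₀ U₀.2
    obtain ⟨_, ⟨V, hV, rfl⟩, hyV, hVV⟩ :=
      Y.isBasis_affineOpens.exists_subset_of_mem_open hV₀ V₀.2
    have : Nonempty U := ⟨⟨_, hxU⟩⟩
    have : Nonempty V := ⟨⟨_, hyV⟩⟩
    let := (Spec.preimage (hU.fromSpec ≫ sX)).hom.toAlgebra
    let := (Spec.preimage (hV.fromSpec ≫ sY)).hom.toAlgebra
    obtain ⟨F, hFinj, hF, -⟩ := exists_box hP hU hV
    have hga : ∀ c, X.germToFunctionField U (algebraMap K Γ(X, U) c) = kHom sX c := fun c => by
      obtain ⟨y, hy⟩ := (inferInstance : Nonempty U)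
      rw [← germToFunctionField_eq hy, ← sAlg_stalkStr sX y c]
      congr 1
      have h : CommRingCat.ofHom (algebraMap K Γ(X, U)) ≫ X.presheaf.germ U y hy =
          stalkStr sX y := by
        refine Spec.map_injective ?_
        rw [Spec.map_comp, specMap_stalkStr, ← hU.fromSpecStalk_eq_fromSpecStalk hy]
        delta IsAffineOpen.fromSpecStalk
        simp [RingHom.algebraMap_toAlgebra]
      exact congr($h c)
    have hgb : ∀ c, Y.germToFunctionField V (algebraMap K Γ(Y, V) c) = kHom sY c := fun c => by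
      obtain ⟨y, hy⟩ := (inferInstance : Nonempty V)
      rw [← germToFunctionField_eq hy, ← sAlg_stalkStr sY y c]
      congr 1
      have h : CommRingCat.ofHom (algebraMap K Γ(Y, V)) ≫ Y.presheaf.germ V y hy =
          stalkStr sY y := by
        refine Spec.map_injective ?_
        rw [Spec.map_comp, specMap_stalkStr, ← hV.fromSpecStalk_eq_fromSpecStalk hy]
        delta IsAffineOpen.fromSpecStalk
        simp [RingHom.algebraMap_toAlgebra]
      exact congr($h c)
    let gU : Γ(X, U) →ₐ[K] X.functionField :=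
      { (X.germToFunctionField U).hom with commutes' := hga }
    let gV : Γ(Y, V) →ₐ[K] Y.functionField :=
      { (Y.germToFunctionField V).hom with commutes' := hgb }
    have hle : Submodule.span K {w | ∃ a b, (∀ x ∈ U₀, a ∈ stalkSub x) ∧
        (∀ y ∈ V₀, b ∈ stalkSub y) ∧ a ⊗ₜ[K] b = w} ≤
        LinearMap.range (Algebra.TensorProduct.map gU gV).toLinearMap := by
      rw [Submodule.span_le]
      rintro _ ⟨a, b, ha, hb, rfl⟩
      obtain ⟨a, rfl⟩ := exists_section hU (fun x hx => ha x (hUU hx))
      obtain ⟨b, rfl⟩ := exists_section hV (fun y hy => hb y (hVV hy))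
      exact ⟨a ⊗ₜ b, rfl⟩
    obtain ⟨r, rfl⟩ := hle ht₀
    have hFr : ∀ r, μ ((Algebra.TensorProduct.map gU gV).toLinearMap r) = F r := by
      intro r
      induction r using TensorProduct.induction_on with
      | zero => simp
      | tmul a b => rw [hF]; rfl
      | add x y hx hy => rw [map_add, map_add, map_add, hx, hy]
    rw [hFr, ← map_zero F] at ht
    rw [hFinj ht, map_zero]
  obtain ⟨ν, hν⟩ := LinearMap.exists_leftInverse_of_injective μ hμ
  refine ⟨(((TensorProduct.lid K Y.functionField).toLinearMap.comp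
    (LinearMap.rTensor Y.functionField l)).comp ν).toAddMonoidHom, fun a b => ?_⟩
  have h := LinearMap.congr_fun hν (a ⊗ₜ b)
  simp only [LinearMap.comp_apply, LinearMap.id_apply, hμt] at h
  simp only [LinearMap.toAddMonoidHom_coe, LinearMap.comp_apply, h, LinearMap.rTensor_tmul,
    LinearEquiv.coe_coe, TensorProduct.lid_tmul, Algebra.smul_def]
  rfl

end Prod

end FLTAgent.AV
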