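/-
Area AV (towards S26): additive Cousin data, and the fact that on a product of two proper
varieties such data are trivial as soon as their restrictions to the two axes are.
-/
import Fermat.Agent.AV.Box

set_option autoImplicit false

noncomputable section

universe u

open CategoryTheory CategoryTheory.Limits AlgebraicGeometry TopologicalSpace NeronModelInfra

namespace FLTAgent.AV

section AddData

variable {W T : Scheme.{u}} [IsIntegral W] [IsIntegral T]

/-- Additive Cousin data. -/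
def IsAdd (c : W → W.functionField) : Prop :=
  ∀ x, ∃ V : W.Opens, x ∈ V ∧ ∀ y ∈ V, c y - c x ∈ stalkSub y

/-- Principal additive Cousin data. -/
def IsAddPrinc (c : W → W.functionField) : Prop :=
  ∃ φ : W.functionField, ∀ x, c x - φ ∈ stalkSub x

/-- Pullback of additive Cousin data. -/
def pullAdd (h : T ⟶ W) (c : W → W.functionField) (x : T) : T.functionField :=
  res h (c (h x) - c (h (genericPoint T)))

lemma IsAdd.ratio {c : W → W.functionField} (hc : IsAdd c) {x y : W} (h : y ⤳ x) :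
    c y - c x ∈ stalkSub y := by
  obtain ⟨V, hxV, hV⟩ := hc x
  exact hV y (h.mem_open V.2 hxV)

lemma exists_pow_mul_mem {U : W.Opens} (hU : IsAffineOpen U) [Nonempty U] (b : Γ(W, U))
    [Nonempty (W.basicOpen b)] {a : W.functionField}
    (ha : ∀ x ∈ W.basicOpen b, a ∈ stalkSub x) :
    ∃ (M : ℕ) (r : Γ(W, U)),
      W.germToFunctionField U b ^ M * a = W.germToFunctionField U r := by
  obtain ⟨c, hc⟩ := exists_section (hU.basicOpen b) ha
  let := (W.presheaf.map (homOfLE (W.basicOpen_le b)).op).hom.toAlgebra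
  have : IsLocalization.Away b Γ(W, W.basicOpen b) := hU.isLocalization_basicOpen b
  obtain ⟨⟨r, ⟨_, M, rfl⟩⟩, hr⟩ := IsLocalization.surj (Submonoid.powers b) c
  refine ⟨M, r, ?_⟩
  have hg : ∀ z, W.germToFunctionField (W.basicOpen b)
      (algebraMap Γ(W, U) Γ(W, W.basicOpen b) z) = W.germToFunctionField U z := fun z =>
    W.presheaf.germ_res_apply (homOfLE (W.basicOpen_le b)) _ _ z
  have h := congrArg (W.germToFunctionField (W.basicOpen b)) hr
  rw [map_mul, hc, hg, hg] at h
  rw [← map_pow, mul_comm]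
  exact h

/-- Additive Cousin data are principal on an affine open. -/
lemma exists_primitive_affine {c : W → W.functionField} (hc : IsAdd c) {U : W.Opens}
    (hU : IsAffineOpen U) : ∃ φ, ∀ x ∈ U, c x - φ ∈ stalkSub x := by
  classical
  choose V hxV hV using hc
  choose b hbV hxb using fun x : U => hU.exists_basicOpen_le ⟨x.1, hxV x.1⟩ x.2
  obtain ⟨t, ht⟩ := hU.isCompact.elim_finite_subcover (fun x : U => (W.basicOpen (b x) : Set W))
    (fun x => (W.basicOpen (b x)).2) fun x hx => Set.mem_iUnion.mpr ⟨⟨x, hx⟩, hxb ⟨x, hx⟩⟩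
  rcases Set.eq_empty_or_nonempty (U : Set W) with hUe | ⟨u, hu⟩
  · exact ⟨0, fun x hx => absurd (show x ∈ (∅ : Set W) from hUe ▸ hx) id⟩
  have : Nonempty U := ⟨⟨u, hu⟩⟩
  let g : Γ(W, U) →+* W.functionField := (W.germToFunctionField U).hom
  have hspan : Ideal.span (Set.range fun i : t => b i.1) = ⊤ := by
    rw [← hU.self_le_iSup_basicOpen_iff]
    intro x hx
    obtain ⟨i, hi, hxi⟩ := Set.mem_iUnion₂.mp (ht hx)
    rw [Opens.mem_iSup]
    exact ⟨⟨b i, ⟨i, hi⟩, rfl⟩, hxi⟩
  let φ' : t → W.functionField := fun i => c i.1.1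
  have hne : ∀ i j : t, Nonempty (W.basicOpen (b i.1 * b j.1)) := fun i j => by
    refine ⟨⟨genericPoint W, ?_⟩⟩
    rw [Scheme.basicOpen_mul]
    exact ⟨(specializes_genericPoint _).mem_open (W.basicOpen _).2 (hxb i.1),
      (specializes_genericPoint _).mem_open (W.basicOpen _).2 (hxb j.1)⟩
  choose M r hMr using fun ij : t × t =>
    have := hne ij.1 ij.2
    exists_pow_mul_mem hU (b ij.1.1 * b ij.2.1) (a := φ' ij.1 - φ' ij.2) fun x hx => by
      rw [Scheme.basicOpen_mul] at hx
      have h1 := hV ij.1.1.1 x (hbV ij.1.1 hx.1)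
      have h2 := hV ij.2.1.1 x (hbV ij.2.1 hx.2)
      simpa [φ'] using sub_mem h2 h1
  let N := Finset.univ.sup M
  have hspanN := Ideal.span_pow_eq_top (Set.range fun i : t => b i.1) hspan N
  rw [← Set.range_comp, Ideal.eq_top_iff_one, Ideal.mem_span_range_iff_exists_fun] at hspanN
  obtain ⟨e, he⟩ := hspanN
  have he' : ∑ i, g (e i) * g (b i.1) ^ N = 1 := by
    rw [← map_one g, ← he, map_sum]
    exact Finset.sum_congr rfl fun i _ => by simp [Function.comp]
  refine ⟨∑ i, g (e i) * g (b i.1) ^ N * φ' i, fun x hx => ?_⟩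
  obtain ⟨j, hj, hxj⟩ := Set.mem_iUnion₂.mp (ht hx)
  have hreg : ∀ z, g z ∈ stalkSub x := fun z => section_mem_stalkSub hx z
  obtain ⟨w, hw⟩ : IsUnit (W.presheaf.germ U x hx (b j)) := (W.mem_basicOpen _ x hx).mp hxj
  have hinv : (g (b j))⁻¹ ∈ stalkSub x := by
    refine ⟨(↑w⁻¹ : W.presheaf.stalk x), ?_⟩
    rw [map_units_inv, hw, germToFunctionField_eq hx]
  have key : c x - ∑ i, g (e i) * g (b i.1) ^ N * φ' i =
      (c x - φ' ⟨j, hj⟩) - ∑ i, g (e i) * g (b i.1) ^ N * (φ' i - φ' ⟨j, hj⟩) := by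
    simp only [mul_sub, Finset.sum_sub_distrib, ← Finset.sum_mul, he', one_mul]
    ring
  rw [key]
  refine sub_mem (hV j.1 x (hbV j hxj)) (Subring.sum_mem _ fun i _ => ?_)
  have hM : M (i, (⟨j, hj⟩ : t)) ≤ N :=
    Finset.le_sup (f := M) (Finset.mem_univ (i, (⟨j, hj⟩ : t)))
  obtain ⟨d, hd⟩ := Nat.exists_eq_add_of_le hM
  have hb0 : g (b j) ≠ 0 := fun h => by
    have := germToFunctionField_eq hx (b j)
    rw [← hw] at this
    exact Units.ne_zero w (sAlg_injective x (this.trans (h.trans (map_zero _).symm)))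
  have h := hMr (i, ⟨j, hj⟩)
  rw [map_mul, mul_pow] at h
  have e2 : g (e i) * g (b i.1) ^ N * (φ' i - φ' ⟨j, hj⟩) =
      g (e i) * g (b i.1) ^ d * g (r (i, ⟨j, hj⟩)) * (g (b j))⁻¹ ^ M (i, ⟨j, hj⟩) := by
    change _ = g (e i) * g (b i.1) ^ d * W.germToFunctionField U _ * _
    rw [← h, hd, pow_add, inv_pow]
    change _ = g (e i) * g (b i.1) ^ d * (g (b i.1) ^ _ * g (b j) ^ _ * _) * _
    field_simp
  rw [e2]
  exact mul_mem (mul_mem (mul_mem (hreg _) (pow_mem (hreg _) _)) (hreg _)) (pow_mem hinv _)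

end AddData

section Const

variable {K : Type u} [Field K] [IsAlgClosed K] {W : Scheme.{u}} [IsIntegral W]
  (s : W ⟶ Spec (CommRingCat.of K))

include s in
/-- A function regular everywhere on a proper variety is constant. -/
lemma exists_const_of_regular [UniversallyClosed s] {a : W.functionField}
    (ha : ∀ x, a ∈ stalkSub x) : ∃ c, kHom s c = a := by
  have h := isIntegral_of_centres s (kHom s).range (fun c => ⟨c, rfl⟩) a fun _ x _ hx _ =>
    hx (ha x)
  obtain ⟨P, hPm, hP⟩ := h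
  obtain ⟨Q, hQ, -, hQm⟩ := Polynomial.lifts_and_degree_eq_and_monic
    (f := (kHom s).rangeRestrict) (p := P)
    ((Polynomial.mem_lifts P).mpr (Polynomial.map_surjective _
      (kHom s).rangeRestrict_surjective P)) hPm
  rw [← hQ, Polynomial.eval₂_map] at hP
  have hsplit := IsAlgClosed.splits Q
  rw [hsplit.eq_prod_roots_of_monic hQm, Polynomial.eval₂_multiset_prod, Multiset.map_map] at hP
  obtain ⟨c, -, hc⟩ := Multiset.mem_map.mp (Multiset.prod_eq_zero_iff.mp hP)
  refine ⟨c, ?_⟩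
  simp only [Function.comp_apply, Polynomial.eval₂_sub, Polynomial.eval₂_X,
    Polynomial.eval₂_C] at hc
  exact (sub_eq_zero.mp hc).symm

omit [IsAlgClosed K] [IsIntegral W] in
lemma isAffineOpen_inf [IsSeparated s] {U V : W.Opens} (hU : IsAffineOpen U)
    (hV : IsAffineOpen V) : IsAffineOpen (U ⊓ V) :=
  isAffineHom_diagonal_iff (f := s).mp inferInstance ⊤ (isAffineOpen_top _) U (by simp) V
    (by simp) hU hV

/-- The functions that are regular on a set, as a subspace. -/
def regOn (S : Set W) : letI := fieldAlg s; Submodule K W.functionField :=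
  letI := fieldAlg s
  { carrier := {a | ∀ x ∈ S, a ∈ stalkSub x}
    add_mem' := fun ha hb x hx => add_mem (ha x hx) (hb x hx)
    zero_mem' := fun x _ => zero_mem _
    smul_mem' := fun c a ha x hx => by
      rw [Algebra.smul_def]
      exact mul_mem (kHom_mem s x c) (ha x hx) }

end Const

section Theorem

variable {K : Type u} [Field K] [IsAlgClosed K] {X Y P : Scheme.{u}}
  {sX : X ⟶ Spec (CommRingCat.of K)} {sY : Y ⟶ Spec (CommRingCat.of K)}
  {p : P ⟶ X} {q : P ⟶ Y} (hP : IsPullback p q sX sY)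
  [IsIntegral X] [IsIntegral Y] [Smooth sX] [Smooth sY] [IsIntegral P]

omit [IsAlgClosed K] [IsIntegral X] [IsIntegral Y] [Smooth sX] [Smooth sY] [IsIntegral P] in
include hP in
lemma isAffineOpen_box {U : X.Opens} (hU : IsAffineOpen U) {V : Y.Opens}
    (hV : IsAffineOpen V) : IsAffineOpen (p ⁻¹ᵁ U ⊓ q ⁻¹ᵁ V) := by
  let j : pullback (hU.fromSpec ≫ sX) (hV.fromSpec ≫ sY) ⟶ P :=
    pullback.map _ _ sX sY hU.fromSpec hV.fromSpec (𝟙 _) (by simp) (by simp) ≫
      hP.isoPullback.inv
  convert isAffineOpen_opensRange j using 1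
  refine Opens.ext ?_
  simp only [Opens.coe_inf, Scheme.Hom.coe_preimage, Scheme.Hom.coe_opensRange]
  ext z
  simp only [j, Scheme.Hom.comp_base, TopCat.coe_comp, Set.range_comp,
    Scheme.Pullback.range_map, IsAffineOpen.range_fromSpec]
  constructor
  · intro hz
    refine ⟨hP.isoPullback.hom z, ?_, ?_⟩
    · simp only [Set.mem_inter_iff, Set.mem_preimage, SetLike.mem_coe] at hz ⊢
      rw [← Scheme.Hom.comp_apply, ← Scheme.Hom.comp_apply, IsPullback.isoPullback_hom_fst,
        IsPullback.isoPullback_hom_snd]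
      exact hz
    · rw [← Scheme.Hom.comp_apply, Iso.hom_inv_id]
      rfl
  · rintro ⟨w, ⟨hw₁, hw₂⟩, rfl⟩
    simp only [Set.mem_inter_iff, Set.mem_preimage, SetLike.mem_coe] at hw₁ hw₂ ⊢
    rw [← Scheme.Hom.comp_apply, ← Scheme.Hom.comp_apply, IsPullback.isoPullback_inv_fst,
      IsPullback.isoPullback_inv_snd]
    exact ⟨hw₁, hw₂⟩

include hP in
/-- Additive data on a product that are trivial on both axes are trivial. -/
theorem isAddPrinc_of_slices [IsProper sX] [IsProper sY] (x₀ : Pts sX) (y₀ : Pts sY)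
    {c : P → P.functionField} (hc : IsAdd c)
    (h₁ : IsAddPrinc (pullAdd (sliceL hP y₀) c))
    (h₂ : IsAddPrinc (pullAdd (sliceL hP.flip x₀) c)) : IsAddPrinc c := by
  classical
  let := fieldAlg sX
  let := fieldAlg sY
  -- bookkeeping
  have hηp := fst_genericPoint hP
  have hηq := snd_genericPoint hP
  have hpK : ∀ (k : K) a, res p (kHom sX k * a) = kHom (q ≫ sY) k * res p a := fun k a => by
    rw [res_mul p (kHom_mem sX _ k) (hηp ▸ mem_stalkSub_genericPoint a),
      res_kHom sX (q ≫ sY) p hP.w k]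
  have hqK : ∀ (k : K) a, res q (kHom sY k * a) = kHom (q ≫ sY) k * res q a := fun k a => by
    rw [res_mul q (kHom_mem sY _ k) (hηq ▸ mem_stalkSub_genericPoint a),
      res_kHom sY (q ≫ sY) q rfl k]
  let rp := resHom p hηp
  let rq := resHom q hηq
  let ι := sliceL hP y₀
  let ι' := sliceL hP.flip x₀
  have hιq : q (ι (genericPoint X)) = pt y₀ := snd_sliceL_apply hP y₀ _
  have hι'q : q (ι' (genericPoint Y)) = genericPoint Y := fst_sliceL_apply hP.flip x₀ _
  -- a finite affine cover of `X`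
  have hcov : ∀ x : X, ∃ U : X.Opens, IsAffineOpen U ∧ x ∈ U := fun x => by
    obtain ⟨_, ⟨U, hU, rfl⟩, hxU, -⟩ :=
      X.isBasis_affineOpens.exists_subset_of_mem_open (Set.mem_univ x) isOpen_univ
    exact ⟨U, hU, hxU⟩
  choose U hU hxU using hcov
  have : CompactSpace X := QuasiCompact.compactSpace_of_compactSpace sX
  obtain ⟨t, ht⟩ := CompactSpace.elim_nhds_subcover (fun x => (U x : Set X))
    fun x => (U x).2.mem_nhds (hxU x)
  have hne : ∀ x, genericPoint X ∈ U x := fun x =>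
    (specializes_genericPoint x).mem_open (U x).2 (hxU x)
  have hcover : ∀ x, ∃ a : t, x ∈ U a.1 := fun x => by
    obtain ⟨a, ha, hxa⟩ := Set.mem_iUnion₂.mp (ht.ge (Set.mem_univ x))
    exact ⟨⟨a, ha⟩, hxa⟩
  obtain ⟨a₀, -⟩ := hcover (genericPoint X)
  -- primitives on boxes
  have hprim : ∀ (a : t) (V : Y.affineOpens), ∃ φ, ∀ x, p x ∈ U a.1 → q x ∈ V.1 →
      c x - φ ∈ stalkSub x := fun a V => by
    obtain ⟨φ, hφ⟩ := exists_primitive_affine hc (isAffineOpen_box hP (hU a.1) V.2)
    exact ⟨φ, fun x h h' => hφ x ⟨h, h'⟩⟩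
  choose φ hφ using hprim
  have hinfY : ∀ V V' : Y.affineOpens, IsAffineOpen (V.1 ⊓ V'.1) := fun V V' =>
    isAffineOpen_inf sY V.2 V'.2
  have hdreg : ∀ a a' (V : Y.affineOpens), ∀ x, p x ∈ U a.1 ⊓ U a'.1 → q x ∈ V.1 →
      φ a V - φ a' V ∈ stalkSub x := fun a a' V x h h' => by
    simpa using sub_mem (hφ a' V x h.2 h') (hφ a V x h.1 h')
  -- representation of functions regular on boxes
  let S := fun V : Y.affineOpens => regOn sY (V.1 : Set Y)
  let e := fun V => Module.Basis.ofVectorSpace K (S V)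
  let Φ := fun V : Y.affineOpens => Finsupp.liftAddHom (M := X.functionField)
    fun k => (AddMonoidHom.mulRight (rq (e V k).1)).comp rp.toAddMonoidHom
  have hΦ : ∀ V k a, Φ V (Finsupp.single k a) = res p a * res q (e V k).1 := fun V k a => by
    simp [Φ, rp, rq, resHom_apply]
  have hrep : ∀ (U' : X.Opens), IsAffineOpen U' → genericPoint X ∈ U' →
      ∀ (V : Y.affineOpens), genericPoint Y ∈ V.1 → ∀ z,
      (∀ x, p x ∈ U' → q x ∈ V.1 → z ∈ stalkSub x) →
      ∃ w, (∀ k, ∀ x ∈ U', w k ∈ stalkSub x) ∧ Φ V w = z := by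
    intro U' hU' hηU' V hηV z hz
    have : Nonempty U' := ⟨⟨_, hηU'⟩⟩
    have : Nonempty V.1 := ⟨⟨_, hηV⟩⟩
    have h := mem_closure_of_regular_box hP hU' V.2 hz
    clear hz
    induction h using AddSubmonoid.closure_induction with
    | mem w hw =>
      obtain ⟨a, b, ha, hb, rfl⟩ := hw
      refine ⟨((e V).repr ⟨b, hb⟩).mapRange (fun k => kHom sX k * a) (by simp),
        fun k x hx => ?_, ?_⟩
      · simp only [Finsupp.mapRange_apply]
        exact mul_mem (kHom_mem sX x _) (ha x hx)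
      · have h' : ∀ f, Φ V (Finsupp.mapRange (fun k => kHom sX k * a) (by simp) f) =
            res p a * res q ((e V).repr.symm f).1 := by
          intro f
          induction f using Finsupp.induction_linear with
          | zero => simp
          | add f g hf hg =>
            rw [Finsupp.mapRange_add fun x y => by rw [map_add, add_mul], map_add, hf, hg,
              map_add, Submodule.coe_add, ← resHom_apply q hηq, ← resHom_apply q hηq,
              ← resHom_apply q hηq, map_add, mul_add]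
          | single k v =>
            rw [Finsupp.mapRange_single, hΦ, Module.Basis.repr_symm_single, Submodule.coe_smul,
              Algebra.smul_def, hpK]
            erw [hqK]
            ring
        rw [h', LinearEquiv.symm_apply_apply]
    | zero => exact ⟨0, fun k x _ => zero_mem _, map_zero _⟩
    | add a b _ _ ha hb =>
      obtain ⟨w, hw, rfl⟩ := ha
      obtain ⟨w', hw', rfl⟩ := hb
      exact ⟨w + w', fun k x hx => add_mem (hw k x hx) (hw' k x hx), map_add _ _ _⟩
  -- functionals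
  choose L hL using exists_functional hP
  have hLΦ : ∀ l V w, L l (Φ V w) = ((e V).repr.symm (w.mapRange l (map_zero l))).1 := by
    intro l V w
    induction w using Finsupp.induction_linear with
    | zero => simp
    | add f g hf hg =>
      rw [Finsupp.mapRange_add l.map_add, map_add, map_add, map_add, hf, hg, Submodule.coe_add]
    | single k a =>
      rw [hΦ, hL, Finsupp.mapRange_single, Module.Basis.repr_symm_single, Submodule.coe_smul,
        Algebra.smul_def]
      rfl
  -- the linear functionals killing the coboundaries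
  let D : Submodule K (t × t → X.functionField) :=
    { carrier := {z | ∃ h : t → X.functionField, (∀ a, ∀ x ∈ U a.1, h a ∈ stalkSub x) ∧
        z = fun ab => h ab.1 - h ab.2}
      add_mem' := by
        rintro _ _ ⟨h, hh, rfl⟩ ⟨h', hh', rfl⟩
        exact ⟨h + h', fun a x hx => add_mem (hh a x hx) (hh' a x hx), funext fun ab => by
          simp only [Pi.add_apply]; ring⟩
      zero_mem' := ⟨0, fun a x _ => zero_mem _, funext fun ab => by simp⟩
      smul_mem' := by
        rintro k _ ⟨h, hh, rfl⟩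
        refine ⟨fun a => kHom sX k * h a, fun a x hx => mul_mem (kHom_mem sX x k) (hh a x hx),
          funext fun ab => ?_⟩
        simp only [Pi.smul_apply, Algebra.smul_def, ← mul_sub]
        rfl }
  let lp := fun (l : (t × t → X.functionField) →ₗ[K] K) ab =>
    l.comp (LinearMap.single K (fun _ : t × t => X.functionField) ab)
  have hlsum : ∀ l z, ∑ ab, lp l ab (z ab) = l z := fun l z => by
    simp only [lp, LinearMap.comp_apply, LinearMap.coe_single, ← map_sum,
      Finset.univ_sum_single z]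
  let u := fun l (V : Y.affineOpens) => ∑ ab : t × t, L (lp l ab) (φ ab.1 V - φ ab.2 V)
  have hηV : ∀ {V : Y.affineOpens} {y : Y}, y ∈ V.1 → genericPoint Y ∈ V.1 := fun {V y} hy =>
    (specializes_genericPoint y).mem_open V.1.2 hy
  have hdw : ∀ a a' (V : Y.affineOpens), genericPoint Y ∈ V.1 → ∃ w,
      (∀ k, ∀ x ∈ U a.1 ⊓ U a'.1, w k ∈ stalkSub x) ∧ Φ V w = φ a V - φ a' V :=
    fun a a' V hV => hrep _ (isAffineOpen_inf sX (hU a.1) (hU a'.1)) ⟨hne _, hne _⟩ V hV _
      (hdreg a a' V)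
  choose wd hwd hwdΦ using hdw
  have hureg : ∀ l V, ∀ y ∈ V.1, u l V ∈ stalkSub y := fun l V y hy => by
    refine Subring.sum_mem _ fun ab _ => ?_
    rw [← hwdΦ ab.1 ab.2 V (hηV hy), hLΦ]
    exact ((e V).repr.symm _).2 y hy
  have huindep : ∀ l, (∀ z ∈ D, l z = 0) → ∀ V V', genericPoint Y ∈ V.1 → genericPoint Y ∈ V'.1 →
      u l V = u l V' := by
    intro l hl V V' hV hV'
    let V'' : Y.affineOpens := ⟨V.1 ⊓ V'.1, hinfY V V'⟩
    have hV'' : genericPoint Y ∈ V''.1 := ⟨hV, hV'⟩
    choose w hw hwΦ using fun a : t => hrep (U a.1) (hU a.1) (hne _) V'' hV'' (φ a V - φ a V')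
      fun x hx hy => by simpa using sub_mem (hφ a V' x hx hy.2) (hφ a V x hx hy.1)
    rw [← sub_eq_zero, ← Finset.sum_sub_distrib]
    have h0 : ∀ ab : t × t, L (lp l ab) (φ ab.1 V - φ ab.2 V) -
        L (lp l ab) (φ ab.1 V' - φ ab.2 V') =
        ((e V'').repr.symm ((w ab.1 - w ab.2).mapRange (lp l ab) (map_zero _))).1 := fun ab => by
      rw [← hLΦ, map_sub (Φ V''), hwΦ, hwΦ, ← map_sub]
      congr 1
      ring
    simp only [h0, ← Submodule.coe_sum, ← map_sum]
    rw [ZeroMemClass.coe_eq_zero, LinearEquiv.map_eq_zero_iff]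
    refine Finsupp.ext fun k => ?_
    simp only [Finsupp.finsetSum_apply, Finsupp.mapRange_apply, Finsupp.sub_apply,
      Finsupp.zero_apply]
    rw [hlsum l fun ab => w ab.1 k - w ab.2 k]
    exact hl _ ⟨fun a => w a k, fun a x hx => hw a k x hx, rfl⟩
  obtain ⟨_, ⟨V₀, hV₀, rfl⟩, hy₀V, -⟩ :=
    Y.isBasis_affineOpens.exists_subset_of_mem_open (Set.mem_univ (pt y₀)) isOpen_univ
  obtain ⟨κ₁, hκ₁⟩ := h₁
  -- evaluation at the slice
  have hu0 : ∀ l, (∀ z ∈ D, l z = 0) → u l ⟨V₀, hV₀⟩ = 0 := by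
    intro l hl
    have hη₀ := hηV (V := ⟨V₀, hV₀⟩) hy₀V
    obtain ⟨k₀, hk₀⟩ := exists_const_of_regular sY (a := u l ⟨V₀, hV₀⟩) fun y => by
      obtain ⟨_, ⟨V, hV, rfl⟩, hyV, -⟩ :=
        Y.isBasis_affineOpens.exists_subset_of_mem_open (Set.mem_univ y) isOpen_univ
      rw [huindep l hl ⟨V₀, hV₀⟩ ⟨V, hV⟩ hη₀ (hηV (V := ⟨V, hV⟩) hyV)]
      exact hureg l ⟨V, hV⟩ y hyV
    have hreg₀ : ∀ (f : _ →₀ K), ((e ⟨V₀, hV₀⟩).repr.symm f).1 ∈ stalkSub (pt y₀) := fun f =>
      ((e ⟨V₀, hV₀⟩).repr.symm f).2 _ hy₀V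
    have hιreg : ∀ w, Φ ⟨V₀, hV₀⟩ w ∈ stalkSub (ι (genericPoint X)) := fun w => by
      induction w using Finsupp.induction_linear with
      | zero => simp only [map_zero]; exact zero_mem _
      | add f g hf hg => rw [map_add]; exact add_mem hf hg
      | single k a =>
        rw [hΦ]
        refine mul_mem (res_mem p ?_) (res_mem q ?_)
        · rw [fst_sliceL_apply hP y₀]; exact mem_stalkSub_genericPoint a
        · rw [hιq]; exact (e ⟨V₀, hV₀⟩ k).2 _ hy₀V
    have hev : ∀ (l' : X.functionField →ₗ[K] K) w,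
        ev y₀.1 (L l' (Φ ⟨V₀, hV₀⟩ w)) = l' (res ι (Φ ⟨V₀, hV₀⟩ w)) := by
      intro l' w
      induction w using Finsupp.induction_linear with
      | zero => simp [ev_zero]
      | add f g hf hg =>
        rw [map_add, map_add, res_add ι (hιreg f) (hιreg g), map_add, ← hf, ← hg,
          ev_add _ (hLΦ l' _ f ▸ hreg₀ _) (hLΦ l' _ g ▸ hreg₀ _)]
      | single k a =>
        have hb := (e ⟨V₀, hV₀⟩ k).2 _ hy₀V
        rw [hΦ, hL, ev_mul _ (kHom_mem sY _ _) hb, ev_kHom sY y₀.1 (𝟙 _) (by rw [y₀.2, Spec.map_id]),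
          res_mul ι (res_mem p (by rw [fst_sliceL_apply hP y₀]; exact mem_stalkSub_genericPoint a))
            (res_mem q (by rw [hιq]; exact hb)),
          ← res_res ι p (by rw [fst_sliceL_apply hP y₀]; exact mem_stalkSub_genericPoint a),
          ← res_res ι q (by rw [hιq]; exact hb), sliceL_fst, sliceL_snd, res_id,
          res_point sX y₀ hb, mul_comm a]
        exact ((l'.map_smul (ev y₀.1 (e ⟨V₀, hV₀⟩ k).1) a).trans (mul_comm _ _)).symm.trans
          (by rw [Algebra.smul_def]; rfl)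
    have hk : ev y₀.1 (u l ⟨V₀, hV₀⟩) = k₀ := by
      rw [← hk₀, ev_kHom sY y₀.1 (𝟙 _) (by rw [y₀.2, Spec.map_id])]
      rfl
    have hsum : ev y₀.1 (u l ⟨V₀, hV₀⟩) =
        l fun ab => res ι (φ ab.1 ⟨V₀, hV₀⟩ - φ ab.2 ⟨V₀, hV₀⟩) := by
      rw [ev_sum _ _ _ fun ab _ => ?_, ← hlsum l]
      · refine Finset.sum_congr rfl fun ab _ => ?_
        rw [← hwdΦ ab.1 ab.2 ⟨V₀, hV₀⟩ hη₀, hev]
      · rw [← hwdΦ ab.1 ab.2 ⟨V₀, hV₀⟩ hη₀, hLΦ]
        exact hreg₀ _
    have hcη : ∀ a : t, φ a ⟨V₀, hV₀⟩ - c (ι (genericPoint X)) ∈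
        stalkSub (ι (genericPoint X)) := fun a => by
      rw [← neg_sub]
      exact neg_mem (hφ a _ _ (by rw [fst_sliceL_apply hP y₀]; exact hne _)
        (by rw [hιq]; exact hy₀V))
    have hD : (fun ab : t × t => res ι (φ ab.1 ⟨V₀, hV₀⟩ - φ ab.2 ⟨V₀, hV₀⟩)) ∈ D := by
      refine ⟨fun a => res ι (φ a ⟨V₀, hV₀⟩ - c (ι (genericPoint X))) - κ₁, fun a x hx => ?_,
        funext fun ab => ?_⟩
      · have hs : ι (genericPoint X) ⤳ ι x := (specializes_genericPoint x).map ι.continuous
        have h1 : φ a ⟨V₀, hV₀⟩ - c (ι x) ∈ stalkSub (ι x) := by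
          rw [← neg_sub]
          exact neg_mem (hφ a _ _ (by rw [fst_sliceL_apply hP y₀]; exact hx)
            (by rw [snd_sliceL_apply hP y₀]; exact hy₀V))
        have h2 : c (ι x) - c (ι (genericPoint X)) ∈ stalkSub (ι (genericPoint X)) := by
          rw [← neg_sub]; exact neg_mem (hc.ratio hs)
        beta_reduce
        rw [← sub_add_sub_cancel (φ a ⟨V₀, hV₀⟩) (c (ι x)) (c (ι (genericPoint X))), res_add ι (stalkSub_mono hs h1) h2, add_sub_assoc]
        exact add_mem (res_mem ι h1) (hκ₁ x)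
      · rw [sub_sub_sub_cancel_right, ← res_sub ι (hcη _) (hcη _), sub_sub_sub_cancel_right]
    rw [← hk₀, ← hk, hsum, hl _ hD, map_zero]
  -- on each affine open of the base there is a common primitive
  have hcommon : ∀ V : Y.affineOpens, genericPoint Y ∈ V.1 → ∃ ψ, ∀ x, q x ∈ V.1 →
      c x - ψ ∈ stalkSub x := by
    intro V hV
    let xk := fun k (ab : t × t) => wd ab.1 ab.2 V hV k
    have hxk : ∀ k, xk k ∈ D := by
      intro k
      by_contra hk
      obtain ⟨l, hlk, hlD⟩ := Submodule.exists_le_ker_of_notMem hk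
      refine hlk ?_
      have h0 := (huindep l (fun z hz => hlD hz) V ⟨V₀, hV₀⟩ hV
        (hηV (V := ⟨V₀, hV₀⟩) hy₀V)).trans (hu0 l fun z hz => hlD hz)
      have h0' : u l V = ((e V).repr.symm (∑ ab : t × t,
          (wd ab.1 ab.2 V hV).mapRange (lp l ab) (map_zero _))).1 := by
        simp only [map_sum, Submodule.coe_sum, ← hLΦ, hwdΦ]
        rfl
      rw [h0', ZeroMemClass.coe_eq_zero, LinearEquiv.map_eq_zero_iff] at h0
      have := DFunLike.congr_fun h0 k
      simp only [Finsupp.finsetSum_apply, Finsupp.mapRange_apply, Finsupp.zero_apply] at this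
      exact (hlsum l (xk k)).symm.trans this
    choose h hh hxkeq using hxk
    let s := Finset.univ.biUnion fun ab : t × t => (wd ab.1 ab.2 V hV).support
    let w : t → P.functionField := fun a => ∑ k ∈ s, res p (h k a) * res q (e V k).1
    have hwreg : ∀ a x, p x ∈ U a.1 → q x ∈ V.1 → w a ∈ stalkSub x := fun a x hx hy =>
      Subring.sum_mem _ fun k _ => mul_mem (res_mem p (hh k a _ hx)) (res_mem q ((e V k).2 _ hy))
    have hw : ∀ a a', φ a V - φ a' V = w a - w a' := by
      intro a a'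
      rw [← hwdΦ a a' V hV]
      have hsub : (wd a a' V hV).support ⊆ s := fun k hk =>
        Finset.mem_biUnion.mpr ⟨(a, a'), Finset.mem_univ _, hk⟩
      conv_lhs => rw [← Finsupp.sum_single (wd a a' V hV)]
      rw [Finsupp.sum_of_support_subset _ hsub _ (by simp), map_sum, ← Finset.sum_sub_distrib]
      refine Finset.sum_congr rfl fun k _ => ?_
      rw [hΦ, ← sub_mul, ← resHom_apply p hηp (h k a), ← resHom_apply p hηp (h k a'), ← map_sub,
        resHom_apply]
      exact congrArg (fun z => res p z * _) (congrFun (hxkeq k) (a, a'))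
    refine ⟨φ a₀ V - w a₀, fun x hx => ?_⟩
    obtain ⟨a, ha⟩ := hcover (p x)
    have h1 : φ a₀ V - w a₀ = φ a V - w a := sub_eq_sub_iff_sub_eq_sub.mpr (hw a₀ a)
    rw [h1, ← sub_add]
    exact add_mem (hφ a V x ha hx) (hwreg a x ha hx)
  choose ψ hψ using hcommon
  -- functions regular over an open of the base come from the base
  have hbase : ∀ (V : Y.affineOpens), genericPoint Y ∈ V.1 → ∀ z,
      (∀ x, q x ∈ V.1 → z ∈ stalkSub x) →
      ∃ b, (∀ y ∈ V.1, b ∈ stalkSub y) ∧ z = res q b := by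
    intro V hV z hz
    choose w hw hwz using fun a : t => hrep (U a.1) (hU a.1) (hne _) V hV z fun x _ hy => hz x hy
    have huniq : ∀ a, w a = w a₀ := fun a => Finsupp.ext fun k => by
      rw [← sub_eq_zero]
      by_contra hk
      obtain ⟨l, hl, -⟩ := Submodule.exists_le_ker_of_notMem
        (p := (⊥ : Submodule K X.functionField)) (fun h => hk ((Submodule.mem_bot K).mp h))
      have h := hLΦ l V (w a - w a₀)
      rw [map_sub, hwz, hwz, sub_self, map_zero, eq_comm, ZeroMemClass.coe_eq_zero,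
        LinearEquiv.map_eq_zero_iff] at h
      exact hl (DFunLike.congr_fun h k)
    have hconst : ∀ k, ∃ r, kHom sX r = w a₀ k := fun k =>
      exists_const_of_regular sX fun x => by
        obtain ⟨a, ha⟩ := hcover x
        exact huniq a ▸ hw a k x ha
    choose r hr using hconst
    refine ⟨∑ k ∈ (w a₀).support, kHom sY (r k) * (e V k).1,
      fun y hy => Subring.sum_mem _ fun k _ => mul_mem (kHom_mem sY y _) ((e V k).2 y hy), ?_⟩
    rw [← hwz a₀, ← resHom_apply q hηq, map_sum]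
    conv_lhs => rw [← Finsupp.sum_single (w a₀), Finsupp.sum, map_sum]
    refine Finset.sum_congr rfl fun k _ => ?_
    rw [hΦ, resHom_apply, hqK, ← hr k, res_kHom sX (q ≫ sY) p hP.w]
  -- normalisation along the other axis
  obtain ⟨κ₂, hκ₂⟩ := h₂
  have hψη : ∀ V hV, ψ V hV - c (ι' (genericPoint Y)) ∈ stalkSub (ι' (genericPoint Y)) :=
    fun V hV => by
      rw [← neg_sub]
      exact neg_mem (hψ V hV _ (by rw [hι'q]; exact hV))
  let k := fun V hV => res ι' (ψ V hV - c (ι' (genericPoint Y)))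
  have hk : ∀ V hV, ∀ y ∈ V.1, k V hV - κ₂ ∈ stalkSub y := by
    intro V hV y hy
    have hs : ι' (genericPoint Y) ⤳ ι' y := (specializes_genericPoint y).map ι'.continuous
    have h1 : ψ V hV - c (ι' y) ∈ stalkSub (ι' y) := by
      rw [← neg_sub]
      exact neg_mem (hψ V hV _ (by rw [fst_sliceL_apply hP.flip x₀]; exact hy))
    have h2 : c (ι' y) - c (ι' (genericPoint Y)) ∈ stalkSub (ι' (genericPoint Y)) := by
      rw [← neg_sub]; exact neg_mem (hc.ratio hs)
    simp only [k]
    rw [← sub_add_sub_cancel (ψ V hV) (c (ι' y)) (c (ι' (genericPoint Y))), res_add ι' (stalkSub_mono hs h1) h2, add_sub_assoc]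
    exact add_mem (res_mem ι' h1) (hκ₂ y)
  let ψ' := fun V hV => ψ V hV - res q (k V hV - κ₂)
  have hψ' : ∀ V hV x, q x ∈ V.1 → c x - ψ' V hV ∈ stalkSub x := fun V hV x hx => by
    simp only [ψ', ← sub_add]
    exact add_mem (hψ V hV x hx) (res_mem q (hk V hV _ hx))
  have hglue : ∀ V V' hV hV', ψ' V hV = ψ' V' hV' := by
    intro V V' hV hV'
    let V'' : Y.affineOpens := ⟨V.1 ⊓ V'.1, hinfY V V'⟩
    obtain ⟨b, hb, hbe⟩ := hbase V'' ⟨hV, hV'⟩ (ψ' V hV - ψ' V' hV') fun x hx => by
      simpa using sub_mem (hψ' V' hV' x hx.2) (hψ' V hV x hx.1)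
    rw [← sub_eq_zero, hbe]
    have hqreg : ∀ {z : Y.functionField}, res q z ∈ stalkSub (ι' (genericPoint Y)) :=
      fun {z} => res_mem q (by rw [hι'q]; exact mem_stalkSub_genericPoint z)
    have hres : ∀ z, res ι' (res q z) = z := fun z => by
      rw [← res_res ι' q (by rw [hι'q]; exact mem_stalkSub_genericPoint z),
        sliceL_fst hP.flip x₀, res_id]
    have h := congrArg (res ι') hbe
    rw [hres, show ψ' V hV - ψ' V' hV' =
      ((ψ V hV - c (ι' (genericPoint Y))) - (ψ V' hV' - c (ι' (genericPoint Y)))) -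
        (res q (k V hV - κ₂) - res q (k V' hV' - κ₂)) by simp only [ψ']; ring,
      res_sub ι' (sub_mem (hψη V hV) (hψη V' hV')) (sub_mem hqreg hqreg),
      res_sub ι' (hψη V hV) (hψη V' hV'), res_sub ι' hqreg hqreg, hres, hres] at h
    simp only [k, sub_sub_sub_cancel_right, sub_self] at h
    rw [← h, res_zero]
  have hη₀ := hηV (V := ⟨V₀, hV₀⟩) hy₀V
  refine ⟨ψ' ⟨V₀, hV₀⟩ hη₀, fun x => ?_⟩
  obtain ⟨_, ⟨V, hV, rfl⟩, hxV, -⟩ :=
    Y.isBasis_affineOpens.exists_subset_of_mem_open (Set.mem_univ (q x)) isOpen_univ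
  rw [hglue ⟨V₀, hV₀⟩ ⟨V, hV⟩ hη₀ (hηV (V := ⟨V, hV⟩) hxV)]
  exact hψ' ⟨V, hV⟩ _ x hxV

end Theorem

end FLTAgent.AV
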