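/-
Area AV (towards S26): spaces of sections of Cartier divisors on smooth proper varieties are
finite dimensional and grow at most like a power of the dimension.
-/
import Fermat.Agent.AV.Cousin

set_option autoImplicit false

noncomputable section

universe u

open CategoryTheory CategoryTheory.Limits AlgebraicGeometry TopologicalSpace

namespace FLTAgent.AV

section Degree

variable (K : Type u) [Field K] (n : ℕ)

/-- The field of rational functions in `n` variables. -/
abbrev Rn : Type u := FractionRing (MvPolynomial (Fin n) K)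

open scoped Classical in
/-- The degree, as a valuation on polynomials. -/
def polyDegVal : Valuation (MvPolynomial (Fin n) K) (WithZero (Multiplicative ℤ)) where
  toFun p := if p = 0 then 0 else WithZero.exp (p.totalDegree : ℤ)
  map_zero' := if_pos rfl
  map_one' := by
    rw [if_neg one_ne_zero, MvPolynomial.totalDegree_one]
    rfl
  map_mul' p q := by
    rcases eq_or_ne p 0 with rfl | hp
    · simp
    rcases eq_or_ne q 0 with rfl | hq
    · simp
    rw [if_neg (mul_ne_zero hp hq), if_neg hp, if_neg hq,
      MvPolynomial.totalDegree_mul_of_isDomain hp hq, Nat.cast_add, WithZero.exp_add]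
  map_add_le_max' p q := by
    rcases eq_or_ne p 0 with rfl | hp
    · simp
    rcases eq_or_ne q 0 with rfl | hq
    · simp
    rcases eq_or_ne (p + q) 0 with h | h
    · simp [h]
    rw [if_neg h, if_neg hp, if_neg hq, le_max_iff, WithZero.exp_le_exp, WithZero.exp_le_exp,
      Nat.cast_le, Nat.cast_le, ← le_max_iff]
    exact MvPolynomial.totalDegree_add p q

variable {K n} in
lemma polyDegVal_eq {p : MvPolynomial (Fin n) K} (hp : p ≠ 0) :
    polyDegVal K n p = WithZero.exp (p.totalDegree : ℤ) := if_neg hp

/-- The degree, as a valuation on rational functions. -/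
def degVal : Valuation (Rn K n) (WithZero (Multiplicative ℤ)) :=
  (polyDegVal K n).extendToLocalization (S := nonZeroDivisors (MvPolynomial (Fin n) K))
    (fun p hp h => by
      have h' : polyDegVal K n p = 0 := h
      rw [polyDegVal_eq (nonZeroDivisors.ne_zero hp)] at h'
      exact WithZero.exp_ne_zero h') (Rn K n)

variable {K n} in
lemma degVal_algebraMap (p : MvPolynomial (Fin n) K) :
    degVal K n (algebraMap _ (Rn K n) p) = polyDegVal K n p :=
  Valuation.extendToLocalization_apply_map_apply _ _ _ p

variable {K n} in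
/-- A polynomial whose product with a rational function of degree `d` has degree at most zero has
degree at most `-d`. -/
lemma totalDegree_le_of_mul {p : MvPolynomial (Fin n) K} {z : Rn K n} (hz : z ≠ 0)
    (h : degVal K n (algebraMap _ (Rn K n) p * z) ≤ 1) :
    p.totalDegree ≤ (-WithZero.log (degVal K n z)).toNat := by
  rcases eq_or_ne p 0 with rfl | hp
  · simp
  rw [map_mul, degVal_algebraMap, polyDegVal_eq hp,
    ← WithZero.exp_log ((degVal K n).ne_zero_iff.mpr hz), ← WithZero.exp_add, ← WithZero.exp_zero,
    WithZero.exp_le_exp] at h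
  omega

end Degree

section Mem

variable {L : Type u} [Field L] {R : Type u} [CommRing R]

/-- An integral element lies in every valuation ring containing the coefficients. -/
lemma mem_valuationSubring_of_isIntegral [Algebra R L] (V : ValuationSubring L)
    (hV : ∀ r, algebraMap R L r ∈ V) {z : L} (hz : _root_.IsIntegral R z) : z ∈ V := by
  obtain ⟨P, hPm, hP⟩ := hz
  have h : _root_.IsIntegral V z :=
    ⟨P.map ((algebraMap R L).codRestrict V.toSubring hV), hPm.map _, by
      rw [Polynomial.eval₂_map]; exact hP⟩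
  obtain ⟨w, rfl⟩ := IsIntegrallyClosed.isIntegral_iff.mp h
  exact w.2

/-- Integrality over the image gives integrality. -/
lemma isIntegral_of_range [Algebra R L] {z : L}
    (hz : _root_.IsIntegral (algebraMap R L).range z) : _root_.IsIntegral R z := by
  obtain ⟨P, hPm, hP⟩ := hz
  obtain ⟨Q, hQ, -, hQm⟩ := Polynomial.lifts_and_degree_eq_and_monic
    (f := (algebraMap R L).rangeRestrict) (p := P)
    ((Polynomial.mem_lifts P).mpr (Polynomial.map_surjective _
      (algebraMap R L).rangeRestrict_surjective P)) hPm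
  rw [← hQ, Polynomial.eval₂_map] at hP
  exact ⟨Q, hQm, hP⟩

end Mem

section Coords

variable {K : Type u} [Field K] {W : Scheme.{u}} [IsIntegral W]
  (s : W ⟶ Spec (CommRingCat.of K))

/-- Separating coordinates on `W`: an embedding of a field of rational functions in `n`
variables over which the function field is finite separable. -/
def IsCoords (n : ℕ) (j : Rn K n →+* W.functionField) : Prop :=
  (∀ c, j (algebraMap (MvPolynomial (Fin n) K) _ (MvPolynomial.C c)) = kHom s c) ∧
    letI := j.toAlgebra
    FiniteDimensional (Rn K n) W.functionField ∧ Algebra.IsSeparable (Rn K n) W.functionField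

lemma exists_coords_of_chart {n : ℕ} {V : W.Opens} (hV : IsAffineOpen V) [Nonempty V]
    (g : MvPolynomial (Fin n) K →+* Γ(W, V)) (hg : g.Etale)
    (hgC : ∀ c, W.germToFunctionField V (g (MvPolynomial.C c)) = kHom s c) :
    ∃ j, IsCoords s n j := by
  let := g.toAlgebra
  have : Algebra.Etale (MvPolynomial (Fin n) K) Γ(W, V) := hg
  have : Module.Flat (MvPolynomial (Fin n) K) Γ(W, V) := inferInstance
  have hginj : Function.Injective g := by
    refine (injective_iff_map_eq_zero g).mpr fun p hp => ?_
    by_contra hp0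
    refine one_ne_zero (α := Γ(W, V)) ?_
    refine Module.Flat.isSMulRegular_of_isRegular
      (IsRegular.of_ne_zero hp0 : IsRegular p) ?_
    show p • (1 : Γ(W, V)) = p • 0
    rw [Algebra.smul_def, mul_one, smul_zero]
    exact hp
  have := functionField_isFractionRing_of_isAffineOpen W V hV
  let g' : MvPolynomial (Fin n) K →+* W.functionField :=
    (W.germToFunctionField V).hom.comp g
  have hg'inj : Function.Injective g' := (germ_injective_of_isIntegral _ _ _).comp hginj
  let j : Rn K n →+* W.functionField := IsFractionRing.lift hg'inj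
  have hj : ∀ p, j (algebraMap _ _ p) = g' p := IsFractionRing.lift_algebraMap hg'inj
  refine ⟨j, fun c => (hj _).trans (hgC c), ?_⟩
  let := j.toAlgebra
  let := g'.toAlgebra
  have : IsScalarTower (MvPolynomial (Fin n) K) Γ(W, V) W.functionField :=
    .of_algebraMap_eq' rfl
  have : IsScalarTower (MvPolynomial (Fin n) K) (Rn K n) W.functionField :=
    .of_algebraMap_eq fun p => (hj p).symm
  have : Algebra.FormallyUnramified Γ(W, V) W.functionField :=
    .of_isLocalization (nonZeroDivisors Γ(W, V))
  have : Algebra.FormallyUnramified (MvPolynomial (Fin n) K) W.functionField :=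
    .comp (MvPolynomial (Fin n) K) Γ(W, V) _
  have : Algebra.FormallyUnramified (Rn K n) W.functionField :=
    .of_restrictScalars (MvPolynomial (Fin n) K) (Rn K n) _
  have : Algebra.EssFiniteType Γ(W, V) W.functionField :=
    .of_isLocalization _ (nonZeroDivisors Γ(W, V))
  have : Algebra.EssFiniteType (MvPolynomial (Fin n) K) W.functionField :=
    .comp (MvPolynomial (Fin n) K) Γ(W, V) _
  have : Algebra.EssFiniteType (Rn K n) W.functionField :=
    .of_comp (MvPolynomial (Fin n) K) (Rn K n) _
  exact ⟨Algebra.FormallyUnramified.finite_of_free (R := Rn K n) (S := W.functionField),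
    Algebra.FormallyUnramified.isSeparable _ _⟩

lemma exists_coords_aux {n : ℕ} {x : W} {U : (Spec (CommRingCat.of K)).Opens} {V : W.Opens}
    (hV : IsAffineOpen V) (hx : x ∈ V) (e : V ≤ s ⁻¹ᵁ U)
    (g : MvPolynomial (Fin n) Γ(Spec (CommRingCat.of K), U) →+* Γ(W, V))
    (hgC : g.comp MvPolynomial.C = (s.appLE U V e).hom) (hg : g.Etale) :
    ∃ j, IsCoords s n j := by
  have hU : U = ⊤ := by
    ext y
    have : y = s x := Subsingleton.elim (α := PrimeSpectrum K) y (s x)
    simp only [TopologicalSpace.Opens.coe_top, Set.mem_univ, iff_true]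
    exact this ▸ e hx
  subst hU
  have : Nonempty V := ⟨⟨x, hx⟩⟩
  let ε : CommRingCat.of K ≅ Γ(Spec (CommRingCat.of K), ⊤) := (Scheme.ΓSpecIso _).symm
  refine exists_coords_of_chart s hV (g.comp (MvPolynomial.map ε.hom.hom)) ?_ fun c => ?_
  · exact RingHom.Etale.stableUnderComposition _ g (RingHom.Etale.of_bijective
      ⟨MvPolynomial.map_injective _ ε.commRingCatIsoToRingEquiv.injective,
        MvPolynomial.map_surjective _ ε.commRingCatIsoToRingEquiv.surjective⟩) hg
  have h1 : ε.hom ≫ s.appLE ⊤ V e ≫ W.presheaf.germ V x hx = stalkStr s x := by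
    refine Spec.map_injective ?_
    rw [specMap_stalkStr, Spec.map_comp, Spec.map_comp, Category.assoc]
    have h2 := (isAffineOpen_top (Spec (CommRingCat.of K))).SpecMap_appLE_fromSpec s hV e
    have h3 : W.fromSpecStalk x = Spec.map (W.presheaf.germ V x hx) ≫ hV.fromSpec :=
      (hV.fromSpecStalk_eq_fromSpecStalk hx).symm
    rw [h3, Category.assoc, ← h2]
    simp [ε, IsAffineOpen.fromSpec_top]
  rw [← germToFunctionField_eq hx, ← sAlg_stalkStr s x c, ← h1]
  simp only [RingHom.coe_comp, Function.comp_apply, MvPolynomial.map_C]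
  rw [show g (MvPolynomial.C (ε.hom.hom c)) = (s.appLE ⊤ V e).hom (ε.hom.hom c) from
    RingHom.congr_fun hgC _]
  rfl

include s in
/-- A smooth variety has separating coordinates. -/
theorem exists_coords [Smooth s] : ∃ n j, IsCoords s n j := by
  obtain ⟨U, hU, V, hV, hx, e, hs⟩ := Smooth.exists_isStandardSmooth s (genericPoint W)
  obtain ⟨n, g, hgC, hg⟩ := hs.exists_etale_mvPolynomial
  exact ⟨n, exists_coords_aux s hV hx e g hgC hg⟩

include s in
/-- A smooth variety of dimension `n` has `n` separating coordinates. -/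
theorem exists_coords_dim (n : ℕ) [SmoothOfRelativeDimension n s] : ∃ j, IsCoords s n j := by
  obtain ⟨U, hU, V, hV, hx, e, hs⟩ :=
    SmoothOfRelativeDimension.exists_isStandardSmoothOfRelativeDimension (n := n) (f := s)
      (genericPoint W)
  obtain ⟨g, hgC, hg⟩ := hs.exists_etale_mvPolynomial
  exact exists_coords_aux s hV hx e g hgC hg

end Coords

section Bound

variable {K : Type u} [Field K] [IsAlgClosed K] {W : Scheme.{u}} [IsIntegral W]
  (s : W ⟶ Spec (CommRingCat.of K))

lemma exists_local_equations [CompactSpace W] (f : Cart W) :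
    ∃ T : Finset W, ∀ x, ∃ t ∈ T, f.1 x / f.1 t ∈ unitsAt x := by
  choose V hxV hV using f.2
  obtain ⟨T, hT⟩ := CompactSpace.elim_nhds_subcover (fun x => (V x : Set W))
    fun x => (V x).2.mem_nhds (hxV x)
  refine ⟨T, fun x => ?_⟩
  obtain ⟨t, ht, hxt⟩ := Set.mem_iUnion₂.mp (hT.ge (Set.mem_univ x))
  exact ⟨t, ht, hV t x hxt⟩

omit [IsAlgClosed K] in
/-- The number of monomials of bounded degree. -/
lemma finrank_restrictTotalDegree_le (n N : ℕ) :
    Module.finrank K (MvPolynomial.restrictTotalDegree (Fin n) K N) ≤ (N + 1) ^ n := by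
  classical
  let T : Finset (Fin n →₀ ℕ) := (Fintype.piFinset fun _ : Fin n => Finset.range (N + 1)).map
    Finsupp.equivFunOnFinite.symm.toEmbedding
  have hle : MvPolynomial.restrictTotalDegree (Fin n) K N ≤
      Submodule.span K ((T.image fun d => MvPolynomial.monomial d (1 : K) : Finset _) :
        Set (MvPolynomial (Fin n) K)) := by
    intro p hp
    rw [MvPolynomial.mem_restrictTotalDegree] at hp
    rw [p.as_sum]
    refine Submodule.sum_mem _ fun d hd => ?_
    rw [show MvPolynomial.monomial d (p.coeff d) = p.coeff d • MvPolynomial.monomial d (1 : K) by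
      rw [MvPolynomial.smul_monomial, smul_eq_mul, mul_one]]
    refine Submodule.smul_mem _ _ (Submodule.subset_span (Finset.mem_coe.mpr
      (Finset.mem_image_of_mem _ (Finset.mem_map.mpr ⟨⇑d, ?_, ?_⟩))))
    · refine Fintype.mem_piFinset.mpr fun i => Finset.mem_range.mpr (Nat.lt_succ_of_le ?_)
      exact (Finsupp.le_degree i d).trans ((MvPolynomial.le_totalDegree hd).trans hp)
    · simp
  refine (Submodule.finrank_mono hle).trans ((finrank_span_finset_le_card _).trans
    (Finset.card_image_le.trans ?_))
  simp [T]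

variable [Smooth s] [UniversallyClosed s] [CompactSpace W]

omit [Smooth s] [IsAlgClosed K] in
include s in
/-- Growth of spaces of sections. -/
theorem exists_growth {n : ℕ} {j : Rn K n →+* W.functionField} (hj : IsCoords s n j) (f : Cart W) :
    ∃ c e : ℕ, ∀ f' : Cart W, ∃ c' : ℕ, ∀ m : ℕ,
      letI := fieldAlg s
      FiniteDimensional K (lSpace s (f ^ m * f')) ∧
        lDim s (f ^ m * f') ≤ e * (c * m + c' + 1) ^ n := by
  classical
  let := fieldAlg s
  let := j.toAlgebra
  obtain ⟨hjK, hfd, hsep⟩ := hj
  let algP : Algebra (MvPolynomial (Fin n) K) W.functionField :=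
    (j.comp (algebraMap _ _)).toAlgebra
  have : IsScalarTower (MvPolynomial (Fin n) K) (Rn K n) W.functionField :=
    .of_algebraMap_eq fun _ => rfl
  have : IsScalarTower K (Rn K n) W.functionField :=
    .of_algebraMap_eq fun c => (hjK c).symm.trans (congrArg j
      (IsScalarTower.algebraMap_apply K (MvPolynomial (Fin n) K) (Rn K n) c).symm)
  let V0 := (degVal K n).valuationSubring
  let algV : Algebra V0 W.functionField := (j.comp V0.subtype).toAlgebra
  have : IsScalarTower V0 (Rn K n) W.functionField := .of_algebraMap_eq fun _ => rfl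
  have : Algebra.IsAlgebraic (Rn K n) W.functionField := Algebra.IsAlgebraic.of_finite _ _
  -- multipliers for finitely many functions
  have hmult : ∀ a : Finset W.functionField, ∃ (q : MvPolynomial (Fin n) K) (r : V0),
      q ≠ 0 ∧ r ≠ 0 ∧ (∀ z ∈ a, _root_.IsIntegral (MvPolynomial (Fin n) K) (q • z)) ∧
        ∀ z ∈ a, _root_.IsIntegral V0 (r • z) := by
    intro a
    have h1 : Algebra.IsAlgebraic (MvPolynomial (Fin n) K) W.functionField :=
      (IsFractionRing.comap_isAlgebraic_iff (K := Rn K n)).mpr ‹_›
    have h2 : Algebra.IsAlgebraic V0 W.functionField :=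
      (IsFractionRing.comap_isAlgebraic_iff (K := Rn K n)).mpr ‹_›
    obtain ⟨q, hq, hqi⟩ := Algebra.IsAlgebraic.exists_integral_multiples (MvPolynomial (Fin n) K) a
    obtain ⟨r, hr, hri⟩ := Algebra.IsAlgebraic.exists_integral_multiples V0 a
    exact ⟨q, r, hq, hr, hqi, hri⟩
  let inv' : W → W.functionFieldˣ → W.functionField := fun _ u => ((u⁻¹ : W.functionFieldˣ) : _)
  obtain ⟨T, hT⟩ := exists_local_equations f
  obtain ⟨q, r, hq, hr, hqi, hri⟩ := hmult (T.image fun t => inv' t (f.1 t))
  let d : Rn K n → ℤ := fun z => WithZero.log (degVal K n z)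
  let c : ℕ := (d (algebraMap _ _ q) - d (r : Rn K n)).toNat
  let e := Module.finrank (Rn K n) W.functionField
  refine ⟨c, e, fun f' => ?_⟩
  let b := Module.finBasis (Rn K n) W.functionField
  obtain ⟨T', hT'⟩ := exists_local_equations f'
  obtain ⟨q', r', hq', hr', hqi', hri'⟩ := hmult (T'.image fun t => inv' t (f'.1 t))
  obtain ⟨qb, rb, hqb, hrb, hqib, hrib⟩ := hmult (Finset.univ.image b)
  let c' : ℕ := (d (algebraMap _ _ (q' * qb)) - d ((r' * rb : V0) : Rn K n)).toNat
  refine ⟨c', fun m => ?_⟩
  let F := f ^ m * f'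
  let Q := q ^ m * q' * qb
  let R : V0 := r ^ m * r' * rb
  have hQ : Q ≠ 0 := mul_ne_zero (mul_ne_zero (pow_ne_zero _ hq) hq') hqb
  have hR : R ≠ 0 := mul_ne_zero (mul_ne_zero (pow_ne_zero _ hr) hr') hrb
  -- integrality of the multiples of sections
  have key : ∀ (B : Type u) [CommRing B] [Algebra B W.functionField],
      (∀ c, kHom s c ∈ (algebraMap B W.functionField).range) →
      ∀ (u u' ub : B), (∀ t ∈ T, _root_.IsIntegral B (u • inv' t (f.1 t))) →
      (∀ t ∈ T', _root_.IsIntegral B (u' • inv' t (f'.1 t))) →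
      (∀ i, _root_.IsIntegral B (ub • b i)) →
      ∀ φ ∈ lSpace s F, ∀ i, _root_.IsIntegral B ((u ^ m * u' * ub) • (φ * b i)) := by
    intro B _ _ hB u u' ub hu hu' hub φ hφ i
    refine isIntegral_of_range (isIntegral_of_centres s (algebraMap B W.functionField).range hB _
      fun V x hBV hxV _ => ?_)
    have hV : ∀ z, algebraMap B W.functionField z ∈ V := fun z => hBV ⟨z, rfl⟩
    obtain ⟨t, ht, hxt⟩ := hT x
    obtain ⟨t', ht', hxt'⟩ := hT' x
    have h1 : algebraMap B W.functionField u * ((f.1 x)⁻¹ : W.functionFieldˣ) ∈ V := by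
      have := V.mul_mem _ _ (mem_valuationSubring_of_isIntegral V hV (hu t ht))
        (hxV (mem_unitsAt_iff.mp hxt).2)
      rw [Algebra.smul_def, inv_div, Units.val_div_eq_div_val] at this
      convert this using 1
      simp only [inv', Units.val_inv_eq_inv_val]
      field_simp
    have h2 : algebraMap B W.functionField u' * ((f'.1 x)⁻¹ : W.functionFieldˣ) ∈ V := by
      have := V.mul_mem _ _ (mem_valuationSubring_of_isIntegral V hV (hu' t' ht'))
        (hxV (mem_unitsAt_iff.mp hxt').2)
      rw [Algebra.smul_def, inv_div, Units.val_div_eq_div_val] at this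
      convert this using 1
      simp only [inv', Units.val_inv_eq_inv_val]
      field_simp
    have h3 : algebraMap B W.functionField ub * b i ∈ V := by
      rw [← Algebra.smul_def]; exact mem_valuationSubring_of_isIntegral V hV (hub i)
    have h4 : φ * (F.1 x : W.functionField) ∈ V := hxV (hφ x)
    have := V.mul_mem _ _ (V.mul_mem _ _ (V.mul_mem _ _ h4 (pow_mem h1 m)) h2) h3
    convert this using 1
    simp only [F, Algebra.smul_def, map_mul, map_pow, Subgroup.coe_mul, Pi.mul_apply,
      SubmonoidClass.coe_pow, Pi.pow_apply, Units.val_mul, Units.val_pow_eq_pow_val,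
      Units.val_inv_eq_inv_val, mul_pow, inv_pow]
    field_simp
  -- the map
  let Ψ : lSpace s F →ₗ[K] (Fin e → Rn K n) :=
    LinearMap.pi fun i => (algebraMap (MvPolynomial (Fin n) K) (Rn K n) Q •
      (Algebra.trace (Rn K n) W.functionField).comp (LinearMap.mulRight (Rn K n) (b i))
        ).restrictScalars K ∘ₗ (lSpace s F).subtype
  let S := (MvPolynomial.restrictTotalDegree (Fin n) K (c * m + c')).map
    (IsScalarTower.toAlgHom K (MvPolynomial (Fin n) K) (Rn K n)).toLinearMap
  have hΨmem : ∀ φ i, Ψ φ i ∈ S := by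
    intro φ i
    have hP := key (MvPolynomial (Fin n) K) (fun c => ⟨MvPolynomial.C c, hjK c⟩) q q' qb
      (fun t ht => hqi _ (Finset.mem_image_of_mem _ ht))
      (fun t ht => hqi' _ (Finset.mem_image_of_mem _ ht))
      (fun i => hqib _ (Finset.mem_image_of_mem _ (Finset.mem_univ i))) φ.1 φ.2 i
    have hk : ∀ c, kHom s c ∈ (algebraMap V0 W.functionField).range := fun c => by
      refine ⟨⟨algebraMap (MvPolynomial (Fin n) K) (Rn K n) (MvPolynomial.C c), ?_⟩, hjK c⟩
      rw [Valuation.mem_valuationSubring_iff, degVal_algebraMap]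
      rcases eq_or_ne c 0 with rfl | hc
      · simp
      · rw [polyDegVal_eq (by simpa using hc), MvPolynomial.totalDegree_C]
        rfl
    have hV := key V0 hk r r' rb
      (fun t ht => hri _ (Finset.mem_image_of_mem _ ht))
      (fun t ht => hri' _ (Finset.mem_image_of_mem _ ht))
      (fun i => hrib _ (Finset.mem_image_of_mem _ (Finset.mem_univ i))) φ.1 φ.2 i
    let τ := Algebra.trace (Rn K n) W.functionField (φ.1 * b i)
    obtain ⟨p, hp⟩ := IsIntegrallyClosed.isIntegral_iff.mp
      (Algebra.isIntegral_trace (L := Rn K n) hP)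
    obtain ⟨v, hv⟩ := IsIntegrallyClosed.isIntegral_iff.mp
      (Algebra.isIntegral_trace (L := Rn K n) hV)
    rw [← IsScalarTower.algebraMap_smul (Rn K n) Q, map_smul, smul_eq_mul] at hp
    rw [← IsScalarTower.algebraMap_smul (Rn K n) R, map_smul, smul_eq_mul] at hv
    refine ⟨p, ?_, hp.trans rfl⟩
    have hQ0 : algebraMap (MvPolynomial (Fin n) K) (Rn K n) Q ≠ 0 :=
      (map_ne_zero_iff _ (IsFractionRing.injective _ _)).mpr hQ
    have hR0 : (R : Rn K n) ≠ 0 := fun h => hR (Subtype.ext h)
    rw [SetLike.mem_coe, MvPolynomial.mem_restrictTotalDegree]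
    refine (totalDegree_le_of_mul (z := (R : Rn K n) / algebraMap _ _ Q) (div_ne_zero hR0 hQ0)
      ?_).trans ?_
    · rw [show algebraMap (MvPolynomial (Fin n) K) (Rn K n) p *
        ((R : Rn K n) / algebraMap _ _ Q) = (v : Rn K n) by
          rw [hp, show (v : Rn K n) = (R : Rn K n) * τ from hv]; field_simp; rfl]
      exact v.2
    · have hlog : ∀ {x y : Rn K n}, x ≠ 0 → y ≠ 0 →
          d (x * y) = d x + d y := fun hx hy => by
        simp only [d, map_mul]
        exact WithZero.log_mul ((degVal K n).ne_zero_iff.mpr hx) ((degVal K n).ne_zero_iff.mpr hy)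
      have hlogpow : ∀ {x : Rn K n}, d (x ^ m) = m * d x := fun {x} => by
        simp only [d, map_pow, WithZero.log_pow, nsmul_eq_mul]
      have hq0 : algebraMap (MvPolynomial (Fin n) K) (Rn K n) q ≠ 0 :=
        (map_ne_zero_iff _ (IsFractionRing.injective _ _)).mpr hq
      have hq'0 : algebraMap (MvPolynomial (Fin n) K) (Rn K n) (q' * qb) ≠ 0 :=
        (map_ne_zero_iff _ (IsFractionRing.injective _ _)).mpr (mul_ne_zero hq' hqb)
      have hr0 : (r : Rn K n) ≠ 0 := fun h => hr (Subtype.ext h)
      have hr'0 : ((r' * rb : V0) : Rn K n) ≠ 0 := fun h => mul_ne_zero hr' hrb (Subtype.ext h)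
      have e1 : d (R : Rn K n) = m * d (r : Rn K n) + d ((r' * rb : V0) : Rn K n) := by
        rw [← hlogpow, ← hlog (pow_ne_zero _ hr0) hr'0]
        simp [R, mul_assoc]
      have e2 : d (algebraMap _ _ Q) = m * d (algebraMap _ _ q) + d (algebraMap _ _ (q' * qb)) := by
        rw [← hlogpow, ← hlog (pow_ne_zero _ hq0) hq'0]
        simp [Q, map_mul, mul_assoc]
      have e3 : d ((R : Rn K n) / algebraMap _ _ Q) = d (R : Rn K n) - d (algebraMap _ _ Q) := by
        rw [eq_sub_iff_add_eq, ← hlog (div_ne_zero hR0 hQ0) hQ0, div_mul_cancel₀ _ hQ0]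
      show (-d _).toNat ≤ _
      rw [e3, e1, e2, Int.toNat_le]
      have h1 := Int.self_le_toNat (d (algebraMap _ _ q) - d (r : Rn K n))
      have h2 := Int.self_le_toNat (d (algebraMap _ _ (q' * qb)) - d ((r' * rb : V0) : Rn K n))
      rw [Nat.cast_add, Nat.cast_mul]
      nlinarith [mul_le_mul_of_nonneg_left h1 (Int.natCast_nonneg m)]
  let Ψ' : lSpace s F →ₗ[K] (Fin e → S) :=
    LinearMap.pi fun i => ((LinearMap.proj i).comp Ψ).codRestrict S fun φ => hΨmem φ i
  have hinj : Function.Injective Ψ' := by
    refine LinearMap.ker_eq_bot.mp (LinearMap.ker_eq_bot'.mpr fun φ hφ => Subtype.ext ?_)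
    refine (traceForm_nondegenerate (Rn K n) W.functionField).1 φ.1 fun y => ?_
    have h0 : ∀ i, Algebra.traceForm (Rn K n) W.functionField φ.1 (b i) = 0 := fun i => by
      have h := congrArg Subtype.val (congrFun hφ i)
      exact (mul_eq_zero.mp (show algebraMap (MvPolynomial (Fin n) K) (Rn K n) Q *
        Algebra.trace (Rn K n) W.functionField (φ.1 * b i) = 0 from h)).resolve_left
          ((map_ne_zero_iff _ (IsFractionRing.injective _ _)).mpr hQ)
    have : Algebra.traceForm (Rn K n) W.functionField φ.1 = 0 := b.ext h0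
    rw [this]; rfl
  have hSfin : Module.Finite K S := Module.Finite.map _ _
  have hfin : Module.Finite K (Fin e → S) := inferInstance
  refine ⟨FiniteDimensional.of_injective Ψ' hinj, ?_⟩
  refine (LinearMap.finrank_le_finrank_of_injective hinj).trans ?_
  rw [Module.finrank_pi_fintype, Finset.sum_const, Finset.card_univ, Fintype.card_fin,
    smul_eq_mul]
  exact Nat.mul_le_mul_left e
    ((Submodule.finrank_map_le _ _).trans (finrank_restrictTotalDegree_le n _))

omit [IsAlgClosed K] in
include s in
/-- Spaces of sections are finite dimensional. -/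
theorem finiteDimensional_lSpace (f : Cart W) :
    letI := fieldAlg s
    FiniteDimensional K (lSpace s f) := by
  let := fieldAlg s
  obtain ⟨n, j, hj⟩ := exists_coords s
  obtain ⟨c, e, h⟩ := exists_growth s hj f
  obtain ⟨c', h'⟩ := h 1
  have := (h' 1).1
  rwa [pow_one, mul_one] at this

end Bound

end FLTAgent.AV
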