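/-
Area AV (towards S26): expansion of rational functions on a product along a fibre.
-/
import Fermat.Agent.AV.Growth

set_option autoImplicit false

noncomputable section

universe u

open CategoryTheory CategoryTheory.Limits AlgebraicGeometry TopologicalSpace NeronModelInfra

namespace FLTAgent.AV

section EvU

variable {R : CommRingCat.{u}} [IsLocalRing R] {W : Scheme.{u}} [IsIntegral W]

open scoped Classical in
/-- Evaluation of invertible rational functions. -/
def evU (m : Spec R ⟶ W) (a : W.functionFieldˣ) : Rˣ :=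
  if ha : a ∈ unitsAt (m (IsLocalRing.closedPoint R)) then
    { val := ev m a
      inv := ev m (a⁻¹ : W.functionFieldˣ)
      val_inv := by
        rw [← ev_mul m (mem_unitsAt_iff.mp ha).1 (mem_unitsAt_iff.mp ha).2, Units.mul_inv, ev_one]
      inv_val := by
        rw [← ev_mul m (mem_unitsAt_iff.mp ha).2 (mem_unitsAt_iff.mp ha).1, Units.inv_mul,
          ev_one] }
  else 1

lemma evU_coe (m : Spec R ⟶ W) {a : W.functionFieldˣ}
    (ha : a ∈ unitsAt (m (IsLocalRing.closedPoint R))) : (evU m a : R) = ev m a := by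
  rw [evU, dif_pos ha]

lemma evU_mul (m : Spec R ⟶ W) {a b : W.functionFieldˣ}
    (ha : a ∈ unitsAt (m (IsLocalRing.closedPoint R)))
    (hb : b ∈ unitsAt (m (IsLocalRing.closedPoint R))) : evU m (a * b) = evU m a * evU m b := by
  refine Units.ext ?_
  rw [Units.val_mul, evU_coe m (mul_mem ha hb), evU_coe m ha, evU_coe m hb, Units.val_mul,
    ev_mul m (mem_unitsAt_iff.mp ha).1 (mem_unitsAt_iff.mp hb).1]

lemma evU_inv (m : Spec R ⟶ W) {a : W.functionFieldˣ}
    (ha : a ∈ unitsAt (m (IsLocalRing.closedPoint R))) : evU m a⁻¹ = (evU m a)⁻¹ := by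
  refine eq_inv_of_mul_eq_one_left ?_
  rw [← evU_mul m (inv_mem ha) ha, inv_mul_cancel]
  refine Units.ext ?_
  rw [evU_coe m (one_mem _), Units.val_one, Units.val_one, ev_one]

lemma evU_div (m : Spec R ⟶ W) {a b : W.functionFieldˣ}
    (ha : a ∈ unitsAt (m (IsLocalRing.closedPoint R)))
    (hb : b ∈ unitsAt (m (IsLocalRing.closedPoint R))) : evU m (a / b) = evU m a / evU m b := by
  rw [div_eq_mul_inv, div_eq_mul_inv, evU_mul m ha (inv_mem hb), evU_inv m hb]

end EvU

section Reg

variable {P : Scheme.{u}} [IsIntegral P] {d : ℕ}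

/-- Power series over the local ring at `x` inside power series over the function field. -/
def regPS (x : P) : Subring (PS P.functionField d) := (MvPowerSeries.map (sAlg x)).range

/-- Invertible such power series. -/
def regU (x : P) : Subgroup (PS P.functionField d)ˣ :=
  (Units.map (MvPowerSeries.map (sAlg x)).toMonoidHom).range

lemma mem_regPS_iff {x : P} {p : PS P.functionField d} :
    p ∈ regPS x ↔ ∀ α, MvPowerSeries.coeff α p ∈ stalkSub x := by
  constructor
  · rintro ⟨q, rfl⟩ α
    exact ⟨_, (MvPowerSeries.coeff_map _ α q).symm⟩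
  · intro h
    choose q hq using h
    exact ⟨(q : MvPowerSeries (Fin d) (P.presheaf.stalk x)), MvPowerSeries.ext fun α =>
      (MvPowerSeries.coeff_map _ α _).trans (hq α)⟩

lemma mem_regU_iff {x : P} {u : (PS P.functionField d)ˣ} :
    u ∈ regU x ↔ (u : PS P.functionField d) ∈ regPS x ∧
      ∃ w : P.functionFieldˣ, w ∈ unitsAt x ∧ (w : P.functionField) =
        MvPowerSeries.constantCoeff (u : PS P.functionField d) := by
  constructor
  · rintro ⟨q, rfl⟩
    exact ⟨⟨_, rfl⟩, _, ⟨Units.map MvPowerSeries.constantCoeff.toMonoidHom q, rfl⟩,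
      (MvPowerSeries.constantCoeff_map _ _).symm⟩
  · rintro ⟨⟨q, hq⟩, w, ⟨v, rfl⟩, hw⟩
    have hq0 : MvPowerSeries.constantCoeff q = (v : P.presheaf.stalk x) := by
      refine sAlg_injective x ?_
      rw [← MvPowerSeries.constantCoeff_map, hq, ← hw]
      rfl
    have hu : IsUnit q := MvPowerSeries.isUnit_iff_constantCoeff.mpr (hq0 ▸ v.isUnit)
    exact ⟨hu.unit, Units.ext hq⟩

lemma regU_le {x : P} {u : (PS P.functionField d)ˣ} (hu : u ∈ regU x) :
    (u : PS P.functionField d) ∈ regPS x := (mem_regU_iff.mp hu).1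

end Reg

variable {K : Type u} [Field K] {P Z W : Scheme.{u}}
  {sP : P ⟶ Spec (CommRingCat.of K)} {sZ : Z ⟶ Spec (CommRingCat.of K)} {z₀ : Pts sZ}

/-- Formal coordinates at a rational point. -/
structure FormalPt (z₀ : Pts sZ) : Type u where
  /-- The number of variables. -/
  d : ℕ
  /-- The expansion. -/
  ψ : Z.presheaf.stalk (pt z₀) →+* PS K d
  isLocalHom : IsLocalHom ψ
  map_const : ∀ c, ψ (stalkStr sZ _ c) = MvPowerSeries.C c
  injective : Function.Injective ψ

lemma nonempty_formalPt [IsAlgClosed K] [IsIntegral Z] [Smooth sZ] (z₀ : Pts sZ) :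
    Nonempty (FormalPt z₀) := by
  have : IsLocallyNoetherian Z := LocallyOfFiniteType.isLocallyNoetherian sZ
  obtain ⟨d, ψ, hl, hC, -, hs⟩ := exists_ps_embedding sZ (isClosed_pt z₀)
  exact ⟨⟨d, ψ, hl, hC, injective_of_separated ψ hs⟩⟩

lemma spec_closedPoint {R S : CommRingCat.{u}} [IsLocalRing R] [IsLocalRing S] (φ : R ⟶ S)
    (h : IsLocalHom φ.hom) : Spec.map φ (IsLocalRing.closedPoint S) = IsLocalRing.closedPoint R :=
  IsLocalRing.comap_closedPoint φ.hom

lemma isLocalHom_constantCoeff {d : ℕ} {R : Type u} [CommRing R] :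
    IsLocalHom (MvPowerSeries.constantCoeff : MvPowerSeries (Fin d) R →+* R) :=
  ⟨fun _ h => MvPowerSeries.isUnit_iff_constantCoeff.mpr h⟩

variable (φZ : FormalPt z₀)

lemma constantCoeff_formalPt [IsAlgClosed K] [LocallyOfFiniteType sZ] :
    Spec.map (CommRingCat.ofHom (MvPowerSeries.constantCoeff.comp φZ.ψ)) ≫
      Z.fromSpecStalk (pt z₀) = z₀.1 := by
  let χ : Z.presheaf.stalk (pt z₀) ⟶ CommRingCat.of K :=
    CommRingCat.ofHom (MvPowerSeries.constantCoeff.comp φZ.ψ)
  have hover : (Spec.map χ ≫ Z.fromSpecStalk (pt z₀)) ≫ sZ = 𝟙 _ := by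
    rw [Category.assoc, ← specMap_stalkStr, ← Spec.map_comp, ← Spec.map_id]
    congr 1
    ext c
    show MvPowerSeries.constantCoeff (φZ.ψ (stalkStr sZ _ c)) = c
    rw [φZ.map_const, MvPowerSeries.constantCoeff_C]
  have := φZ.isLocalHom
  have := isLocalHom_constantCoeff (R := K) (d := φZ.d)
  have hpt : pt (⟨Spec.map χ ≫ Z.fromSpecStalk (pt z₀), hover⟩ : Pts sZ) = pt z₀ := by
    show (Spec.map χ ≫ Z.fromSpecStalk (pt z₀)) _ = _
    refine (Scheme.Hom.comp_apply _ _ _).trans ?_
    exact (congrArg _ (spec_closedPoint χ (RingHom.isLocalHom_comp MvPowerSeries.constantCoeff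
      φZ.ψ))).trans Scheme.fromSpecStalk_closedPoint
  exact congrArg Subtype.val (pt_injective hpt)

variable {pW : W ⟶ P} {qW : W ⟶ Z} (hW : IsPullback pW qW sP sZ)

/-- The formal neighbourhood of a point of the fibre. -/
def fmap (x : P) : Spec (CommRingCat.of (MvPowerSeries (Fin φZ.d) (P.presheaf.stalk x))) ⟶ W :=
  hW.lift
    (Spec.map (CommRingCat.ofHom (MvPowerSeries.C : P.presheaf.stalk x →+* _)) ≫ P.fromSpecStalk x)
    (Spec.map (CommRingCat.ofHom ((MvPowerSeries.map (stalkStr sP x).hom).comp φZ.ψ)) ≫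
      Z.fromSpecStalk (pt z₀))
    (by
      rw [Category.assoc, Category.assoc, ← specMap_stalkStr, ← specMap_stalkStr, ← Spec.map_comp,
        ← Spec.map_comp]
      congr 1
      ext c : 2
      show MvPowerSeries.C (stalkStr sP x c) =
        MvPowerSeries.map (stalkStr sP x).hom (φZ.ψ (stalkStr sZ _ c))
      rw [φZ.map_const, MvPowerSeries.map_C])

lemma fmap_fst (x : P) : fmap φZ hW x ≫ pW =
    Spec.map (CommRingCat.ofHom (MvPowerSeries.C : P.presheaf.stalk x →+* _)) ≫
      P.fromSpecStalk x := hW.lift_fst _ _ _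

lemma fmap_snd (x : P) : fmap φZ hW x ≫ qW =
    Spec.map (CommRingCat.ofHom ((MvPowerSeries.map (stalkStr sP x).hom).comp φZ.ψ)) ≫
      Z.fromSpecStalk (pt z₀) := hW.lift_snd _ _ _

lemma specMap_constantCoeff_fmap [IsAlgClosed K] [LocallyOfFiniteType sZ] (x : P) :
    Spec.map (CommRingCat.ofHom (MvPowerSeries.constantCoeff :
      MvPowerSeries (Fin φZ.d) (P.presheaf.stalk x) →+* _)) ≫ fmap φZ hW x =
      P.fromSpecStalk x ≫ sliceL hW z₀ := by
  refine hW.hom_ext ?_ ?_
  · rw [Category.assoc, fmap_fst, ← Spec.map_comp_assoc, Category.assoc, sliceL_fst,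
      Category.comp_id]
    convert Category.id_comp _
    rw [← Spec.map_id]
    congr 1
  · rw [Category.assoc, fmap_snd, ← Spec.map_comp_assoc, Category.assoc, sliceL_snd,
      ← Category.assoc (P.fromSpecStalk x), ← specMap_stalkStr]
    conv_rhs => rw [← constantCoeff_formalPt φZ, ← Spec.map_comp_assoc]
    congr 2

lemma fmap_closedPoint [IsAlgClosed K] [LocallyOfFiniteType sZ] (x : P) :
    fmap φZ hW x (IsLocalRing.closedPoint (MvPowerSeries (Fin φZ.d) (P.presheaf.stalk x))) =
      sliceL hW z₀ x := by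
  have h := congr($(specMap_constantCoeff_fmap φZ hW x).base
    (IsLocalRing.closedPoint (P.presheaf.stalk x)))
  refine Eq.trans ?_ (h.trans ?_)
  · exact congrArg (fmap φZ hW x) (spec_closedPoint (CommRingCat.ofHom
      (MvPowerSeries.constantCoeff : MvPowerSeries (Fin φZ.d) (P.presheaf.stalk x) →+* _))
      isLocalHom_constantCoeff).symm
  · exact congrArg (sliceL hW z₀) Scheme.fromSpecStalk_closedPoint

variable [IsIntegral P]

/-- The formal neighbourhood of the generic point of the fibre. -/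
abbrev fη : Spec (CommRingCat.of (PS P.functionField φZ.d)) ⟶ W := fmap φZ hW (genericPoint P)

lemma specMap_sAlg_fmap (x : P) :
    Spec.map (CommRingCat.ofHom (MvPowerSeries.map (sAlg x))) ≫ fmap φZ hW x = fη φZ hW := by
  have h : genericPoint P ⤳ x := specializes_genericPoint x
  have e : CommRingCat.ofHom (sAlg x) = P.presheaf.stalkSpecializes h := rfl
  refine hW.hom_ext ?_ ?_
  · rw [Category.assoc, fmap_fst, fη, fmap_fst, ← Spec.map_comp_assoc]
    rw [← Scheme.SpecMap_stalkSpecializes_fromSpecStalk h, ← e, ← Spec.map_comp_assoc]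
    congr 2
    ext r : 2
    exact MvPowerSeries.map_C _ _
  · rw [Category.assoc, fmap_snd, fη, fmap_snd, ← Spec.map_comp_assoc]
    congr 2
    ext r : 2
    refine MvPowerSeries.ext fun α => ?_
    simp only [CommRingCat.hom_comp, CommRingCat.hom_ofHom, RingHom.coe_comp, Function.comp_apply,
      MvPowerSeries.coeff_map]
    exact sAlg_stalkStr sP x _

variable [IsAlgClosed K] [LocallyOfFiniteType sZ] [IsIntegral W]

/-- Expansion of rational functions regular at the generic point of the fibre. -/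
def fev (a : W.functionField) : PS P.functionField φZ.d := ev (fη φZ hW) a

/-- Expansion of invertible rational functions. -/
def fevU (a : W.functionFieldˣ) : (PS P.functionField φZ.d)ˣ := evU (fη φZ hW) a

omit [IsIntegral W] in
lemma fη_closedPoint :
    fη φZ hW (IsLocalRing.closedPoint (PS P.functionField φZ.d)) =
      sliceL hW z₀ (genericPoint P) := fmap_closedPoint φZ hW _

lemma fev_add {a b : W.functionField} (ha : a ∈ stalkSub (sliceL hW z₀ (genericPoint P)))
    (hb : b ∈ stalkSub (sliceL hW z₀ (genericPoint P))) :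
    fev φZ hW (a + b) = fev φZ hW a + fev φZ hW b :=
  ev_add _ (fη_closedPoint φZ hW ▸ ha) (fη_closedPoint φZ hW ▸ hb)

lemma fev_mul {a b : W.functionField} (ha : a ∈ stalkSub (sliceL hW z₀ (genericPoint P)))
    (hb : b ∈ stalkSub (sliceL hW z₀ (genericPoint P))) :
    fev φZ hW (a * b) = fev φZ hW a * fev φZ hW b :=
  ev_mul _ (fη_closedPoint φZ hW ▸ ha) (fη_closedPoint φZ hW ▸ hb)

lemma fev_eq_map {x : P} {a : W.functionField} (ha : a ∈ stalkSub (sliceL hW z₀ x)) :
    fev φZ hW a = MvPowerSeries.map (sAlg x) (ev (fmap φZ hW x) a) := by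
  have h := (ev_specMap (R := CommRingCat.of (MvPowerSeries (Fin φZ.d) (P.presheaf.stalk x)))
    (R' := CommRingCat.of (PS P.functionField φZ.d)) (CommRingCat.ofHom (MvPowerSeries.map (sAlg x)))
    (fmap φZ hW x) (a := a) (by rw [fmap_closedPoint]; exact ha)).2
  rw [specMap_sAlg_fmap] at h
  exact h

lemma fev_mem {x : P} {a : W.functionField} (ha : a ∈ stalkSub (sliceL hW z₀ x)) :
    fev φZ hW a ∈ regPS x := ⟨_, (fev_eq_map φZ hW ha).symm⟩

lemma fevU_coe {a : W.functionFieldˣ} (ha : a ∈ unitsAt (sliceL hW z₀ (genericPoint P))) :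
    (fevU φZ hW a : PS P.functionField φZ.d) = fev φZ hW a :=
  evU_coe _ (fη_closedPoint φZ hW ▸ ha)

lemma fevU_mul {a b : W.functionFieldˣ} (ha : a ∈ unitsAt (sliceL hW z₀ (genericPoint P)))
    (hb : b ∈ unitsAt (sliceL hW z₀ (genericPoint P))) :
    fevU φZ hW (a * b) = fevU φZ hW a * fevU φZ hW b :=
  evU_mul _ (fη_closedPoint φZ hW ▸ ha) (fη_closedPoint φZ hW ▸ hb)

lemma fevU_div {a b : W.functionFieldˣ} (ha : a ∈ unitsAt (sliceL hW z₀ (genericPoint P)))
    (hb : b ∈ unitsAt (sliceL hW z₀ (genericPoint P))) :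
    fevU φZ hW (a / b) = fevU φZ hW a / fevU φZ hW b :=
  evU_div _ (fη_closedPoint φZ hW ▸ ha) (fη_closedPoint φZ hW ▸ hb)

lemma fevU_inv {a : W.functionFieldˣ} (ha : a ∈ unitsAt (sliceL hW z₀ (genericPoint P))) :
    fevU φZ hW a⁻¹ = (fevU φZ hW a)⁻¹ :=
  evU_inv _ (fη_closedPoint φZ hW ▸ ha)

lemma fevU_mem {x : P} {a : W.functionFieldˣ} (ha : a ∈ unitsAt (sliceL hW z₀ x)) :
    fevU φZ hW a ∈ regU x := by
  have hη : a ∈ unitsAt (sliceL hW z₀ (genericPoint P)) :=
    unitsAt_mono ((specializes_genericPoint x).map (sliceL hW z₀).continuous) ha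
  refine ⟨evU (fmap φZ hW x) a, Units.ext ?_⟩
  rw [fevU_coe φZ hW hη, fev_eq_map φZ hW (mem_unitsAt_iff.mp ha).1]
  exact congrArg (MvPowerSeries.map (sAlg x)) (evU_coe _ (by rw [fmap_closedPoint]; exact ha))

/-- The constant term is the restriction to the fibre. -/
lemma constantCoeff_fev {a : W.functionField}
    (ha : a ∈ stalkSub (sliceL hW z₀ (genericPoint P))) :
    MvPowerSeries.constantCoeff (fev φZ hW a) = res (sliceL hW z₀) a := by
  have h := (ev_specMap (R := CommRingCat.of (PS P.functionField φZ.d))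
    (R' := CommRingCat.of P.functionField) (CommRingCat.ofHom MvPowerSeries.constantCoeff)
    (fη φZ hW) (a := a) (by rw [fη_closedPoint]; exact ha)).2
  erw [specMap_constantCoeff_fmap] at h
  exact h.symm

/-- The expansion of a function pulled back from the fibre is constant. -/
lemma fev_res_fst (hp : pW (sliceL hW z₀ (genericPoint P)) = genericPoint P)
    (a : P.functionField) : fev φZ hW (res pW a) = MvPowerSeries.C a := by
  have h1 : a ∈ stalkSub (pW (fη φZ hW (IsLocalRing.closedPoint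
      (CommRingCat.of (PS P.functionField φZ.d))))) := by
    rw [fη_closedPoint, hp]; exact mem_stalkSub_genericPoint a
  unfold fev
  rw [← ev_res _ _ h1]
  have h2 := (ev_eq (fη φZ hW ≫ pW)
    (CommRingCat.ofHom (MvPowerSeries.C : P.functionField →+* _)) (fmap_fst φZ hW _)).2 a
  rwa [sAlg_genericPoint] at h2

/-- The expansion of a function pulled back from the base. -/
lemma fev_res_snd [IsIntegral Z] (hq : qW (sliceL hW z₀ (genericPoint P)) = pt z₀)
    (b : Z.presheaf.stalk (pt z₀)) :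
    fev φZ hW (res qW (sAlg (pt z₀) b)) = MvPowerSeries.map (kHom sP) (φZ.ψ b) := by
  have h1 : sAlg (pt z₀) b ∈ stalkSub (qW (fη φZ hW (IsLocalRing.closedPoint
      (CommRingCat.of (PS P.functionField φZ.d))))) := by
    rw [fη_closedPoint, hq]; exact ⟨b, rfl⟩
  unfold fev
  rw [← ev_res _ _ h1]
  exact (ev_eq (fη φZ hW ≫ qW)
    (CommRingCat.ofHom ((MvPowerSeries.map (stalkStr sP (genericPoint P)).hom).comp φZ.ψ))
    (fmap_snd φZ hW _)).2 b

end FLTAgent.AV
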