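/-
Area AV (towards S26): formal triviality along a fibre, order by order.
-/
import Fermat.Agent.AV.Expand

set_option autoImplicit false

noncomputable section

universe u

open CategoryTheory CategoryTheory.Limits AlgebraicGeometry TopologicalSpace NeronModelInfra

namespace FLTAgent.AV

section Series

variable {L : Type u} [CommRing L] {d : ℕ}

/-- Multiplication by a series supported in degree at least `k` only changes the coefficients of
degree at least `k`. -/
lemma coeff_mul_low {p q : MvPowerSeries (Fin d) L} {k : ℕ}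
    (hq : ∀ β, β.degree < k → MvPowerSeries.coeff β q = 0) {α : Fin d →₀ ℕ} (hα : α.degree ≤ k) :
    MvPowerSeries.coeff α (p * q) =
      MvPowerSeries.constantCoeff p * MvPowerSeries.coeff α q := by
  classical
  rw [MvPowerSeries.coeff_mul, ← MvPowerSeries.coeff_zero_eq_constantCoeff_apply]
  refine Finset.sum_eq_single (0, α) (fun b hb hne => ?_) fun h =>
    absurd (Finset.HasAntidiagonal.mem_antidiagonal.mpr (zero_add α)) h
  rw [Finset.HasAntidiagonal.mem_antidiagonal] at hb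
  rw [hq b.2 ?_, mul_zero]
  have h1 : b.1 ≠ 0 := fun h => hne (Prod.ext h (by rw [← hb, h, zero_add]))
  have h2 : b.1.degree ≠ 0 := fun h => h1 ((Finsupp.degree_eq_zero_iff _).mp h)
  have h3 : α.degree = b.1.degree + b.2.degree := by rw [← hb, map_add]
  omega

lemma coeff_mul_mem (S : Subring L) {p q : MvPowerSeries (Fin d) L} {α : Fin d →₀ ℕ}
    (hp : ∀ β, β.degree ≤ α.degree → MvPowerSeries.coeff β p ∈ S)
    (hq : ∀ β, β.degree ≤ α.degree → MvPowerSeries.coeff β q ∈ S) :
    MvPowerSeries.coeff α (p * q) ∈ S := by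
  classical
  rw [MvPowerSeries.coeff_mul]
  refine Subring.sum_mem _ fun b hb => ?_
  rw [Finset.HasAntidiagonal.mem_antidiagonal] at hb
  exact mul_mem (hp _ (by rw [← hb, map_add]; omega)) (hq _ (by rw [← hb, map_add]; omega))

lemma coeff_mul_sub_mem (S : Subring L) {p q : MvPowerSeries (Fin d) L} {α : Fin d →₀ ℕ}
    (hp : ∀ β, β.degree ≤ α.degree → MvPowerSeries.coeff β p ∈ S)
    (hq : ∀ β, β.degree < α.degree → MvPowerSeries.coeff β q ∈ S) :
    MvPowerSeries.coeff α (p * q) - MvPowerSeries.constantCoeff p * MvPowerSeries.coeff α q ∈ S := by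
  classical
  rw [MvPowerSeries.coeff_mul, ← Finset.add_sum_erase _ _
    (Finset.HasAntidiagonal.mem_antidiagonal.mpr (zero_add α) :
      ((0 : Fin d →₀ ℕ), α) ∈ _), ← MvPowerSeries.coeff_zero_eq_constantCoeff_apply,
    add_sub_cancel_left]
  refine Subring.sum_mem _ fun b hb => ?_
  obtain ⟨hne, hb⟩ := Finset.mem_erase.mp hb
  rw [Finset.HasAntidiagonal.mem_antidiagonal] at hb
  have h1 : b.1 ≠ 0 := fun h => hne (Prod.ext h (by rw [← hb, h, zero_add]))
  have h2 : b.1.degree ≠ 0 := fun h => h1 ((Finsupp.degree_eq_zero_iff _).mp h)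
  have h3 : α.degree = b.1.degree + b.2.degree := by rw [← hb, map_add]
  exact mul_mem (hp _ (by omega)) (hq _ (by omega))

lemma coeff_C_mul_mem (S : Subring L) {p : MvPowerSeries (Fin d) L} {a : L} {α : Fin d →₀ ℕ}
    (ha : a ∈ S) (hp : MvPowerSeries.coeff α p ∈ S) :
    MvPowerSeries.coeff α (MvPowerSeries.C a * p) ∈ S := by
  rw [MvPowerSeries.coeff_C_mul]; exact mul_mem ha hp

end Series

variable {K : Type u} [Field K] [IsAlgClosed K] {P Z W : Scheme.{u}}
  {sP : P ⟶ Spec (CommRingCat.of K)} {sZ : Z ⟶ Spec (CommRingCat.of K)} {z₀ : Pts sZ}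
  (φZ : FormalPt z₀) {pW : W ⟶ P} {qW : W ⟶ Z} (hW : IsPullback pW qW sP sZ)
  [IsIntegral P] [LocallyOfFiniteType sZ] [IsIntegral W]

/-- The expansion of the transition to the generic point of the fibre. -/
def aSer (E : Cart W) (x : P) : (PS P.functionField φZ.d)ˣ :=
  fevU φZ hW (E.1 (sliceL hW z₀ x) / E.1 (sliceL hW z₀ (genericPoint P)))

/-- Formal triviality along the fibre. -/
def IsFormallyTrivial (E : Cart W) : Prop := ∃ Φ, ∀ x, aSer φZ hW E x * Φ ∈ regU x

/-- Triviality up to a given order. -/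
def IsTrivUpTo (E : Cart W) (k : ℕ) (Φ : (PS P.functionField φZ.d)ˣ) : Prop :=
  ∀ x, (∀ α, α.degree < k → MvPowerSeries.coeff α
      (aSer φZ hW E x * Φ : (PS P.functionField φZ.d)ˣ).1 ∈ stalkSub x) ∧
    ∃ w : P.functionFieldˣ, w ∈ unitsAt x ∧ (w : P.functionField) =
      MvPowerSeries.constantCoeff (aSer φZ hW E x * Φ : (PS P.functionField φZ.d)ˣ).1

omit [IsAlgClosed K] [IsIntegral P] [LocallyOfFiniteType sZ] [IsIntegral W] in
lemma sliceL_specializes {x y : P} (h : y ⤳ x) : sliceL hW z₀ y ⤳ sliceL hW z₀ x :=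
  h.map (sliceL hW z₀).continuous

lemma ratio_mem_generic (E : Cart W) (x : P) :
    E.1 (sliceL hW z₀ x) / E.1 (sliceL hW z₀ (genericPoint P)) ∈
      unitsAt (sliceL hW z₀ (genericPoint P)) :=
  cart_ratio E (sliceL_specializes hW (specializes_genericPoint x))

lemma aSer_div (E : Cart W) (x y : P) :
    aSer φZ hW E y / aSer φZ hW E x =
      fevU φZ hW (E.1 (sliceL hW z₀ y) / E.1 (sliceL hW z₀ x)) := by
  rw [aSer, aSer, ← fevU_div φZ hW (ratio_mem_generic hW E y) (ratio_mem_generic hW E x),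
    div_div_div_cancel_right]

lemma aSer_inv (E : Cart W) (x : P) : aSer φZ hW E⁻¹ x = (aSer φZ hW E x)⁻¹ := by
  rw [aSer, aSer, ← fevU_inv φZ hW (ratio_mem_generic hW E x), Subgroup.coe_inv, Pi.inv_apply,
    Pi.inv_apply, inv_div_inv, inv_div]

lemma IsFormallyTrivial.inv {E : Cart W} (h : IsFormallyTrivial φZ hW E) :
    IsFormallyTrivial φZ hW E⁻¹ := by
  obtain ⟨Φ, hΦ⟩ := h
  refine ⟨Φ⁻¹, fun x => ?_⟩
  rw [aSer_inv, ← mul_inv]
  exact inv_mem (hΦ x)

/-- The obstruction to extending a trivialisation by one order. -/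
def obst (E : Cart W) (Φ : (PS P.functionField φZ.d)ˣ) (α : Fin φZ.d →₀ ℕ) (x : P) :
    P.functionField :=
  MvPowerSeries.coeff α (aSer φZ hW E x * Φ : (PS P.functionField φZ.d)ˣ).1 /
    MvPowerSeries.constantCoeff (aSer φZ hW E x * Φ : (PS P.functionField φZ.d)ˣ).1

lemma isAdd_obst {E : Cart W} {k : ℕ} {Φ : (PS P.functionField φZ.d)ˣ}
    (hΦ : IsTrivUpTo φZ hW E k Φ) {α : Fin φZ.d →₀ ℕ} (hα : α.degree = k) :
    IsAdd (obst φZ hW E Φ α) := by
  classical
  intro x
  obtain ⟨V, hxV, hV⟩ := E.2 (sliceL hW z₀ x)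
  let U : (PS P.functionField φZ.d)ˣ := aSer φZ hW E x * Φ
  obtain ⟨hlow, w, hw, hw0⟩ := hΦ x
  have hfin : {β : Fin φZ.d →₀ ℕ | β.degree < k}.Finite :=
    (Finsupp.finite_of_degree_le k).subset fun β hβ => Nat.le_of_lt hβ
  have := hfin.to_subtype
  choose N hxN hN using fun β : {β : Fin φZ.d →₀ ℕ | β.degree < k} =>
    exists_open_regular (hlow β.1 β.2)
  obtain ⟨N₀, hxN₀, hN₀⟩ := exists_open_unit hw
  let V' : P.Opens := ⟨(sliceL hW z₀ ⁻¹ᵁ V : Set P) ∩ ((N₀ : Set P) ∩ ⋂ β, (N β : Set P)),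
    (sliceL hW z₀ ⁻¹ᵁ V).2.inter (N₀.2.inter (isOpen_iInter_of_finite fun β => (N β).2))⟩
  refine ⟨V', ⟨hxV, hxN₀, Set.mem_iInter.mpr hxN⟩, ?_⟩
  rintro y ⟨hyV, hyN₀, hyN⟩
  let r := fevU φZ hW (E.1 (sliceL hW z₀ y) / E.1 (sliceL hW z₀ x))
  have hr : r ∈ regU y := fevU_mem φZ hW (hV _ hyV)
  have hyU : aSer φZ hW E y * Φ = r * U := by
    show _ = fevU φZ hW _ * _
    rw [← aSer_div, ← mul_assoc, div_mul_cancel]
  obtain ⟨hrreg, r₀, hr₀, hr₀e⟩ := mem_regU_iff.mp hr
  rw [mem_regPS_iff] at hrreg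
  have hmem : MvPowerSeries.coeff α ((r : PS P.functionField φZ.d) * U.1) -
      MvPowerSeries.constantCoeff (r : PS P.functionField φZ.d) * MvPowerSeries.coeff α U.1 ∈
        stalkSub y := coeff_mul_sub_mem _ (fun β _ => hrreg β) fun β hβ =>
          hN ⟨β, hα ▸ hβ⟩ y (Set.mem_iInter.mp hyN ⟨β, hα ▸ hβ⟩)
  have e : obst φZ hW E Φ α y - obst φZ hW E Φ α x =
      (MvPowerSeries.coeff α ((r : PS P.functionField φZ.d) * U.1) -
        MvPowerSeries.constantCoeff (r : PS P.functionField φZ.d) * MvPowerSeries.coeff α U.1) *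
          (((r₀ * w)⁻¹ : P.functionFieldˣ) : P.functionField) := by
    have := r₀.ne_zero
    have := w.ne_zero
    show _ / _ - MvPowerSeries.coeff α U.1 / MvPowerSeries.constantCoeff U.1 = _
    have hw0' : (w : P.functionField) = MvPowerSeries.constantCoeff U.1 := hw0
    rw [hyU, Units.val_mul r U, map_mul MvPowerSeries.constantCoeff, ← hr₀e, ← hw0',
      Units.val_inv_eq_inv_val, Units.val_mul r₀ w]
    field_simp
  rw [e]
  exact mul_mem hmem (mem_unitsAt_iff.mp (mul_mem hr₀ (hN₀ y hyN₀))).2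

lemma exists_trivUpTo_one {E : Cart W} (h : pullPc (sliceL hW z₀) (cl E) = 1) :
    ∃ Φ, IsTrivUpTo φZ hW E 1 Φ := by
  rw [pullPc_cl] at h
  obtain ⟨φ, hφ⟩ := cl_eq_one.mp h
  refine ⟨Units.map MvPowerSeries.C.toMonoidHom φ⁻¹, fun x => ?_⟩
  have h0 : MvPowerSeries.constantCoeff (aSer φZ hW E x *
      Units.map MvPowerSeries.C.toMonoidHom φ⁻¹ : (PS P.functionField φZ.d)ˣ).1 =
      (((pullCart (sliceL hW z₀) E).1 x / φ : P.functionFieldˣ) : P.functionField) := by
    rw [Units.val_mul, map_mul, aSer, fevU_coe φZ hW (ratio_mem_generic hW E x),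
      constantCoeff_fev φZ hW (mem_unitsAt_iff.mp (ratio_mem_generic hW E x)).1,
      ← resU_coe _ (ratio_mem_generic hW E x), ← pullCart_apply, div_eq_mul_inv, Units.val_mul]
    congr 1
  refine ⟨fun α hα => ?_, _, hφ x, h0.symm⟩
  rw [(Finsupp.degree_eq_zero_iff α).mp (Nat.lt_one_iff.mp hα),
    MvPowerSeries.coeff_zero_eq_constantCoeff_apply, h0]
  exact (mem_unitsAt_iff.mp (hφ x)).1

lemma exists_trivUpTo_succ {E : Cart W} {k : ℕ} (hk : 0 < k) {Φ : (PS P.functionField φZ.d)ˣ}
    (hΦ : IsTrivUpTo φZ hW E k Φ)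
    (h : ∀ α, α.degree = k → IsAddPrinc (obst φZ hW E Φ α)) :
    ∃ Φ', IsTrivUpTo φZ hW E (k + 1) Φ' ∧ ∀ α, α.degree < k →
      MvPowerSeries.coeff α (Φ' : PS P.functionField φZ.d) =
        MvPowerSeries.coeff α (Φ : PS P.functionField φZ.d) := by
  classical
  choose ψ hψ using h
  let δ : PS P.functionField φZ.d := fun β => if hβ : β.degree = k then ψ β hβ else 0
  have hδc : ∀ β, MvPowerSeries.coeff β δ = if hβ : β.degree = k then ψ β hβ else 0 := fun β => rfl
  have hδ : ∀ β, β.degree < k → MvPowerSeries.coeff β δ = 0 := fun β hβ => by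
    rw [hδc, dif_neg hβ.ne]
  have hq0 : MvPowerSeries.constantCoeff (1 - δ) = 1 := by
    rw [map_sub, map_one, ← MvPowerSeries.coeff_zero_eq_constantCoeff_apply,
      hδ 0 (by simpa using hk), sub_zero]
  have hu : IsUnit (1 - δ) := MvPowerSeries.isUnit_iff_constantCoeff.mpr (hq0 ▸ isUnit_one)
  have hmul : ∀ (p : PS P.functionField φZ.d) α, α.degree ≤ k →
      MvPowerSeries.coeff α (p * (1 - δ)) = MvPowerSeries.coeff α p -
        MvPowerSeries.constantCoeff p * MvPowerSeries.coeff α δ := fun p α hα => by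
    rw [mul_sub, mul_one, map_sub, coeff_mul_low hδ hα]
  have hsame : ∀ (p : PS P.functionField φZ.d) α, α.degree < k →
      MvPowerSeries.coeff α (p * (1 - δ)) = MvPowerSeries.coeff α p := fun p α hα => by
    rw [hmul p α hα.le, hδ α hα, mul_zero, sub_zero]
  refine ⟨Φ * hu.unit, fun x => ?_, fun α hα => hsame _ α hα⟩
  obtain ⟨hlow, w, hw, hw0⟩ := hΦ x
  rw [← mul_assoc, Units.val_mul, IsUnit.unit_spec]
  refine ⟨fun α hα => ?_, w, hw, ?_⟩
  · rcases (Nat.lt_succ_iff.mp hα).lt_or_eq with hα' | hα'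
    · rw [hsame _ α hα']; exact hlow α hα'
    · rw [hmul _ α hα'.le, hδc, dif_pos hα', ← hw0]
      have := hψ α hα' x
      rw [obst, ← hw0] at this
      have h2 := mul_mem (mem_unitsAt_iff.mp hw).1 this
      convert h2 using 1
      have := w.ne_zero
      field_simp
  · rw [map_mul, hq0, mul_one]; exact hw0

/-- Formal triviality follows from the principality of all obstructions. -/
theorem exists_formallyTrivial {E : Cart W} (h₀ : pullPc (sliceL hW z₀) (cl E) = 1)
    (h : ∀ k Φ, 0 < k → IsTrivUpTo φZ hW E k Φ → ∀ α, α.degree = k →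
      IsAddPrinc (obst φZ hW E Φ α)) :
    IsFormallyTrivial φZ hW E := by
  classical
  obtain ⟨Φ₁, hΦ₁⟩ := exists_trivUpTo_one φZ hW h₀
  have hstep : ∀ (k : ℕ) (Φ : {Φ // IsTrivUpTo φZ hW E (k + 1) Φ}),
      ∃ Φ' : {Φ // IsTrivUpTo φZ hW E (k + 1 + 1) Φ}, ∀ α, α.degree < k + 1 →
        MvPowerSeries.coeff α (Φ'.1 : PS P.functionField φZ.d) =
          MvPowerSeries.coeff α (Φ.1 : PS P.functionField φZ.d) := fun k Φ => by
    obtain ⟨Φ', h1, h2⟩ := exists_trivUpTo_succ φZ hW (Nat.succ_pos k) Φ.2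
      (h _ _ (Nat.succ_pos k) Φ.2)
    exact ⟨⟨Φ', h1⟩, h2⟩
  choose next hnext using hstep
  let seq : ∀ k, {Φ // IsTrivUpTo φZ hW E (k + 1) Φ} := fun k => Nat.rec ⟨Φ₁, hΦ₁⟩ next k
  have hstab : ∀ k l (α : Fin φZ.d →₀ ℕ), α.degree ≤ k →
      MvPowerSeries.coeff α ((seq (k + l)).1 : PS P.functionField φZ.d) =
        MvPowerSeries.coeff α ((seq k).1 : PS P.functionField φZ.d) := by
    intro k l α hα
    induction l with
    | zero => rfl
    | succ l ih =>
      rw [← ih]
      exact hnext (k + l) (seq (k + l)) α (by omega)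
  let p : PS P.functionField φZ.d := fun α =>
    MvPowerSeries.coeff α ((seq α.degree).1 : PS P.functionField φZ.d)
  have hp : ∀ k (α : Fin φZ.d →₀ ℕ), α.degree ≤ k → MvPowerSeries.coeff α p =
      MvPowerSeries.coeff α ((seq k).1 : PS P.functionField φZ.d) := fun k α hα => by
    obtain ⟨l, rfl⟩ := Nat.exists_eq_add_of_le hα
    exact (hstab α.degree l α le_rfl).symm
  have hp0 : IsUnit p := by
    rw [MvPowerSeries.isUnit_iff_constantCoeff, ← MvPowerSeries.coeff_zero_eq_constantCoeff_apply,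
      hp 0 0 (by simp), MvPowerSeries.coeff_zero_eq_constantCoeff_apply]
    exact ((seq 0).1.isUnit).map _
  refine ⟨hp0.unit, fun x => ?_⟩
  have hag : ∀ k (α : Fin φZ.d →₀ ℕ), α.degree ≤ k →
      MvPowerSeries.coeff α ((aSer φZ hW E x : PS P.functionField φZ.d) * p) =
        MvPowerSeries.coeff α (aSer φZ hW E x * (seq k).1 : (PS P.functionField φZ.d)ˣ).1 := by
    intro k α hα
    rw [Units.val_mul, MvPowerSeries.coeff_mul, MvPowerSeries.coeff_mul]
    refine Finset.sum_congr rfl fun b hb => ?_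
    rw [Finset.HasAntidiagonal.mem_antidiagonal] at hb
    rw [hp k b.2 (by rw [← hb, map_add] at hα; omega)]
  rw [mem_regU_iff, Units.val_mul, IsUnit.unit_spec, mem_regPS_iff]
  obtain ⟨-, w, hw, hw0⟩ := (seq 0).2 x
  refine ⟨fun α => ?_, w, hw, ?_⟩
  · rw [hag α.degree α le_rfl]; exact ((seq α.degree).2 x).1 α (Nat.lt_succ_self _)
  · rw [hw0, ← MvPowerSeries.coeff_zero_eq_constantCoeff_apply,
      ← MvPowerSeries.coeff_zero_eq_constantCoeff_apply, hag 0 0 (by simp)]

section Slice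

variable {X W' : Scheme.{u}} {sX : X ⟶ Spec (CommRingCat.of K)} [IsIntegral X] [IsIntegral W']
  {pW' : W' ⟶ X} {qW' : W' ⟶ Z} (hW' : IsPullback pW' qW' sX sZ) (j : X ⟶ P) (hj : j ≫ sP = sX)
  (J : W' ⟶ W) (hJp : J ≫ pW = pW' ≫ j) (hJq : J ≫ qW = qW')

include hJp hJq hj in
omit [IsAlgClosed K] [IsIntegral P] [LocallyOfFiniteType sZ] [IsIntegral W] [IsIntegral X] [IsIntegral W'] in
lemma sliceL_comp : sliceL hW' z₀ ≫ J = j ≫ sliceL hW z₀ := by
  refine hW.hom_ext ?_ ?_
  · rw [Category.assoc, hJp, ← Category.assoc, sliceL_fst, Category.assoc, sliceL_fst,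
      Category.id_comp, Category.comp_id]
  · rw [Category.assoc, hJq, sliceL_snd, Category.assoc, sliceL_snd, ← Category.assoc, hj]

include hj hJp hJq in
omit [IsIntegral P] [LocallyOfFiniteType sZ] [IsIntegral W] [IsIntegral W'] [IsAlgClosed K] in
lemma fη_comp : fη φZ hW' ≫ J =
    Spec.map (CommRingCat.ofHom (MvPowerSeries.map (j.stalkMap (genericPoint X)).hom)) ≫
      fmap φZ hW (j (genericPoint X)) := by
  refine hW.hom_ext ?_ ?_
  · rw [Category.assoc, hJp, ← Category.assoc, fη, fmap_fst, Category.assoc, Category.assoc,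
      fmap_fst, ← Scheme.SpecMap_stalkMap_fromSpecStalk, ← Spec.map_comp_assoc,
      ← Spec.map_comp_assoc]
    congr 2
    ext r : 2
    exact (MvPowerSeries.map_C _ _).symm
  · rw [Category.assoc, hJq, fη, fmap_snd, Category.assoc, fmap_snd, ← Spec.map_comp_assoc]
    congr 2
    ext r : 2
    refine MvPowerSeries.ext fun α => ?_
    simp only [CommRingCat.hom_comp, CommRingCat.hom_ofHom, RingHom.coe_comp, Function.comp_apply,
      MvPowerSeries.coeff_map]
    have h : stalkStr sX (genericPoint X) =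
        stalkStr sP (j (genericPoint X)) ≫ j.stalkMap (genericPoint X) := by
      refine Spec.map_injective ?_
      rw [Spec.map_comp, specMap_stalkStr, specMap_stalkStr,
        Scheme.SpecMap_stalkMap_fromSpecStalk_assoc, hj]
    exact congr($h _)

include hj hJp hJq in
lemma fev_res_slice {a : W.functionField}
    (ha : a ∈ stalkSub (sliceL hW z₀ (j (genericPoint X)))) :
    fev φZ hW' (res J a) = MvPowerSeries.map (j.stalkMap (genericPoint X)).hom
      (ev (fmap φZ hW (j (genericPoint X))) a) := by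
  have h1 : J (fη φZ hW' (IsLocalRing.closedPoint (PS X.functionField φZ.d))) =
      sliceL hW z₀ (j (genericPoint X)) := by
    rw [fη_closedPoint, ← Scheme.Hom.comp_apply, sliceL_comp hW hW' j hj J hJp hJq,
      Scheme.Hom.comp_apply]
  have h2 := ev_res (R := CommRingCat.of (PS X.functionField φZ.d)) (fη φZ hW') J
    (a := a) (h1.symm ▸ ha)
  show ev (fη φZ hW') (res J a) = _
  rw [← h2, ev_congr _ _ (fη_comp φZ hW hW' j hj J hJp hJq)]
  exact (ev_specMap (R := CommRingCat.of (MvPowerSeries (Fin φZ.d) (P.presheaf.stalk _)))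
    (R' := CommRingCat.of (PS X.functionField φZ.d))
    (CommRingCat.ofHom (MvPowerSeries.map (j.stalkMap (genericPoint X)).hom))
    (fmap φZ hW _) (by rw [fmap_closedPoint]; exact ha)).2

include hW' hj hJp hJq in
/-- The obstruction is principal on a slice over which the class is trivial. -/
lemma isAddPrinc_pullAdd_obst {E : Cart W} (hE : pullPc J (cl E) = 1) {k : ℕ} (hk : 0 < k)
    {Φ : (PS P.functionField φZ.d)ˣ} (hΦ : IsTrivUpTo φZ hW E k Φ) {α : Fin φZ.d →₀ ℕ}
    (hα : α.degree = k) : IsAddPrinc (pullAdd j (obst φZ hW E Φ α)) := by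
  classical
  rw [pullPc_cl] at hE
  obtain ⟨ψ, hψ⟩ := cl_eq_one.mp hE
  let ι' := sliceL hW' z₀
  let η' := j (genericPoint X)
  have hJι : ∀ x, J (ι' x) = sliceL hW z₀ (j x) := fun x => by
    rw [← Scheme.Hom.comp_apply, sliceL_comp hW hW' j hj J hJp hJq, Scheme.Hom.comp_apply]
  -- the trivialising function along the slice
  let A : X → W'.functionFieldˣ := fun x => (pullCart J E).1 (ι' x) / ψ
  have hA : ∀ x, A x ∈ unitsAt (ι' x) := fun x => hψ _
  have hAη : ∀ x, A x ∈ unitsAt (ι' (genericPoint X)) := fun x =>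
    unitsAt_mono ((specializes_genericPoint x).map ι'.continuous) (hA x)
  let S := P.presheaf.stalk η'
  let σ : S →+* X.functionField := (j.stalkMap (genericPoint X)).hom
  have hσ : ∀ v : S, res j (sAlg η' v) = σ v := fun v => by
    rw [res_sAlg, sAlg_genericPoint, RingHom.id_apply]
  let Uη : (PS P.functionField φZ.d)ˣ := aSer φZ hW E η' * Φ
  obtain ⟨hlowη, wη, hwη, hwη0⟩ := hΦ η'
  choose t ht using hlowη
  let T : MvPowerSeries (Fin φZ.d) S := fun β => if hβ : β.degree < k then t β hβ else 0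
  have hTc : ∀ β, MvPowerSeries.coeff β T = if hβ : β.degree < k then t β hβ else 0 := fun β => rfl
  have hrest : ∀ β, β.degree < k → MvPowerSeries.coeff β
      ((Uη : PS P.functionField φZ.d) - MvPowerSeries.map (sAlg η') T) = 0 := fun β hβ => by
    rw [map_sub, MvPowerSeries.coeff_map, hTc, dif_pos hβ, ht, sub_self]
  let Θ := (fevU φZ hW' (A (genericPoint X)))⁻¹
  let G : PS X.functionField φZ.d := (Θ : PS X.functionField φZ.d) * MvPowerSeries.map σ T
  let κ := MvPowerSeries.coeff α G / MvPowerSeries.constantCoeff G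
  refine ⟨κ, fun x => ?_⟩
  -- the transition
  let u := E.1 (sliceL hW z₀ (j x)) / E.1 (sliceL hW z₀ η')
  have hs : η' ⤳ j x := (specializes_genericPoint x).map j.continuous
  have hu : u ∈ unitsAt (sliceL hW z₀ η') := cart_ratio E (sliceL_specializes hW hs)
  let f : MvPowerSeries (Fin φZ.d) S := ev (fmap φZ hW η') (u : W.functionField)
  have hf : (fevU φZ hW u : PS P.functionField φZ.d) = MvPowerSeries.map (sAlg η') f := by
    rw [fevU_coe φZ hW (unitsAt_mono (sliceL_specializes hW (specializes_genericPoint _)) hu)]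
    exact fev_eq_map φZ hW (mem_unitsAt_iff.mp hu).1
  have hUx : (aSer φZ hW E (j x) * Φ : (PS P.functionField φZ.d)ˣ).1 =
      MvPowerSeries.map (sAlg η') f * (Uη : PS P.functionField φZ.d) := by
    rw [← hf, ← Units.val_mul]
    congr 1
    show _ = fevU φZ hW _ * _
    rw [← aSer_div, ← mul_assoc, div_mul_cancel]
  have hcoeff : ∀ β, β.degree ≤ k →
      MvPowerSeries.coeff β (aSer φZ hW E (j x) * Φ : (PS P.functionField φZ.d)ˣ).1 =
        sAlg η' (MvPowerSeries.coeff β (f * T)) + sAlg η' (MvPowerSeries.constantCoeff f) *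
          MvPowerSeries.coeff β
            ((Uη : PS P.functionField φZ.d) - MvPowerSeries.map (sAlg η') T) := fun β hβ => by
    rw [hUx, ← MvPowerSeries.coeff_map (sAlg η'), map_mul (MvPowerSeries.map (sAlg η')),
      ← MvPowerSeries.constantCoeff_map, ← coeff_mul_low hrest hβ, ← map_add, ← mul_add,
      add_sub_cancel]
  obtain ⟨hlowx, wx, hwx, hwx0⟩ := hΦ (j x)
  have hwx1 : (wx : P.functionField) = sAlg η' (MvPowerSeries.constantCoeff (f * T)) := by
    rw [hwx0, ← MvPowerSeries.coeff_zero_eq_constantCoeff_apply, hcoeff 0 (by simp),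
      hrest 0 (by simpa using hk), mul_zero, add_zero,
      MvPowerSeries.coeff_zero_eq_constantCoeff_apply]
  have hU0 : (wη : P.functionField) = sAlg η' (MvPowerSeries.constantCoeff T) := by
    rw [hwη0, ← MvPowerSeries.coeff_zero_eq_constantCoeff_apply,
      ← MvPowerSeries.coeff_zero_eq_constantCoeff_apply, hTc, dif_pos (by simpa using hk), ht]
  obtain ⟨w', hw'⟩ : IsUnit (MvPowerSeries.constantCoeff (f * T)) := by
    obtain ⟨v, hv⟩ := unitsAt_mono hs hwx
    have : (v : S) = MvPowerSeries.constantCoeff (f * T) :=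
      sAlg_injective η' (((congrArg Units.val hv).trans hwx1))
    exact this ▸ v.isUnit
  have hdiff : obst φZ hW E Φ α (j x) - obst φZ hW E Φ α η' =
      sAlg η' (MvPowerSeries.coeff α (f * T) * (↑w'⁻¹ : S)) := by
    have hw'' : sAlg η' (MvPowerSeries.constantCoeff (f * T)) ≠ 0 := hwx1 ▸ wx.ne_zero
    have hU'' : sAlg η' (MvPowerSeries.constantCoeff T) ≠ 0 := hU0 ▸ wη.ne_zero
    have hinv : sAlg η' (↑w'⁻¹ : S) = (sAlg η' (MvPowerSeries.constantCoeff (f * T)))⁻¹ := by
      rw [map_units_inv, hw']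
    have hTα : MvPowerSeries.coeff α (MvPowerSeries.map (sAlg η') T) = 0 := by
      rw [MvPowerSeries.coeff_map, hTc, dif_neg (by omega), map_zero]
    rw [obst, obst, hcoeff α hα.le, ← hwx0, hwx1, ← hwη0, hU0, map_sub, hTα, sub_zero,
      map_mul (sAlg η'),
      hinv, map_mul MvPowerSeries.constantCoeff, map_mul (sAlg η')]
    rw [map_mul MvPowerSeries.constantCoeff, map_mul (sAlg η')] at hw''
    have hf0 := left_ne_zero_of_mul hw''
    field_simp
    ring
  -- the slice
  let ru : (PS X.functionField φZ.d)ˣ := fevU φZ hW' (resU J u)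
  have hru : (ru : PS X.functionField φZ.d) = MvPowerSeries.map σ f := by
    have hu' : resU J u ∈ unitsAt (ι' (genericPoint X)) := resU_mem J (by rw [hJι]; exact hu)
    rw [fevU_coe φZ hW' hu', resU_coe J ?_,
      fev_res_slice φZ hW hW' j hj J hJp hJq (mem_unitsAt_iff.mp hu).1]
    refine unitsAt_mono ?_ hu
    have h3 := (specializes_genericPoint (ι' (genericPoint X))).map J.continuous
    exact hJι (genericPoint X) ▸ h3
  have hsplit : ru = fevU φZ hW' (A x) * Θ := by
    show fevU φZ hW' (resU J u) = _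
    rw [← div_eq_mul_inv, ← fevU_div φZ hW' (hAη x) (hAη _)]
    congr 1
    simp only [A, div_div_div_cancel_right, pullCart_apply]
    rw [← resU_div J (pull_ratio_mem J E _) (pull_ratio_mem J E _), div_div_div_cancel_right,
      hJι, hJι]
  have hprod : MvPowerSeries.map σ (f * T) =
      (fevU φZ hW' (A x) : PS X.functionField φZ.d) * G := by
    rw [map_mul, ← hru, hsplit, Units.val_mul, mul_assoc]
  have hres : pullAdd j (obst φZ hW E Φ α) x =
      MvPowerSeries.coeff α (MvPowerSeries.map σ (f * T)) /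
        MvPowerSeries.constantCoeff (MvPowerSeries.map σ (f * T)) := by
    show res j _ = _
    rw [hdiff, hσ, map_mul σ, map_units_inv, hw', MvPowerSeries.coeff_map,
      MvPowerSeries.constantCoeff_map, div_eq_mul_inv]
  have hlow' : ∀ β, β.degree < k →
      MvPowerSeries.coeff β (MvPowerSeries.map σ (f * T)) ∈ stalkSub x := fun β hβ => by
    have := hlowx β hβ
    rw [hcoeff β hβ.le, hrest β hβ, mul_zero, add_zero] at this
    rw [MvPowerSeries.coeff_map, ← hσ]
    exact res_mem j this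
  obtain ⟨hreg, w₀, hw₀, hw₀e⟩ := mem_regU_iff.mp (fevU_mem φZ hW' (hA x))
  rw [mem_regPS_iff] at hreg
  have hG : ∀ β, β.degree < k → MvPowerSeries.coeff β G ∈ stalkSub x := fun β hβ => by
    have e : G = ((fevU φZ hW' (A x))⁻¹ : (PS X.functionField φZ.d)ˣ).1 *
        MvPowerSeries.map σ (f * T) := by rw [hprod, Units.inv_mul_cancel_left]
    rw [e]
    exact coeff_mul_mem _
      (fun γ _ => mem_regPS_iff.mp (regU_le (inv_mem (fevU_mem φZ hW' (hA x)))) γ)
      fun γ hγ => hlow' γ (lt_of_le_of_lt hγ hβ)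
  have hc₀ : MvPowerSeries.constantCoeff (MvPowerSeries.map σ (f * T)) =
      (w₀ : X.functionField) * MvPowerSeries.constantCoeff G := by rw [hprod, map_mul, hw₀e]
  obtain ⟨wc, hwc⟩ : ∃ wc : X.functionFieldˣ, wc ∈ unitsAt x ∧ (wc : X.functionField) =
      MvPowerSeries.constantCoeff (MvPowerSeries.map σ (f * T)) := by
    have h1 : wx ∈ unitsAt (j (genericPoint X)) := unitsAt_mono hs hwx
    exact ⟨resU j wx, resU_mem j hwx, by
      rw [resU_coe j h1, hwx1, hσ, MvPowerSeries.constantCoeff_map]⟩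
  have hG0 : MvPowerSeries.constantCoeff G ≠ 0 := by
    intro h0; rw [h0, mul_zero, ← hwc.2] at hc₀; exact wc.ne_zero hc₀
  rw [hres]
  have e : MvPowerSeries.coeff α (MvPowerSeries.map σ (f * T)) /
      MvPowerSeries.constantCoeff (MvPowerSeries.map σ (f * T)) - κ =
      (MvPowerSeries.coeff α ((fevU φZ hW' (A x) : PS X.functionField φZ.d) * G) -
        MvPowerSeries.constantCoeff (fevU φZ hW' (A x) : PS X.functionField φZ.d) *
          MvPowerSeries.coeff α G) * ((wc⁻¹ : X.functionFieldˣ) : X.functionField) := by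
    rw [← hprod, ← hw₀e, Units.val_inv_eq_inv_val, hwc.2, hc₀]
    have := w₀.ne_zero
    simp only [κ]
    field_simp
  rw [e]
  exact mul_mem (coeff_mul_sub_mem _ (fun β _ => hreg β) fun β hβ => hG β (hα ▸ hβ))
    (mem_unitsAt_iff.mp hwc.1).2

end Slice

end FLTAgent.AV
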