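/-
Area AV (towards S26): spaces of sections and pullback along finite dominant morphisms.
-/
import Fermat.Agent.AV.Growth

set_option autoImplicit false

noncomputable section

universe u

open CategoryTheory CategoryTheory.Limits AlgebraicGeometry TopologicalSpace

namespace FLTAgent.AV

variable {K : Type u} [Field K] {T W : Scheme.{u}} [IsIntegral T] [IsIntegral W]
  (sT : T ⟶ Spec (CommRingCat.of K)) (sW : W ⟶ Spec (CommRingCat.of K))

lemma cart_pow_apply (f : Cart W) (m : ℕ) (x : W) : (f ^ m).1 x = f.1 x ^ m := rfl

omit [IsIntegral W] in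
include sW in
lemma exists_closed_specialisation [LocallyOfFiniteType sW] {U : W.Opens} {x : W} (hx : x ∈ U) :
    ∃ z ∈ U, IsClosed ({z} : Set W) ∧ x ⤳ z := by
  have : JacobsonSpace W := LocallyOfFiniteType.jacobsonSpace sW
  obtain ⟨z, ⟨hxz, hzU⟩, hz⟩ := nonempty_inter_closedPoints
    (Z := closure ({x} : Set W) ∩ U) ⟨x, subset_closure rfl, hx⟩
    (isClosed_closure.isLocallyClosed.inter U.2.isLocallyClosed)
  exact ⟨z, hzU, hz, specializes_iff_mem_closure.mpr hxz⟩

/-- Regularity may be checked at closed points. -/
lemma mem_lSpace_of_closed [LocallyOfFiniteType sW] {f : Cart W} {φ : W.functionField}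
    (h : ∀ z : W, IsClosed ({z} : Set W) → φ * (f.1 z : W.functionField) ∈ stalkSub z) :
    φ ∈ lSpace sW f := fun x => by
  obtain ⟨z, -, hz, hxz⟩ := exists_closed_specialisation sW (U := ⊤) (x := x) trivial
  have h1 := stalkSub_mono hxz (h z hz)
  have h2 := (mem_unitsAt_iff.mp ((unitsAt x).inv_mem (cart_ratio f hxz))).1
  rw [inv_div, Units.val_div_eq_div_val] at h2
  have := mul_mem h1 h2
  convert this using 1
  field_simp

/-- An element integral over a subring of an integrally closed local ring lies in it. -/
lemma mem_stalkSub_of_isIntegral {R : Type u} [CommRing R] [Algebra R W.functionField] {x : W}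
    [IsIntegrallyClosed (W.presheaf.stalk x)]
    (hR : ∀ r, algebraMap R W.functionField r ∈ stalkSub x) {z : W.functionField}
    (hz : _root_.IsIntegral R z) : z ∈ stalkSub x := by
  obtain ⟨P, hPm, hP⟩ := hz
  choose g hg using hR
  let g' : R →+* W.presheaf.stalk x :=
    { toFun := g
      map_one' := sAlg_injective x (by rw [hg, map_one, map_one])
      map_mul' := fun a b => sAlg_injective x (by rw [hg, map_mul, map_mul, hg, hg])
      map_zero' := sAlg_injective x (by rw [hg, map_zero, map_zero])
      map_add' := fun a b => sAlg_injective x (by rw [hg, map_add, map_add, hg, hg]) }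
  have h : _root_.IsIntegral (W.presheaf.stalk x) z := ⟨P.map g', hPm.map _, by
    rw [Polynomial.eval₂_map,
      show (algebraMap (W.presheaf.stalk x) W.functionField).comp g' =
        algebraMap R W.functionField from RingHom.ext hg]
    exact hP⟩
  obtain ⟨w, hw⟩ := IsIntegrallyClosed.isIntegral_iff.mp h
  exact ⟨w, hw⟩

variable (h : T ⟶ W) (hh : h (genericPoint T) = genericPoint W) (hK : h ≫ sW = sT)

include hh in
lemma res_mul_of_dominant (a b : W.functionField) : res h (a * b) = res h a * res h b :=
  res_mul h (hh ▸ mem_stalkSub_genericPoint a) (hh ▸ mem_stalkSub_genericPoint b)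

include hh in
lemma coe_pullCart {f : Cart W} (hf : f.1 (genericPoint W) = 1) (x : T) :
    ((pullCart h f).1 x : T.functionField) = res h (f.1 (h x) : W.functionField) := by
  rw [pullCart_apply, resU_coe h (pull_ratio_mem h f x), hh, hf, div_one]

include hh hK in
/-- Sections of the pullback obtained from sections and independent functions. -/
theorem card_mul_le_lDim_pull {ι κ : Type*} [Fintype ι] [Fintype κ] {f : Cart W}
    (hf : f.1 (genericPoint W) = 1) (f₀ : Cart T) (b : ι → T.functionField)
    (hb : ∀ i x, b i * (f₀.1 x : T.functionField) ∈ stalkSub x)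
    (hbi : ∀ c : ι → W.functionField, ∑ i, res h (c i) * b i = 0 → c = 0)
    (a : κ → W.functionField) (ha : ∀ k, a k ∈ lSpace sW f)
    (hai : ∀ c : κ → K, ∑ k, kHom sW (c k) * a k = 0 → c = 0)
    (hfin : letI := fieldAlg sT; FiniteDimensional K (lSpace sT (pullCart h f * f₀))) :
    Fintype.card ι * Fintype.card κ ≤ lDim sT (pullCart h f * f₀) := by
  classical
  let := fieldAlg sT
  let v : ι × κ → lSpace sT (pullCart h f * f₀) := fun p => ⟨res h (a p.2) * b p.1, fun x => by
    rw [Subgroup.coe_mul, Pi.mul_apply, Units.val_mul, coe_pullCart h hh hf,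
      mul_mul_mul_comm, ← res_mul_of_dominant h hh]
    exact mul_mem (res_mem h (ha p.2 (h x))) (hb p.1 x)⟩
  have hv : LinearIndependent K v := by
    refine Fintype.linearIndependent_iff.mpr fun c hc p => ?_
    have h0 : ∑ i, res h (∑ k, kHom sW (c (i, k)) * a k) * b i = 0 := by
      have h1 := congrArg Subtype.val hc
      simp only [Submodule.coe_sum, Submodule.coe_smul, ZeroMemClass.coe_zero] at h1
      refine Eq.trans ?_ h1
      rw [Fintype.sum_prod_type]
      refine Finset.sum_congr rfl fun i _ => ?_
      rw [← resHom_apply h hh, map_sum, Finset.sum_mul]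
      refine Finset.sum_congr rfl fun k _ => ?_
      rw [map_mul, resHom_apply, resHom_apply, res_kHom sW sT h hK, Algebra.smul_def, mul_assoc]
      rfl
    have h2 := congrFun (hbi _ h0) p.1
    exact congrFun (hai (fun k => c (p.1, k)) h2) p.2
  have := hv.fintype_card_le_finrank
  rwa [Fintype.card_prod] at this

variable [IsAlgClosed K] [Smooth sT] [Smooth sW] [IsFinite h]

include hh hK in
/-- Sections of the pullback are controlled by traces. -/
theorem exists_lDim_pull_le [CompactSpace W]
    (hfd : letI := (resHom h hh).toAlgebra; FiniteDimensional W.functionField T.functionField)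
    (hsep : letI := (resHom h hh).toAlgebra; Algebra.IsSeparable W.functionField T.functionField) :
    ∃ f₁ : Cart W, f₁.1 (genericPoint W) = 1 ∧ ∀ f : Cart W, f.1 (genericPoint W) = 1 →
      (letI := fieldAlg sW; FiniteDimensional K (lSpace sW (f * f₁))) →
      lDim sT (pullCart h f) ≤
        (letI := (resHom h hh).toAlgebra; Module.finrank W.functionField T.functionField) *
          lDim sW (f * f₁) := by
  classical
  let := (resHom h hh).toAlgebra
  let algT := fieldAlg sT
  let algW := fieldAlg sW
  have : IsScalarTower K W.functionField T.functionField :=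
    .of_algebraMap_eq fun c => (res_kHom sW sT h hK c).symm
  let b := Module.finBasis W.functionField T.functionField
  let P := fun i => minpoly W.functionField (b i)
  have hPm : ∀ i, (P i).Monic := fun i =>
    minpoly.monic (Algebra.IsIntegral.isIntegral (b i))
  obtain ⟨f₁, hf₁η, hf₁⟩ := exists_denominator sW
    (Finset.univ.biUnion fun i => Finset.image (P i).coeff (Finset.range (P i).natDegree)) id
  refine ⟨f₁, hf₁η, fun f hf hfin => ?_⟩
  -- the multiples of the basis
  have hcb : ∀ i (x : T), IsClosed ({x} : Set T) →
      res h (f₁.1 (h x) : W.functionField) * b i ∈ stalkSub x := by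
    intro i x hx
    have := uniqueFactorizationMonoid_stalk sT hx
    let c : W.functionField := (f₁.1 (h x) : W.functionField)
    let Q := (P i).scaleRoots c
    have hQ : Polynomial.aeval (res h c * b i) Q = 0 :=
      Polynomial.scaleRoots_aeval_eq_zero (minpoly.aeval _ _)
    have hQc : ∀ k, res h (Q.coeff k) ∈ stalkSub x := by
      intro k
      refine res_mem h ?_
      rw [Polynomial.coeff_scaleRoots]
      rcases lt_trichotomy k (P i).natDegree with hk | rfl | hk
      · obtain ⟨l, hl⟩ := Nat.exists_eq_add_of_lt hk
        rw [hl, show k + l + 1 - k = l + 1 by omega, pow_succ', ← mul_assoc, mul_comm _ c]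
        exact mul_mem ((hf₁ (h x)).2.2.1 _ (Finset.mem_biUnion.mpr ⟨i, Finset.mem_univ _,
          Finset.mem_image_of_mem _ (Finset.mem_range.mpr hk)⟩)) (pow_mem (hf₁ (h x)).2.1 _)
      · rw [(hPm i).coeff_natDegree, Nat.sub_self, pow_zero, one_mul]; exact one_mem _
      · rw [Polynomial.coeff_eq_zero_of_natDegree_lt hk, zero_mul]; exact zero_mem _
    let S : Subring T.functionField := stalkSub x
    let Q' : Polynomial T.functionField := Q.map (resHom h hh)
    have hQ'S : ∀ k, Q'.coeff k ∈ S := fun k => by rw [Polynomial.coeff_map]; exact hQc k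
    have hint : _root_.IsIntegral S (res h c * b i) := by
      obtain ⟨R, hR, -, hRm⟩ := Polynomial.lifts_and_degree_eq_and_monic (f := S.subtype) (p := Q')
        ((Polynomial.lifts_iff_coeff_lifts Q').mpr fun k => ⟨⟨_, hQ'S k⟩, rfl⟩)
        (((Polynomial.monic_scaleRoots_iff c).mpr (hPm i)).map _)
      refine ⟨R, hRm, ?_⟩
      change Polynomial.eval₂ S.subtype _ _ = 0
      rw [← Polynomial.eval_map, hR, Polynomial.eval_map]
      exact hQ
    exact mem_stalkSub_of_isIntegral (fun r => r.2) hint
  -- traces of sections
  have hmem : ∀ φ ∈ lSpace sT (pullCart h f), ∀ i,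
      Algebra.trace W.functionField T.functionField (φ * b i) ∈ lSpace sW (f * f₁) := by
    intro φ hφ i
    refine mem_lSpace_of_closed sW fun y hy => ?_
    have := uniqueFactorizationMonoid_stalk sW hy
    obtain ⟨V, hyV, hV⟩ := (f * f₁).2 y
    obtain ⟨_, ⟨U, hU, rfl⟩, hyU, hUV⟩ :=
      W.isBasis_affineOpens.exists_subset_of_mem_open hyV V.2
    have : Nonempty U := ⟨⟨y, hyU⟩⟩
    have : Nonempty (h ⁻¹ᵁ U : T.Opens) := ⟨⟨genericPoint T, by
      show h (genericPoint T) ∈ U
      rw [hh]; exact (specializes_genericPoint y).mem_open U.2 hyU⟩⟩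
    let g : W.functionField := ((f * f₁).1 y : W.functionField)
    let z := res h g * (φ * b i)
    have hz : ∀ x ∈ h ⁻¹ᵁ U, z ∈ stalkSub x := by
      intro x hx
      obtain ⟨x', hx'U, hx', hxx'⟩ := exists_closed_specialisation sT hx
      refine stalkSub_mono hxx' ?_
      have h1 := (mem_unitsAt_iff.mp ((unitsAt _).inv_mem (hV (h x') (hUV hx'U)))).1
      have h2 := res_mem h h1
      have h3 := mul_mem (mul_mem (hφ x') (hcb i x' hx')) h2
      convert h3 using 1
      have hne : ∀ u : W.functionFieldˣ, (u : W.functionField) ≠ 0 := fun u => u.ne_zero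
      rw [coe_pullCart h hh hf]
      simp only [z, g, Subgroup.coe_mul, Pi.mul_apply, inv_div, Units.val_div_eq_div_val,
        Units.val_mul, ← resHom_apply h hh, map_mul, map_div₀]
      have h4 : ∀ u : W.functionFieldˣ, resHom h hh u ≠ 0 := fun u =>
        (map_ne_zero _).mpr u.ne_zero
      have := h4 (f.1 (h x')); have := h4 (f₁.1 (h x'))
      field_simp
    obtain ⟨w, hw⟩ := exists_section (hU.preimage h) hz
    let algU : Algebra Γ(W, U) W.functionField := (W.germToFunctionField U).hom.toAlgebra
    let algUT : Algebra Γ(W, U) T.functionField :=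
      ((resHom h hh).comp (W.germToFunctionField U).hom).toAlgebra
    have : IsScalarTower Γ(W, U) W.functionField T.functionField := .of_algebraMap_eq fun _ => rfl
    have hzint : _root_.IsIntegral Γ(W, U) z := by
      obtain ⟨Pw, hPwm, hPw⟩ := RingHom.Finite.to_isIntegral (IsFinite.finite_app (f := h) U hU) w
      refine ⟨Pw, hPwm, ?_⟩
      have e : (T.germToFunctionField (h ⁻¹ᵁ U)).hom.comp (h.app U).hom =
          algebraMap Γ(W, U) T.functionField := RingHom.ext fun a => by
        show _ = res h (W.germToFunctionField U a)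
        rw [res_germ h le_rfl a, Scheme.Hom.app_eq_appLE]
        rfl
      rw [← hw, ← e, ← Polynomial.hom_eval₂]
      exact (congrArg _ hPw).trans (map_zero _)
    have htr := Algebra.isIntegral_trace (L := W.functionField) hzint
    have e2 : Algebra.trace W.functionField T.functionField z =
        g * Algebra.trace W.functionField T.functionField (φ * b i) := by
      rw [← smul_eq_mul, ← map_smul, Algebra.smul_def]
      rfl
    rw [e2, mul_comm] at htr
    exact mem_stalkSub_of_isIntegral (fun r => section_mem_stalkSub hyU r) htr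
  let Ψ : lSpace sT (pullCart h f) →ₗ[K]
      (Fin (Module.finrank W.functionField T.functionField) → lSpace sW (f * f₁)) :=
    LinearMap.pi fun i => (((Algebra.trace W.functionField T.functionField).comp
      (LinearMap.mulRight W.functionField (b i))).restrictScalars K ∘ₗ
        (lSpace sT (pullCart h f)).subtype).codRestrict _ fun φ => hmem φ.1 φ.2 i
  have hinj : Function.Injective Ψ := by
    refine LinearMap.ker_eq_bot.mp (LinearMap.ker_eq_bot'.mpr fun φ hφ => Subtype.ext ?_)
    refine (traceForm_nondegenerate W.functionField T.functionField).1 φ.1 fun y => ?_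
    have : Algebra.traceForm W.functionField T.functionField φ.1 = 0 :=
      b.ext fun i => congrArg Subtype.val (congrFun hφ i)
    rw [this]; rfl
  refine (LinearMap.finrank_le_finrank_of_injective hinj).trans ?_
  rw [Module.finrank_pi_fintype, Finset.sum_const, Finset.card_univ, Fintype.card_fin, smul_eq_mul]
  rfl

end FLTAgent.AV
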