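/-
Area AV (towards S26): bounding a Cartier divisor on a product by divisors pulled back from the
first factor, after a twist that is exact at a given point.
-/
import Fermat.Agent.AV.Pull

set_option autoImplicit false

noncomputable section

universe u

open CategoryTheory CategoryTheory.Limits AlgebraicGeometry TopologicalSpace NeronModelInfra

namespace FLTAgent.AV

section Pow

variable {W : Scheme.{u}} [IsIntegral W]

variable (W) in
/-- A constant local equation. -/
def constCart (g : W.functionFieldˣ) : Cart W :=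
  ⟨fun _ => g, fun _ => ⟨⊤, trivial, fun y _ => by rw [div_self']; exact one_mem _⟩⟩

/-- Poles along the zero locus of an effective divisor are bounded by a multiple of it. -/
theorem exists_pow_regular {O : W.Opens} (hO : IsCompact (O : Set W)) {t : Cart W}
    (ht : ∀ x ∈ O, (t.1 x : W.functionField) ∈ stalkSub x) (f : Cart W) (g : W.functionField)
    (h : ∀ x ∈ O, t.1 x ∈ unitsAt x → g / (f.1 x : W.functionField) ∈ stalkSub x) :
    ∃ N : ℕ, ∀ x ∈ O,
      (t.1 x : W.functionField) ^ N * (g / (f.1 x : W.functionField)) ∈ stalkSub x := by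
  classical
  have hloc : ∀ x₀ : O, ∃ (V : W.Opens) (N : ℕ), x₀.1 ∈ V ∧ ∀ x ∈ V, x ∈ O → ∀ M, N ≤ M →
      (t.1 x : W.functionField) ^ M * (g / (f.1 x : W.functionField)) ∈ stalkSub x := by
    rintro ⟨x₀, hx₀⟩
    obtain ⟨V₁, hxV₁, hV₁⟩ := t.2 x₀
    obtain ⟨V₂, hxV₂, hV₂⟩ := f.2 x₀
    obtain ⟨_, ⟨V, hV, rfl⟩, hxV, hVle⟩ := W.isBasis_affineOpens.exists_subset_of_mem_open
      (show x₀ ∈ (O : Set W) ∩ ((V₁ : Set W) ∩ V₂) from ⟨hx₀, hxV₁, hxV₂⟩)
      (O.2.inter (V₁.2.inter V₂.2))
    have : Nonempty V := ⟨⟨x₀, hxV⟩⟩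
    have htV : ∀ x ∈ V, (t.1 x₀ : W.functionField) ∈ stalkSub x := fun x hx => by
      have h1 := (mem_unitsAt_iff.mp ((unitsAt x).inv_mem (hV₁ x (hVle hx).2.1))).1
      rw [inv_div, Units.val_div_eq_div_val] at h1
      have := mul_mem (ht x (hVle hx).1) h1
      rwa [mul_div_cancel₀ _ (Units.ne_zero _)] at this
    obtain ⟨b, hb⟩ := exists_section hV htV
    have hb0 : ∀ x (hx : x ∈ V), sAlg x (W.presheaf.germ V x hx b) = (t.1 x₀ : W.functionField) :=
      fun x hx => (germToFunctionField_eq hx b).trans hb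
    have hbasic : ∀ x (hx : x ∈ W.basicOpen b), t.1 x ∈ unitsAt x := fun x hx => by
      have hxV' := W.basicOpen_le b hx
      have h1 : t.1 x₀ ∈ unitsAt x := by
        obtain ⟨v, hv⟩ := (W.mem_basicOpen b x hxV').mp hx
        exact ⟨v, Units.ext ((congrArg (sAlg x) hv).trans (hb0 x hxV'))⟩
      have := mul_mem (hV₁ x (hVle hxV').2.1) h1
      rwa [div_mul_cancel] at this
    have : Nonempty (W.basicOpen b) := by
      refine ⟨⟨genericPoint W, (W.mem_basicOpen b _
        ((specializes_genericPoint x₀).mem_open V.2 hxV)).mpr ?_⟩⟩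
      refine isUnit_iff_ne_zero.mpr fun h0 => (t.1 x₀).ne_zero ?_
      rw [← hb0 _ ((specializes_genericPoint x₀).mem_open V.2 hxV)]
      exact (congrArg _ h0).trans (map_zero _)
    obtain ⟨M, r, hr⟩ := exists_pow_mul_mem hV b (a := g / (f.1 x₀ : W.functionField)) fun x hx => by
      have hxV' := W.basicOpen_le b hx
      have h1 := mul_mem (h x (hVle hxV').1 (hbasic x hx))
        (mem_unitsAt_iff.mp (hV₂ x (hVle hxV').2.2)).1
      rw [Units.val_div_eq_div_val] at h1
      convert h1 using 1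
      field_simp
    rw [hb] at hr
    refine ⟨V, M, hxV, fun x hx hxO M' hM' => ?_⟩
    obtain ⟨l, rfl⟩ := Nat.exists_eq_add_of_le hM'
    have h1 := mul_mem (mul_mem (mul_mem
      (show (t.1 x₀ : W.functionField) ^ M * (g / (f.1 x₀ : W.functionField)) ∈ stalkSub x from
        hr ▸ section_mem_stalkSub hx r)
      (pow_mem (mem_unitsAt_iff.mp (hV₁ x (hVle hx).2.1)).1 M))
      (pow_mem (ht x hxO) l))
      (mem_unitsAt_iff.mp ((unitsAt x).inv_mem (hV₂ x (hVle hx).2.2))).1
    simp only [inv_div, Units.val_div_eq_div_val] at h1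
    convert h1 using 1
    rw [pow_add, div_pow]
    field_simp
  choose V N hxV hV using hloc
  obtain ⟨T, hT⟩ := hO.elim_finite_subcover (fun x : O => (V x : Set W)) (fun x => (V x).2)
    fun x hx => Set.mem_iUnion.mpr ⟨⟨x, hx⟩, hxV _⟩
  refine ⟨T.sup N, fun x hx => ?_⟩
  obtain ⟨x₀, hx₀, hxx₀⟩ := Set.mem_iUnion₂.mp (hT hx)
  exact hV x₀ x hxx₀ hx _ (Finset.le_sup hx₀)

end Pow

section Twist

variable {K : Type u} [Field K] [IsAlgClosed K] {P : Scheme.{u}}
  {sP : P ⟶ Spec (CommRingCat.of K)} [IsIntegral P] [Smooth sP] [IsSeparated sP] [CompactSpace P]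

omit [IsAlgClosed K] [Smooth sP] [CompactSpace P] in
include sP in
/-- A point at which all functions on an affine open are regular lies in that open. -/
lemma mem_of_forall_regular {U : P.Opens} (hU : IsAffineOpen U) [Nonempty U] {x : P}
    (h : ∀ a, P.germToFunctionField U a ∈ stalkSub x) : x ∈ U := by
  choose g hg using h
  let γ' : Γ(P, U) →+* P.presheaf.stalk x :=
    { toFun := g
      map_one' := sAlg_injective x (by rw [hg, map_one, map_one])
      map_mul' := fun a b => sAlg_injective x (by rw [hg, map_mul, map_mul, hg, hg])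
      map_zero' := sAlg_injective x (by rw [hg, map_zero, map_zero])
      map_add' := fun a b => sAlg_injective x (by rw [hg, map_add, map_add, hg, hg]) }
  let γ : Γ(P, U) ⟶ P.presheaf.stalk x := CommRingCat.ofHom γ'
  have hηU : genericPoint P ∈ U := by
    obtain ⟨y, hy⟩ := (inferInstance : Nonempty U)
    exact (specializes_genericPoint y).mem_open U.2 hy
  let π : P.presheaf.stalk x ⟶ P.functionField :=
    P.presheaf.stalkSpecializes (specializes_genericPoint x)
  have hπ : ∀ a, π a = sAlg x a := fun a => rfl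
  have hγ : γ ≫ π = P.germToFunctionField U := by
    ext a
    exact (hπ _).trans (hg a)
  have : IsDominant (Spec.map π) := by
    refine ⟨?_⟩
    exact (PrimeSpectrum.denseRange_comap_iff_ker_le_nilRadical π.hom).mpr fun a ha => by
      rw [RingHom.mem_ker, hπ] at ha
      rw [(sAlg_injective x) (ha.trans (map_zero _).symm)]
      exact zero_mem _
  have hover : (Spec.map γ ≫ hU.fromSpec) ≫ sP = P.fromSpecStalk x ≫ sP := by
    rw [← specMap_stalkStr]
    obtain ⟨φ, hφ⟩ : ∃ φ : CommRingCat.of K ⟶ Γ(P, U), Spec.map φ = hU.fromSpec ≫ sP :=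
      ⟨Spec.preimage _, Spec.map_preimage _⟩
    rw [Category.assoc, ← hφ, ← Spec.map_comp]
    congr 1
    ext c
    refine sAlg_injective x ((hg _).trans ?_)
    rw [sAlg_stalkStr]
    have h2 : φ ≫ P.germToFunctionField U = stalkStr sP (genericPoint P) := by
      refine Spec.map_injective ?_
      rw [Spec.map_comp, hφ, specMap_stalkStr, ← hU.fromSpecStalk_eq_fromSpecStalk hηU]
      simp [IsAffineOpen.fromSpecStalk, Scheme.germToFunctionField]
    exact congr($h2 c)
  have heq : Spec.map γ ≫ hU.fromSpec = P.fromSpecStalk x :=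
    ext_of_isDominant_of_isSeparated sP hover (Spec.map π) (by
      rw [← Spec.map_comp_assoc, hγ, Scheme.SpecMap_stalkSpecializes_fromSpecStalk,
        ← hU.fromSpecStalk_eq_fromSpecStalk hηU]
      rfl)
  have h3 : x = (Spec.map γ ≫ hU.fromSpec) (IsLocalRing.closedPoint (P.presheaf.stalk x)) := by
    rw [heq]; exact Scheme.fromSpecStalk_closedPoint.symm
  rw [h3]
  refine (congrArg (· ∈ U) (Scheme.Hom.comp_apply _ _ _)).mpr ?_
  exact hU.range_fromSpec.le ⟨_, rfl⟩

include sP in
/-- An effective divisor whose complement is a given affine open. -/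
lemma exists_complement_divisor {U : P.Opens} (hU : IsAffineOpen U) [Nonempty U] :
    ∃ c : Cart P, c.1 (genericPoint P) = 1 ∧ (∀ x, (c.1 x : P.functionField) ∈ stalkSub x) ∧
      ∀ x, c.1 x ∈ unitsAt x ↔ x ∈ U := by
  classical
  let := (Spec.preimage (hU.fromSpec ≫ sP)).hom.toAlgebra
  have : Algebra.FiniteType K Γ(P, U) :=
    (HasRingHomProperty.Spec_iff (P := @LocallyOfFiniteType)).mp
      (show LocallyOfFiniteType (Spec.map (CommRingCat.ofHom (algebraMap K Γ(P, U)))) by
        rw [show Spec.map (CommRingCat.ofHom (algebraMap K Γ(P, U))) = hU.fromSpec ≫ sP from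
          Spec.map_preimage _]
        infer_instance)
  obtain ⟨G, hG⟩ := ‹Algebra.FiniteType K Γ(P, U)›.out
  obtain ⟨c, hcη, hc⟩ := exists_denominator sP G fun a => P.germToFunctionField U a
  refine ⟨c, hcη, fun x => (hc x).2.1, fun x => ⟨fun hx => ?_, fun hx => ?_⟩⟩
  · have hG' : ∀ a ∈ G, P.germToFunctionField U a ∈ stalkSub x := fun a ha => by
      have := mul_mem (mem_unitsAt_iff.mp hx).2 ((hc x).2.2.1 a ha)
      rwa [← mul_assoc, Units.inv_mul, one_mul] at this
    refine mem_of_forall_regular (sP := sP) hU fun a => ?_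
    have ha : a ∈ Algebra.adjoin K (G : Set Γ(P, U)) := hG.symm ▸ Algebra.mem_top
    induction ha using Algebra.adjoin_induction with
    | mem a ha => exact hG' a ha
    | algebraMap r =>
      have hηU : genericPoint P ∈ U := by
        obtain ⟨y, hy⟩ := (inferInstance : Nonempty U)
        exact (specializes_genericPoint y).mem_open U.2 hy
      have h2 : Spec.preimage (hU.fromSpec ≫ sP) ≫ P.germToFunctionField U =
          stalkStr sP (genericPoint P) := by
        refine Spec.map_injective ?_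
        rw [Spec.map_comp, Spec.map_preimage, specMap_stalkStr,
          ← hU.fromSpecStalk_eq_fromSpecStalk hηU]
        simp [IsAffineOpen.fromSpecStalk, Scheme.germToFunctionField]
      rw [show P.germToFunctionField U (algebraMap K Γ(P, U) r) = kHom sP r from congr($h2 r)]
      exact kHom_mem sP x r
    | add a b _ _ ha hb => rw [map_add]; exact add_mem ha hb
    | mul a b _ _ ha hb => rw [map_mul]; exact mul_mem ha hb
  · refine mem_unitsAt_iff.mpr ⟨(hc x).2.1, ?_⟩
    rw [Units.val_inv_eq_inv_val, ← one_div]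
    exact (hc x).2.2.2 1 (one_mem _) fun a _ => by rw [one_mul]; exact section_mem_stalkSub hx a

variable {Z W : Scheme.{u}} {sZ : Z ⟶ Spec (CommRingCat.of K)} {pW : W ⟶ P} {qW : W ⟶ Z}
  (hW : IsPullback pW qW sP sZ) [IsIntegral W] [QuasiCompact sP]

include hW in
/-- Twisting: near the fibres over an affine open, a divisor is bounded by a divisor from the
first factor, exactly at a given point. -/
theorem exists_twist (hp : pW (genericPoint W) = genericPoint P) (E : Cart W) {Z₁ : Z.Opens}
    (hZ₁ : IsAffineOpen Z₁) {w : W} (hw : qW w ∈ Z₁) :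
    ∃ (c : Cart P) (g : W.functionFieldˣ), c.1 (genericPoint P) = 1 ∧
      c.1 (pW w) ∈ unitsAt (pW w) ∧ g / E.1 w ∈ unitsAt w ∧
      ∀ x, qW x ∈ Z₁ → res pW (c.1 (pW x) : P.functionField) *
        ((g : W.functionField) / (E.1 x : W.functionField)) ∈ stalkSub x := by
  obtain ⟨_, ⟨U, hU, rfl⟩, hwU, -⟩ :=
    P.isBasis_affineOpens.exists_subset_of_mem_open (Set.mem_univ (pW w)) isOpen_univ
  have : Nonempty U := ⟨⟨_, hwU⟩⟩
  have hB := isAffineOpen_box hW hU hZ₁
  let B : W.Opens := pW ⁻¹ᵁ U ⊓ qW ⁻¹ᵁ Z₁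
  have hwB : w ∈ B := ⟨hwU, hw⟩
  have : Nonempty B := ⟨⟨w, hwB⟩⟩
  obtain ⟨V, hwV, hV⟩ := E.2 w
  obtain ⟨τ, hτV, hwτ⟩ := hB.exists_basicOpen_le ⟨w, hwV⟩ hwB
  have hτ0 : ∀ x (hx : x ∈ B), sAlg x (W.presheaf.germ B x hx τ) = W.germToFunctionField B τ :=
    fun x hx => germToFunctionField_eq hx τ
  obtain ⟨v, hv⟩ := (W.mem_basicOpen τ w hwB).mp hwτ
  let τ' : W.functionFieldˣ := Units.map (sAlg w).toMonoidHom v
  have hτ' : (τ' : W.functionField) = W.germToFunctionField B τ :=
    (congrArg (sAlg w) hv).trans (hτ0 w hwB)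
  obtain ⟨N, hN⟩ := exists_pow_regular (O := B) hB.isCompact (t := constCart W τ')
    (fun x hx => ⟨_, (hτ0 x hx).trans hτ'.symm⟩) E (E.1 w : W.functionField) fun x hx hxu => by
      have hxτ : x ∈ W.basicOpen τ := by
        refine (W.mem_basicOpen τ x hx).mpr ?_
        obtain ⟨u', hu'⟩ := hxu
        have : (u' : W.presheaf.stalk x) = W.presheaf.germ B x hx τ :=
          sAlg_injective x ((congrArg Units.val hu').trans (hτ'.trans (hτ0 x hx).symm))
        exact this ▸ u'.isUnit
      have h1 := (mem_unitsAt_iff.mp ((unitsAt x).inv_mem (hV x (hτV hxτ)))).1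
      rwa [inv_div, Units.val_div_eq_div_val] at h1
  let g : W.functionFieldˣ := τ' ^ N * E.1 w
  obtain ⟨c, hcη, hc, hcU⟩ := exists_complement_divisor (sP := sP) hU
  let t := pullCart pW c
  have ht : ∀ x, (t.1 x : W.functionField) = res pW (c.1 (pW x) : P.functionField) :=
    coe_pullCart pW hp hcη
  have hO : IsCompact ((qW ⁻¹ᵁ Z₁ : W.Opens) : Set W) := by
    have : QuasiCompact qW := MorphismProperty.of_isPullback hW ‹QuasiCompact sP›
    exact qW.isCompact_preimage hZ₁.isCompact
  obtain ⟨M, hM⟩ := exists_pow_regular hO (t := t)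
    (fun x _ => by rw [ht]; exact res_mem pW (hc _)) E (g : W.functionField) fun x hx hxu => by
      have hxU : pW x ∈ U := by
        refine (hcU _).mp ?_
        obtain ⟨u', hu'⟩ := hc (pW x)
        have h1 : sAlg x (pW.stalkMap x u') = (t.1 x : W.functionField) := by
          rw [← res_sAlg, hu', ht]
        obtain ⟨v', hv'⟩ := hxu
        have h2 : IsUnit (pW.stalkMap x u') := by
          have : (v' : W.presheaf.stalk x) = pW.stalkMap x u' :=
            sAlg_injective x ((congrArg Units.val hv').trans h1.symm)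
          exact this ▸ v'.isUnit
        obtain ⟨u'', rfl⟩ := IsUnit.of_map _ _ h2
        exact ⟨u'', Units.ext hu'⟩
      have := hN x ⟨hxU, hx⟩
      convert this using 1
      simp only [g, constCart, Units.val_mul, Units.val_pow_eq_pow_val]
      ring
  refine ⟨c ^ M, g, ?_, ?_, ?_, fun x hx => ?_⟩
  · rw [cart_pow_apply, hcη, one_pow]
  · rw [cart_pow_apply]; exact pow_mem ((hcU _).mpr hwU) M
  · simp only [g, mul_div_assoc, div_self', mul_one]
    exact pow_mem (show τ' ∈ unitsAt w from ⟨v, rfl⟩) N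
  · have := hM x hx
    rw [ht] at this
    rw [cart_pow_apply, Units.val_pow_eq_pow_val, ← resHom_apply pW hp, map_pow, resHom_apply]
    exact this

end Twist

end FLTAgent.AV
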