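/-
Area AV (towards S26): algebraisation of formal trivialisations along a fibre.
-/
import Fermat.Agent.AV.Formal
import Fermat.Agent.AV.Twist

set_option autoImplicit false

noncomputable section

universe u

open CategoryTheory CategoryTheory.Limits AlgebraicGeometry TopologicalSpace NeronModelInfra

namespace FLTAgent.AV

section Coord

variable {K : Type u} [Field K] [IsAlgClosed K] {X Y P : Scheme.{u}}
  {sX : X ⟶ Spec (CommRingCat.of K)} {sY : Y ⟶ Spec (CommRingCat.of K)}
  {p : P ⟶ X} {q : P ⟶ Y} (hP : IsPullback p q sX sY)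
  [IsIntegral X] [IsIntegral Y] [Smooth sX] [Smooth sY] [IsIntegral P]

include hP in
/-- Sums of products are determined by their coordinates along a basis of the first factor. -/
lemma exists_coord_rep {ι : Type u}
    (b : letI := fieldAlg sX; Module.Basis ι K X.functionField)
    (L : ι → (P.functionField →+ Y.functionField))
    (hL : letI := fieldAlg sX; ∀ i a z, L i (res p a * res q z) = kHom sY (b.repr a i) * z)
    {w : P.functionField}
    (hw : w ∈ AddSubmonoid.closure {w : P.functionField | ∃ a z, w = res p a * res q z}) :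
    ∃ s : Finset ι, (∀ i ∉ s, L i w = 0) ∧
      w = ∑ i ∈ s, res p (letI := fieldAlg sX; b i) * res q (L i w) := by
  classical
  let := fieldAlg sX
  induction hw using AddSubmonoid.closure_induction with
  | zero => exact ⟨∅, fun i _ => map_zero _, by simp⟩
  | mem w hw =>
    obtain ⟨a, z, rfl⟩ := hw
    refine ⟨(b.repr a).support, fun i hi => ?_, ?_⟩
    · rw [hL, Finsupp.notMem_support_iff.mp hi, map_zero, zero_mul]
    have hηp := fst_genericPoint hP
    have hηq := snd_genericPoint hP
    conv_lhs => rw [← b.linearCombination_repr a, Finsupp.linearCombination_apply, Finsupp.sum,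
      ← resHom_apply p hηp, map_sum, Finset.sum_mul]
    refine Finset.sum_congr rfl fun i _ => ?_
    rw [hL, Algebra.smul_def, map_mul, resHom_apply, resHom_apply, ← resHom_apply q hηq (_ * z),
      map_mul, resHom_apply, resHom_apply]
    change res p (kHom sX _) * _ * _ = _
    rw [res_kHom sX (q ≫ sY) p hP.w, res_kHom sY (q ≫ sY) q rfl]
    ring
  | add x y _ _ hx hy =>
    obtain ⟨s, hs, hxs⟩ := hx
    obtain ⟨t, ht, hyt⟩ := hy
    refine ⟨s ∪ t, fun i hi => ?_, ?_⟩
    · rw [Finset.notMem_union] at hi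
      rw [map_add, hs i hi.1, ht i hi.2, add_zero]
    have hz : ∀ (v : P.functionField) (r : Finset ι), (∀ i ∉ r, L i v = 0) →
        ∀ r', r ⊆ r' → ∑ i ∈ r, res p (b i) * res q (L i v) =
          ∑ i ∈ r', res p (b i) * res q (L i v) := fun v r hr r' hrr' =>
      Finset.sum_subset hrr' fun i _ hi => by rw [hr i hi, res_zero, mul_zero]
    conv_lhs => rw [hxs, hyt, hz x s hs _ Finset.subset_union_left,
      hz y t ht _ Finset.subset_union_right, ← Finset.sum_add_distrib]
    refine Finset.sum_congr rfl fun i _ => ?_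
    rw [map_add, ← resHom_apply q (snd_genericPoint hP) (_ + _), map_add, resHom_apply,
      resHom_apply, mul_add]

end Coord

variable {K : Type u} [Field K] [IsAlgClosed K] {P Z W : Scheme.{u}}
  {sP : P ⟶ Spec (CommRingCat.of K)} {sZ : Z ⟶ Spec (CommRingCat.of K)} {z₀ : Pts sZ}
  (φZ : FormalPt z₀) {pW : W ⟶ P} {qW : W ⟶ Z} (hW : IsPullback pW qW sP sZ)
  [IsIntegral P] [IsIntegral Z] [IsIntegral W] [Smooth sP] [Smooth sZ]

omit [IsAlgClosed K] [IsIntegral P] [IsIntegral W] [Smooth sP] [Smooth sZ] in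
/-- A linear retraction of formal series to rational functions on the base. -/
lemma exists_retraction {v₀ : PS K φZ.d} (h₀ : v₀ ≠ 0) :
    ∃ π : PS K φZ.d →+ Z.functionField, π v₀ ≠ 0 ∧
      ∀ b v, π (φZ.ψ b * v) = sAlg (pt z₀) b * π v := by
  let Ω := FractionRing (PS K φZ.d)
  let ψ' : Z.functionField →+* Ω := IsFractionRing.lift (A := Z.presheaf.stalk (pt z₀))
    (g := (algebraMap (PS K φZ.d) Ω).comp φZ.ψ)
    ((IsFractionRing.injective (PS K φZ.d) Ω).comp φZ.injective)
  let := ψ'.toAlgebra
  have hne : algebraMap (PS K φZ.d) Ω v₀ ≠ 0 :=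
    fun h => h₀ (IsFractionRing.injective (PS K φZ.d) Ω (h.trans (map_zero _).symm))
  obtain ⟨l, hl, -⟩ := Submodule.exists_le_ker_of_notMem
    (p := (⊥ : Submodule Z.functionField Ω)) fun h => hne ((Submodule.mem_bot _).mp h)
  have hψ' : ∀ b, ψ' (sAlg (pt z₀) b) = algebraMap (PS K φZ.d) Ω (φZ.ψ b) := fun b =>
    IsFractionRing.lift_algebraMap
      (g := (algebraMap (PS K φZ.d) Ω).comp φZ.ψ)
      ((IsFractionRing.injective (PS K φZ.d) Ω).comp φZ.injective) b
  refine ⟨l.toAddMonoidHom.comp (algebraMap (PS K φZ.d) Ω).toAddMonoidHom, hl, fun b v => ?_⟩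
  show l (algebraMap (PS K φZ.d) Ω (φZ.ψ b * v)) = _
  rw [map_mul, ← hψ' b]
  exact l.map_smul (sAlg (pt z₀) b) _

include hW in
/-- Functions regular along all fibres over the generic point come from the base. -/
theorem exists_base_of_regular [IsProper sP] (x₀ : Pts sP) {a : W.functionField}
    (ha : ∀ w, qW w = genericPoint Z → a ∈ stalkSub w) : ∃ b, res qW b = a := by
  classical
  have : IsProper qW := MorphismProperty.of_isPullback hW ‹IsProper sP›
  -- an affine open of the base over which the function is regular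
  let C : Set W := {w | a ∉ stalkSub w}
  have hC : IsClosed C := by
    refine ⟨isOpen_iff_forall_mem_open.mpr fun w hw => ?_⟩
    obtain ⟨U, hwU, hU⟩ := exists_open_regular (of_not_not hw)
    exact ⟨U, fun y hy hyC => hyC (hU y hy), U.2, hwU⟩
  have hη : genericPoint Z ∈ (qW '' C)ᶜ := fun ⟨w, hw, hwq⟩ => hw (ha w hwq)
  obtain ⟨_, ⟨Z₁, hZ₁, rfl⟩, hηZ₁, hZC⟩ := Z.isBasis_affineOpens.exists_subset_of_mem_open hη
    (qW.isClosedMap C hC).isOpen_compl
  have hreg : ∀ w, qW w ∈ Z₁ → a ∈ stalkSub w := fun w hw =>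
    of_not_not fun h => hZC hw ⟨w, h, rfl⟩
  have : Nonempty Z₁ := ⟨⟨_, hηZ₁⟩⟩
  let := fieldAlg sZ
  let e := Module.Basis.ofVectorSpace K Z.functionField
  choose L hL using fun i => exists_functional hW.flip (e.coord i)
  have hgen : ∀ (U : P.Opens), IsAffineOpen U → Nonempty U →
      a ∈ AddSubmonoid.closure {w : W.functionField | ∃ α β, (∀ x ∈ U, α ∈ stalkSub x) ∧
        w = res qW β * res pW α} := fun U hU _ => by
    refine AddSubmonoid.closure_mono ?_ (mem_closure_of_regular_box hW hU hZ₁ (z := a)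
      fun w _ hw => hreg w hw)
    rintro _ ⟨α, β, hα, -, rfl⟩
    exact ⟨α, β, hα, mul_comm _ _⟩
  -- the coordinates are regular everywhere, hence constant
  have hconst : ∀ i, ∃ c, kHom sP c = L i a := fun i => exists_const_of_regular sP fun x => by
    obtain ⟨_, ⟨U, hU, rfl⟩, hxU, -⟩ :=
      P.isBasis_affineOpens.exists_subset_of_mem_open (Set.mem_univ x) isOpen_univ
    have h := hgen U hU ⟨⟨x, hxU⟩⟩
    generalize a = a' at h
    induction h using AddSubmonoid.closure_induction with
    | zero => rw [map_zero]; exact zero_mem _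
    | mem w hw =>
      obtain ⟨α, β, hα, rfl⟩ := hw
      rw [hL]
      exact mul_mem (kHom_mem sP x _) (hα x hxU)
    | add u v _ _ hu hv => rw [map_add]; exact add_mem hu hv
  choose c hc using hconst
  obtain ⟨_, ⟨U, hU, rfl⟩, hxU, -⟩ :=
    P.isBasis_affineOpens.exists_subset_of_mem_open (Set.mem_univ (pt x₀)) isOpen_univ
  obtain ⟨s, -, hs⟩ := exists_coord_rep hW.flip e L (fun i a' z => hL i a' z)
    (AddSubmonoid.closure_mono (by rintro _ ⟨α, β, -, rfl⟩; exact ⟨β, α, rfl⟩)
      (hgen U hU ⟨⟨_, hxU⟩⟩) : a ∈ AddSubmonoid.closure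
        {w : W.functionField | ∃ α β, w = res qW α * res pW β})
  have hq := snd_genericPoint hW
  refine ⟨∑ i ∈ s, kHom sZ (c i) * e i, ?_⟩
  conv_rhs => rw [hs]
  rw [← resHom_apply qW hq, map_sum]
  refine Finset.sum_congr rfl fun i _ => ?_
  rw [map_mul, resHom_apply, resHom_apply, ← hc, res_kHom sP (pW ≫ sP) pW rfl,
    res_kHom sZ (pW ≫ sP) qW hW.w.symm]
  ring

variable [IsProper sP]

/-- Pairs of a formal series and a rational function related by the retraction. -/
def relPairs (π : PS K φZ.d →+ Z.functionField) :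
    AddSubgroup (PS P.functionField φZ.d × W.functionField) :=
  AddSubgroup.closure (Set.range fun ev : P.functionField × PS K φZ.d =>
    (MvPowerSeries.C ev.1 * MvPowerSeries.map (kHom sP) ev.2, res pW ev.1 * res qW (π ev.2)))

include hW in
/-- The algebraisation of a formal trivialisation: a nonzero function regular against `E` along
all fibres over the generic point. -/
theorem exists_generic_section {E : Cart W} (hE : IsFormallyTrivial φZ hW E) :
    ∃ φ : W.functionFieldˣ, ∀ w, qW w = genericPoint Z →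
      (φ : W.functionField) * (E.1 w : W.functionField) ∈ stalkSub w := by
  classical
  obtain ⟨Φ, hΦ⟩ := hE
  have hηp := fst_genericPoint hW
  have hηq := snd_genericPoint hW
  let ι := sliceL hW z₀
  let η₀ := ι (genericPoint P)
  have hpη : pW η₀ = genericPoint P := fst_sliceL_apply hW z₀ _
  have hqη : qW η₀ = pt z₀ := snd_sliceL_apply hW z₀ _
  -- affine neighbourhoods
  obtain ⟨_, ⟨Z₁, hZ₁, rfl⟩, hzZ₁, -⟩ :=
    Z.isBasis_affineOpens.exists_subset_of_mem_open (Set.mem_univ (pt z₀)) isOpen_univ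
  have hηZ₁ : genericPoint Z ∈ Z₁ := (specializes_genericPoint _).mem_open Z₁.2 hzZ₁
  obtain ⟨_, ⟨U₀, hU₀, rfl⟩, hηU₀, -⟩ :=
    P.isBasis_affineOpens.exists_subset_of_mem_open (Set.mem_univ (genericPoint P)) isOpen_univ
  have : Nonempty Z₁ := ⟨⟨_, hzZ₁⟩⟩
  have : Nonempty U₀ := ⟨⟨_, hηU₀⟩⟩
  let B : W.Opens := pW ⁻¹ᵁ U₀ ⊓ qW ⁻¹ᵁ Z₁
  have hBη₀ : η₀ ∈ B := ⟨show pW η₀ ∈ U₀ from hpη ▸ hηU₀, show qW η₀ ∈ Z₁ from hqη ▸ hzZ₁⟩
  have : Nonempty B := ⟨⟨η₀, hBη₀⟩⟩
  have hB : IsAffineOpen B := isAffineOpen_box hW hU₀ hZ₁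
  have := functionField_isFractionRing_of_isAffineOpen W B hB
  -- twists at the points over the affine open
  have : CompactSpace P := QuasiCompact.compactSpace_of_compactSpace sP
  choose c g hcη hcw hgw hcg using fun w : {w : W // qW w ∈ Z₁} =>
    exists_twist hW hηp E hZ₁ w.2
  let fη₀ := E.1 η₀
  have hι : ∀ x, qW (ι x) ∈ Z₁ := fun x => by
    show qW (ι x) ∈ Z₁
    rw [show qW (ι x) = pt z₀ from snd_sliceL_apply hW z₀ x]; exact hzZ₁
  let w₀ : {w : W // qW w ∈ Z₁} := ⟨η₀, hι _⟩
  -- the formal sections of the twists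
  let gh : {w : W // qW w ∈ Z₁} → W.functionField := fun w =>
    (g w : W.functionField) / (fη₀ : W.functionField)
  have hgh : ∀ w, gh w ∈ stalkSub η₀ := fun w => by
    have h := hcg w η₀ (hι _)
    rwa [hpη, hcη, Units.val_one, res_one, one_mul] at h
  let ψh : {w : W // qW w ∈ Z₁} → PS P.functionField φZ.d := fun w =>
    (Φ : PS P.functionField φZ.d) * fev φZ hW (gh w)
  let algP := fieldAlg sP
  have hψh : ∀ w β, MvPowerSeries.coeff β (ψh w) ∈ lSpace sP (c w) := by
    intro w β x
    have hx : ι x ∈ qW ⁻¹ᵁ Z₁ := hι x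
    have hreg := fev_mem φZ hW (x := x) (hcg w (ι x) hx)
    have hmem := mul_mem (regU_le (hΦ x)) hreg
    have hrat := ratio_mem_generic (z₀ := z₀) hW E x
    have hpc : res pW (c w |>.1 (pW (ι x)) : P.functionField) ∈ stalkSub η₀ := by
      refine res_mem pW ?_
      rw [hpη]; exact mem_stalkSub_genericPoint _
    have hb : res pW (c w |>.1 (pW (ι x)) : P.functionField) *
        ((g w : W.functionField) / (E.1 (ι x) : W.functionField)) ∈ stalkSub η₀ :=
      stalkSub_mono (sliceL_specializes hW (specializes_genericPoint x)) (hcg w (ι x) hx)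
    have e1 : (aSer φZ hW E x * Φ : (PS P.functionField φZ.d)ˣ).1 *
        fev φZ hW (res pW (c w |>.1 (pW (ι x)) : P.functionField) *
          ((g w : W.functionField) / (E.1 (ι x) : W.functionField))) =
        MvPowerSeries.C ((c w).1 x : P.functionField) * ψh w := by
      rw [Units.val_mul, aSer, fevU_coe φZ hW hrat, mul_comm (fev φZ hW _) (Φ : PS _ _),
        mul_assoc, ← fev_mul φZ hW (mem_unitsAt_iff.mp hrat).1 hb,
        show pW (ι x) = x from fst_sliceL_apply hW z₀ x]
      rw [show ((E.1 (sliceL hW z₀ x) / E.1 (sliceL hW z₀ (genericPoint P)) :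
          W.functionFieldˣ) : W.functionField) * (res pW ((c w).1 x : P.functionField) *
          ((g w : W.functionField) / (E.1 (ι x) : W.functionField))) =
          res pW ((c w).1 x : P.functionField) * gh w by
        simp only [gh, fη₀, η₀, ι, Units.val_div_eq_div_val]
        have := (E.1 (sliceL hW z₀ x)).ne_zero
        field_simp]
      rw [fev_mul φZ hW (res_mem pW (by rw [hpη]; exact mem_stalkSub_genericPoint _)) (hgh w),
        fev_res_fst φZ hW hpη]
      ring
    rw [e1, mem_regPS_iff] at hmem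
    have := hmem β
    rw [MvPowerSeries.coeff_C_mul, mul_comm] at this
    exact this
  -- coordinates in the spaces of sections
  have hfin : ∀ w, FiniteDimensional K (lSpace sP (c w)) := fun w =>
    finiteDimensional_lSpace sP (c w)
  let n := fun w => Module.finrank K (lSpace sP (c w))
  let h := fun w => Module.finBasis K (lSpace sP (c w))
  let v : ∀ w, Fin (n w) → PS K φZ.d := fun w i β => (h w).repr ⟨_, hψh w β⟩ i
  have hv : ∀ w i β, MvPowerSeries.coeff β (v w i) = (h w).repr ⟨_, hψh w β⟩ i := fun _ _ _ => rfl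
  have hψv : ∀ w, ψh w =
      ∑ i, MvPowerSeries.C ((h w i).1) * MvPowerSeries.map (kHom sP) (v w i) := fun w =>
    MvPowerSeries.ext fun β => by
      rw [map_sum]
      conv_lhs => rw [show MvPowerSeries.coeff β (ψh w) =
        ((⟨_, hψh w β⟩ : lSpace sP (c w)) : P.functionField) from rfl,
        ← (h w).sum_repr ⟨_, hψh w β⟩, Submodule.coe_sum]
      refine Finset.sum_congr rfl fun i _ => ?_
      rw [Submodule.coe_smul, Algebra.smul_def, MvPowerSeries.coeff_C_mul, MvPowerSeries.coeff_map,
        hv, mul_comm]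
      rfl
  -- a functional detecting the section at the special point
  have hunit : IsUnit (ψh w₀) := by
    refine Φ.isUnit.mul ?_
    have hu : g w₀ / E.1 η₀ ∈ unitsAt η₀ := hgw w₀
    have e : fev φZ hW (gh w₀) = (fevU φZ hW (g w₀ / E.1 η₀) : PS P.functionField φZ.d) := by
      rw [fevU_coe φZ hW hu, Units.val_div_eq_div_val]
    rw [e]; exact Units.isUnit _
  obtain ⟨i₀, hi₀⟩ : ∃ i, v w₀ i ≠ 0 := by
    by_contra hall
    push Not at hall
    refine hunit.ne_zero ?_
    rw [hψv w₀]
    exact Finset.sum_eq_zero fun i _ => by rw [hall i, map_zero, mul_zero]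
  obtain ⟨π, hπ₀, hπ⟩ := exists_retraction φZ hi₀
  let Y := fun w => ∑ i, res pW (h w i).1 * res qW (π (v w i))
  let G := relPairs (P := P) (W := W) (sP := sP) φZ (pW := pW) (qW := qW) π
  have hYG : ∀ w, (ψh w, Y w) ∈ G := fun w => by
    rw [hψv w]
    have : (∑ i, MvPowerSeries.C ((h w i).1) * MvPowerSeries.map (kHom sP) (v w i), Y w) =
        ∑ i, ((MvPowerSeries.C ((h w i).1) * MvPowerSeries.map (kHom sP) (v w i),
          res pW (h w i).1 * res qW (π (v w i))) : PS P.functionField φZ.d × W.functionField) := by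
      refine Prod.ext ?_ ?_ <;> simp [Y, Prod.fst_sum, Prod.snd_sum]
    rw [this]
    exact sum_mem fun i _ => AddSubgroup.subset_closure ⟨((h w i).1, v w i), rfl⟩
  -- the functionals
  let algZ := fieldAlg sZ
  let bP := Module.Basis.ofVectorSpace K P.functionField
  choose L hL using fun i => exists_functional hW (bP.coord i)
  have hπK : ∀ k u, π (MvPowerSeries.C k * u) = kHom sZ k * π u := fun k u => by
    rw [← φZ.map_const, hπ, sAlg_stalkStr]
  let cs := fun i =>
    ({ toFun := fun p => (fun β => bP.coord i (MvPowerSeries.coeff β p) : PS K φZ.d)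
       map_zero' := MvPowerSeries.ext fun β => by
         show bP.coord i _ = _
         rw [map_zero, map_zero, map_zero]
       map_add' := fun p p' => MvPowerSeries.ext fun β => by
         show bP.coord i (MvPowerSeries.coeff β (p + p')) =
           bP.coord i (MvPowerSeries.coeff β p) + bP.coord i (MvPowerSeries.coeff β p')
         rw [map_add, map_add] } : PS P.functionField φZ.d →+ PS K φZ.d)
  have hcoord : ∀ x ∈ G, ∀ i, L i x.2 = π (cs i x.1) := by
    intro x hx
    induction hx using AddSubgroup.closure_induction with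
    | mem x hx =>
      obtain ⟨⟨e, u⟩, rfl⟩ := hx
      intro i
      rw [hL, ← hπK]
      congr 1
      refine MvPowerSeries.ext fun β => ?_
      rw [MvPowerSeries.coeff_C_mul]
      show _ = bP.coord i (MvPowerSeries.coeff β (MvPowerSeries.C e * MvPowerSeries.map (kHom sP) u))
      rw [MvPowerSeries.coeff_C_mul, MvPowerSeries.coeff_map, mul_comm e,
        show kHom sP (MvPowerSeries.coeff β u) * e = MvPowerSeries.coeff β u • e from
          (Algebra.smul_def _ _).symm, map_smul, smul_eq_mul, mul_comm]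
    | zero => intro i; simp
    | add x y _ _ hx hy =>
      intro i
      rw [Prod.snd_add, Prod.fst_add, map_add, hx, hy, ← map_add π, map_add (cs i)]
    | neg x _ hx =>
      intro i
      rw [Prod.snd_neg, Prod.fst_neg, map_neg, hx, ← map_neg π, map_neg (cs i)]
  have hclos : ∀ x ∈ G, x.2 ∈ AddSubmonoid.closure
      {w : W.functionField | ∃ a z, w = res pW a * res qW z} := by
    intro x hx
    have hneg : ∀ y ∈ AddSubmonoid.closure {w : W.functionField | ∃ a z, w = res pW a * res qW z},
        -y ∈ AddSubmonoid.closure {w : W.functionField | ∃ a z, w = res pW a * res qW z} := by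
      intro y hy
      induction hy using AddSubmonoid.closure_induction with
      | mem y hy =>
        obtain ⟨a, z, rfl⟩ := hy
        refine AddSubmonoid.subset_closure ⟨-a, z, ?_⟩
        rw [← resHom_apply pW hηp (-a), map_neg, resHom_apply, neg_mul]
      | zero => rw [neg_zero]; exact zero_mem _
      | add a b _ _ ha hb => rw [neg_add]; exact add_mem ha hb
    induction hx using AddSubgroup.closure_induction with
    | mem x hx => obtain ⟨⟨e, u⟩, rfl⟩ := hx; exact AddSubmonoid.subset_closure ⟨_, _, rfl⟩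
    | zero => exact zero_mem _
    | add a b _ _ ha hb => exact add_mem ha hb
    | neg a _ ha => exact hneg _ ha
  have hzero : ∀ x ∈ G, x.1 = 0 → x.2 = 0 := fun x hx hx0 => by
    obtain ⟨s, -, hs⟩ := exists_coord_rep hW bP L hL (hclos x hx)
    rw [hs]
    refine Finset.sum_eq_zero fun i _ => ?_
    rw [hcoord x hx i, hx0, map_zero, map_zero, res_zero, mul_zero]
  -- multiplication by functions from the box
  have hmult : ∀ N : W.functionField, (∀ x, pW x ∈ U₀ → qW x ∈ Z₁ → N ∈ stalkSub x) →
      ∀ x ∈ G, (fev φZ hW N * x.1, N * x.2) ∈ G := by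
    intro N hN
    have hN' := mem_closure_of_regular_box hW hU₀ hZ₁ hN
    clear hN
    suffices h' : N ∈ stalkSub η₀ ∧ ∀ x ∈ G, (fev φZ hW N * x.1, N * x.2) ∈ G from h'.2
    induction hN' using AddSubmonoid.closure_induction with
    | mem N hN =>
      obtain ⟨a, z, ha, hz, rfl⟩ := hN
      obtain ⟨b, rfl⟩ := hz (pt z₀) hzZ₁
      have h1 : res pW a ∈ stalkSub η₀ := res_mem pW (by rw [hpη]; exact mem_stalkSub_genericPoint a)
      have h2 : res qW (sAlg (pt z₀) b) ∈ stalkSub η₀ := res_mem qW (by rw [hqη]; exact ⟨b, rfl⟩)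
      refine ⟨mul_mem h1 h2, fun x hx => ?_⟩
      rw [fev_mul φZ hW h1 h2, fev_res_fst φZ hW hpη, fev_res_snd φZ hW hqη]
      induction hx using AddSubgroup.closure_induction with
      | mem x hx =>
        obtain ⟨⟨e, u⟩, rfl⟩ := hx
        refine AddSubgroup.subset_closure ⟨(a * e, φZ.ψ b * u), Prod.ext ?_ ?_⟩
        · show MvPowerSeries.C (a * e) * MvPowerSeries.map (kHom sP) (φZ.ψ b * u) = _
          rw [map_mul MvPowerSeries.C, map_mul (MvPowerSeries.map (kHom sP))]
          ring
        · show res pW (a * e) * res qW (π (φZ.ψ b * u)) = _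
          rw [res_mul_of_dominant pW hηp, hπ, res_mul_of_dominant qW hηq]
          ring
      | zero => simp only [Prod.fst_zero, Prod.snd_zero, mul_zero]; exact zero_mem _
      | add y y' _ _ hy hy' =>
        simp only [Prod.fst_add, Prod.snd_add, mul_add]
        exact add_mem hy hy'
      | neg y _ hy =>
        simp only [Prod.fst_neg, Prod.snd_neg, mul_neg]
        exact neg_mem hy
    | zero =>
      refine ⟨zero_mem _, fun x _ => ?_⟩
      rw [show fev φZ hW (0 : W.functionField) = 0 from ev_zero _, zero_mul, zero_mul]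
      exact zero_mem _
    | add M M' _ _ hM hM' =>
      refine ⟨add_mem hM.1 hM'.1, fun x hx => ?_⟩
      rw [fev_add φZ hW hM.1 hM'.1, add_mul, add_mul]
      exact add_mem (hM.2 x hx) (hM'.2 x hx)
  -- the sections of the twists come from one function
  have hfrac : ∀ w, ∃ N S : W.functionField, S ≠ 0 ∧ gh w * S = N ∧
      (∀ x, pW x ∈ U₀ → qW x ∈ Z₁ → N ∈ stalkSub x) ∧
      ∀ x, pW x ∈ U₀ → qW x ∈ Z₁ → S ∈ stalkSub x := fun w => by
    obtain ⟨a, b, hb, hab⟩ := IsFractionRing.div_surjective (A := Γ(W, B)) (gh w)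
    refine ⟨W.germToFunctionField B a, W.germToFunctionField B b, ?_, ?_,
      fun x h1 h2 => section_mem_stalkSub (show x ∈ B from ⟨h1, h2⟩) a,
      fun x h1 h2 => section_mem_stalkSub (show x ∈ B from ⟨h1, h2⟩) b⟩
    · exact (map_ne_zero_iff _ (IsFractionRing.injective Γ(W, B) W.functionField)).mpr
        (nonZeroDivisors.ne_zero hb)
    · rw [← hab]
      exact div_mul_cancel₀ _ ((map_ne_zero_iff _ (IsFractionRing.injective Γ(W, B) W.functionField)).mpr
        (nonZeroDivisors.ne_zero hb))
  choose N S hS hNS hN hSreg using hfrac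
  have hatη : ∀ {M : W.functionField}, (∀ x, pW x ∈ U₀ → qW x ∈ Z₁ → M ∈ stalkSub x) →
      M ∈ stalkSub η₀ := fun hM => hM η₀ hBη₀.1 hBη₀.2
  have hcompat : ∀ w, Y w * gh w₀ = Y w₀ * gh w := fun w => by
    have h1 := hmult _ (hSreg w) _ (hmult _ (hN w₀) _ (hYG w))
    have h2 := hmult _ (hSreg w₀) _ (hmult _ (hN w) _ (hYG w₀))
    have h3 := hzero _ (sub_mem h1 h2) ?_
    · have h4 : S w * (N w₀ * Y w) = S w₀ * (N w * Y w₀) := sub_eq_zero.mp h3
      rw [← hNS, ← hNS] at h4
      refine mul_left_cancel₀ (mul_ne_zero (hS w) (hS w₀)) ?_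
      linear_combination h4
    · show fev φZ hW (S w) * (fev φZ hW (N w₀) * ψh w) -
        fev φZ hW (S w₀) * (fev φZ hW (N w) * ψh w₀) = 0
      have e : ∀ u, fev φZ hW (N u) = fev φZ hW (gh u) * fev φZ hW (S u) := fun u => by
        rw [← fev_mul φZ hW (hgh u) (hatη (hSreg u)), hNS]
      simp only [ψh, e]
      ring
  have hY₀ : Y w₀ ≠ 0 := by
    intro h0
    refine hπ₀ ?_
    -- the coordinates of the twisted section
    obtain ⟨lP, hlP⟩ : ∃ l : P.functionField →ₗ[K] K, ∀ i, l (h w₀ i).1 = if i = i₀ then 1 else 0 := by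
      have hli : LinearIndependent K fun i => ((h w₀ i).1 : P.functionField) :=
        (h w₀).linearIndependent.map' (lSpace sP (c w₀)).subtype (Submodule.ker_subtype _)
      let B' := Module.Basis.span hli
      obtain ⟨l, hl⟩ := LinearMap.exists_extend (B'.coord i₀)
      refine ⟨l, fun i => ?_⟩
      have := LinearMap.congr_fun hl (B' i)
      rw [Module.Basis.coord_apply, Module.Basis.repr_self, Finsupp.single_apply] at this
      rw [← this, LinearMap.comp_apply, Submodule.subtype_apply, Module.Basis.span_apply]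
    obtain ⟨L', hL'⟩ := exists_functional hW lP
    have h5 := congrArg L' h0
    rw [map_zero, map_sum] at h5
    rw [Finset.sum_eq_single i₀ (fun i _ hi => by rw [hL', hlP, if_neg hi, map_zero, zero_mul])
      (fun h => absurd (Finset.mem_univ _) h), hL', hlP, if_pos rfl, map_one, one_mul] at h5
    exact h5
  have hgh0 : gh w₀ ≠ 0 := div_ne_zero (g w₀).ne_zero fη₀.ne_zero
  refine ⟨Units.mk0 (Y w₀ / (g w₀ : W.functionField)) (div_ne_zero hY₀ (g w₀).ne_zero),
    fun w hw => ?_⟩
  let w' : {w : W // qW w ∈ Z₁} := ⟨w, show qW w ∈ Z₁ from hw ▸ hηZ₁⟩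
  have h1 : res pW ((c w').1 (pW w) : P.functionField) * Y w' ∈ stalkSub w := by
    rw [Finset.mul_sum]
    refine Subring.sum_mem _ fun i _ => ?_
    rw [← mul_assoc, ← res_mul_of_dominant pW hηp, mul_comm ((c w').1 _ : P.functionField)]
    exact mul_mem (res_mem pW ((h w' i).2 (pW w)))
      (res_mem qW (by rw [hw]; exact mem_stalkSub_genericPoint _))
  have h2 := (mem_unitsAt_iff.mp (hgw w')).2
  have h3 := res_mem pW (mem_unitsAt_iff.mp (hcw w')).2
  rw [Units.val_inv_eq_inv_val, ← resHom_apply pW hηp, map_inv₀, resHom_apply] at h3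
  rw [inv_div, Units.val_div_eq_div_val] at h2
  have h4 := mul_mem (mul_mem h1 h2) h3
  convert h4 using 1
  rw [Units.val_mk0]
  have e := hcompat w'
  simp only [gh] at e
  have := (g w₀).ne_zero
  have := (g w').ne_zero
  have := fη₀.ne_zero
  have : res pW ((c w').1 (pW w) : P.functionField) ≠ 0 := by
    rw [← resHom_apply pW hηp]; exact (map_ne_zero _).mpr (Units.ne_zero _)
  field_simp at e
  rw [show Y w' = Y w₀ * (g w' : W.functionField) / (g w₀ : W.functionField) from
    eq_div_of_mul_eq (g w₀).ne_zero e]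
  field_simp
  exact (mul_div_cancel_left₀ _ this).symm

end FLTAgent.AV
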