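/-
Area AV (towards S26): a Cartier class on a product that is trivial along the generic fibre of the
second projection and on one slice in that direction is trivial.
-/
import Fermat.Agent.AV.Ufd
import Fermat.Agent.AV.Cousin
import Fermat.Agent.AV.Geometry
import Fermat.Agent.AV.Pull

set_option autoImplicit false

noncomputable section

universe u

open CategoryTheory CategoryTheory.Limits AlgebraicGeometry TopologicalSpace NeronModelInfra
open scoped TensorProduct

namespace FLTAgent.AV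

section Stalks

variable {W : Scheme.{u}} [IsIntegral W]

/-- Units of a local ring are units at the point. -/
lemma mk0_mem_unitsAt {x : W} {a : W.presheaf.stalk x} (ha : IsUnit a) (h : sAlg x a ≠ 0) :
    Units.mk0 (sAlg x a) h ∈ unitsAt x :=
  ⟨ha.unit, Units.ext rfl⟩

/-- An affine open neighbourhood presents the local ring as fractions. -/
lemma exists_germ_frac {U : W.Opens} (hU : IsAffineOpen U) {z : W} (hz : z ∈ U)
    (r : W.presheaf.stalk z) : ∃ c d : Γ(W, U), IsUnit (W.presheaf.germ U z hz d) ∧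
      r * W.presheaf.germ U z hz d = W.presheaf.germ U z hz c := by
  let := TopCat.Presheaf.algebra_section_stalk W.presheaf (⟨z, hz⟩ : U)
  have : IsLocalization.AtPrime (W.presheaf.stalk z) (hU.primeIdealOf ⟨z, hz⟩).asIdeal :=
    hU.isLocalization_stalk ⟨z, hz⟩
  obtain ⟨⟨c, d⟩, h⟩ := IsLocalization.surj (hU.primeIdealOf ⟨z, hz⟩).asIdeal.primeCompl r
  exact ⟨c, d.1, IsLocalization.map_units (W.presheaf.stalk z) d, h⟩

/-- A prime of a local ring gives a point whose units are the elements outside the prime. -/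
lemma exists_point_of_prime {z : W} (I : Ideal (W.presheaf.stalk z)) [hI : I.IsPrime] :
    ∃ (x : W) (h : x ⤳ z), ∀ r, IsUnit (W.presheaf.stalkSpecializes h r) ↔ r ∉ I := by
  obtain ⟨_, ⟨U, hU, rfl⟩, hz, -⟩ :=
    W.isBasis_affineOpens.exists_subset_of_mem_open (Set.mem_univ z) isOpen_univ
  let Q : PrimeSpectrum Γ(W, U) := ⟨I.comap (W.presheaf.germ U z hz).hom, inferInstance⟩
  have hx : hU.fromSpec Q ∈ U := hU.range_fromSpec.le ⟨Q, rfl⟩
  let := TopCat.Presheaf.algebra_section_stalk W.presheaf (⟨z, hz⟩ : U)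
  have : IsLocalization.AtPrime (W.presheaf.stalk z) (hU.primeIdealOf ⟨z, hz⟩).asIdeal :=
    hU.isLocalization_stalk ⟨z, hz⟩
  have hle : Q ≤ hU.primeIdealOf ⟨z, hz⟩ := fun c hc => by
    by_contra hc'
    exact hI.ne_top (I.eq_top_of_isUnit_mem hc
      ((IsLocalization.AtPrime.isUnit_to_map_iff (W.presheaf.stalk z) _ c).mpr hc'))
  have hs : hU.fromSpec Q ⤳ z := by
    have := ((PrimeSpectrum.le_iff_specializes _ _).mp hle).map hU.fromSpec.continuous
    rwa [hU.fromSpec_primeIdealOf ⟨z, hz⟩] at this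
  refine ⟨hU.fromSpec Q, hs, fun r => ?_⟩
  have hg : ∀ c, W.presheaf.stalkSpecializes hs (W.presheaf.germ U z hz c) =
      W.presheaf.germ U (hU.fromSpec Q) hx c := fun c =>
    congr($(W.presheaf.germ_stalkSpecializes hz hs) c)
  obtain ⟨c, d, hd, hcd⟩ := exists_germ_frac hU hz r
  have h1 := congrArg (W.presheaf.stalkSpecializes hs) hcd
  rw [map_mul, hg c] at h1
  let := TopCat.Presheaf.algebra_section_stalk W.presheaf (⟨hU.fromSpec Q, hx⟩ : U)
  have : IsLocalization.AtPrime (W.presheaf.stalk (hU.fromSpec Q)) Q.asIdeal :=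
    hU.isLocalization_stalk' Q hx
  have h2 : IsUnit (W.presheaf.germ U (hU.fromSpec Q) hx c) ↔ c ∉ Q.asIdeal :=
    IsLocalization.AtPrime.isUnit_to_map_iff (W.presheaf.stalk (hU.fromSpec Q)) _ c
  calc IsUnit (W.presheaf.stalkSpecializes hs r)
      ↔ IsUnit (W.presheaf.stalkSpecializes hs r *
          W.presheaf.stalkSpecializes hs (W.presheaf.germ U z hz d)) :=
        ⟨fun h => h.mul (hd.map _), fun h => (IsUnit.mul_iff.mp h).1⟩
    _ ↔ c ∉ Q.asIdeal := by rw [h1]; exact h2
    _ ↔ r ∉ I := not_congr <| by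
        show W.presheaf.germ U z hz c ∈ I ↔ r ∈ I
        rw [← hcd]
        exact Ideal.mul_unit_mem_iff_mem I hd

/-- A point at which every non-zero section of an affine neighbourhood is invertible is the generic
point. -/
lemma eq_genericPoint_of_isUnit_germ {U : W.Opens} (hU : IsAffineOpen U) {x : W} (hx : x ∈ U)
    (h : ∀ b : Γ(W, U), b ≠ 0 → IsUnit (W.presheaf.germ U x hx b)) : x = genericPoint W := by
  have : Nonempty U := ⟨⟨x, hx⟩⟩
  let := TopCat.Presheaf.algebra_section_stalk W.presheaf (⟨x, hx⟩ : U)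
  have : IsLocalization.AtPrime (W.presheaf.stalk x) (hU.primeIdealOf ⟨x, hx⟩).asIdeal :=
    hU.isLocalization_stalk ⟨x, hx⟩
  have hbot : hU.primeIdealOf ⟨x, hx⟩ = ⊥ := PrimeSpectrum.ext (eq_bot_iff.mpr fun b hb => by
    by_contra hb0
    exact (IsLocalization.AtPrime.isUnit_to_map_iff (W.presheaf.stalk x) _ b).mp (h b hb0) hb)
  have hη : genericPoint W ∈ U := (specializes_genericPoint x).mem_open U.2 hx
  have : hU.primeIdealOf ⟨genericPoint W, hη⟩ = ⊥ := by
    rw [hU.primeIdealOf_genericPoint]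
    exact genericPoint_eq_bot_of_affine _
  calc x = hU.fromSpec (hU.primeIdealOf ⟨x, hx⟩) := (hU.fromSpec_primeIdealOf ⟨x, hx⟩).symm
    _ = hU.fromSpec (hU.primeIdealOf ⟨genericPoint W, hη⟩) := by rw [hbot, this]
    _ = genericPoint W := hU.fromSpec_primeIdealOf ⟨genericPoint W, hη⟩

end Stalks

section Prod

variable {K : Type u} [Field K] [IsAlgClosed K] {X Y P : Scheme.{u}}
  {sX : X ⟶ Spec (CommRingCat.of K)} {sY : Y ⟶ Spec (CommRingCat.of K)}
  {p : P ⟶ X} {q : P ⟶ Y} (hP : IsPullback p q sX sY)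
  [IsIntegral X] [IsIntegral Y] [Smooth sX] [Smooth sY] [IsIntegral P]

include hP in
/-- Prime elements of the local ring of the second factor stay prime in the product. -/
lemma prime_stalkMap {z : P} {s : Y.presheaf.stalk (q z)} (hs : Prime s) :
    Prime (q.stalkMap z s) := by
  obtain ⟨_, ⟨U, hU, rfl⟩, hxU, -⟩ :=
    X.isBasis_affineOpens.exists_subset_of_mem_open (Set.mem_univ (p z)) isOpen_univ
  obtain ⟨_, ⟨V, hV, rfl⟩, hyV, -⟩ :=
    Y.isBasis_affineOpens.exists_subset_of_mem_open (Set.mem_univ (q z)) isOpen_univ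
  have : Nonempty U := ⟨⟨_, hxU⟩⟩
  have : Nonempty V := ⟨⟨_, hyV⟩⟩
  let := (Spec.preimage (hU.fromSpec ≫ sX)).hom.toAlgebra
  let := (Spec.preimage (hV.fromSpec ≫ sY)).hom.toAlgebra
  have hUm : Spec.map (CommRingCat.ofHom (algebraMap K Γ(X, U))) = hU.fromSpec ≫ sX :=
    Spec.map_preimage _
  have : Algebra.FiniteType K Γ(X, U) :=
    (HasRingHomProperty.Spec_iff (P := @LocallyOfFiniteType)).mp
      (show LocallyOfFiniteType (Spec.map (CommRingCat.ofHom (algebraMap K Γ(X, U)))) by
        rw [hUm]; infer_instance)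
  obtain ⟨F, hFinj, hF, hreg⟩ := exists_box hP hU hV
  have hzB : z ∈ p ⁻¹ᵁ U ⊓ q ⁻¹ᵁ V := ⟨hxU, hyV⟩
  let B : P.Opens := p ⁻¹ᵁ U ⊓ q ⁻¹ᵁ V
  have : Nonempty B := ⟨⟨z, hzB⟩⟩
  have hmem : ∀ c, F c ∈ stalkSub z := fun c => by
    induction c using TensorProduct.induction_on with
    | zero => rw [map_zero]; exact zero_mem _
    | tmul a b =>
      rw [hF]
      exact mul_mem (res_mem p (section_mem_stalkSub hxU a))
        (res_mem q (section_mem_stalkSub hyV b))
    | add a b ha hb => rw [map_add]; exact add_mem ha hb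
  choose G hG using hmem
  let Φ : Γ(X, U) ⊗[K] Γ(Y, V) →+* P.presheaf.stalk z :=
    { toFun := G
      map_one' := sAlg_injective z (by rw [hG, map_one, map_one])
      map_mul' := fun a b => sAlg_injective z (by rw [hG, map_mul, map_mul, hG, hG])
      map_zero' := sAlg_injective z (by rw [hG, map_zero, map_zero])
      map_add' := fun a b => sAlg_injective z (by rw [hG, map_add, map_add, hG, hG]) }
  have hΦ : ∀ c, sAlg z (Φ c) = F c := hG
  have hΦi : Function.Injective Φ := fun a b h => hFinj (by rw [← hΦ, h, hΦ])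
  have hfrac : ∀ r, ∃ c d, IsUnit (Φ d) ∧ r * Φ d = Φ c := fun r => by
    obtain ⟨c, d, hd, hcd⟩ := exists_germ_frac (U := B) (isAffineOpen_box hP hU hV) hzB r
    obtain ⟨c', hc'⟩ := hreg (P.germToFunctionField B c) fun x h h' =>
      section_mem_stalkSub (U := B) ⟨h, h'⟩ c
    obtain ⟨d', hd'⟩ := hreg (P.germToFunctionField B d) fun x h h' =>
      section_mem_stalkSub (U := B) ⟨h, h'⟩ d
    have hc : Φ c' = P.presheaf.germ B z hzB c :=
      sAlg_injective z (by rw [hΦ, hc', germToFunctionField_eq])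
    have hd'' : Φ d' = P.presheaf.germ B z hzB d :=
      sAlg_injective z (by rw [hΦ, hd', germToFunctionField_eq])
    exact ⟨c', d', hd''.symm ▸ hd, by rw [hc, hd'']; exact hcd⟩
  have hΦr : ∀ b : Γ(Y, V), Φ (1 ⊗ₜ b) = q.stalkMap z (Y.presheaf.germ V (q z) hyV b) := fun b =>
    sAlg_injective z (by
      rw [hΦ, hF, map_one, res_one, one_mul, ← res_sAlg q z, germToFunctionField_eq])
  let 𝔭 : Ideal Γ(Y, V) := (Ideal.span {s}).comap (Y.presheaf.germ V (q z) hyV).hom
  have : (Ideal.span {s}).IsPrime := (Ideal.span_singleton_prime hs.ne_zero).mpr hs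
  have : 𝔭.IsPrime := inferInstanceAs ((Ideal.span {s}).comap _).IsPrime
  have : IsDomain (Γ(X, U) ⊗[K] (Γ(Y, V) ⧸ 𝔭)) := isDomain_tensor K Γ(X, U) (Γ(Y, V) ⧸ 𝔭)
  let π := Algebra.TensorProduct.map (AlgHom.id K Γ(X, U)) (Ideal.Quotient.mkₐ K 𝔭)
  have hker : ∀ c, π c = 0 → q.stalkMap z s ∣ Φ c := by
    intro c hc
    have h : c ∈ 𝔭.map Algebra.TensorProduct.includeRight := by
      have h := Algebra.TensorProduct.lTensor_ker (A := Γ(X, U)) (Ideal.Quotient.mkₐ K 𝔭)
        Ideal.Quotient.mk_surjective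
      rw [show RingHom.ker (Ideal.Quotient.mkₐ K 𝔭) = 𝔭 from Ideal.Quotient.mkₐ_ker K 𝔭] at h
      exact h.le hc
    suffices hle : 𝔭.map Algebra.TensorProduct.includeRight ≤
        (Ideal.span {q.stalkMap z s}).comap Φ from Ideal.mem_span_singleton.mp (hle h)
    refine Ideal.map_le_iff_le_comap.mpr fun b hb => ?_
    show Φ (1 ⊗ₜ b) ∈ Ideal.span {q.stalkMap z s}
    rw [hΦr]
    exact Ideal.mem_span_singleton.mpr (map_dvd _ (Ideal.mem_span_singleton.mp hb))
  have hnu : ¬ IsUnit (q.stalkMap z s) := fun h => hs.not_isUnit (isUnit_of_map_unit _ _ h)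
  refine ⟨fun h => hs.ne_zero ?_, hnu, fun r₁ r₂ hr => ?_⟩
  · refine sAlg_injective (q z) ((resHom q (snd_genericPoint hP)).injective ?_)
    rw [resHom_apply, res_sAlg q z, h, map_zero, map_zero, map_zero]
  obtain ⟨r₃, hr⟩ := hr
  obtain ⟨c₁, d₁, hd₁, h₁⟩ := hfrac r₁
  obtain ⟨c₂, d₂, hd₂, h₂⟩ := hfrac r₂
  obtain ⟨c₃, d₃, hd₃, h₃⟩ := hfrac r₃
  obtain ⟨s', t, ht, hst⟩ := exists_germ_frac hV hyV s
  have hρ : q.stalkMap z s * Φ (1 ⊗ₜ t) = Φ (1 ⊗ₜ s') := by rw [hΦr, hΦr, ← map_mul, hst]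
  have he : c₁ * c₂ * (d₃ * (1 ⊗ₜ t)) = (1 ⊗ₜ s') * c₃ * (d₁ * d₂) := hΦi (by
    simp only [map_mul]
    rw [← h₁, ← h₂, ← h₃, ← hρ]
    linear_combination (Φ d₁ * Φ d₂ * Φ d₃ * Φ (1 ⊗ₜ t)) * hr)
  have hs' : π (1 ⊗ₜ s') = 0 := by
    have : Ideal.Quotient.mk 𝔭 s' = 0 := Ideal.Quotient.eq_zero_iff_mem.mpr
      (Ideal.mem_span_singleton.mpr (hst ▸ dvd_mul_right s _))
    simp [π, this]
  have h0 := congrArg π he
  simp only [map_mul, hs', zero_mul, mul_eq_zero] at h0
  rcases h0 with (h0 | h0) | (h0 | h0)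
  · exact .inl ((hd₁.dvd_mul_right).mp (h₁ ▸ hker _ h0))
  · exact .inr ((hd₂.dvd_mul_right).mp (h₂ ▸ hker _ h0))
  · exact absurd (isUnit_of_dvd_unit (hker _ h0) hd₃) hnu
  · refine absurd (isUnit_of_dvd_unit (hker _ h0) ?_) hnu
    rw [hΦr]
    exact ht.map _

include hP in
/-- An element of the local ring that is invertible along the generic fibre comes, up to units,
from the second factor. -/
lemma exists_associated_of_generic {z : P} (hz : IsClosed ({z} : Set P))
    (hy : IsClosed ({q z} : Set Y)) {a : P.presheaf.stalk z} (ha : a ≠ 0)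
    (hgen : ∀ π, π ∣ a → Prime π → ∀ (x : P) (h : x ⤳ z), q x = genericPoint Y →
      ¬ ∀ r, IsUnit (P.presheaf.stalkSpecializes h r) ↔ ¬ π ∣ r) :
    ∃ b : Y.presheaf.stalk (q z), b ≠ 0 ∧ Associated (q.stalkMap z b) a := by
  have : Smooth (q ≫ sY) := by
    have : Smooth q := MorphismProperty.of_isPullback (P := @Smooth) hP inferInstance
    infer_instance
  have := uniqueFactorizationMonoid_stalk (q ≫ sY) hz
  have := uniqueFactorizationMonoid_stalk sY hy
  -- every prime factor comes from the base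
  have key : ∀ π, π ∣ a → Prime π →
      ∃ s : Y.presheaf.stalk (q z), Prime s ∧ Associated (q.stalkMap z s) π := by
    intro π hπa hπ
    obtain ⟨b, hb0, hπb⟩ : ∃ b : Y.presheaf.stalk (q z), b ≠ 0 ∧ π ∣ q.stalkMap z b := by
      by_contra hno
      have : (Ideal.span {π}).IsPrime := (Ideal.span_singleton_prime hπ.ne_zero).mpr hπ
      obtain ⟨x, hx, hu⟩ := exists_point_of_prime (Ideal.span {π})
      refine hgen π hπa hπ x hx ?_ fun r => (hu r).trans (not_congr Ideal.mem_span_singleton)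
      obtain ⟨_, ⟨V, hV, rfl⟩, hyV, -⟩ :=
        Y.isBasis_affineOpens.exists_subset_of_mem_open (Set.mem_univ (q z)) isOpen_univ
      have : Nonempty V := ⟨⟨_, hyV⟩⟩
      have hxV : q x ∈ V := (hx.map q.continuous).mem_open V.2 hyV
      refine eq_genericPoint_of_isUnit_germ hV hxV fun b hb0 => ?_
      have hg : Y.presheaf.germ V (q z) hyV b ≠ 0 := fun h0 => hb0
        (Scheme.germToFunctionField_injective Y V (by
          rw [← germToFunctionField_eq hyV, h0, map_zero, map_zero]))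
      have h1 := (hu (q.stalkMap z (Y.presheaf.germ V (q z) hyV b))).mpr fun hmem =>
        hno ⟨_, hg, Ideal.mem_span_singleton.mp hmem⟩
      rw [← Scheme.Hom.stalkSpecializes_stalkMap_apply q x z hx] at h1
      have h2 := isUnit_of_map_unit (q.stalkMap x).hom _ h1
      rwa [TopCat.Presheaf.germ_stalkSpecializes_apply] at h2
    obtain ⟨w, hw, hwb⟩ := UniqueFactorizationMonoid.exists_prime_factors b hb0
    obtain ⟨s, hs, hπs⟩ := hπ.exists_mem_multiset_map_dvd
      (s := w) (f := fun s => q.stalkMap z s)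
      (by rw [← map_multiset_prod]; exact hπb.trans (hwb.map (q.stalkMap z).hom).symm.dvd)
    exact ⟨s, hw s hs, (hπ.associated_of_dvd (prime_stalkMap hP (hw s hs)) hπs).symm⟩
  clear hgen
  induction a using UniqueFactorizationMonoid.induction_on_prime with
  | h₁ => exact absurd rfl ha
  | h₂ a hu =>
    exact ⟨1, one_ne_zero, by rw [map_one]; exact associated_one_iff_isUnit.mpr hu |>.symm⟩
  | h₃ a π ha' hπ ih =>
    obtain ⟨b, hb, hab⟩ := ih ha' fun π' h h' => key π' (h.mul_left π) h'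
    obtain ⟨s, hs, hsπ⟩ := key π (dvd_mul_right π a) hπ
    exact ⟨s * b, mul_ne_zero hs.ne_zero hb, by rw [map_mul]; exact hsπ.mul_mul hab⟩

include hP in
/-- A rational function that is invertible along the generic fibre comes locally, up to units,
from the second factor. -/
lemma exists_base_of_generic {z : P} (hz : IsClosed ({z} : Set P))
    (hy : IsClosed ({q z} : Set Y)) (u : P.functionFieldˣ)
    (hu : ∀ x, x ⤳ z → q x = genericPoint Y → u ∈ unitsAt x) :
    ∃ b : Y.functionFieldˣ, u / resU q b ∈ unitsAt z := by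
  have : Smooth (q ≫ sY) := by
    have : Smooth q := MorphismProperty.of_isPullback (P := @Smooth) hP inferInstance
    infer_instance
  have := uniqueFactorizationMonoid_stalk (q ≫ sY) hz
  obtain ⟨a, d, had, hmk⟩ :=
    IsFractionRing.exists_reduced_fraction (A := P.presheaf.stalk z) (u : P.functionField)
  have hue : sAlg z a = u * sAlg z d := by
    rw [← hmk, mul_comm]
    exact (IsLocalization.mk'_spec' P.functionField a d).symm
  have hd0 : (d : P.presheaf.stalk z) ≠ 0 := nonZeroDivisors.ne_zero d.2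
  have ha0 : a ≠ 0 := fun h => mul_ne_zero u.ne_zero
    ((map_ne_zero_iff _ (sAlg_injective z)).mpr hd0) (by rw [← hue, h, map_zero])
  have hgen : ∀ π, Prime π → π ∣ a ∨ π ∣ (d : P.presheaf.stalk z) → ∀ (x : P) (h : x ⤳ z),
      q x = genericPoint Y → ¬ ∀ r, IsUnit (P.presheaf.stalkSpecializes h r) ↔ ¬ π ∣ r := by
    intro π hπ hor x h hqx hiff
    obtain ⟨⟨w, hw⟩, ⟨w', hw'⟩⟩ := mem_unitsAt_iff.mp (hu x h hqx)
    have hwu : IsUnit w := .of_mul_eq_one w' (sAlg_injective x (by
      rw [map_mul, hw, hw', map_one, Units.mul_inv]))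
    have he : P.presheaf.stalkSpecializes h a = w * P.presheaf.stalkSpecializes h d :=
      sAlg_injective x (by rw [map_mul, sAlg_specializes h, sAlg_specializes h, hw, hue])
    have hiff' : π ∣ a ↔ π ∣ (d : P.presheaf.stalk z) := by
      rw [← not_iff_not, ← hiff, ← hiff, he, IsUnit.mul_iff]
      exact and_iff_right hwu
    rcases hor with h' | h'
    · exact hπ.not_isUnit (had h' (hiff'.mp h'))
    · exact hπ.not_isUnit (had (hiff'.mpr h') h')
  obtain ⟨ba, hba, ea, hea⟩ :=
    exists_associated_of_generic hP hz hy ha0 fun π h hπ => hgen π hπ (.inl h)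
  obtain ⟨bd, hbd, ed, hed⟩ :=
    exists_associated_of_generic hP hz hy hd0 fun π h hπ => hgen π hπ (.inr h)
  have hne : ∀ b : Y.presheaf.stalk (q z), b ≠ 0 → sAlg (q z) b ≠ 0 := fun b hb =>
    (map_ne_zero_iff _ (sAlg_injective _)).mpr hb
  refine ⟨Units.mk0 _ (hne ba hba) / Units.mk0 _ (hne bd hbd), (ea / ed), Units.ext ?_⟩
  have hq : ∀ v : Y.functionFieldˣ, v ∈ unitsAt (q (genericPoint P)) := fun v => by
    rw [snd_genericPoint hP]; exact mem_unitsAt_genericPoint v
  rw [resU_div q (hq _) (hq _)]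
  simp only [Units.coe_map, Units.val_div_eq_div_val, resU_coe q (hq _), Units.val_mk0,
    res_sAlg q z, RingHom.toMonoidHom_eq_coe, MonoidHom.coe_coe]
  rw [← hea, ← hed, map_mul, map_mul] at hue
  rw [div_eq_mul_inv ea ed, Units.val_mul, map_mul, map_units_inv]
  have hba' : sAlg z (q.stalkMap z ba) ≠ 0 := fun h0 => mul_ne_zero u.ne_zero
    ((map_ne_zero_iff _ (sAlg_injective z)).mpr hd0) (by
      rw [← hed, map_mul, ← hue, h0, zero_mul])
  have hbd' : sAlg z (q.stalkMap z bd) ≠ 0 := left_ne_zero_of_mul (b := sAlg z ed) (by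
    rw [← map_mul, hed]; exact (map_ne_zero_iff _ (sAlg_injective z)).mpr hd0)
  have hed' : sAlg z ed ≠ 0 := (ed.isUnit.map (sAlg z)).ne_zero
  field_simp
  linear_combination hue

include hP in
/-- A class on a product that is principal along the generic fibre of the second projection and
trivial on a slice `{x₀} × Y` is trivial. -/
theorem cl_eq_one_of_generic_fibre (x₀ : Pts sX) (f : Cart P)
    (hgen : ∃ φ : P.functionFieldˣ, ∀ x, q x = genericPoint Y → f.1 x / φ ∈ unitsAt x)
    (hslice : pullPc (sliceL hP.flip x₀) (cl f) = 1) : cl f = 1 := by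
  obtain ⟨φ, hφ⟩ := hgen
  have : Smooth q := MorphismProperty.of_isPullback (P := @Smooth) hP inferInstance
  have : LocallyOfFiniteType (q ≫ sY) := inferInstance
  set g : P → P.functionFieldˣ := fun x => f.1 x / φ with hg
  have hratio : ∀ {x y : P}, y ⤳ x → g x / g y ∈ unitsAt y := fun h => by
    rw [hg, div_div_div_cancel_right]; exact cart_ratio f h
  have hq : ∀ v : Y.functionFieldˣ, v ∈ unitsAt (q (genericPoint P)) := fun v => by
    rw [snd_genericPoint hP]; exact mem_unitsAt_genericPoint v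
  have hηq : ∀ a : Pts sX, q (sliceL hP.flip a (genericPoint Y)) = genericPoint Y :=
    fun a => fst_sliceL_apply hP.flip a _
  -- restricting a function from the base to a slice changes nothing
  have hres : ∀ (a : Pts sX) (v : Y.functionFieldˣ),
      resU (sliceL hP.flip a) (resU q v) = v := fun a v => by
    have hv : resU q v ∈ unitsAt (sliceL hP.flip a (genericPoint Y)) :=
      resU_mem q (by rw [hηq]; exact mem_unitsAt_genericPoint v)
    refine Units.ext ?_
    rw [resU_coe _ hv, resU_coe q (hq v),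
      ← res_res _ q (by rw [hηq]; exact mem_stalkSub_genericPoint _)]
    simp [res_id]
  -- closed points are pairs
  have hpair : ∀ z : P, IsClosed ({z} : Set P) → ∃ (a : Pts sX) (b : Pts sY),
      sliceL hP.flip a (pt b) = z ∧ sliceL hP b (pt a) = z ∧ q z = pt b := by
    intro z hz
    obtain ⟨ζ, rfl⟩ := exists_pt_eq (f := q ≫ sY) hz
    let a : Pts sX := ⟨ζ.1 ≫ p, by rw [Category.assoc, hP.w]; exact ζ.2⟩
    let b : Pts sY := ⟨ζ.1 ≫ q, by rw [Category.assoc]; exact ζ.2⟩
    have h1 : b.1 ≫ sliceL hP.flip a = ζ.1 := hP.hom_ext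
      (by rw [Category.assoc, sliceL_snd, ← Category.assoc, b.2, Category.id_comp])
      (by rw [Category.assoc, sliceL_fst, Category.comp_id])
    have h2 : a.1 ≫ sliceL hP b = ζ.1 := hP.hom_ext
      (by rw [Category.assoc, sliceL_fst, Category.comp_id])
      (by rw [Category.assoc, sliceL_snd, ← Category.assoc, a.2, Category.id_comp])
    refine ⟨a, b, ?_, ?_, (Scheme.Hom.comp_apply _ _ _).symm⟩
    · exact (Scheme.Hom.comp_apply _ _ _).symm.trans congr($h1 _)
    · exact (Scheme.Hom.comp_apply _ _ _).symm.trans congr($h2 _)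
  have hlocal : ∀ z : P, IsClosed ({z} : Set P) →
      ∃ b : Y.functionFieldˣ, g z / resU q b ∈ unitsAt z := fun z hz => by
    obtain ⟨a, b, -, -, hqz⟩ := hpair z hz
    refine exists_base_of_generic hP hz (hqz ▸ isClosed_pt b) (g z) fun x h hx => ?_
    rw [← div_mul_cancel (g z) (g x)]
    exact mul_mem (hratio h) (hφ x hx)
  -- the slice determines the function from the base
  obtain ⟨ψ, hψ⟩ := cl_eq_one.mp hslice
  set ι := sliceL hP.flip x₀
  set c := ψ * resU ι (g (ι (genericPoint Y)))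
  refine cl_eq_one.mpr ⟨φ * resU q c, fun x => ?_⟩
  rw [← div_div]
  suffices H : ∀ z : P, IsClosed ({z} : Set P) → g z / resU q c ∈ unitsAt z by
    obtain ⟨z, -, hz, hxz⟩ := exists_closed_specialisation (q ≫ sY) (U := ⊤) (x := x) trivial
    have := mul_mem ((unitsAt x).inv_mem (hratio hxz)) (unitsAt_mono hxz (H z hz))
    rwa [inv_div, div_mul_div_cancel] at this
  intro z hz
  obtain ⟨a, b, -, hzb, hqz⟩ := hpair z hz
  obtain ⟨β, hβ⟩ := hlocal z hz
  have hwc : IsClosed ({ι (pt b)} : Set P) := by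
    let ω : Pts (q ≫ sY) := ⟨b.1 ≫ ι, by
      rw [Category.assoc, ← Category.assoc ι, sliceL_fst, Category.id_comp, b.2]⟩
    rw [show ι (pt b) = pt ω from (Scheme.Hom.comp_apply _ _ _).symm]
    exact isClosed_pt ω
  obtain ⟨γ, hγ⟩ := hlocal _ hwc
  have hιb : q (ι (pt b)) = pt b := fst_sliceL_apply hP.flip x₀ _
  -- `γ` and `β` differ by a unit
  have hw2 : sliceL hP b (pt x₀) = ι (pt b) := by
    have h1 : x₀.1 ≫ sliceL hP b = b.1 ≫ ι := hP.hom_ext
      (by rw [Category.assoc, Category.assoc, sliceL_fst, sliceL_snd, Category.comp_id,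
        ← Category.assoc, b.2, Category.id_comp])
      (by rw [Category.assoc, Category.assoc, sliceL_snd, sliceL_fst, Category.comp_id,
        ← Category.assoc, x₀.2, Category.id_comp])
    exact ((Scheme.Hom.comp_apply _ _ _).symm.trans congr($h1 _)).trans (Scheme.Hom.comp_apply _ _ _)
  have hβγ : β / γ ∈ unitsAt (pt b) := by
    set ξ := sliceL hP b (genericPoint X)
    have h1 : ξ ⤳ z := hzb ▸ (specializes_genericPoint (pt a)).map (sliceL hP b).continuous
    have h2 : ξ ⤳ ι (pt b) :=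
      hw2 ▸ (specializes_genericPoint (pt x₀)).map (sliceL hP b).continuous
    have h3 : resU q (β / γ) ∈ unitsAt ξ := by
      have := mul_mem (mul_mem ((unitsAt ξ).inv_mem (unitsAt_mono h1 hβ)) (hratio h1))
        (mul_mem (unitsAt_mono h2 hγ) ((unitsAt ξ).inv_mem (hratio h2)))
      rw [resU_div q (hq _) (hq _)]
      rwa [inv_div, inv_div, div_mul_div_cancel, mul_comm (g (ι (pt b)) / resU q γ),
        div_mul_div_cancel, div_mul_div_cancel] at this
    obtain ⟨W, hξW, hW⟩ := exists_open_unit h3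
    obtain ⟨x', hx'W, hx', -⟩ :=
      exists_closed_specialisation sX (U := sliceL hP b ⁻¹ᵁ W) hξW
    obtain ⟨a', rfl⟩ := exists_pt_eq (f := sX) hx'
    have h4 := resU_mem (sliceL hP.flip a') (y := pt b) (a := resU q (β / γ))
    rw [hres] at h4
    refine h4 ?_
    have h5 : b.1 ≫ sliceL hP.flip a' = a'.1 ≫ sliceL hP b := hP.hom_ext
      (by rw [Category.assoc, Category.assoc, sliceL_fst, sliceL_snd, Category.comp_id,
        ← Category.assoc, b.2, Category.id_comp])
      (by rw [Category.assoc, Category.assoc, sliceL_snd, sliceL_fst, Category.comp_id,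
        ← Category.assoc, a'.2, Category.id_comp])
    have h6 : sliceL hP.flip a' (pt b) = sliceL hP b (pt a') :=
      ((Scheme.Hom.comp_apply _ _ _).symm.trans congr($h5 _)).trans (Scheme.Hom.comp_apply _ _ _)
    rw [h6]
    exact hW _ hx'W
  -- `γ` and `c` differ by a unit
  have hγc : γ / c ∈ unitsAt (pt b) := by
    have hgη : g (ι (genericPoint Y)) ∈ unitsAt (ι (genericPoint Y)) := hφ _ (hηq x₀)
    have hgb : g (ι (pt b)) ∈ unitsAt (ι (genericPoint Y)) := by
      rw [← div_mul_cancel (g (ι (pt b))) (g (ι (genericPoint Y)))]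
      exact mul_mem (hratio ((specializes_genericPoint (pt b)).map ι.continuous)) hgη
    have hqγ : resU q γ ∈ unitsAt (ι (genericPoint Y)) :=
      resU_mem q (by rw [hηq]; exact mem_unitsAt_genericPoint _)
    have h1 := resU_mem ι hγ
    rw [resU_div ι hgb hqγ, hres] at h1
    have h2 := hψ (pt b)
    rw [pullCart_apply, show f.1 (ι (pt b)) / f.1 (ι (genericPoint Y)) =
      g (ι (pt b)) / g (ι (genericPoint Y)) from (div_div_div_cancel_right _ _ _).symm,
      resU_div ι hgb hgη, div_div] at h2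
    have h3 := mul_mem ((unitsAt (pt b)).inv_mem h1) h2
    rwa [inv_div, div_mul_div_cancel, mul_comm] at h3
  have h := resU_mem q (y := z) (hqz.symm ▸ mul_mem hβγ hγc : β / γ * (γ / c) ∈ unitsAt (q z))
  rw [div_mul_div_cancel, resU_div q (hq _) (hq _)] at h
  have := mul_mem hβ h
  rwa [div_mul_div_cancel] at this

include hP in
/-- `cl_eq_one_of_generic_fibre` for a proper first factor. -/
theorem cl_eq_one_of_vertical [IsProper sX] (x₀ : Pts sX) {E : Cart P}
    (hgen : ∃ φ : P.functionFieldˣ, ∀ w, q w = genericPoint Y → E.1 w / φ ∈ unitsAt w)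
    (hsec : pullPc (sliceL hP.flip x₀) (cl E) = 1) : cl E = 1 :=
  cl_eq_one_of_generic_fibre hP x₀ E hgen hsec

end Prod

end FLTAgent.AV
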