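/-
Area AV (towards S26): the theorem of the cube for abelian varieties and the quadraticity of
pullback by multiplication.
-/
import Fermat.Agent.AV.Points
import Fermat.Agent.AV.Descent
import Fermat.Agent.AV.Vertical

set_option autoImplicit false

noncomputable section

universe u

open CategoryTheory CategoryTheory.Limits AlgebraicGeometry TopologicalSpace NeronModelInfra GoodReductionJacobian

namespace FLTAgent.AV

variable {K : Type u} [Field K] {A : Scheme.{u}} {f : A ⟶ Spec (CommRingCat.of K)} [IsIntegral A]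
  (L : RelativeGroupLaw K f)

omit [IsIntegral A] in
lemma comp_inv {T T' : Scheme.{u}} (t : T ⟶ Spec (CommRingCat.of K))
    (t' : T' ⟶ Spec (CommRingCat.of K)) (ψ : T' ⟶ T) (hψ : ψ ≫ t = t') (x : SchemeHomOver t f) :
    schemeHomOverComp ψ hψ (L.inv t x) = L.inv t' (schemeHomOverComp ψ hψ x) := by
  refine mul_left_cancel L t' (a := schemeHomOverComp ψ hψ x) ?_
  rw [← L.mul_natural, L.mul_inv_cancel, L.one_natural, L.mul_inv_cancel]

lemma cancel_left {G : Type u} [CommGroup G] (a b c : G) :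
    a * b⁻¹ * c⁻¹ * a⁻¹ * 1 * b * c = 1 :=
  Additive.ofMul.injective (by simp only [ofMul_mul, ofMul_inv, ofMul_one]; abel)

lemma cancel_mid {G : Type u} [CommGroup G] (a b c : G) :
    a * b⁻¹ * a⁻¹ * c⁻¹ * b * 1 * c = 1 :=
  Additive.ofMul.injective (by simp only [ofMul_mul, ofMul_inv, ofMul_one]; abel)

lemma cancel_quadratic' {G : Type u} [CommGroup G] (a b c d : G)
    (h : a * b⁻¹ * c⁻¹ * 1 * a * d * d = 1) : b * c = a ^ 2 * d ^ 2 := by
  have h' : a ^ 2 * d ^ 2 * (b * c)⁻¹ = 1 :=
    Eq.trans (Additive.ofMul.injective (by simp only [ofMul_mul, ofMul_inv, ofMul_one, ofMul_pow]; abel)) h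
  exact (mul_inv_eq_one.mp h').symm

lemma cancel_step {G : Type u} [CommGroup G] {b d : G} {p q r : ℕ}
    (h : b * d ^ p = d ^ q) (hq : q = r + p) : b = d ^ r := by
  rw [hq, pow_add] at h
  exact mul_right_cancel h

/-- The alternating sum of pullbacks in the theorem of the cube. -/
def cubeVal (d : Pc A) {T : Scheme.{u}} [IsIntegral T] (t : T ⟶ Spec (CommRingCat.of K))
    (x y z : SchemeHomOver t f) : Pc T :=
  pullPc (L.mul t (L.mul t x y) z).1 d * (pullPc (L.mul t x y).1 d)⁻¹ *
    (pullPc (L.mul t x z).1 d)⁻¹ * (pullPc (L.mul t y z).1 d)⁻¹ *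
      pullPc x.1 d * pullPc y.1 d * pullPc z.1 d

lemma pullPc_cubeVal (d : Pc A) {T T' : Scheme.{u}} [IsIntegral T] [IsIntegral T']
    (t : T ⟶ Spec (CommRingCat.of K)) (t' : T' ⟶ Spec (CommRingCat.of K)) (ψ : T' ⟶ T)
    (hψ : ψ ≫ t = t') (x y z : SchemeHomOver t f) :
    pullPc ψ (cubeVal L d t x y z) = cubeVal L d t' (schemeHomOverComp ψ hψ x)
      (schemeHomOverComp ψ hψ y) (schemeHomOverComp ψ hψ z) := by
  simp only [cubeVal, map_mul, map_inv, pullPc_comp, ← L.mul_natural t t' ψ hψ]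
  rfl

lemma pullPc_one (d : Pc A) {T : Scheme.{u}} [IsIntegral T] (t : T ⟶ Spec (CommRingCat.of K)) :
    pullPc (L.one t).1 d = 1 := by
  refine pullPc_eq_one_of_const _ (pt (L.one (𝟙 _))) (fun x => ?_) d
  rw [← L.one_natural (𝟙 _) t t (Category.comp_id _)]
  refine (Scheme.Hom.comp_apply _ _ _).trans (congrArg _ ?_)
  exact Subsingleton.elim (α := PrimeSpectrum K) _ _

lemma cubeVal_one_left (d : Pc A) {T : Scheme.{u}} [IsIntegral T]
    (t : T ⟶ Spec (CommRingCat.of K)) (y z : SchemeHomOver t f) :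
    cubeVal L d t (L.one t) y z = 1 := by
  simp only [cubeVal, L.one_mul, pullPc_one]
  exact cancel_left _ _ _

lemma cubeVal_one_mid (d : Pc A) {T : Scheme.{u}} [IsIntegral T]
    (t : T ⟶ Spec (CommRingCat.of K)) (x z : SchemeHomOver t f) :
    cubeVal L d t x (L.one t) z = 1 := by
  simp only [cubeVal, L.mul_one, L.one_mul, pullPc_one]
  exact cancel_mid _ _ _

lemma cubeVal_one_right (d : Pc A) {T : Scheme.{u}} [IsIntegral T]
    (t : T ⟶ Spec (CommRingCat.of K)) (x y : SchemeHomOver t f) :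
    cubeVal L d t x y (L.one t) = 1 := by
  simp only [cubeVal, L.mul_one, pullPc_one]
  simp [mul_comm, mul_left_comm]

omit [IsIntegral A] in
lemma comp_eq_one {T : Scheme.{u}} (t : T ⟶ Spec (CommRingCat.of K)) (x : SchemeHomOver t f)
    (h : x.1 = t ≫ (L.one (𝟙 _)).1) : x = L.one t :=
  Subtype.ext (h.trans (congrArg Subtype.val (L.one_natural (𝟙 _) t t (Category.comp_id _))))

variable [IsAlgClosed K] [IsProper f] [Smooth f]

/-- **Theorem of the cube.** -/
theorem cubeVal_eq_one (d : Pc A) {T : Scheme.{u}} [IsIntegral T]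
    (t : T ⟶ Spec (CommRingCat.of K)) (x y z : SchemeHomOver t f) :
    cubeVal L d t x y z = 1 := by
  let P := pullback f f
  let sP : P ⟶ Spec (CommRingCat.of K) := pullback.fst f f ≫ f
  have hP : IsPullback (pullback.fst f f) (pullback.snd f f) f f := IsPullback.of_hasPullback f f
  have : IsIntegral P := isIntegral_prod hP
  have : Smooth sP := inferInstance
  have : IsProper sP := inferInstance
  let W := pullback sP f
  let pW : W ⟶ P := pullback.fst sP f
  let qW : W ⟶ A := pullback.snd sP f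
  have hW : IsPullback pW qW sP f := IsPullback.of_hasPullback sP f
  have : IsIntegral W := isIntegral_prod hW
  let tW : W ⟶ Spec (CommRingCat.of K) := qW ≫ f
  let o : Pts f := L.one (𝟙 _)
  let a : SchemeHomOver tW f := ⟨pW ≫ pullback.fst f f, by rw [Category.assoc]; exact hW.w⟩
  let b : SchemeHomOver tW f := ⟨pW ≫ pullback.snd f f, by
    rw [Category.assoc, ← pullback.condition]; exact hW.w⟩
  let c : SchemeHomOver tW f := ⟨qW, rfl⟩
  suffices huniv : cubeVal L d tW a b c = 1 by
    let m : T ⟶ W := pullback.lift (pullback.lift x.1 y.1 (x.2.trans y.2.symm)) z.1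
      (by simp only [sP, pullback.lift_fst_assoc]; exact x.2.trans z.2.symm)
    have hm : m ≫ tW = t := by simp only [m, tW, qW, pullback.lift_snd_assoc]; exact z.2
    have h := congrArg (pullPc m) huniv
    rw [map_one, pullPc_cubeVal L d tW t m hm] at h
    rwa [show schemeHomOverComp m hm a = x from
        Subtype.ext ((pullback.lift_fst_assoc _ _ _ _).trans (pullback.lift_fst _ _ _)),
      show schemeHomOverComp m hm b = y from
        Subtype.ext ((pullback.lift_fst_assoc _ _ _ _).trans (pullback.lift_snd _ _ _)),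
      show schemeHomOverComp m hm c = z from Subtype.ext (pullback.lift_snd _ _ _)] at h
  obtain ⟨E, hE⟩ := QuotientGroup.mk_surjective (cubeVal L d tW a b c)
  rw [← hE]
  change cl E = 1
  obtain ⟨φZ⟩ := nonempty_formalPt o
  -- the faces
  have hface : ∀ {S : Scheme.{u}} [IsIntegral S] (σ : S ⟶ W) (s : S ⟶ Spec (CommRingCat.of K))
      (_ : σ ≫ tW = s), (σ ≫ pW ≫ pullback.fst f f = s ≫ o.1 ∨
        σ ≫ pW ≫ pullback.snd f f = s ≫ o.1 ∨ σ ≫ qW = s ≫ o.1) → pullPc σ (cl E) = 1 := by
    intro S _ σ s hσ h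
    rw [show cl E = cubeVal L d tW a b c from hE, pullPc_cubeVal L d tW s σ hσ]
    rcases h with h | h | h
    · rw [comp_eq_one L s (schemeHomOverComp σ hσ a) h, cubeVal_one_left]
    · rw [comp_eq_one L s (schemeHomOverComp σ hσ b) h, cubeVal_one_mid]
    · rw [comp_eq_one L s (schemeHomOverComp σ hσ c) h, cubeVal_one_right]
  let j₁ : A ⟶ P := sliceL hP o
  let j₂ : A ⟶ P := sliceL hP.flip o
  have hj₁ : j₁ ≫ sP = f := by
    show sliceL hP o ≫ pullback.fst f f ≫ f = f
    rw [← Category.assoc, sliceL_fst, Category.id_comp]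
  have hj₂ : j₂ ≫ sP = f := by
    show sliceL hP.flip o ≫ pullback.fst f f ≫ f = f
    rw [pullback.condition, ← Category.assoc, sliceL_fst, Category.id_comp]
  let J₁ : P ⟶ W := pullback.lift (pullback.fst f f ≫ j₁) (pullback.snd f f)
    (by rw [Category.assoc, hj₁]; exact hP.w)
  let J₂ : P ⟶ W := pullback.lift (pullback.fst f f ≫ j₂) (pullback.snd f f)
    (by rw [Category.assoc, hj₂]; exact hP.w)
  have hJ₁ : pullPc J₁ (cl E) = 1 := by
    refine hface J₁ (pullback.snd f f ≫ f) (pullback.lift_snd_assoc _ _ _ _) (Or.inr (Or.inl ?_))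
    simp only [J₁, pW, pullback.lift_fst_assoc, j₁, Category.assoc, sliceL_snd]
    rw [← Category.assoc, hP.w, Category.assoc]
  have hJ₂ : pullPc J₂ (cl E) = 1 := by
    refine hface J₂ (pullback.snd f f ≫ f) (pullback.lift_snd_assoc _ _ _ _) (Or.inl ?_)
    simp only [J₂, pW, pullback.lift_fst_assoc, j₂, Category.assoc]
    rw [sliceL_snd hP.flip o, ← Category.assoc, hP.w, Category.assoc]
  have h₀ : pullPc (sliceL hW o) (cl E) = 1 := by
    refine hface _ sP ?_ (Or.inr (Or.inr (sliceL_snd hW o)))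
    rw [← Category.assoc, sliceL_snd, Category.assoc, o.2, Category.comp_id]
  have hformal : IsFormallyTrivial φZ hW E := by
    refine exists_formallyTrivial φZ hW h₀ fun k Φ hk hΦ α hα => ?_
    exact isAddPrinc_of_slices hP o o (isAdd_obst φZ hW hΦ hα)
      (isAddPrinc_pullAdd_obst φZ hW hP j₁ hj₁ J₁ (pullback.lift_fst _ _ _)
        (pullback.lift_snd _ _ _) hJ₁ hk hΦ hα)
      (isAddPrinc_pullAdd_obst φZ hW hP j₂ hj₂ J₂ (pullback.lift_fst _ _ _)
        (pullback.lift_snd _ _ _) hJ₂ hk hΦ hα)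
  obtain ⟨φ, hφ⟩ := exists_generic_section φZ hW hformal
  obtain ⟨φ', hφ'⟩ := exists_generic_section φZ hW hformal.inv
  let x₀ : Pts sP := ⟨pullback.lift o.1 o.1 rfl, by
    show pullback.lift o.1 o.1 rfl ≫ pullback.fst f f ≫ f = _
    rw [pullback.lift_fst_assoc]; exact o.2⟩
  obtain ⟨β, hβ⟩ := exists_base_of_regular hW x₀ (a := (φ : W.functionField) * φ') fun w hw => by
    have := mul_mem (hφ w hw) (hφ' w hw)
    convert this using 1
    rw [Subgroup.coe_inv, Pi.inv_apply, Units.val_inv_eq_inv_val]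
    have := (E.1 w).ne_zero
    field_simp
  have hq := snd_genericPoint hW
  refine cl_eq_one_of_vertical hW x₀ ⟨φ⁻¹, fun w hw => ?_⟩ ?_
  · rw [div_inv_eq_mul, mem_unitsAt_iff, Units.val_mul, mul_comm]
    refine ⟨hφ w hw, ?_⟩
    have h1 := mul_mem (hφ' w hw) (res_mem qW (a := β⁻¹) (y := w)
      (by rw [hw]; exact mem_stalkSub_genericPoint _))
    rw [← resHom_apply qW hq, map_inv₀, resHom_apply, hβ] at h1
    convert h1 using 1
    rw [Subgroup.coe_inv, Pi.inv_apply, Units.val_inv_eq_inv_val, Units.val_inv_eq_inv_val,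
      Units.val_mul]
    have := φ'.ne_zero
    field_simp
  · refine hface _ f ?_ (Or.inl ?_)
    · rw [← Category.assoc, sliceL_fst, Category.id_comp]
    · rw [← Category.assoc, sliceL_snd hW.flip x₀, Category.assoc]
      show f ≫ pullback.lift o.1 o.1 rfl ≫ pullback.fst f f = _
      rw [pullback.lift_fst]

/-- Pullback of a symmetric class by multiplication by `n`. -/
theorem pullPc_schemeNsmul (d : Pc A)
    (hd : pullPc (L.inv f RelativeGroupLaw.idPoint).1 d = d) (n : ℕ) :
    pullPc (L.schemeNsmul n) d = d ^ n ^ 2 := by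
  let one := L.one f
  let e : SchemeHomOver f f := RelativeGroupLaw.idPoint
  have hrec : ∀ m, pullPc (L.schemeNsmul (m + 2)) d * pullPc (L.schemeNsmul m) d =
      pullPc (L.schemeNsmul (m + 1)) d ^ 2 * d ^ 2 := by
    intro m
    have h := cubeVal_eq_one L d f (L.nsmul f (m + 1) e) e (L.inv f e)
    have h1 : L.mul f (L.nsmul f (m + 1) e) (L.inv f e) = L.nsmul f m e := by
      rw [RelativeGroupLaw.nsmul_succ, L.mul_assoc, L.mul_inv_cancel, L.mul_one]
    have h2 : L.mul f (L.mul f (L.nsmul f (m + 1) e) e) (L.inv f e) = L.nsmul f (m + 1) e := by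
      rw [L.mul_assoc, L.mul_inv_cancel, L.mul_one]
    simp only [cubeVal, h1, h2, L.mul_inv_cancel, pullPc_one] at h
    rw [← RelativeGroupLaw.nsmul_succ] at h
    have he : pullPc e.1 d = d := pullPc_id d
    rw [hd, he, inv_one] at h
    exact cancel_quadratic' _ _ _ _ h
  induction n using Nat.strong_induction_on with
  | _ n ih =>
    match n with
    | 0 => rw [zero_pow two_ne_zero, pow_zero]; exact pullPc_one L d f
    | 1 => rw [schemeNsmul_one, pullPc_id, one_pow, pow_one]
    | m + 2 =>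
      have h := hrec m
      rw [ih m (by omega), ih (m + 1) (by omega), ← pow_mul, ← pow_add] at h
      exact cancel_step (G := Pc A) h (by ring)

end FLTAgent.AV
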