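/-
Area AV (towards S26): the number of `n`-torsion points is multiplicative in `n`, and the
consequences of the hypotheses of the statement.
-/
import Fermat.Agent.AV.Degree

set_option autoImplicit false

noncomputable section

universe u

open CategoryTheory CategoryTheory.Limits AlgebraicGeometry NeronModelInfra GoodReductionJacobian

namespace FLTAgent.AV

variable {K : Type u} [Field K] [IsAlgClosed K] {A : Scheme.{u}}
  {f : A ⟶ Spec (CommRingCat.of K)}

/-- The number of `n`-torsion points. -/
def torsionCard (L : RelativeGroupLaw K f) (n : ℕ) : ℕ :=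
  Nat.card {x : Pts f // L.IsTorsionPoint (𝟙 _) n x}

omit [IsAlgClosed K] in
lemma torsionCard_one (L : RelativeGroupLaw K f) : torsionCard L 1 = 1 := by
  refine Nat.card_eq_one_iff_unique.mpr ⟨⟨fun x y => Subtype.ext ?_⟩,
    ⟨⟨L.one _, L.isTorsionPoint_unit _ 1⟩⟩⟩
  rw [(L.isTorsionPoint_one_iff _ _).mp x.2, (L.isTorsionPoint_one_iff _ _).mp y.2]

variable [IsProper f] [IsIntegral A] (L : RelativeGroupLaw K f) (hc : L.IsCommutative)

include hc

/-- The number of torsion points is multiplicative. -/
theorem torsionCard_mul (m n : ℕ) (hm : (m : K) ≠ 0) (hn : (n : K) ≠ 0) :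
    torsionCard L (n * m) = torsionCard L n * torsionCard L m := by
  let := commGrp L hc (𝟙 (Spec (CommRingCat.of K)))
  have hpow : ∀ k (x : Pts f), L.nsmul (𝟙 _) k x = x ^ k := fun k x => nsmul_eq_pow L _ k x
  have hcard : ∀ k, torsionCard L k = Nat.card (powMonoidHom k : Pts f →* Pts f).ker := fun k =>
    Nat.card_congr (Equiv.subtypeEquivRight fun x => by
      rw [RelativeGroupLaw.isTorsionPoint_def, hpow]; rfl)
  have := finite_torsion L hc n hn
  have hsurj : Function.Surjective (powMonoidHom n : Pts f →* Pts f) := fun y => by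
    obtain ⟨x, hx⟩ := nsmul_pts_surjective L hc n hn y
    exact ⟨x, (hpow n x).symm.trans hx⟩
  rw [hcard, hcard, hcard]
  let π : (powMonoidHom (n * m) : Pts f →* Pts f).ker →*
      (powMonoidHom m : Pts f →* Pts f).ker :=
    { toFun := fun x => ⟨x.1 ^ n, by
        show (x.1 ^ n) ^ m = 1
        rw [← pow_mul]; exact x.2⟩
      map_one' := Subtype.ext (one_pow n)
      map_mul' := fun x y => Subtype.ext (mul_pow x.1 y.1 n) }
  have hπ : Function.Surjective π := fun y => by
    obtain ⟨x, hx⟩ := hsurj y.1
    refine ⟨⟨x, ?_⟩, Subtype.ext hx⟩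
    show x ^ (n * m) = 1
    rw [pow_mul, show x ^ n = y.1 from hx]
    exact y.2
  rw [← Subgroup.card_mul_index π.ker, Subgroup.index_ker, MonoidHom.range_eq_top.mpr hπ,
    Subgroup.card_top]
  congr 1
  refine Nat.card_congr
    { toFun := fun x => ⟨x.1.1, congrArg Subtype.val x.2⟩
      invFun := fun x => ⟨⟨x.1, by
        show x.1 ^ (n * m) = 1
        rw [pow_mul, show x.1 ^ n = 1 from x.2, one_pow]⟩, Subtype.ext x.2⟩
      left_inv := fun x => rfl
      right_inv := fun x => rfl }

theorem torsionCard_pow (n k : ℕ) (hn : (n : K) ≠ 0) :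
    torsionCard L (n ^ k) = torsionCard L n ^ k := by
  induction k with
  | zero => rw [pow_zero, pow_zero, torsionCard_one]
  | succ k ih =>
    rw [pow_succ, torsionCard_mul L hc n (n ^ k) hn (by push_cast; exact pow_ne_zero _ hn), ih,
      pow_succ]

theorem torsionCard_pos (n : ℕ) (hn : (n : K) ≠ 0) : 0 < torsionCard L n := by
  have := finite_torsion L hc n hn
  have : Nonempty {x : Pts f // L.IsTorsionPoint (𝟙 _) n x} :=
    ⟨⟨L.one _, L.isTorsionPoint_unit _ n⟩⟩
  exact Nat.card_pos

omit hc [IsProper f] [IsIntegral A] in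
/-- The hypotheses of the statement make `A` integral and proper. -/
theorem isProper_and_isIntegral_of_bundle (hA : AbelianSchemePropertyBundle K f) :
    IsProper f ∧ IsIntegral A := by
  obtain ⟨L'⟩ := hA.hasGroupLaw
  have := hA.proper
  have := hA.smooth
  have := connectedSpace_of_bundle hA
  exact ⟨hA.proper, isIntegral L'⟩

end FLTAgent.AV
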