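/-
Area AV (towards S26): the number of torsion points, by comparing the growth of spaces of
sections.
-/
import Fermat.Agent.AV.Torsion
import Fermat.Agent.AV.Cube

set_option autoImplicit false

noncomputable section

universe u

open CategoryTheory CategoryTheory.Limits AlgebraicGeometry TopologicalSpace NeronModelInfra GoodReductionJacobian

namespace FLTAgent.AV

section Generic

variable {K : Type u} [Field K] [IsAlgClosed K] {T W : Scheme.{u}} [IsIntegral T] [IsIntegral W]
  {sT : T ⟶ Spec (CommRingCat.of K)} {sW : W ⟶ Spec (CommRingCat.of K)}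
  [Smooth sT] [Smooth sW] [UniversallyClosed sT] [CompactSpace T] [CompactSpace W]
  (h : T ⟶ W) (hh : h (genericPoint T) = genericPoint W) (hK : h ≫ sW = sT) [IsFinite h]

include hK in
/-- Both comparisons of spaces of sections under pullback, in terms of the degree over the image. -/
theorem exists_pull_bounds (F : Subfield T.functionField) (hF : (resHom h hh).fieldRange = F)
    (hfd : FiniteDimensional F T.functionField) (hsep : Algebra.IsSeparable F T.functionField) :
    (∃ f₀ : Cart T, ∀ f : Cart W, f.1 (genericPoint W) = 1 →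
      ∀ (κ : Type) [Fintype κ] (a : κ → W.functionField), (∀ k, a k ∈ lSpace sW f) →
        (∀ c : κ → K, ∑ k, kHom sW (c k) * a k = 0 → c = 0) →
        Module.finrank F T.functionField * Fintype.card κ ≤ lDim sT (pullCart h f * f₀)) ∧
    ∃ f₁ : Cart W, ∀ f : Cart W, f.1 (genericPoint W) = 1 →
      (letI := fieldAlg sW; FiniteDimensional K (lSpace sW (f * f₁))) →
      lDim sT (pullCart h f) ≤ Module.finrank F T.functionField * lDim sW (f * f₁) := by
  classical
  subst hF
  let e := (resHom h hh).rangeRestrictFieldEquiv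
  constructor
  · let b := Module.finBasis (resHom h hh).fieldRange T.functionField
    obtain ⟨f₀, -, hf₀⟩ := exists_denominator sT (Finset.univ.image b) id
    refine ⟨f₀, fun f hf κ _ a ha hai => ?_⟩
    have hb : ∀ i x, b i * (f₀.1 x : T.functionField) ∈ stalkSub x := fun i x => by
      rw [mul_comm]; exact (hf₀ x).2.2.1 _ (Finset.mem_image_of_mem _ (Finset.mem_univ i))
    have hbi : ∀ c : Fin (Module.finrank (resHom h hh).fieldRange T.functionField) →
        W.functionField, ∑ i, res h (c i) * b i = 0 → c = 0 := fun c hc => by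
      have h1 := Fintype.linearIndependent_iff.mp b.linearIndependent
        (fun i => ⟨res h (c i), c i, rfl⟩) hc
      funext i
      exact (resHom h hh).injective ((congrArg Subtype.val (h1 i)).trans (map_zero _).symm)
    have := card_mul_le_lDim_pull sT sW h hh hK hf f₀ b hb hbi a ha hai
      (finiteDimensional_lSpace sT _)
    rwa [Fintype.card_fin] at this
  · let := (resHom h hh).toAlgebra
    have he : (algebraMap (resHom h hh).fieldRange T.functionField).comp e.toRingHom =
        (RingEquiv.refl T.functionField).toRingHom.comp (algebraMap W.functionField T.functionField) :=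
      RingHom.ext fun x => rfl
    have he' : (algebraMap W.functionField T.functionField).comp e.symm.toRingHom =
        (RingEquiv.refl T.functionField).toRingHom.comp
          (algebraMap (resHom h hh).fieldRange T.functionField) :=
      RingHom.ext fun x => congrArg Subtype.val (e.apply_symm_apply x)
    have hsep' : Algebra.IsSeparable W.functionField T.functionField :=
      Algebra.IsSeparable.of_equiv_equiv e.symm (RingEquiv.refl _) he'
    have hfd' : FiniteDimensional W.functionField T.functionField :=
      Module.Finite.of_equiv_equiv e.symm (RingEquiv.refl _) he'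
    have hrank : Module.finrank (resHom h hh).fieldRange T.functionField =
        Module.finrank W.functionField T.functionField :=
      (Algebra.finrank_eq_of_equiv_equiv e (RingEquiv.refl _) he).symm
    obtain ⟨f₁, -, hf₁⟩ := exists_lDim_pull_le sT sW h hh hK hfd' hsep'
    refine ⟨f₁, fun f hf hfin => ?_⟩
    rw [hrank]
    exact hf₁ f hf hfin

end Generic

lemma ffMap_eq_resHom {T W : Scheme.{u}} [IsIntegral T] [IsIntegral W] (h : T ⟶ W)
    (hh : h (genericPoint T) = genericPoint W) : (ffMap h hh).hom = resHom h hh := by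
  refine RingHom.ext fun a => ?_
  have h2 := (ev_eq (T.fromSpecStalk (genericPoint T) ≫ h) (ffMap h hh)
    (specMap_ffMap h hh).symm).2 a
  rw [sAlg_genericPoint] at h2
  exact h2.symm

lemma le_of_forall_pow_le {a b C : ℕ} (h : ∀ k, a ^ k ≤ C * b ^ k) : a ≤ b := by
  by_contra hlt
  rw [not_le] at hlt
  rcases Nat.eq_zero_or_pos b with rfl | hb
  · have := h 1
    simp at this
    omega
  have hk : ∀ k, b ^ k + k * b ^ k / b ≤ (b + 1) ^ k := fun k => by
    induction k with
    | zero => simp
    | succ k ih =>
      have h1 : b ^ k ≤ (b + 1) ^ k := Nat.pow_le_pow_left (Nat.le_succ b) k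
      have h2 : k * b ^ k / b * b ≤ k * b ^ k := Nat.div_mul_le_self _ _
      rw [pow_succ, pow_succ, ← mul_assoc (k + 1), Nat.mul_div_cancel _ hb]
      rcases k with _ | k
      · simp
      have h3 : (k + 1) * b ^ (k + 1) / b = (k + 1) * b ^ k := by
        rw [pow_succ, ← mul_assoc, Nat.mul_div_cancel _ hb]
      rw [h3] at ih
      have h4 : (b ^ (k + 1) + (k + 1) * b ^ k) * (b + 1) ≤ (b + 1) ^ (k + 1) * (b + 1) :=
        Nat.mul_le_mul_right _ ih
      refine le_trans ?_ h4
      ring_nf
      omega
  have h1 := (hk (C * b)).trans ((Nat.pow_le_pow_left hlt (C * b)).trans (h (C * b)))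
  have h2 : C * b * b ^ (C * b) / b = C * b ^ (C * b) := by
    rw [mul_comm C b, mul_assoc, Nat.mul_div_cancel_left _ hb]
  rw [h2] at h1
  have := pow_pos hb (C * b)
  omega

variable {K : Type u} [Field K] [IsAlgClosed K] {A : Scheme.{u}}
  {f : A ⟶ Spec (CommRingCat.of K)} [IsProper f] [Smooth f] [IsIntegral A]
  (L : RelativeGroupLaw K f) (hc : L.IsCommutative) (g : ℕ) [SmoothOfRelativeDimension g f]

omit [IsAlgClosed K] [IsProper f] [Smooth f] [IsIntegral A] in
lemma inv_comp_inv : (L.inv f RelativeGroupLaw.idPoint).1 ≫ (L.inv f RelativeGroupLaw.idPoint).1 =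
    𝟙 A := by
  let e : SchemeHomOver f f := RelativeGroupLaw.idPoint
  let ν := L.inv f e
  have h := congrArg Subtype.val (comp_inv L f f ν.1 ν.2 e)
  have h1 : schemeHomOverComp ν.1 ν.2 e = ν := Subtype.ext (Category.comp_id _)
  rw [h1] at h
  refine (show ν.1 ≫ ν.1 = _ from h).trans ?_
  let := L.pointGroup f
  exact congrArg Subtype.val (inv_inv e)

include hc in
/-- The number of `n`-torsion points is `n^(2g)`. -/
theorem torsionCard_eq (n : ℕ) (hn : (n : K) ≠ 0) : torsionCard L n = n ^ (2 * g) := by
  classical
  have : CompactSpace A := QuasiCompact.compactSpace_of_compactSpace f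
  obtain ⟨j, hj⟩ := exists_coords_dim f g
  let x : Fin g → A.functionField := fun i =>
    j (algebraMap (MvPolynomial (Fin g) K) (Rn K g) (MvPolynomial.X i))
  obtain ⟨D, hDη, hD⟩ := exists_denominator f Finset.univ x
  let ν := (L.inv f RelativeGroupLaw.idPoint).1
  have hνη : ν (genericPoint A) = genericPoint A := by
    refine eq_genericPoint_of_surjective fun y => ⟨ν y, ?_⟩
    rw [← Scheme.Hom.comp_apply, inv_comp_inv]
    rfl
  let D' := D * pullCart ν D
  have hνD : ∀ y, ((pullCart ν D).1 y : A.functionField) ∈ stalkSub y := fun y => by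
    rw [coe_pullCart ν hνη hDη]; exact res_mem ν (hD _).2.1
  have hD'η : D'.1 (genericPoint A) = 1 := by
    rw [Subgroup.coe_mul, Pi.mul_apply, hDη, pullCart_apply, div_self', resU_one, one_mul]
  have hD' : ∀ y, (D'.1 y : A.functionField) ∈ stalkSub y := fun y => by
    rw [Subgroup.coe_mul, Pi.mul_apply, Units.val_mul]
    exact mul_mem (hD y).2.1 (hνD y)
  have hxD' : ∀ i y, x i * (D'.1 y : A.functionField) ∈ stalkSub y := fun i y => by
    rw [Subgroup.coe_mul, Pi.mul_apply, Units.val_mul, ← mul_assoc, mul_comm (x i)]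
    exact mul_mem ((hD y).2.2.1 i (Finset.mem_univ i)) (hνD y)
  have hsym : pullPc (L.inv f RelativeGroupLaw.idPoint).1 (cl D') = cl D' := by
    show pullPc ν (cl (D * pullCart ν D)) = _
    rw [show cl (D * pullCart ν D) = cl D * cl (pullCart ν D) from rfl, map_mul, ← pullPc_cl,
      pullPc_comp, inv_comp_inv, pullPc_id]
    exact mul_comm (cl (pullCart ν D) : Pc A) (cl D)
  -- monomials
  let a : ∀ k : ℕ, (Fin g → Fin (k + 1)) → A.functionField := fun k α =>
    ∏ i, x i ^ (α i : ℕ)
  have ha : ∀ k α, a k α ∈ lSpace f (D' ^ (g * k)) := fun k α y => by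
    rw [cart_pow_apply, Units.val_pow_eq_pow_val,
      show (D'.1 y : A.functionField) ^ (g * k) =
        ∏ _i : Fin g, (D'.1 y : A.functionField) ^ k by
        rw [Finset.prod_const, Finset.card_univ, Fintype.card_fin, ← pow_mul, mul_comm],
      ← Finset.prod_mul_distrib]
    refine Subring.prod_mem _ fun i _ => ?_
    obtain ⟨l, hl⟩ := Nat.exists_eq_add_of_le (Nat.lt_succ_iff.mp (α i).isLt)
    conv in (_ ^ k) => rw [hl]
    rw [pow_add, ← mul_assoc, ← mul_pow]
    exact mul_mem (pow_mem (hxD' i y) _) (pow_mem (hD' y) _)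
  have hai : ∀ k (c : (Fin g → Fin (k + 1)) → K), ∑ α, kHom f (c α) * a k α = 0 → c = 0 := by
    intro k c hc'
    let μ : (Fin g → Fin (k + 1)) → (Fin g →₀ ℕ) := fun α =>
      Finsupp.equivFunOnFinite.symm fun i => (α i : ℕ)
    have hμ : Function.Injective μ := fun α β h => funext fun i =>
      Fin.ext (DFunLike.congr_fun h i)
    let p : MvPolynomial (Fin g) K := ∑ α, MvPolynomial.monomial (μ α) (c α)
    have hp : j (algebraMap _ (Rn K g) p) = 0 := by
      rw [← hc']
      simp only [p, map_sum]
      refine Finset.sum_congr rfl fun α _ => ?_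
      rw [MvPolynomial.monomial_eq, map_mul, map_mul, hj.1, Finsupp.prod_fintype _ _ (fun i => pow_zero _),
        map_prod, map_prod]
      congr 1
      exact Finset.prod_congr rfl fun i _ => by rw [map_pow, map_pow]; rfl
    have hp0 : p = 0 := IsFractionRing.injective (MvPolynomial (Fin g) K) (Rn K g)
      ((j.injective (hp.trans (map_zero j).symm)).trans (map_zero _).symm)
    funext α
    have := congrArg (MvPolynomial.coeff (μ α)) hp0
    simp only [p, MvPolynomial.coeff_sum, MvPolynomial.coeff_monomial, MvPolynomial.coeff_zero,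
      hμ.eq_iff, Finset.sum_ite_eq', Finset.mem_univ, if_true] at this
    exact this
  obtain ⟨c, e, hgrow⟩ := exists_growth f hj D'
  let C := e * (c * g + 1) ^ g
  have key : ∀ N : ℕ, (N : K) ≠ 0 →
      torsionCard L N ≤ C * N ^ (2 * g) ∧ N ^ (2 * g) ≤ C * torsionCard L N := by
    intro N hN
    have hN1 : 1 ≤ N := Nat.one_le_iff_ne_zero.mpr fun h => hN (by rw [h, Nat.cast_zero])
    have := isFinite_schemeNsmul L hc N hN
    have hh := schemeNsmul_genericPoint L hc N hN
    obtain ⟨hfd, -⟩ := finrank_functionField_le L hc N hN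
    have hgal := isGalois_functionField L hc N hN
    have hF : (resHom (L.schemeNsmul N) hh).fieldRange = ffNsmulRange L hc N hN := by
      rw [← ffMap_eq_resHom (L.schemeNsmul N) hh]
      rfl
    obtain ⟨⟨f₀, hlow⟩, f₁, hup⟩ := exists_pull_bounds (sT := f) (sW := f) (L.schemeNsmul N) hh
      (L.schemeNsmul_over N) _ hF hfd hgal.to_isSeparable
    have hrank : Module.finrank (ffNsmulRange L hc N hN) A.functionField = torsionCard L N :=
      finrank_functionField L hc N hN
    rw [hrank] at hup
    -- the class of the pullback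
    have hcl : ∀ (m : ℕ) (u : Cart A),
        lDim f (pullCart (L.schemeNsmul N) (D' ^ m) * u) = lDim f (D' ^ (N ^ 2 * m) * u) := by
      intro m u
      have h1 : cl (pullCart (L.schemeNsmul N) (D' ^ m) * u) = cl (D' ^ (N ^ 2 * m) * u) := by
        rw [map_pow]
        show cl (pullCart (L.schemeNsmul N) D') ^ m * cl u = cl D' ^ (N ^ 2 * m) * cl u
        rw [← pullPc_cl, pullPc_schemeNsmul L _ hsym N, ← pow_mul]
      let := fieldAlg f
      obtain ⟨eqv⟩ := exists_lSpace_equiv f h1
      exact eqv.finrank_eq
    have hη : ∀ m, (D' ^ m).1 (genericPoint A) = 1 := fun m => by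
      rw [cart_pow_apply, hD'η, one_pow]
    constructor
    · obtain ⟨c', hc'⟩ := hgrow f₀
      have h1 := hlow (D' ^ (g * c')) (hη _) (Fin g → Fin (c' + 1)) (a c') (ha c') (hai c')
      rw [hrank, hcl, Fintype.card_fun, Fintype.card_fin, Fintype.card_fin] at h1
      have h2 := h1.trans (hc' _).2
      have h3 : c * (N ^ 2 * (g * c')) + c' + 1 ≤ (c * g + 1) * N ^ 2 * (c' + 1) := by
        have : 1 ≤ N ^ 2 := Nat.one_le_pow _ _ hN1
        nlinarith [Nat.zero_le (c * g * N ^ 2)]
      have h4 : torsionCard L N * (c' + 1) ^ g ≤ C * N ^ (2 * g) * (c' + 1) ^ g := by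
        refine h2.trans ((Nat.mul_le_mul_left e (Nat.pow_le_pow_left h3 g)).trans_eq ?_)
        rw [mul_pow, mul_pow, ← pow_mul]
        ring
      exact Nat.le_of_mul_le_mul_right h4 (pow_pos (Nat.succ_pos _) _)
    · obtain ⟨c', hc'⟩ := hgrow f₁
      let k := N ^ 2 * (c' + 1)
      have h0 : Fintype.card (Fin g → Fin (k + 1)) ≤ lDim f (D' ^ (g * k)) := by
        let := fieldAlg f
        have := finiteDimensional_lSpace f (D' ^ (g * k))
        have hli : LinearIndependent K fun α => (⟨a k α, ha k α⟩ : lSpace f (D' ^ (g * k))) :=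
          Fintype.linearIndependent_iff.mpr fun cs hcs => congrFun (hai k cs (by
            have := congrArg Subtype.val hcs
            simp only [Submodule.coe_sum, Submodule.coe_smul, ZeroMemClass.coe_zero,
              Algebra.smul_def] at this
            exact this))
        exact hli.fintype_card_le_finrank
      have h1 := hup (D' ^ (g * (c' + 1))) (hη _) (finiteDimensional_lSpace f _)
      have e1 := hcl (g * (c' + 1)) 1
      rw [mul_one, mul_one] at e1
      rw [e1, show N ^ 2 * (g * (c' + 1)) = g * k by simp only [k]; ring] at h1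
      rw [Fintype.card_fun, Fintype.card_fin, Fintype.card_fin] at h0
      have h2 := (h0.trans h1).trans (Nat.mul_le_mul_left _ (hc' _).2)
      have h3 : c * (g * (c' + 1)) + c' + 1 = (c * g + 1) * (c' + 1) := by ring
      rw [h3, mul_pow] at h2
      have h4 : (N ^ 2) ^ g * (c' + 1) ^ g ≤ C * torsionCard L N * (c' + 1) ^ g := by
        rw [← mul_pow]
        refine (Nat.pow_le_pow_left (Nat.le_succ k) g).trans (h2.trans_eq ?_)
        ring
      rw [pow_mul]
      exact Nat.le_of_mul_le_mul_right h4 (pow_pos (Nat.succ_pos _) _)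
  refine le_antisymm ?_ ?_
  · refine le_of_forall_pow_le (C := C) fun k => ?_
    rw [← torsionCard_pow L hc n k hn, ← pow_mul, mul_comm (2 * g), pow_mul]
    exact (key (n ^ k) (by push_cast; exact pow_ne_zero _ hn)).1
  · refine le_of_forall_pow_le (C := C) fun k => ?_
    rw [← torsionCard_pow L hc n k hn, ← pow_mul, mul_comm (2 * g), pow_mul]
    exact (key (n ^ k) (by push_cast; exact pow_ne_zero _ hn)).2

end FLTAgent.AV
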